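import Fermat.Agent.S56.SelGWIface

/-!
# S56, row SEL-GW-4 (helper1): `h1w_dim : H38Dim`

`#k = p ^ d`, `d > 0`, `dim_{𝔽_p} M = 3 d`, and `dim_{𝔽_p} = d · dim_k` for `k`-subspaces of
`sl`-valued cochains.  Everything is proved by counting: over a finite field a module is finite
dimensional iff it is finite, and then its cardinality is `#field ^ dim`.
-/

set_option autoImplicit false

open Polynomial IsLocalRing ExtCitation

noncomputable section

namespace Fermat.Agent.S56

open Fermat.Agent.PT Fermat.Agent.S56L Fermat.Agent.S56G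

/-- `#k = p ^ d` and `d > 0`. -/
theorem h1w_card (p : ℕ) [Fact p.Prime] (k : Type) [Field k] [Finite k] [CharP k p] :
    Nat.card k = p ^ h38g_d p k ∧ 0 < h38g_d p k := by
  have : Fintype k := Fintype.ofFinite k
  obtain ⟨n, _, hn⟩ := FiniteField.card k p
  have hp : 1 < p := (Fact.out : p.Prime).one_lt
  have h1 : Nat.card k = p ^ (n : ℕ) := by rw [Nat.card_eq_fintype_card, hn]
  have h2 : h38g_d p k = n := by
    unfold h38g_d
    rw [h1, Nat.log_pow hp]
  rw [h2]
  exact ⟨h1, n.pos⟩

/-- the trace zero endomorphisms of a plane form a space of dimension `3`. -/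
theorem h1w_finrank_sl {k : Type} [Field k] (ρbar : ResidualGaloisRep k) :
    Module.finrank k ↥(h14l_sl ρbar) = 3 := by
  have hV : Module.finrank k ρbar.V = 2 := ρbar.finrank_eq
  have hne : LinearMap.trace k ρbar.V ≠ 0 := by
    have : Nontrivial ρbar.V := Module.nontrivial_of_finrank_pos (R := k) (by rw [hV]; norm_num)
    obtain ⟨v, hv⟩ := exists_ne (0 : ρbar.V)
    have h1 : ¬ ∀ φ : Module.Dual k ρbar.V, φ v = 0 := fun h =>
      hv ((Module.forall_dual_apply_eq_zero_iff k v).mp h)
    rw [not_forall] at h1
    obtain ⟨φ, hφ⟩ := h1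
    intro h0
    apply hφ
    rw [← LinearMap.trace_smulRight φ v, h0, LinearMap.zero_apply]
  have hsurj : Function.Surjective (LinearMap.trace k ρbar.V) :=
    LinearMap.surjective_of_ne_zero hne
  have hr : Module.finrank k ↥(LinearMap.range (LinearMap.trace k ρbar.V)) = 1 := by
    rw [LinearMap.range_eq_top.mpr hsurj, finrank_top, Module.finrank_self]
  have h2 := LinearMap.finrank_range_add_finrank_ker (LinearMap.trace k ρbar.V)
  have h3 : Module.finrank k (Module.End k ρbar.V) = 4 := by
    rw [Module.finrank_linearMap, hV]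
  rw [hr, h3] at h2
  change Module.finrank k ↥(LinearMap.ker (LinearMap.trace k ρbar.V)) = 3
  omega

/-- counting: the dimension over `𝔽_p` of a finite module over `k` is `d` times the dimension
over `k`, for two module structures on equinumerous types. -/
theorem h1w_finrank_of_equiv (p : ℕ) [Fact p.Prime] (k : Type) [Field k] [Finite k] [CharP k p]
    {A B : Type} [AddCommGroup A] [Module k A] [AddCommGroup B] [Module (ZMod p) B]
    (e : B ≃ A) :
    (Module.Finite k A ↔ Module.Finite (ZMod p) B) ∧
      (Module.Finite k A → Module.finrank (ZMod p) B = h38g_d p k * Module.finrank k A) := by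
  have hp : 1 < p := (Fact.out : p.Prime).one_lt
  have hiff : Module.Finite k A ↔ Module.Finite (ZMod p) B := by
    constructor
    · intro h
      have : Finite A := Module.finite_of_finite k
      have : Finite B := Finite.of_equiv A e.symm
      exact Module.Finite.of_finite
    · intro h
      have : Finite B := Module.finite_of_finite (ZMod p)
      have : Finite A := Finite.of_equiv B e
      exact Module.Finite.of_finite
  refine ⟨hiff, fun h => ?_⟩
  have hB : Module.Finite (ZMod p) B := hiff.mp h
  have h1 : Nat.card A = Nat.card k ^ Module.finrank k A := Module.natCard_eq_pow_finrank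
  have h2 : Nat.card B = Nat.card (ZMod p) ^ Module.finrank (ZMod p) B :=
    Module.natCard_eq_pow_finrank
  rw [Nat.card_zmod] at h2
  rw [(h1w_card p k).1, ← pow_mul] at h1
  rw [Nat.card_congr e, h1] at h2
  exact (Nat.pow_right_injective hp h2).symm

/-- **SEL-GW-4** (exact frozen Prop). -/
theorem h1w_dim : H38Dim := by
  intro p _ k _ _ _ ρbar
  have hc := h1w_card p k
  have hM := h1w_finrank_of_equiv p k (A := ↥(h14l_sl ρbar)) (B := h38g_M p ρbar)
    (Equiv.refl _)
  have hfin : Module.Finite k ↥(h14l_sl ρbar) := inferInstance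
  refine ⟨hc.1, hc.2, hM.1.mp hfin, ?_, fun X W => ?_⟩
  · rw [hM.2 hfin, h1w_finrank_sl, mul_comm]
  · exact h1w_finrank_of_equiv p k (A := ↥W) (B := ↥(h38g_rs p ρbar W))
      { toFun := fun f => ⟨fun x => h38g_to p ρbar (f.1 x), f.2⟩
        invFun := fun g => ⟨fun x => h38g_of p ρbar (g.1 x), g.2⟩
        left_inv := fun _ => rfl
        right_inv := fun _ => rfl }

end Fermat.Agent.S56
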