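import Fermat.Agent.S56.H1GwDim
import Fermat.Agent.S56G.H96CNeg

/-!
# S56, row SEL-GW-3 (helper1): `h1w_h0Of : H38H0Of`

`H56SlIrr → H38H0`: `ad⁰ ρbar` has no invariants, and the fixed space of complex conjugation on
`ad⁰ ρbar` has `𝔽_p`-dimension `[k : 𝔽_p]`.

* invariants: an invariant `X ≠ 0` spans a stable line, which is `⊥` or `⊤` by irreducibility;
  but `dim sl = 3`;
* complex conjugation: `A = ρbar(c)` has `A² = 1`, `det A = -1`, so `tr A = 0`, and the trace
  zero endomorphisms commuting with `A` are the multiples of `A` (`2 × 2` matrices, `p` odd);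
  so the fixed space is in bijection with `k`.
-/

set_option autoImplicit false

open Polynomial IsLocalRing ExtCitation

noncomputable section

namespace Fermat.Agent.S56

open Fermat.Agent.PT Fermat.Agent.S56L Fermat.Agent.S56G

/-- an involution of determinant `-1` of a plane has trace zero. -/
theorem h1w_mat_trace {k : Type} [Field k] (A : Matrix (Fin 2) (Fin 2) k)
    (hA : A * A = 1) (hdet : A.det = -1) : A.trace = 0 := by
  have h00 := congrFun (congrFun hA 0) 0
  have h11 := congrFun (congrFun hA 1) 1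
  simp only [Matrix.mul_apply, Fin.sum_univ_two, Matrix.one_apply_eq] at h00 h11
  rw [Matrix.det_fin_two] at hdet
  rw [Matrix.trace_fin_two]
  have h : (A 0 0 + A 1 1) ^ 2 = 0 := by linear_combination h00 + h11 + 2 * hdet
  exact pow_eq_zero_iff (two_ne_zero) |>.mp h

/-- the trace zero matrices commuting with a trace zero involution `A` are the multiples of
`A`. -/
theorem h1w_mat_comm {k : Type} [Field k] (h2 : (2 : k) ≠ 0) (A X : Matrix (Fin 2) (Fin 2) k)
    (hA : A * A = 1) (htr : A.trace = 0) (hX : X.trace = 0) (hc : A * X = X * A) :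
    X = (A 0 0 * X 0 0 + A 0 1 * X 1 0) • A := by
  have h00 := congrFun (congrFun hA 0) 0
  simp only [Matrix.mul_apply, Fin.sum_univ_two, Matrix.one_apply_eq] at h00
  have c00 := congrFun (congrFun hc 0) 0
  have c01 := congrFun (congrFun hc 0) 1
  have c10 := congrFun (congrFun hc 1) 0
  simp only [Matrix.mul_apply, Fin.sum_univ_two] at c00 c01 c10
  rw [Matrix.trace_fin_two] at htr hX
  have hd : A 1 1 = - A 0 0 := by linear_combination htr
  have hw : X 1 1 = - X 0 0 := by linear_combination hX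
  rw [hd, hw] at c01 c10
  have e1 : A 0 0 * X 0 1 = A 0 1 * X 0 0 := by
    apply mul_left_cancel₀ h2
    linear_combination c01
  have e2 : A 1 0 * X 0 0 = A 0 0 * X 1 0 := by
    apply mul_left_cancel₀ h2
    linear_combination c10
  ext i j
  fin_cases i <;> fin_cases j
  · simp only [Fin.zero_eta, Matrix.smul_apply, smul_eq_mul]
    linear_combination (-(X 0 0)) * h00 + A 0 1 * e2
  · simp only [Fin.zero_eta, Fin.mk_one, Matrix.smul_apply, smul_eq_mul]
    linear_combination (-(X 0 1)) * h00 + A 0 0 * e1 - A 0 1 * c00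
  · simp only [Fin.zero_eta, Fin.mk_one, Matrix.smul_apply, smul_eq_mul]
    linear_combination (-(X 1 0)) * h00 - A 0 0 * e2
  · simp only [Fin.mk_one, Matrix.smul_apply, smul_eq_mul]
    rw [hd, hw]
    linear_combination (X 0 0) * h00 - A 0 1 * e2

/-- the endomorphism version: an involution `A` of determinant `-1` of a plane has trace zero,
and the trace zero endomorphisms commuting with `A` are the multiples of `A`. -/
theorem h1w_end_conj {k : Type} [Field k] (h2 : (2 : k) ≠ 0) {V : Type} [AddCommGroup V]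
    [Module k V] (hV : Module.finrank k V = 2) (A : Module.End k V) (hA : A * A = 1)
    (hdet : LinearMap.det A = -1) :
    LinearMap.trace k V A = 0 ∧
      ∀ X : Module.End k V, LinearMap.trace k V X = 0 → A * X = X * A →
        ∃ t : k, X = t • A := by
  have hfin : Module.Finite k V := Module.finite_of_finrank_eq_succ hV
  let b : Module.Basis (Fin 2) k V := Module.finBasisOfFinrankEq k V hV
  have hAm : LinearMap.toMatrix b b A * LinearMap.toMatrix b b A = 1 := by
    rw [← LinearMap.toMatrix_mul, hA, LinearMap.toMatrix_one]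
  have hdm : (LinearMap.toMatrix b b A).det = -1 := by
    rw [LinearMap.det_toMatrix, hdet]
  have htr : (LinearMap.toMatrix b b A).trace = 0 := h1w_mat_trace _ hAm hdm
  refine ⟨by rw [LinearMap.trace_eq_matrix_trace k b, htr], fun X hX hc => ?_⟩
  have hXm : (LinearMap.toMatrix b b X).trace = 0 := by
    rw [← LinearMap.trace_eq_matrix_trace k b, hX]
  have hcm : LinearMap.toMatrix b b A * LinearMap.toMatrix b b X =
      LinearMap.toMatrix b b X * LinearMap.toMatrix b b A := by
    rw [← LinearMap.toMatrix_mul, ← LinearMap.toMatrix_mul, hc]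
  have h := h1w_mat_comm h2 _ _ hAm htr hXm hcm
  refine ⟨LinearMap.toMatrix b b A 0 0 * LinearMap.toMatrix b b X 0 0 +
    LinearMap.toMatrix b b A 0 1 * LinearMap.toMatrix b b X 1 0,
    (LinearMap.toMatrix b b).injective ?_⟩
  rw [map_smul]
  exact h

/-- `ad⁰ ρbar` has no invariants when it is irreducible. -/
theorem h1w_noInv {k : Type} [Field k] (ρbar : ResidualGaloisRep k)
    (hIrr : ∀ W : Submodule k ↥(h14l_sl ρbar),
      (∀ σ : GQ, ∀ X ∈ W, h14l_Ad0 ρbar σ X ∈ W) → W = ⊥ ∨ W = ⊤)
    (X : ↥(h14l_sl ρbar)) (hinv : ∀ σ : GQ, h14l_Ad0 ρbar σ X = X) : X = 0 := by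
  by_contra hne
  have hstab : ∀ σ : GQ, ∀ Y ∈ Submodule.span k {X},
      h14l_Ad0 ρbar σ Y ∈ Submodule.span k {X} := by
    intro σ Y hY
    obtain ⟨a, rfl⟩ := Submodule.mem_span_singleton.mp hY
    rw [map_smul, hinv σ]
    exact Submodule.smul_mem _ a (Submodule.mem_span_singleton_self X)
  rcases hIrr _ hstab with h | h
  · exact hne (Submodule.span_singleton_eq_bot.mp h)
  · have h3 := h1w_finrank_sl ρbar
    have h1 : Module.finrank k ↥(Submodule.span k {X}) = 1 := finrank_span_singleton hne
    rw [h, finrank_top, h3] at h1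
    omega

/-- the fixed space of complex conjugation on `ad⁰ ρbar` is in bijection with `k`. -/
theorem h1w_cFix_equiv (p : ℕ) [Fact p.Prime] (hp2 : p ≠ 2) {k : Type} [Field k] [CharP k p]
    (ρbar : ResidualGaloisRep k)
    (hdet : LinearMap.det (ρbar.ρ complexConjugation) = h56c_cyc k p complexConjugation) :
    Nonempty (↥(h47g_cFix (h38g_rho p ρbar)) ≃ k) := by
  have hp : p.Prime := Fact.out
  have h2 : (2 : k) ≠ 0 := by
    intro h
    have h' : ((2 : ℕ) : k) = 0 := by exact_mod_cast h
    rw [CharP.cast_eq_zero_iff k p] at h'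
    exact hp2 ((Nat.prime_dvd_prime_iff_eq hp Nat.prime_two).mp h')
  have hA : ρbar.ρ complexConjugation * ρbar.ρ complexConjugation = 1 := by
    rw [← map_mul, complexConjugation_mul_self, map_one]
  have hdet' : LinearMap.det (ρbar.ρ complexConjugation) = -1 := by
    rw [hdet, h56c_cyc_apply, h96n_cycloChar_conj p hp2, map_neg, map_one]
  obtain ⟨htr, hcomm⟩ := h1w_end_conj h2 ρbar.finrank_eq _ hA hdet'
  let A₀ : ↥(h14l_sl ρbar) := ⟨ρbar.ρ complexConjugation, (h14l_mem_sl ρbar _).mpr htr⟩
  have hA₀ : h14l_Ad0 ρbar complexConjugation A₀ = A₀ := by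
    apply Subtype.ext
    rw [h14l_Ad0_coe, complexConjugation_inv]
    change ρbar.ρ complexConjugation * ρbar.ρ complexConjugation * ρbar.ρ complexConjugation =
      ρbar.ρ complexConjugation
    rw [hA, one_mul]
  have hA₀ne : A₀ ≠ 0 := by
    intro h
    have h1 : ρbar.ρ complexConjugation = 0 := congrArg Subtype.val h
    rw [h1, zero_mul] at hA
    have : Nontrivial ρbar.V :=
      Module.nontrivial_of_finrank_pos (R := k) (by rw [ρbar.finrank_eq]; norm_num)
    exact zero_ne_one hA
  have hmem : ∀ x : h38g_M p ρbar, x ∈ h47g_cFix (h38g_rho p ρbar) ↔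
      h14l_Ad0 ρbar complexConjugation (h38g_to p ρbar x) = h38g_to p ρbar x := by
    intro x
    unfold h47g_cFix
    rw [LinearMap.mem_ker, LinearMap.sub_apply, sub_eq_zero]
    rfl
  refine ⟨(Equiv.ofBijective
    (fun t : k => (⟨h38g_of p ρbar (t • A₀), ?_⟩ : ↥(h47g_cFix (h38g_rho p ρbar)))) ⟨?_, ?_⟩).symm⟩
  · rw [hmem]
    change h14l_Ad0 ρbar complexConjugation (t • A₀) = t • A₀
    rw [map_smul, hA₀]
  · intro t t' h
    have h1 : t • A₀ = t' • A₀ := congrArg Subtype.val h
    exact smul_left_injective k hA₀ne h1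
  · rintro ⟨x, hx⟩
    rw [hmem] at hx
    have hx1 := congrArg Subtype.val hx
    rw [h14l_Ad0_coe, complexConjugation_inv] at hx1
    have hc : ρbar.ρ complexConjugation * ((h38g_to p ρbar x : ↥(h14l_sl ρbar)) :
        Module.End k ρbar.V) =
        ((h38g_to p ρbar x : ↥(h14l_sl ρbar)) : Module.End k ρbar.V) *
          ρbar.ρ complexConjugation := by
      conv_rhs => rw [← hx1]
      rw [mul_assoc, hA, mul_one]
    obtain ⟨t, ht⟩ := hcomm _ ((h14l_mem_sl ρbar _).mp (h38g_to p ρbar x).2) hc
    refine ⟨t, Subtype.ext ?_⟩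
    change h38g_of p ρbar (t • A₀) = x
    have : t • A₀ = h38g_to p ρbar x := Subtype.ext ht.symm
    rw [this]
    rfl

/-- **SEL-GW-3** (exact frozen Prop). -/
theorem h1w_h0Of : H38H0Of := by
  intro hIrr p _ k _ _ _ ρbar hyp
  refine ⟨fun X hX => ?_, ?_⟩
  · exact h1w_noInv ρbar (hIrr p k ρbar hyp) (h38g_to p ρbar X) (fun σ => hX σ)
  · obtain ⟨e⟩ := h1w_cFix_equiv p hyp.hp2 ρbar (hyp.hdet complexConjugation)
    have key := h1w_finrank_of_equiv p k (A := k) (B := ↥(h47g_cFix (h38g_rho p ρbar))) e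
    rw [key.2 inferInstance, Module.finrank_self, mul_one]

end Fermat.Agent.S56
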