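import Mathlib

/-!
# S56, sub-pillar TW-GRP (helper42): (SS) and (IRR) for `2 × 2` matrices

Mathlib only.  `M : Γ →* Matrix (Fin 2) (Fin 2) k` is a homomorphism from ANY group, with the
hypotheses `H42Mat M` (the hypotheses of S56 on the residual representation, in a basis):
`2 ≠ 0`, the eigenvalues of every `M σ` lie in `k`, there is a subgroup of index two, and on
every subgroup of index two no line is stable over any extension field.

* `h42m_no_eigen` : no common eigenvector over any field on any subgroup `H` such that the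
  product of two elements outside `H` is in `H` (index at most two).
* `h42m_ss` (**SS**) : a subgroup containing all commutators contains an element with
  `tr ^ 2 ≠ 4 det` (two distinct eigenvalues).
* `h42m_no_line` : no line of traceless matrices is stable under conjugation.
* `h42m_irr` (**IRR**) : a nonzero subspace of traceless matrices which is stable under
  conjugation contains all traceless matrices.
-/

set_option autoImplicit false

open Matrix

noncomputable section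

namespace Fermat.Agent.S56

/-- **Matrix level hypotheses** (the hypotheses of S56 on the residual representation in a
basis). -/
structure H42Mat {k : Type} [Field k] {Γ : Type} [Group Γ]
    (M : Γ →* Matrix (Fin 2) (Fin 2) k) : Prop where
  two : (2 : k) ≠ 0
  split : ∀ σ : Γ, ∃ α β : k, (M σ).trace = α + β ∧ (M σ).det = α * β
  idx : ∃ G : Subgroup Γ, G.index = 2
  tw : ∀ (K : Type) [Field K] [Algebra k K] (G : Subgroup Γ), G.index = 2 →
    ∀ v : Fin 2 → K, v ≠ 0 →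
      ¬ ∀ σ ∈ G, ∃ c : K, (M σ).map (algebraMap k K) *ᵥ v = c • v

section Lin

variable {K : Type} [Field K]

theorem h42m_mulVec_apply (Y : Matrix (Fin 2) (Fin 2) K) (v : Fin 2 → K) (i : Fin 2) :
    (Y *ᵥ v) i = Y i 0 * v 0 + Y i 1 * v 1 := by
  simp [Matrix.mulVec, dotProduct, Fin.sum_univ_two]

theorem h42m_vec_ne_zero (v : Fin 2 → K) (hv : v ≠ 0) : v 0 ≠ 0 ∨ v 1 ≠ 0 := by
  by_contra h
  push Not at h
  apply hv
  funext i
  fin_cases i
  · exact h.1
  · exact h.2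

theorem h42m_mat_ne_zero (Y : Matrix (Fin 2) (Fin 2) K) (hY : Y ≠ 0) : ∃ i j, Y i j ≠ 0 := by
  by_contra h
  push Not at h
  apply hY
  ext i j
  exact h i j

/-- the kernel of a nonzero `2 × 2` matrix is at most a line. -/
theorem h42m_line (Y : Matrix (Fin 2) (Fin 2) K) (hY : Y ≠ 0) (v w : Fin 2 → K) (hv : v ≠ 0)
    (hYv : Y *ᵥ v = 0) (hYw : Y *ᵥ w = 0) : ∃ c : K, w = c • v := by
  obtain ⟨i, j, hij⟩ := h42m_mat_ne_zero Y hY
  have h1 := congrFun hYv i
  have h2 := congrFun hYw i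
  rw [h42m_mulVec_apply] at h1 h2
  simp only [Pi.zero_apply] at h1 h2
  have hcross : v 0 * w 1 - v 1 * w 0 = 0 := by
    have e0 : Y i 0 * (v 0 * w 1 - v 1 * w 0) = 0 := by
      linear_combination w 1 * h1 - v 1 * h2
    have e1 : Y i 1 * (v 0 * w 1 - v 1 * w 0) = 0 := by
      linear_combination - w 0 * h1 + v 0 * h2
    fin_cases j
    · exact (mul_eq_zero.mp e0).resolve_left hij
    · exact (mul_eq_zero.mp e1).resolve_left hij
  rcases h42m_vec_ne_zero v hv with h0 | h1'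
  · refine ⟨w 0 / v 0, ?_⟩
    funext l
    fin_cases l
    · simp only [Fin.zero_eta, Pi.smul_apply, smul_eq_mul]
      field_simp
    · simp only [Fin.mk_one, Pi.smul_apply, smul_eq_mul]
      field_simp
      linear_combination hcross
  · refine ⟨w 1 / v 1, ?_⟩
    funext l
    fin_cases l
    · simp only [Fin.zero_eta, Pi.smul_apply, smul_eq_mul]
      field_simp
      linear_combination - hcross
    · simp only [Fin.mk_one, Pi.smul_apply, smul_eq_mul]
      field_simp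

/-- a nonzero matrix has a nonzero column. -/
theorem h42m_exists_col (P : Matrix (Fin 2) (Fin 2) K) (hP : P ≠ 0) :
    ∃ j, (fun i => P i j) ≠ 0 := by
  obtain ⟨i, j, hij⟩ := h42m_mat_ne_zero P hP
  exact ⟨j, fun h => hij (congrFun h i)⟩

theorem h42m_mul_col (A P : Matrix (Fin 2) (Fin 2) K) (j : Fin 2) :
    A *ᵥ (fun i => P i j) = fun i => (A * P) i j := by
  funext i
  simp [Matrix.mulVec, dotProduct, Matrix.mul_apply]

end Lin

section Grp

variable {k : Type} [Field k] {Γ : Type} [Group Γ] {M : Γ →* Matrix (Fin 2) (Fin 2) k}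

/-- a subgroup whose complement is closed under "products land in the subgroup" is the whole
group or has index two. -/
theorem h42m_index_le_two (H : Subgroup Γ) (hH : ∀ a b : Γ, a ∉ H → b ∉ H → a * b ∈ H) :
    H = ⊤ ∨ H.index = 2 := by
  by_cases hT : H = ⊤
  · exact Or.inl hT
  · right
    obtain ⟨a, ha⟩ : ∃ a, a ∉ H := by
      by_contra h
      push Not at h
      exact hT ((Subgroup.eq_top_iff' H).mpr h)
    rw [Subgroup.index_eq_two_iff]
    refine ⟨a, fun b => ?_⟩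
    by_cases hb : b ∈ H
    · refine Or.inr ⟨hb, fun hba => ha ?_⟩
      have := H.mul_mem (H.inv_mem hb) hba
      simpa using this
    · exact Or.inl ⟨hH b a hb ha, hb⟩

/-- **no common eigenvector** over any field, on any subgroup of index at most two. -/
theorem h42m_no_eigen (hM : H42Mat M) (K : Type) [Field K] [Algebra k K] (H : Subgroup Γ)
    (hH : ∀ a b : Γ, a ∉ H → b ∉ H → a * b ∈ H) (v : Fin 2 → K) (hv : v ≠ 0)
    (h : ∀ σ ∈ H, ∃ c : K, (M σ).map (algebraMap k K) *ᵥ v = c • v) : False := by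
  rcases h42m_index_le_two H hH with hT | h2
  · obtain ⟨G, hG⟩ := hM.idx
    exact hM.tw K G hG v hv (fun σ _ => h σ (hT ▸ Subgroup.mem_top σ))
  · exact hM.tw K H h2 v hv h

/-- the same over `k`. -/
theorem h42m_no_eigen' (hM : H42Mat M) (H : Subgroup Γ)
    (hH : ∀ a b : Γ, a ∉ H → b ∉ H → a * b ∈ H) (v : Fin 2 → k) (hv : v ≠ 0)
    (h : ∀ σ ∈ H, ∃ c : k, M σ *ᵥ v = c • v) : False := by
  refine h42m_no_eigen hM k H hH v hv (fun σ hσ => ?_)
  obtain ⟨c, hc⟩ := h σ hσ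
  refine ⟨c, ?_⟩
  have hmap : (M σ).map (algebraMap k k) = M σ := by
    ext i j
    simp
  rw [hmap, hc]

theorem h42m_no_eigen_top (hM : H42Mat M) (v : Fin 2 → k) (hv : v ≠ 0)
    (h : ∀ σ, ∃ c : k, M σ *ᵥ v = c • v) : False :=
  h42m_no_eigen' hM ⊤ (fun a _ ha _ => absurd (Subgroup.mem_top a) ha) v hv (fun σ _ => h σ)

theorem h42m_mul_inv (σ : Γ) : M σ * M σ⁻¹ = 1 := by
  rw [← map_mul, mul_inv_cancel, map_one]

theorem h42m_inv_mul (σ : Γ) : M σ⁻¹ * M σ = 1 := by
  rw [← map_mul, inv_mul_cancel, map_one]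

theorem h42m_det_ne_zero (σ : Γ) : (M σ).det ≠ 0 := by
  intro h
  have := congrArg Matrix.det (h42m_mul_inv (M := M) σ)
  rw [Matrix.det_mul, h, zero_mul, Matrix.det_one] at this
  exact zero_ne_one this

theorem h42m_mulVec_ne_zero (σ : Γ) (v : Fin 2 → k) (hv : v ≠ 0) : M σ *ᵥ v ≠ 0 := by
  intro h
  apply hv
  have h1 : M σ⁻¹ *ᵥ (M σ *ᵥ v) = 0 := by rw [h, Matrix.mulVec_zero]
  rwa [Matrix.mulVec_mulVec, h42m_inv_mul, Matrix.one_mulVec] at h1

theorem h42m_mul_left_cancel (σ : Γ) (X Y : Matrix (Fin 2) (Fin 2) k)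
    (h : M σ * X = M σ * Y) : X = Y := by
  have := congrArg (fun w => M σ⁻¹ * w) h
  simpa [← Matrix.mul_assoc, h42m_inv_mul] using this

theorem h42m_mul_right_cancel (σ : Γ) (X Y : Matrix (Fin 2) (Fin 2) k)
    (h : X * M σ = Y * M σ) : X = Y := by
  have := congrArg (fun w => w * M σ⁻¹) h
  simpa [Matrix.mul_assoc, h42m_mul_inv] using this

end Grp

section Alg

variable {k : Type} [Field k]

/-- the trace computation behind (SS). -/
theorem h42m_ss_tr (two : (2 : k) ≠ 0) (A₀ A : Matrix (Fin 2) (Fin 2) k) (hdet : A₀.det ≠ 0)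
    (h0 : A₀.trace ^ 2 = 4 * A₀.det) (hA : A.trace ^ 2 = 4 * A.det)
    (h1 : (A₀ * A).trace ^ 2 = 4 * (A₀ * A).det)
    (h2 : (A₀ * A₀ * A).trace ^ 2 = 4 * (A₀ * A₀ * A).det) :
    (A₀ 0 0 - A₀ 1 1) * (A 0 0 - A 1 1) + 2 * A₀ 0 1 * A 1 0 + 2 * A₀ 1 0 * A 0 1 = 0 := by
  simp only [Matrix.trace_fin_two, Matrix.det_fin_two, Matrix.mul_apply, Fin.sum_univ_two]
    at h0 hA h1 h2 hdet
  generalize A₀ 0 0 = a₀ at *
  generalize A₀ 0 1 = b₀ at *
  generalize A₀ 1 0 = c₀ at *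
  generalize A₀ 1 1 = d₀ at *
  generalize A 0 0 = a at *
  generalize A 0 1 = b at *
  generalize A 1 0 = c at *
  generalize A 1 1 = d at *
  have h4 : (4 : k) ≠ 0 := by
    have : (4 : k) = 2 * 2 := by norm_num
    rw [this]
    exact mul_ne_zero two two
  have hτ : a₀ + d₀ ≠ 0 := by
    intro h
    apply hdet
    have : 4 * (a₀ * d₀ - b₀ * c₀) = 0 := by rw [← h0, h]; ring
    exact (mul_eq_zero.mp this).resolve_left h4
  set S := (a₀ - d₀) * (a - d) + 2 * b₀ * c + 2 * c₀ * b with hS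
  have e1 : S * (2 * (a₀ + d₀) * (a + d) + S) = 0 := by
    rw [hS]
    linear_combination 4 * h1 - (a₀ + d₀) ^ 2 * hA - 4 * (a * d - b * c) * h0
  have e2 : (a₀ + d₀) ^ 2 * (S * ((a₀ + d₀) * (a + d) + S)) = 0 := by
    have : 4 * ((a₀ + d₀) ^ 2 * (S * ((a₀ + d₀) * (a + d) + S))) = 0 := by
      rw [hS]
      linear_combination 16 * h2 - (a₀ + d₀) ^ 4 * hA -
        (2 * ((a₀ + d₀) ^ 2 * (a + d) + 2 * (a₀ + d₀) * ((a₀ - d₀) * (a - d) + 2 * b₀ * c + 2 * c₀ * b)) * (a + d) +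
          ((a₀ + d₀) ^ 2 - 4 * (a₀ * d₀ - b₀ * c₀)) * (a + d) ^ 2 +
          (2 * (a₀ + d₀) ^ 2 - ((a₀ + d₀) ^ 2 - 4 * (a₀ * d₀ - b₀ * c₀))) * (4 * (a * d - b * c))) * h0
    exact (mul_eq_zero.mp this).resolve_left h4
  have e3 : S * ((a₀ + d₀) * (a + d) + S) = 0 :=
    (mul_eq_zero.mp e2).resolve_left (pow_ne_zero 2 hτ)
  have e4 : S ^ 2 = 0 := by linear_combination 2 * e3 - e1
  exact pow_eq_zero_iff (two_ne_zero) |>.mp e4

end Alg

section SS

variable {k : Type} [Field k] {Γ : Type} [Group Γ] {M : Γ →* Matrix (Fin 2) (Fin 2) k}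

/-- the traceless part (times two) of a matrix. -/
def h42m_N (A : Matrix (Fin 2) (Fin 2) k) : Matrix (Fin 2) (Fin 2) k :=
  (2 : k) • A - A.trace • (1 : Matrix (Fin 2) (Fin 2) k)

theorem h42m_N_apply (A : Matrix (Fin 2) (Fin 2) k) :
    h42m_N A 0 0 = A 0 0 - A 1 1 ∧ h42m_N A 0 1 = 2 * A 0 1 ∧ h42m_N A 1 0 = 2 * A 1 0 ∧
      h42m_N A 1 1 = A 1 1 - A 0 0 := by
  refine ⟨?_, ?_, ?_, ?_⟩ <;>
    simp [h42m_N, Matrix.trace_fin_two, Matrix.sub_apply, Matrix.smul_apply, two_mul]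

/-- `N A N = tr(N A) N` for `N` of trace and determinant zero (entrywise form), hence
`N A N = 0` when `tr (N A) = 0`. -/
theorem h42m_NAN (N A : Matrix (Fin 2) (Fin 2) k) (htr : N 1 1 = - N 0 0)
    (hdet : N 0 0 * N 0 0 + N 0 1 * N 1 0 = 0)
    (hS : N 0 0 * (A 0 0 - A 1 1) + N 0 1 * A 1 0 + N 1 0 * A 0 1 = 0) : N * A * N = 0 := by
  ext i j
  simp only [Matrix.mul_apply, Fin.sum_univ_two, Matrix.zero_apply]
  fin_cases i <;> fin_cases j <;> simp only [Fin.zero_eta, Fin.mk_one, htr]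
  · linear_combination N 0 0 * hS + A 1 1 * hdet
  · linear_combination N 0 1 * hS + (-A 0 1) * hdet
  · linear_combination N 1 0 * hS + (-A 1 0) * hdet
  · linear_combination (-N 0 0) * hS + A 0 0 * hdet

theorem h42m_NN (N : Matrix (Fin 2) (Fin 2) k) (htr : N 1 1 = - N 0 0)
    (hdet : N 0 0 * N 0 0 + N 0 1 * N 1 0 = 0) : N * N = 0 := by
  ext i j
  simp only [Matrix.mul_apply, Fin.sum_univ_two, Matrix.zero_apply]
  fin_cases i <;> fin_cases j <;> simp only [Fin.zero_eta, Fin.mk_one, htr]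
  · linear_combination hdet
  · ring
  · ring
  · linear_combination hdet


/-- a subgroup containing the commutators is normal. -/
theorem h42m_conj_mem (Γ' : Subgroup Γ) (hΓ' : ∀ σ τ : Γ, σ * τ * σ⁻¹ * τ⁻¹ ∈ Γ') (σ τ : Γ)
    (hσ : σ ∈ Γ') : τ * σ * τ⁻¹ ∈ Γ' := by
  have := Γ'.mul_mem (hΓ' τ σ) hσ
  simpa [mul_assoc] using this

theorem h42m_smul_eq_zero {K : Type} [Field K] (x : K) (w : Fin 2 → K) (hw : w ≠ 0)
    (h : x • w = 0) : x = 0 := by
  rcases smul_eq_zero.mp h with h | h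
  · exact h
  · exact absurd h hw

/-- (SS), case 1: a non-scalar element with a repeated eigenvalue in `Γ'`. -/
theorem h42m_ss_case1 (hM : H42Mat M) (Γ' : Subgroup Γ)
    (hΓ' : ∀ σ τ : Γ, σ * τ * σ⁻¹ * τ⁻¹ ∈ Γ')
    (h : ∀ σ ∈ Γ', (M σ).trace ^ 2 = 4 * (M σ).det) (σ₀ : Γ) (hσ₀ : σ₀ ∈ Γ')
    (hN : h42m_N (M σ₀) ≠ 0) : False := by
  obtain ⟨n00, n01, n10, n11⟩ := h42m_N_apply (M σ₀)
  have h0 := h σ₀ hσ₀
  have htr : h42m_N (M σ₀) 1 1 = - h42m_N (M σ₀) 0 0 := by rw [n00, n11]; ring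
  have hdet : h42m_N (M σ₀) 0 0 * h42m_N (M σ₀) 0 0 +
      h42m_N (M σ₀) 0 1 * h42m_N (M σ₀) 1 0 = 0 := by
    rw [n00, n01, n10]
    simp only [Matrix.trace_fin_two, Matrix.det_fin_two] at h0
    linear_combination h0
  have hNN := h42m_NN _ htr hdet
  have hNAN : ∀ σ ∈ Γ', h42m_N (M σ₀) * M σ * h42m_N (M σ₀) = 0 := by
    intro σ hσ
    apply h42m_NAN _ (M σ) htr hdet
    rw [n00, n01, n10]
    have := h42m_ss_tr hM.two (M σ₀) (M σ) (h42m_det_ne_zero σ₀) h0 (h σ hσ)
      (by rw [← map_mul]; exact h _ (Γ'.mul_mem hσ₀ hσ))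
      (by rw [← map_mul, ← map_mul]; exact h _ (Γ'.mul_mem (Γ'.mul_mem hσ₀ hσ₀) hσ))
    linear_combination this
  obtain ⟨j, hj⟩ := h42m_exists_col _ hN
  have hNv : h42m_N (M σ₀) *ᵥ (fun i => h42m_N (M σ₀) i j) = 0 := by
    rw [h42m_mul_col, hNN]; rfl
  have hΓ'v : ∀ σ ∈ Γ', ∃ c : k,
      M σ *ᵥ (fun i => h42m_N (M σ₀) i j) = c • (fun i => h42m_N (M σ₀) i j) := by
    intro σ hσ
    have : h42m_N (M σ₀) *ᵥ (M σ *ᵥ (fun i => h42m_N (M σ₀) i j)) = 0 := by
      rw [Matrix.mulVec_mulVec, h42m_mul_col, hNAN σ hσ]; rfl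
    exact h42m_line _ hN _ _ hj hNv this
  apply h42m_no_eigen_top hM _ hj
  intro τ
  have hσ' : τ⁻¹ * σ₀ * τ ∈ Γ' := by
    have := h42m_conj_mem Γ' hΓ' σ₀ τ⁻¹ hσ₀
    simpa using this
  obtain ⟨c, hc⟩ := hΓ'v _ hσ'
  have hw0 : M τ *ᵥ (fun i => h42m_N (M σ₀) i j) ≠ 0 := h42m_mulVec_ne_zero τ _ hj
  have hA0 : M σ₀ *ᵥ (M τ *ᵥ (fun i => h42m_N (M σ₀) i j)) =
      c • (M τ *ᵥ (fun i => h42m_N (M σ₀) i j)) := by
    have : M σ₀ * M τ = M τ * M (τ⁻¹ * σ₀ * τ) := by
      rw [← map_mul, ← map_mul]; congr 1; group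
    rw [Matrix.mulVec_mulVec, this, ← Matrix.mulVec_mulVec, hc, Matrix.mulVec_smul]
  generalize M τ *ᵥ (fun i => h42m_N (M σ₀) i j) = w at hw0 hA0 ⊢
  have hNw : h42m_N (M σ₀) *ᵥ w = (2 * c - (M σ₀).trace) • w := by
    rw [h42m_N, Matrix.sub_mulVec, Matrix.smul_mulVec, Matrix.smul_mulVec,
      Matrix.one_mulVec, hA0, smul_smul, sub_smul]
  have hx : 2 * c - (M σ₀).trace = 0 := by
    have h2 : h42m_N (M σ₀) *ᵥ (h42m_N (M σ₀) *ᵥ w) = 0 := by
      rw [Matrix.mulVec_mulVec, hNN, Matrix.zero_mulVec]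
    rw [hNw, Matrix.mulVec_smul, hNw, smul_smul] at h2
    have := h42m_smul_eq_zero _ w hw0 h2
    exact mul_self_eq_zero.mp this
  have hNw0 : h42m_N (M σ₀) *ᵥ w = 0 := by rw [hNw, hx, zero_smul]
  exact h42m_line _ hN _ w hj hNv hNw0


/-- the centraliser of a matrix. -/
def h42m_cent (M : Γ →* Matrix (Fin 2) (Fin 2) k) (X : Matrix (Fin 2) (Fin 2) k) :
    Subgroup Γ where
  carrier := {τ | M τ * X = X * M τ}
  mul_mem' := by
    intro a b ha hb
    simp only [Set.mem_ofPred_eq] at *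
    rw [map_mul, Matrix.mul_assoc, hb, ← Matrix.mul_assoc, ha, Matrix.mul_assoc]
  one_mem' := by simp
  inv_mem' := by
    intro a ha
    simp only [Set.mem_ofPred_eq] at *
    apply h42m_mul_left_cancel (M := M) a
    apply h42m_mul_right_cancel (M := M) a
    rw [← Matrix.mul_assoc, h42m_mul_inv, Matrix.one_mul, Matrix.mul_assoc, Matrix.mul_assoc,
      h42m_inv_mul, Matrix.mul_one, ha]

theorem h42m_mem_cent (X : Matrix (Fin 2) (Fin 2) k) (τ : Γ) :
    τ ∈ h42m_cent M X ↔ M τ * X = X * M τ := Iff.rfl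

/-- if every element commutes or anticommutes with `X`, the centraliser has index at most
two. -/
theorem h42m_cent_index (X : Matrix (Fin 2) (Fin 2) k)
    (hX : ∀ τ : Γ, M τ * X = X * M τ ∨ M τ * X = - (X * M τ)) (a b : Γ)
    (ha : a ∉ h42m_cent M X) (hb : b ∉ h42m_cent M X) : a * b ∈ h42m_cent M X := by
  have ha' := (hX a).resolve_left ha
  have hb' := (hX b).resolve_left hb
  rw [h42m_mem_cent, map_mul, Matrix.mul_assoc, hb', Matrix.mul_neg, ← Matrix.mul_assoc, ha',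
    Matrix.neg_mul, neg_neg, Matrix.mul_assoc]

theorem h42m_N_eq_zero (two : (2 : k) ≠ 0) (A : Matrix (Fin 2) (Fin 2) k)
    (h : h42m_N A = 0) : A = A 0 0 • (1 : Matrix (Fin 2) (Fin 2) k) := by
  obtain ⟨n00, n01, n10, -⟩ := h42m_N_apply A
  rw [h] at n00 n01 n10
  simp only [Matrix.zero_apply] at n00 n01 n10
  have h01 : A 0 1 = 0 := by
    rcases mul_eq_zero.mp n01.symm with h | h
    · exact absurd h two
    · exact h
  have h10 : A 1 0 = 0 := by
    rcases mul_eq_zero.mp n10.symm with h | h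
    · exact absurd h two
    · exact h
  have h11 : A 1 1 = A 0 0 := by linear_combination n00
  ext i j
  fin_cases i <;> fin_cases j <;> simp [h01, h10, h11]

theorem h42m_N_smul_one (c : k) : h42m_N (c • (1 : Matrix (Fin 2) (Fin 2) k)) = 0 := by
  obtain ⟨n00, n01, n10, n11⟩ := h42m_N_apply (c • (1 : Matrix (Fin 2) (Fin 2) k))
  ext i j
  fin_cases i <;> fin_cases j <;>
    simp only [Fin.zero_eta, Fin.mk_one, n00, n01, n10, n11, Matrix.zero_apply] <;> simp

/-- Cayley–Hamilton for a `2 × 2` matrix with eigenvalues `α`, `β`. -/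
theorem h42m_CH {K : Type} [Field K] (A : Matrix (Fin 2) (Fin 2) K) (α β : K)
    (htr : A.trace = α + β) (hdet : A.det = α * β) :
    (A - α • (1 : Matrix (Fin 2) (Fin 2) K)) * (A - β • (1 : Matrix (Fin 2) (Fin 2) K)) = 0 := by
  simp only [Matrix.trace_fin_two, Matrix.det_fin_two] at htr hdet
  ext i j
  fin_cases i <;> fin_cases j <;>
    simp [Matrix.mul_apply, Fin.sum_univ_two, Matrix.sub_apply, Matrix.smul_apply]
  · linear_combination (A 0 0) * htr - hdet
  · linear_combination (A 0 1) * htr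
  · linear_combination (A 1 0) * htr
  · linear_combination (A 1 1) * htr - hdet

/-- commutators are scalar ⇒ every element commutes or anticommutes with `M σ`. -/
theorem h42m_comm_or_anti (hM : H42Mat M) (Γ' : Subgroup Γ)
    (hΓ' : ∀ σ τ : Γ, σ * τ * σ⁻¹ * τ⁻¹ ∈ Γ') (hsc : ∀ σ ∈ Γ', h42m_N (M σ) = 0) (σ τ : Γ) :
    M τ * M σ = M σ * M τ ∨ M τ * M σ = - (M σ * M τ) := by
  have hg := h42m_N_eq_zero hM.two _ (hsc _ (hΓ' τ σ))
  set lam := M (τ * σ * τ⁻¹ * σ⁻¹) 0 0 with hlam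
  have h1 : M τ * M σ = lam • (M σ * M τ) := by
    have : M τ * M σ = M (τ * σ * τ⁻¹ * σ⁻¹) * (M σ * M τ) := by
      rw [← map_mul, ← map_mul, ← map_mul]; congr 1; group
    rw [this, hg, Matrix.smul_mul, Matrix.one_mul]
  have h2 : lam ^ 2 = 1 := by
    have := congrArg Matrix.det h1
    rw [Matrix.det_smul, Matrix.det_mul, Matrix.det_mul, Fintype.card_fin] at this
    have hne : (M σ).det * (M τ).det ≠ 0 :=
      mul_ne_zero (h42m_det_ne_zero σ) (h42m_det_ne_zero τ)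
    have h3 : (lam ^ 2 - 1) * ((M σ).det * (M τ).det) = 0 := by linear_combination - this
    have := (mul_eq_zero.mp h3).resolve_right hne
    linear_combination this
  have h3 : (lam - 1) * (lam + 1) = 0 := by linear_combination h2
  rcases mul_eq_zero.mp h3 with h | h
  · left
    rw [h1, sub_eq_zero.mp h, one_smul]
  · right
    rw [h1, eq_neg_of_add_eq_zero_left h, neg_smul, one_smul]

/-- (SS), case 2: all elements of `Γ'` are scalar. -/
theorem h42m_ss_case2 (hM : H42Mat M) (Γ' : Subgroup Γ)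
    (hΓ' : ∀ σ τ : Γ, σ * τ * σ⁻¹ * τ⁻¹ ∈ Γ') (hsc : ∀ σ ∈ Γ', h42m_N (M σ) = 0) : False := by
  by_cases hall : ∀ σ : Γ, h42m_N (M σ) = 0
  · have hv : (fun i : Fin 2 => if i = 0 then (1 : k) else 0) ≠ 0 := by
      intro h
      have := congrFun h 0
      simp at this
    refine h42m_no_eigen_top hM _ hv (fun σ => ⟨M σ 0 0, ?_⟩)
    rw [h42m_N_eq_zero hM.two _ (hall σ), Matrix.smul_mulVec, Matrix.one_mulVec]
    simp
  · push Not at hall
    obtain ⟨σ, hσ⟩ := hall
    obtain ⟨α, β, htr, hdet⟩ := hM.split σ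
    have hYP := h42m_CH (M σ) α β htr hdet
    have hY : M σ - α • (1 : Matrix (Fin 2) (Fin 2) k) ≠ 0 := by
      intro h
      apply hσ
      rw [sub_eq_zero.mp h]
      exact h42m_N_smul_one α
    have hP : M σ - β • (1 : Matrix (Fin 2) (Fin 2) k) ≠ 0 := by
      intro h
      apply hσ
      rw [sub_eq_zero.mp h]
      exact h42m_N_smul_one β
    obtain ⟨j, hj⟩ := h42m_exists_col _ hP
    have hYv : (M σ - α • (1 : Matrix (Fin 2) (Fin 2) k)) *ᵥ
        (fun i => (M σ - β • (1 : Matrix (Fin 2) (Fin 2) k)) i j) = 0 := by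
      rw [h42m_mul_col, hYP]; rfl
    refine h42m_no_eigen' hM (h42m_cent M (M σ))
      (h42m_cent_index (M σ) (h42m_comm_or_anti hM Γ' hΓ' hsc σ)) _ hj (fun τ hτ => ?_)
    rw [h42m_mem_cent] at hτ
    apply h42m_line _ hY _ _ hj hYv
    have hcomm : (M σ - α • (1 : Matrix (Fin 2) (Fin 2) k)) * M τ =
        M τ * (M σ - α • (1 : Matrix (Fin 2) (Fin 2) k)) := by
      rw [Matrix.sub_mul, Matrix.mul_sub, hτ, Matrix.smul_mul, Matrix.mul_smul, Matrix.one_mul,
        Matrix.mul_one]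
    rw [Matrix.mulVec_mulVec, hcomm, ← Matrix.mulVec_mulVec, hYv, Matrix.mulVec_zero]

/-- **(SS), matrix form.**  A subgroup containing all commutators contains an element with
two distinct eigenvalues (`tr² ≠ 4 det`). -/
theorem h42m_ss (hM : H42Mat M) (Γ' : Subgroup Γ)
    (hΓ' : ∀ σ τ : Γ, σ * τ * σ⁻¹ * τ⁻¹ ∈ Γ') :
    ∃ σ ∈ Γ', (M σ).trace ^ 2 ≠ 4 * (M σ).det := by
  by_contra h
  push Not at h
  by_cases hsc : ∀ σ ∈ Γ', h42m_N (M σ) = 0
  · exact h42m_ss_case2 hM Γ' hΓ' hsc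
  · push Not at hsc
    obtain ⟨σ₀, hσ₀, hN⟩ := hsc
    exact h42m_ss_case1 hM Γ' hΓ' h σ₀ hσ₀ hN

end SS

section Irr

variable {k : Type} [Field k] {Γ : Type} [Group Γ] {M : Γ →* Matrix (Fin 2) (Fin 2) k}

/-- Cayley–Hamilton for a traceless `2 × 2` matrix. -/
theorem h42m_sq (X : Matrix (Fin 2) (Fin 2) k) (htr : X.trace = 0) :
    X * X = (- X.det) • (1 : Matrix (Fin 2) (Fin 2) k) := by
  simp only [Matrix.trace_fin_two] at htr
  have h11 : X 1 1 = - X 0 0 := by linear_combination htr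
  ext i j
  fin_cases i <;> fin_cases j <;>
    simp [Matrix.mul_apply, Fin.sum_univ_two, Matrix.det_fin_two, h11] <;> ring

theorem h42m_ne_zero (σ : Γ) : M σ ≠ 0 := by
  intro h
  apply h42m_det_ne_zero (M := M) σ
  rw [h]
  simp

/-- the relation `M σ X = c X M σ` forces `c ≠ 0` and `det X = 0` or `c ^ 2 = 1`. -/
theorem h42m_line_scalar (X : Matrix (Fin 2) (Fin 2) k) (hX : X ≠ 0) (htr : X.trace = 0)
    (σ : Γ) (c : k) (h : M σ * X = c • (X * M σ)) : c ≠ 0 ∧ (X.det = 0 ∨ c ^ 2 = 1) := by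
  have hc : c ≠ 0 := by
    rintro rfl
    rw [zero_smul] at h
    apply hX
    apply h42m_mul_left_cancel (M := M) σ
    rw [h, Matrix.mul_zero]
  refine ⟨hc, ?_⟩
  have h2 : M σ * (X * X) = (c ^ 2) • ((X * X) * M σ) := by
    rw [← Matrix.mul_assoc, h, Matrix.smul_mul, Matrix.mul_assoc, h, Matrix.mul_smul, smul_smul,
      Matrix.mul_assoc, pow_two]
  rw [h42m_sq X htr, Matrix.mul_smul, Matrix.mul_one, Matrix.smul_mul, Matrix.one_mul,
    smul_smul] at h2
  have h3 : (- X.det - c ^ 2 * - X.det) • M σ = 0 := by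
    rw [sub_smul, h2, sub_self]
  rcases smul_eq_zero.mp h3 with h4 | h4
  · by_cases hd : X.det = 0
    · exact Or.inl hd
    · right
      have : X.det * (c ^ 2 - 1) = 0 := by linear_combination h4
      have := (mul_eq_zero.mp this).resolve_left hd
      linear_combination this
  · exact absurd h4 (h42m_ne_zero σ)

/-- **no stable line in `ad⁰`**, matrix form. -/
theorem h42m_no_line (hM : H42Mat M) (X : Matrix (Fin 2) (Fin 2) k) (hX : X ≠ 0)
    (htr : X.trace = 0) (h : ∀ σ : Γ, ∃ c : k, M σ * X = c • (X * M σ)) : False := by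
  by_cases hd : X.det = 0
  · -- nilpotent
    have hXX : X * X = 0 := by rw [h42m_sq X htr, hd, neg_zero, zero_smul]
    obtain ⟨j, hj⟩ := h42m_exists_col X hX
    have hXv : X *ᵥ (fun i => X i j) = 0 := by
      rw [h42m_mul_col, hXX]; rfl
    refine h42m_no_eigen_top hM _ hj (fun σ => ?_)
    obtain ⟨c, hc⟩ := h σ
    obtain ⟨hc0, -⟩ := h42m_line_scalar X hX htr σ c hc
    apply h42m_line X hX _ _ hj hXv
    have : c • (X *ᵥ (M σ *ᵥ (fun i => X i j))) = 0 := by
      rw [Matrix.mulVec_mulVec, ← Matrix.smul_mulVec, ← hc, ← Matrix.mulVec_mulVec, hXv,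
        Matrix.mulVec_zero]
    rcases smul_eq_zero.mp this with h1 | h1
    · exact absurd h1 hc0
    · exact h1
  · -- semisimple
    have hX' : ∀ τ : Γ, M τ * X = X * M τ ∨ M τ * X = - (X * M τ) := by
      intro τ
      obtain ⟨c, hc⟩ := h τ
      obtain ⟨-, h2⟩ := h42m_line_scalar X hX htr τ c hc
      have h2 := h2.resolve_left hd
      have h3 : (c - 1) * (c + 1) = 0 := by linear_combination h2
      rcases mul_eq_zero.mp h3 with h4 | h4
      · left
        rw [hc, sub_eq_zero.mp h4, one_smul]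
      · right
        rw [hc, eq_neg_of_add_eq_zero_left h4, neg_smul, one_smul]
    obtain ⟨δ, hδ⟩ := IsAlgClosed.exists_eq_mul_self (algebraMap k (AlgebraicClosure k) (- X.det))
    have hδ0 : δ ≠ 0 := by
      rintro rfl
      rw [mul_zero, map_neg, neg_eq_zero] at hδ
      exact hd ((map_eq_zero _).mp hδ)
    have h2K : (2 : AlgebraicClosure k) ≠ 0 := by
      have : (2 : AlgebraicClosure k) = algebraMap k (AlgebraicClosure k) 2 :=
        (map_ofNat (algebraMap k (AlgebraicClosure k)) 2).symm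
      rw [this]
      exact (map_ne_zero _).mpr hM.two
    set XK : Matrix (Fin 2) (Fin 2) (AlgebraicClosure k) :=
      X.map (algebraMap k (AlgebraicClosure k)) with hXK
    have htrK : XK.trace = δ + (-δ) := by
      rw [add_neg_cancel, hXK]
      simp only [Matrix.trace_fin_two, Matrix.map_apply] at htr ⊢
      rw [← map_add, htr, map_zero]
    have hdetK : XK.det = δ * (-δ) := by
      rw [mul_neg, ← hδ, map_neg, neg_neg, hXK]
      simp only [Matrix.det_fin_two, Matrix.map_apply, map_sub, map_mul]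
    have hYP := h42m_CH XK δ (-δ) htrK hdetK
    have hne : ∀ e : AlgebraicClosure k, e ≠ 0 →
        XK - e • (1 : Matrix (Fin 2) (Fin 2) (AlgebraicClosure k)) ≠ 0 := by
      intro e he h0
      have h1 := congrArg Matrix.trace (sub_eq_zero.mp h0)
      rw [htrK, add_neg_cancel] at h1
      simp only [Matrix.trace_fin_two, Matrix.smul_apply, Matrix.one_apply_eq, smul_eq_mul,
        mul_one] at h1
      have : 2 * e = 0 := by linear_combination - h1
      rcases mul_eq_zero.mp this with h3 | h3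
      · exact h2K h3
      · exact he h3
    have hY := hne δ hδ0
    have hP := hne (-δ) (neg_ne_zero.mpr hδ0)
    obtain ⟨j, hj⟩ := h42m_exists_col _ hP
    have hYv : (XK - δ • (1 : Matrix (Fin 2) (Fin 2) (AlgebraicClosure k))) *ᵥ
        (fun i => (XK - (-δ) • (1 : Matrix (Fin 2) (Fin 2) (AlgebraicClosure k))) i j) = 0 := by
      rw [h42m_mul_col, hYP]; rfl
    refine h42m_no_eigen hM (AlgebraicClosure k) (h42m_cent M X)
      (h42m_cent_index X hX') _ hj (fun τ hτ => ?_)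
    rw [h42m_mem_cent] at hτ
    apply h42m_line _ hY _ _ hj hYv
    have hτK : (M τ).map (algebraMap k (AlgebraicClosure k)) * XK =
        XK * (M τ).map (algebraMap k (AlgebraicClosure k)) := by
      rw [hXK, ← Matrix.map_mul, ← Matrix.map_mul, hτ]
    have hcomm : (XK - δ • (1 : Matrix (Fin 2) (Fin 2) (AlgebraicClosure k))) *
        (M τ).map (algebraMap k (AlgebraicClosure k)) =
        (M τ).map (algebraMap k (AlgebraicClosure k)) *
          (XK - δ • (1 : Matrix (Fin 2) (Fin 2) (AlgebraicClosure k))) := by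
      rw [Matrix.sub_mul, Matrix.mul_sub, hτK, Matrix.smul_mul, Matrix.mul_smul, Matrix.one_mul,
        Matrix.mul_one]
    rw [Matrix.mulVec_mulVec, hcomm, ← Matrix.mulVec_mulVec, hYv, Matrix.mulVec_zero]


/-- traceless matrices which commute are proportional. -/
theorem h42m_comm_prop (two : (2 : k) ≠ 0) (X₁ X₂ : Matrix (Fin 2) (Fin 2) k)
    (h1 : X₁.trace = 0) (h2 : X₂.trace = 0) (hX₁ : X₁ ≠ 0) (hc : X₁ * X₂ = X₂ * X₁) :
    ∃ t : k, X₂ = t • X₁ := by
  simp only [Matrix.trace_fin_two] at h1 h2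
  have e01 := congrFun (congrFun hc 0) 1
  have e10 := congrFun (congrFun hc 1) 0
  have e00 := congrFun (congrFun hc 0) 0
  simp only [Matrix.mul_apply, Fin.sum_univ_two] at e01 e10 e00
  have a1 : X₁ 1 1 = - X₁ 0 0 := by linear_combination h1
  have a2 : X₂ 1 1 = - X₂ 0 0 := by linear_combination h2
  rw [a1, a2] at e01 e10
  have f01 : X₁ 0 0 * X₂ 0 1 - X₂ 0 0 * X₁ 0 1 = 0 := by
    have : 2 * (X₁ 0 0 * X₂ 0 1 - X₂ 0 0 * X₁ 0 1) = 0 := by linear_combination e01
    exact (mul_eq_zero.mp this).resolve_left two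
  have f10 : X₁ 1 0 * X₂ 0 0 - X₂ 1 0 * X₁ 0 0 = 0 := by
    have : 2 * (X₁ 1 0 * X₂ 0 0 - X₂ 1 0 * X₁ 0 0) = 0 := by linear_combination e10
    exact (mul_eq_zero.mp this).resolve_left two
  have f00 : X₁ 0 1 * X₂ 1 0 - X₂ 0 1 * X₁ 1 0 = 0 := by linear_combination e00
  obtain ⟨i, j, hij⟩ := h42m_mat_ne_zero X₁ hX₁
  have hcase : X₁ 0 0 ≠ 0 ∨ X₁ 0 1 ≠ 0 ∨ X₁ 1 0 ≠ 0 := by
    by_contra hall
    push Not at hall
    obtain ⟨z0, z1, z2⟩ := hall
    have z3 : X₁ 1 1 = 0 := by rw [a1, z0, neg_zero]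
    fin_cases i <;> fin_cases j
    · exact hij z0
    · exact hij z1
    · exact hij z2
    · exact hij z3
  rcases hcase with h | h | h
  · refine ⟨X₂ 0 0 / X₁ 0 0, ?_⟩
    ext i j
    fin_cases i <;> fin_cases j <;>
      simp only [Fin.zero_eta, Fin.mk_one, Matrix.smul_apply, smul_eq_mul, a1, a2] <;>
      field_simp
    · linear_combination f01
    · linear_combination - f10
  · refine ⟨X₂ 0 1 / X₁ 0 1, ?_⟩
    ext i j
    fin_cases i <;> fin_cases j <;>
      simp only [Fin.zero_eta, Fin.mk_one, Matrix.smul_apply, smul_eq_mul, a1, a2] <;>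
      field_simp
    · linear_combination - f01
    · linear_combination f00
    · linear_combination f01
  · refine ⟨X₂ 1 0 / X₁ 1 0, ?_⟩
    ext i j
    fin_cases i <;> fin_cases j <;>
      simp only [Fin.zero_eta, Fin.mk_one, Matrix.smul_apply, smul_eq_mul, a1, a2] <;>
      field_simp
    · linear_combination f10
    · linear_combination - f00
    · linear_combination - f10

theorem h42m_finrank_sl2 :
    Module.finrank k (LinearMap.ker (Matrix.traceLinearMap (Fin 2) k k)) = 3 := by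
  have h := LinearMap.finrank_range_add_finrank_ker (Matrix.traceLinearMap (Fin 2) k k)
  have hsurj : LinearMap.range (Matrix.traceLinearMap (Fin 2) k k) = ⊤ := by
    rw [LinearMap.range_eq_top]
    intro c
    refine ⟨Matrix.of ![![c, 0], ![0, 0]], ?_⟩
    simp [Matrix.traceLinearMap, Matrix.trace_fin_two]
  have h1 : Module.finrank k (⊤ : Submodule k k) = 1 := by
    rw [finrank_top, Module.finrank_self]
  have h4 : Module.finrank k (Matrix (Fin 2) (Fin 2) k) = 4 := by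
    rw [Module.finrank_matrix, Module.finrank_self]
    simp
  rw [hsurj, h1, h4] at h
  omega

/-- conjugation relation from membership in a line. -/
theorem h42m_conj_rel (σ : Γ) (X : Matrix (Fin 2) (Fin 2) k) (c : k)
    (h : M σ * X * M σ⁻¹ = c • X) : M σ * X = c • (X * M σ) := by
  have := congrArg (fun Y => Y * M σ) h
  simp only [Matrix.mul_assoc, h42m_inv_mul, Matrix.mul_one, Matrix.smul_mul] at this
  exact this

/-- **(IRR), matrix form.** -/
theorem h42m_irr (hM : H42Mat M) (W : Submodule k (Matrix (Fin 2) (Fin 2) k)) (hW : W ≠ ⊥)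
    (htr : ∀ X ∈ W, X.trace = 0) (hst : ∀ σ : Γ, ∀ X ∈ W, M σ * X * M σ⁻¹ ∈ W)
    (X : Matrix (Fin 2) (Fin 2) k) (hX : X.trace = 0) : X ∈ W := by
  have hle : W ≤ LinearMap.ker (Matrix.traceLinearMap (Fin 2) k k) := fun Y hY => by
    rw [LinearMap.mem_ker]; exact htr Y hY
  have h3 := h42m_finrank_sl2 (k := k)
  have hWle : Module.finrank k W ≤ 3 := h3 ▸ Submodule.finrank_mono hle
  have hWpos : 0 < Module.finrank k W := by
    rw [Module.finrank_pos_iff]
    exact Submodule.nontrivial_iff_ne_bot.mpr hW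
  have hcases : Module.finrank k W = 1 ∨ Module.finrank k W = 2 ∨ Module.finrank k W = 3 := by
    omega
  rcases hcases with h1 | h2 | h3'
  · exfalso
    obtain ⟨v, hv, hspan⟩ := finrank_eq_one_iff'.mp h1
    refine h42m_no_line hM (v : Matrix (Fin 2) (Fin 2) k) (fun h => hv (Subtype.ext h))
      (htr _ v.2) (fun σ => ?_)
    obtain ⟨c, hc⟩ := hspan ⟨_, hst σ _ v.2⟩
    refine ⟨c, h42m_conj_rel σ _ c ?_⟩
    have := congrArg Subtype.val hc
    simpa using this.symm
  · exfalso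
    set b := Module.finBasisOfFinrankEq k W h2 with hb
    have hrep : ∀ w : W, (w : Matrix (Fin 2) (Fin 2) k) =
        b.repr w 0 • (b 0 : Matrix (Fin 2) (Fin 2) k) +
          b.repr w 1 • (b 1 : Matrix (Fin 2) (Fin 2) k) := by
      intro w
      have := congrArg Subtype.val (b.sum_repr w)
      rw [Fin.sum_univ_two] at this
      simpa using this.symm
    have hZ0 : (b 0 : Matrix (Fin 2) (Fin 2) k) * (b 1 : Matrix (Fin 2) (Fin 2) k) -
        (b 1 : Matrix (Fin 2) (Fin 2) k) * (b 0 : Matrix (Fin 2) (Fin 2) k) ≠ 0 := by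
      intro h
      have hb0 : (b 0 : Matrix (Fin 2) (Fin 2) k) ≠ 0 := fun h0 =>
        b.ne_zero 0 (Subtype.ext h0)
      obtain ⟨t, ht⟩ := h42m_comm_prop hM.two _ _ (htr _ (b 0).2) (htr _ (b 1).2) hb0
        (sub_eq_zero.mp h)
      have h1 : b 1 = t • b 0 := Subtype.ext ht
      have h2 := congrArg (fun w => b.repr w 1) h1
      simp at h2
    refine h42m_no_line hM _ hZ0 ?_ (fun σ => ?_)
    · rw [Matrix.trace_sub, Matrix.trace_mul_comm, sub_self]
    · have e0 := hrep ⟨_, hst σ _ (b 0).2⟩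
      have e1 := hrep ⟨_, hst σ _ (b 1).2⟩
      simp only at e0 e1
      generalize b.repr ⟨_, hst σ _ (b 0).2⟩ 0 = p₁ at e0
      generalize b.repr ⟨_, hst σ _ (b 0).2⟩ 1 = q₁ at e0
      generalize b.repr ⟨_, hst σ _ (b 1).2⟩ 0 = p₂ at e1
      generalize b.repr ⟨_, hst σ _ (b 1).2⟩ 1 = q₂ at e1
      refine ⟨p₁ * q₂ - q₁ * p₂, h42m_conj_rel σ _ _ ?_⟩
      have m01 : M σ * ((b 0 : Matrix (Fin 2) (Fin 2) k) * (b 1 : Matrix (Fin 2) (Fin 2) k)) *
          M σ⁻¹ = (M σ * (b 0 : Matrix (Fin 2) (Fin 2) k) * M σ⁻¹) *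
            (M σ * (b 1 : Matrix (Fin 2) (Fin 2) k) * M σ⁻¹) := by
        simp only [Matrix.mul_assoc]
        rw [← Matrix.mul_assoc (M σ⁻¹) (M σ), h42m_inv_mul, Matrix.one_mul]
      have m10 : M σ * ((b 1 : Matrix (Fin 2) (Fin 2) k) * (b 0 : Matrix (Fin 2) (Fin 2) k)) *
          M σ⁻¹ = (M σ * (b 1 : Matrix (Fin 2) (Fin 2) k) * M σ⁻¹) *
            (M σ * (b 0 : Matrix (Fin 2) (Fin 2) k) * M σ⁻¹) := by
        simp only [Matrix.mul_assoc]
        rw [← Matrix.mul_assoc (M σ⁻¹) (M σ), h42m_inv_mul, Matrix.one_mul]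
      rw [Matrix.mul_sub, Matrix.sub_mul, m01, m10, e0, e1]
      simp only [Matrix.add_mul, Matrix.mul_add, Matrix.smul_mul, Matrix.mul_smul, smul_add,
        smul_sub, smul_smul, sub_smul]
      module
  · have : W = LinearMap.ker (Matrix.traceLinearMap (Fin 2) k k) :=
      Submodule.eq_of_le_of_finrank_eq hle (h3'.trans h3.symm)
    rw [this, LinearMap.mem_ker]
    exact hX

end Irr

end Fermat.Agent.S56
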