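import Fermat.Agent.S56.H42GrpSkel
import Fermat.Agent.S56.H42GrpMat

/-!
# S56, sub-pillar TW-GRP (helper42): `H42GrpSS` and `H42GrpIrr`

The frozen interfaces (SS) and (IRR) of `S56/H42GrpSkel.lean`, from the matrix forms of
`S56/H42GrpMat.lean`.

* `h42g_mat b ρ` : the matrices of `ρ` in the basis `b`.
* `h42g_H42Mat` : `H42TW p ρ χ → H42Mat (h42g_mat b ρ)`.
* `h42g_grpSS : H42GrpSS`, `h42g_grpIrr : H42GrpIrr`.
-/

set_option autoImplicit false
set_option linter.unusedSectionVars false

open Polynomial TensorProduct Matrix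

noncomputable section

namespace Fermat.Agent.S56

section Bridge

variable (p : ℕ) [Fact p.Prime] {k : Type} [Field k] [CharP k p]
  {V : Type} [AddCommGroup V] [Module k V] [Module.Finite k V] {Γ : Type} [Group Γ]

/-- the matrices of `ρ` in the basis `b`. -/
def h42g_mat (b : Module.Basis (Fin 2) k V) (ρ : Γ →* Module.End k V) :
    Γ →* Matrix (Fin 2) (Fin 2) k :=
  ((LinearMap.toMatrixAlgEquiv b : Module.End k V ≃ₐ[k] Matrix (Fin 2) (Fin 2) k) :
    Module.End k V →* Matrix (Fin 2) (Fin 2) k).comp ρ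

theorem h42g_mat_apply (b : Module.Basis (Fin 2) k V) (ρ : Γ →* Module.End k V) (σ : Γ) :
    h42g_mat b ρ σ = LinearMap.toMatrix b b (ρ σ) := rfl

/-- trace and determinant from the characteristic polynomial. -/
theorem h42g_tr_det (b : Module.Basis (Fin 2) k V) (f : Module.End k V) (α β : k)
    (h : LinearMap.charpoly f = (X - C α) * (X - C β)) :
    (LinearMap.toMatrix b b f).trace = α + β ∧ (LinearMap.toMatrix b b f).det = α * β := by
  rw [← LinearMap.charpoly_toMatrix f b, Matrix.charpoly_fin_two] at h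
  have h0 := congrArg (Polynomial.eval 0) h
  have h1 := congrArg (Polynomial.eval 1) h
  simp only [eval_add, eval_sub, eval_mul, eval_pow, eval_X, eval_C] at h0 h1
  constructor
  · linear_combination h0 - h1
  · linear_combination h0

/-- `2 ≠ 0` in odd characteristic. -/
theorem h42g_two_ne_zero (hp : p ≠ 2) : (2 : k) ≠ 0 := by
  intro h
  have h2 : ((2 : ℕ) : k) = 0 := by exact_mod_cast h
  rw [CharP.cast_eq_zero_iff k p] at h2
  exact hp ((Nat.prime_dvd_prime_iff_eq (Fact.out : p.Prime) Nat.prime_two).mp h2)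

omit [CharP k p] in
/-- a subgroup of index two: the kernel of the quadratic character of `χ`. -/
theorem h42g_exists_index_two (hp : p ≠ 2) (χ : Γ →* (ZMod p)ˣ) (hχ : Function.Surjective χ) :
    ∃ G : Subgroup Γ, G.index = 2 := by
  have hchar : ringChar (ZMod p) ≠ 2 := by
    rw [ZMod.ringChar_zmod_n]; exact hp
  obtain ⟨a, ha⟩ := quadraticChar_exists_neg_one' hchar
  set φ : Γ →* ℤˣ := (quadraticChar (ZMod p)).toUnitHom.comp χ with hφ
  refine ⟨φ.ker, ?_⟩
  have hsurj : Function.Surjective φ := by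
    intro u
    rcases Int.units_eq_one_or u with rfl | rfl
    · exact ⟨1, map_one φ⟩
    · obtain ⟨σ, hσ⟩ := hχ a
      refine ⟨σ, ?_⟩
      apply Units.ext
      rw [hφ, MonoidHom.comp_apply, hσ, MulChar.coe_toUnitHom, ha]
      rfl
  rw [Subgroup.index_ker, MonoidHom.range_eq_top.mpr hsurj, Subgroup.card_top]
  simp

/-- **the bridge**: the hypotheses of S56 in a basis. -/
theorem h42g_H42Mat (b : Module.Basis (Fin 2) k V) (ρ : Γ →* Module.End k V)
    (χ : Γ →* (ZMod p)ˣ) (h : H42TW p ρ χ) : H42Mat (h42g_mat b ρ) where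
  two := h42g_two_ne_zero p h.odd
  split σ := by
    obtain ⟨α, β, hαβ⟩ := h.split σ
    exact ⟨α, β, h42g_tr_det b (ρ σ) α β hαβ⟩
  idx := h42g_exists_index_two p h.odd χ h.surj
  tw K _ _ G hG v hv hst := by
    classical
    set bK := Algebra.TensorProduct.basis K b with hbK
    set x : K ⊗[k] V := bK.equivFun.symm v with hx
    have hxv : ∀ i, bK.repr x i = v i := by
      intro i
      have := congrFun (bK.equivFun.apply_symm_apply v) i
      rwa [Module.Basis.equivFun_apply] at this
    have hx0 : x ≠ 0 := by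
      intro h0
      apply hv
      funext i
      rw [← hxv i, h0]
      simp
    have hstx : ∀ σ ∈ G, ∃ c : K, (ρ σ).baseChange K x = c • x := by
      intro σ hσ
      obtain ⟨c, hc⟩ := hst σ hσ
      refine ⟨c, ?_⟩
      apply bK.repr.injective
      ext i
      have h1 := congrFun (LinearMap.toMatrix_mulVec_repr bK bK ((ρ σ).baseChange K) x) i
      rw [LinearMap.toMatrix_baseChange] at h1
      have h2 : (⇑(bK.repr x) : Fin 2 → K) = v := funext hxv
      rw [h2] at h1
      rw [h42g_mat_apply] at hc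
      rw [← h1, hc, map_smul, Finsupp.smul_apply, Pi.smul_apply, hxv]
    have hW := h.tw K G hG (Submodule.span K {x}) (by
      intro σ hσ y hy
      obtain ⟨c, hc⟩ := hstx σ hσ
      obtain ⟨t, rfl⟩ := Submodule.mem_span_singleton.mp hy
      rw [map_smul, hc, smul_smul]
      exact Submodule.smul_mem _ _ (Submodule.mem_span_singleton_self x))
    rcases hW with hbot | htop
    · exact hx0 (Submodule.span_singleton_eq_bot.mp hbot)
    · have h1 : Module.finrank K (Submodule.span K {x}) = 1 := finrank_span_singleton hx0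
      rw [htop, finrank_top, Module.finrank_eq_card_basis bK, Fintype.card_fin] at h1
      omega

end Bridge

/-- **TW-GRP (SS).** -/
theorem h42g_grpSS : H42GrpSS := by
  intro p _ k _ _ _ V _ _ _ Γ _ ρ χ h Γ' hΓ'
  set b := Module.finBasisOfFinrankEq k V h.rank with hb
  obtain ⟨σ, hσ, hne⟩ := h42m_ss (h42g_H42Mat p b ρ χ h) Γ' hΓ'
  obtain ⟨α, β, hαβ⟩ := h.split σ
  obtain ⟨htr, hdet⟩ := h42g_tr_det b (ρ σ) α β hαβ
  refine ⟨σ, hσ, α, β, ?_, hαβ⟩
  rintro rfl
  apply hne
  rw [h42g_mat_apply, htr, hdet]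
  ring

/-- **TW-GRP (IRR).** -/
theorem h42g_grpIrr : H42GrpIrr := by
  intro p _ k _ _ _ V _ _ _ Γ _ ρ χ h W hW htr hst X hX
  set b := Module.finBasisOfFinrankEq k V h.rank with hb
  set e : Module.End k V ≃ₗ[k] Matrix (Fin 2) (Fin 2) k := LinearMap.toMatrix b b with he
  have hmem : e X ∈ W.map (e : Module.End k V →ₗ[k] Matrix (Fin 2) (Fin 2) k) := by
    refine h42m_irr (h42g_H42Mat p b ρ χ h) _ ?_ ?_ ?_ (e X) ?_
    · intro h0
      apply hW
      rw [Submodule.map_eq_bot_iff] at h0
      exact h0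
    · rintro _ ⟨Y, hY, rfl⟩
      have := htr Y hY
      rw [LinearMap.trace_eq_matrix_trace k b] at this
      exact this
    · rintro σ _ ⟨Y, hY, rfl⟩
      refine ⟨ρ σ * Y * ρ σ⁻¹, hst σ Y hY, ?_⟩
      simp only [LinearEquiv.coe_coe, he, h42g_mat_apply]
      rw [LinearMap.toMatrix_mul, LinearMap.toMatrix_mul]
    · have := hX
      rw [LinearMap.trace_eq_matrix_trace k b] at this
      exact this
  obtain ⟨Y, hY, hYX⟩ := hmem
  have : Y = X := e.injective hYX
  rw [← this]
  exact hY

end Fermat.Agent.S56
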