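import Fermat.Agent.S56.ChebIface
import Fermat.Agent.S56.H42GrpSSIrr
import Fermat.Agent.S14.GlueCoc.Degree

/-!
# S56, block TW-CHEB, rows CHEB-SS and CHEB-IRR (helper42): `H56SS` and `H56SlIrr`

Adapters from the abstract group theory of `S56/H42GrpSSIrr.lean`
(`h42g_grpSS : H42GrpSS`, `h42g_grpIrr : H42GrpIrr`) to the frozen interfaces of
`S56/ChebIface.lean`.

* `h42c_tw` : `h56c_Hyp p ρbar → H42TW p ρbar.ρ (cycloChar p)`.
* `h42c_fixMu n` : the subgroup `G_{ℚ(ζ_{p^(n+1)})}`; it contains all commutators.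
* `h42c_ss : H56SS`, `h42c_slIrr : H56SlIrr`.
-/

set_option autoImplicit false
set_option linter.unusedSectionVars false

open Polynomial ExtCitation

noncomputable section

namespace Fermat.Agent.S56

open Fermat.Agent.PT Fermat.Agent.S56L

/-- the hypotheses of S56 in the abstract frame. -/
theorem h42c_tw {p : ℕ} [Fact p.Prime] {k : Type} [Field k] [CharP k p]
    (ρbar : ResidualGaloisRep k) (hyp : h56c_Hyp p ρbar) : H42TW p ρbar.ρ (cycloChar p) where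
  odd := hyp.hp2
  rank := ρbar.finrank_eq
  split := hyp.hsplit
  det := hyp.hdet
  surj := Fermat.Agent.S14.GlueCoc.GCOC_cycloChar_surjective
  tw := hyp.hTW

/-- the Galois group acts on the `m`-th roots of unity through a commutative group. -/
theorem h42c_comm_mu (m : ℕ) (hm : m ≠ 0) (σ τ : GQ) (μ : AlgebraicClosure ℚ)
    (hμ : μ ^ m = 1) : σ (τ μ) = τ (σ μ) := by
  haveI : NeZero m := ⟨hm⟩
  obtain ⟨a, ha⟩ := rootsOfUnity.integer_power_of_ringEquiv m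
    (σ : AlgebraicClosure ℚ ≃+* AlgebraicClosure ℚ)
  obtain ⟨b, hb⟩ := rootsOfUnity.integer_power_of_ringEquiv m
    (τ : AlgebraicClosure ℚ ≃+* AlgebraicClosure ℚ)
  have hμ0 : μ ≠ 0 := by
    rintro rfl
    rw [zero_pow hm] at hμ
    exact zero_ne_one hμ
  set u : (AlgebraicClosure ℚ)ˣ := Units.mk0 μ hμ0 with hu
  have hur : u ∈ rootsOfUnity m (AlgebraicClosure ℚ) := by
    rw [mem_rootsOfUnity]
    apply Units.ext
    rw [Units.val_pow_eq_pow_val, Units.val_one, hu, Units.val_mk0, hμ]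
  have hσ : ∀ t : rootsOfUnity m (AlgebraicClosure ℚ),
      σ ((t : (AlgebraicClosure ℚ)ˣ) : AlgebraicClosure ℚ) =
        (((t : (AlgebraicClosure ℚ)ˣ) ^ a : (AlgebraicClosure ℚ)ˣ) : AlgebraicClosure ℚ) :=
    fun t => ha t
  have hτ : ∀ t : rootsOfUnity m (AlgebraicClosure ℚ),
      τ ((t : (AlgebraicClosure ℚ)ˣ) : AlgebraicClosure ℚ) =
        (((t : (AlgebraicClosure ℚ)ˣ) ^ b : (AlgebraicClosure ℚ)ˣ) : AlgebraicClosure ℚ) :=
    fun t => hb t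
  have h1 := hτ ⟨u, hur⟩
  have h2 := hσ ⟨u, hur⟩
  have h3 := hσ (⟨u, hur⟩ ^ b)
  have h4 := hτ (⟨u, hur⟩ ^ a)
  simp only [Subgroup.coe_zpow] at h1 h2 h3 h4
  have hμu : (u : AlgebraicClosure ℚ) = μ := rfl
  rw [hμu] at h1 h2
  rw [h1, h2, h3, h4, ← zpow_mul, ← zpow_mul, mul_comm]

/-- the subgroup `G_{ℚ(ζ_{p^(n+1)})}`. -/
def h42c_fixMu (p n : ℕ) : Subgroup GQ where
  carrier := {σ | h56c_FixMu p n σ}
  mul_mem' := by
    intro σ τ hσ hτ μ hμ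
    rw [AlgEquiv.mul_apply, hτ μ hμ, hσ μ hμ]
  one_mem' := fun μ _ => rfl
  inv_mem' := by
    intro σ hσ μ hμ
    have h := hσ μ hμ
    calc σ⁻¹ μ = σ⁻¹ (σ μ) := by rw [h]
      _ = (σ⁻¹ * σ) μ := rfl
      _ = μ := by rw [inv_mul_cancel]; rfl

theorem h42c_mem_fixMu (p n : ℕ) (σ : GQ) : σ ∈ h42c_fixMu p n ↔ h56c_FixMu p n σ := Iff.rfl

/-- `G_{ℚ(ζ_{p^(n+1)})}` contains all commutators. -/
theorem h42c_comm_mem (p : ℕ) [Fact p.Prime] (n : ℕ) (σ τ : GQ) :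
    σ * τ * σ⁻¹ * τ⁻¹ ∈ h42c_fixMu p n := by
  intro μ hμ
  have hm : p ^ (n + 1) ≠ 0 := pow_ne_zero _ (Fact.out : p.Prime).ne_zero
  have hν : (τ⁻¹ μ) ^ p ^ (n + 1) = 1 := by
    rw [← map_pow, hμ, map_one]
  have h1 : τ (σ⁻¹ (τ⁻¹ μ)) = σ⁻¹ (τ (τ⁻¹ μ)) :=
    (h42c_comm_mu _ hm σ⁻¹ τ (τ⁻¹ μ) hν).symm
  have h2 : τ (τ⁻¹ μ) = μ := by
    change (τ * τ⁻¹) μ = μ
    rw [mul_inv_cancel]; rfl
  have h3 : σ (σ⁻¹ μ) = μ := by
    change (σ * σ⁻¹) μ = μ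
    rw [mul_inv_cancel]; rfl
  calc (σ * τ * σ⁻¹ * τ⁻¹) μ = σ (τ (σ⁻¹ (τ⁻¹ μ))) := rfl
    _ = μ := by rw [h1, h2, h3]

/-- **CHEB-SS.** -/
theorem h42c_ss : H56SS := by
  intro p _ k _ _ _ ρbar hyp n
  obtain ⟨σ, hσ, α, β, hαβ, hchar⟩ := h42g_grpSS p k ρbar.V GQ ρbar.ρ (cycloChar p)
    (h42c_tw ρbar hyp) (h42c_fixMu p n) (h42c_comm_mem p n)
  exact ⟨σ, hσ, α, β, hαβ, hchar⟩

/-- **CHEB-IRR.** -/
theorem h42c_slIrr : H56SlIrr := by
  intro p _ k _ _ _ ρbar hyp W hW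
  by_cases hbot : W = ⊥
  · exact Or.inl hbot
  · right
    have key := h42g_grpIrr p k ρbar.V GQ ρbar.ρ (cycloChar p) (h42c_tw ρbar hyp)
      (W.map (h14l_sl ρbar).subtype) (by
        intro h0
        apply hbot
        rw [Submodule.eq_bot_iff] at h0 ⊢
        intro Y hY
        exact Subtype.ext (h0 _ ⟨Y, hY, rfl⟩)) (by
        rintro _ ⟨Y, -, rfl⟩
        exact (h14l_mem_sl ρbar _).mp Y.2) (by
        rintro σ _ ⟨Y, hY, rfl⟩
        refine ⟨h14l_Ad0 ρbar σ Y, hW σ Y hY, ?_⟩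
        rw [Submodule.subtype_apply, h14l_Ad0_coe]
        rfl)
    rw [eq_top_iff]
    intro Y _
    obtain ⟨Y', hY', hYY'⟩ := key (Y : Module.End k ρbar.V) ((h14l_mem_sl ρbar _).mp Y.2)
    have : Y' = Y := Subtype.ext hYY'
    rw [← this]
    exact hY'

end Fermat.Agent.S56
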