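import Fermat.Agent.S56.H30ChebH0
import Fermat.Agent.S53.Burnside

/-!
# S56, block TW-CHEB, row CHEB-IRR (helper30): `h30c_slIrr : H56SlIrr`

`ad⁰ ρbar` is an irreducible `k[G_ℚ]`-module.

* A stable line `k X`, `det X = 0`: `ker X` is a line of `V` stable under `G_ℚ`, hence under all
  endomorphisms (Burnside), absurd.
* A stable line `k X`, `det X ≠ 0`: `G_ℚ` acts on `X` through a sign; the stabiliser `G₀` of `X`
  is `G_ℚ` or has index `2`; an eigenspace of `X` over `k̄` is stable under `G₀`, against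
  absolute irreducibility resp. `hTW`.
* A stable plane: its orthogonal for the trace form is a stable line.
-/

set_option autoImplicit false

open Polynomial IsLocalRing ExtCitation

noncomputable section

namespace Fermat.Agent.S56

open Fermat.Agent.PT Fermat.Agent.S56L
open scoped TensorProduct

variable {k : Type} [Field k]

/-- `Ad0 σ⁻¹ X = c X` gives `X ρ(σ) = c ρ(σ) X`. -/
theorem h30c_comm (ρbar : ResidualGaloisRep k) (σ : GQ) (X : ↥(h14l_sl ρbar)) (c : k)
    (h : h14l_Ad0 ρbar σ⁻¹ X = c • X) :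
    (X : Module.End k ρbar.V) * ρbar.ρ σ = c • (ρbar.ρ σ * (X : Module.End k ρbar.V)) := by
  have h1 := congrArg (fun Y : ↥(h14l_sl ρbar) => (Y : Module.End k ρbar.V)) h
  simp only [h14l_Ad0_coe, inv_inv, Submodule.coe_smul] at h1
  calc (X : Module.End k ρbar.V) * ρbar.ρ σ
      = ρbar.ρ σ * (ρbar.ρ σ⁻¹ * (X : Module.End k ρbar.V) * ρbar.ρ σ) := by
        rw [← mul_assoc, ← mul_assoc, h14l_rho_mul_inv, one_mul]
    _ = c • (ρbar.ρ σ * (X : Module.End k ρbar.V)) := by rw [h1, mul_smul_comm]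

/-- no stable line spanned by a singular endomorphism. -/
theorem h30c_noLine_sing (ρbar : ResidualGaloisRep k) (habs : ρbar.IsAbsolutelyIrreducible)
    (X : ↥(h14l_sl ρbar)) (hX : X ≠ 0)
    (hdet : LinearMap.det (X : Module.End k ρbar.V) = 0)
    (hst : ∀ σ : GQ, ∃ c : k, h14l_Ad0 ρbar σ X = c • X) : False := by
  have hker : ∀ T : Module.End k ρbar.V, ∀ v : ρbar.V,
      (X : Module.End k ρbar.V) v = 0 → (X : Module.End k ρbar.V) (T v) = 0 := by
    intro T
    have hT : T ∈ Submodule.span k (Set.range ρbar.ρ) := by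
      rw [Fermat.Agent.S53.residual_span_range_eq_top ρbar habs]
      trivial
    induction hT using Submodule.span_induction with
    | mem T hT =>
      obtain ⟨σ, rfl⟩ := hT
      intro v hv
      obtain ⟨c, hc⟩ := hst σ⁻¹
      have h2 := LinearMap.congr_fun (h30c_comm ρbar σ X c hc) v
      simp only [Module.End.mul_apply, LinearMap.smul_apply] at h2
      rw [h2, hv, map_zero, smul_zero]
    | zero =>
      intro v _
      rw [LinearMap.zero_apply, map_zero]
    | add T T' _ _ hT hT' =>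
      intro v hv
      rw [LinearMap.add_apply, map_add, hT v hv, hT' v hv, add_zero]
    | smul a T _ hT =>
      intro v hv
      rw [LinearMap.smul_apply, map_smul, hT v hv, smul_zero]
  have h1 := LinearMap.bot_lt_ker_of_det_eq_zero hdet
  obtain ⟨v₀, hv₀, hv₀'⟩ := Submodule.exists_mem_ne_zero_of_ne_bot (ne_of_gt h1)
  have h2 : ∃ w, (X : Module.End k ρbar.V) w ≠ 0 := by
    by_contra hcon
    push Not at hcon
    exact hX (Subtype.ext (LinearMap.ext hcon))
  obtain ⟨w, hw⟩ := h2
  let e : Module.Basis (Fin 2) k ρbar.V := Module.finBasisOfFinrankEq k ρbar.V ρbar.finrank_eq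
  have h3 : ∃ i, e.repr v₀ i ≠ 0 := by
    by_contra hcon
    push Not at hcon
    apply hv₀'
    apply e.repr.injective
    ext i
    rw [hcon i, map_zero, Finsupp.zero_apply]
  obtain ⟨i, hi⟩ := h3
  have h4 := hker ((e.coord i).smulRight w) v₀ (LinearMap.mem_ker.1 hv₀)
  rw [LinearMap.smulRight_apply, map_smul, Module.Basis.coord_apply] at h4
  exact hw ((smul_eq_zero.1 h4).resolve_left hi)

/-- on a stable line spanned by a regular endomorphism the action is by a sign. -/
theorem h30c_sign (ρbar : ResidualGaloisRep k) (σ : GQ) (X : ↥(h14l_sl ρbar))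
    (hdet : LinearMap.det (X : Module.End k ρbar.V) ≠ 0) (c : k)
    (h : h14l_Ad0 ρbar σ X = c • X) : c = 1 ∨ c = -1 := by
  have h1 := congrArg (fun Y : ↥(h14l_sl ρbar) => LinearMap.det (Y : Module.End k ρbar.V)) h
  simp only [h14l_Ad0_coe, Submodule.coe_smul, map_mul, LinearMap.det_smul, ρbar.finrank_eq] at h1
  have h2 : LinearMap.det (ρbar.ρ σ) * LinearMap.det (ρbar.ρ σ⁻¹) = 1 := by
    rw [← map_mul, h14l_rho_mul_inv, map_one]
  have h3 : c ^ 2 = 1 := by
    have h4 : c ^ 2 * LinearMap.det (X : Module.End k ρbar.V) =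
        1 * LinearMap.det (X : Module.End k ρbar.V) := by
      rw [← h1, ← h2]
      ring
    exact mul_right_cancel₀ hdet h4
  exact sq_eq_one_iff.1 h3

/-- the stabiliser of `X`. -/
def h30c_stab (ρbar : ResidualGaloisRep k) (X : ↥(h14l_sl ρbar)) : Subgroup GQ where
  carrier := {σ | h14l_Ad0 ρbar σ X = X}
  one_mem' := by
    show h14l_Ad0 ρbar 1 X = X
    rw [map_one, Module.End.one_apply]
  mul_mem' := by
    intro a b ha hb
    show h14l_Ad0 ρbar (a * b) X = X
    rw [map_mul, Module.End.mul_apply, hb, ha]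
  inv_mem' := by
    intro a ha
    show h14l_Ad0 ρbar a⁻¹ X = X
    have h1 : h14l_Ad0 ρbar a⁻¹ (h14l_Ad0 ρbar a X) = X := by
      rw [← Module.End.mul_apply, ← map_mul, inv_mul_cancel, map_one, Module.End.one_apply]
    rw [ha] at h1
    exact h1

theorem h30c_mem_stab (ρbar : ResidualGaloisRep k) (X : ↥(h14l_sl ρbar)) (σ : GQ) :
    σ ∈ h30c_stab ρbar X ↔ h14l_Ad0 ρbar σ X = X := Iff.rfl

theorem h30c_stab_index (ρbar : ResidualGaloisRep k) (hp2 : (2 : k) ≠ 0)
    (X : ↥(h14l_sl ρbar)) (hX : X ≠ 0)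
    (hpm : ∀ σ : GQ, h14l_Ad0 ρbar σ X = X ∨ h14l_Ad0 ρbar σ X = -X) :
    h30c_stab ρbar X = ⊤ ∨ (h30c_stab ρbar X).index = 2 := by
  by_cases h : ∀ σ : GQ, h14l_Ad0 ρbar σ X = X
  · left
    exact (Subgroup.eq_top_iff' _).2 h
  · right
    push Not at h
    obtain ⟨a, ha⟩ := h
    have ha' : h14l_Ad0 ρbar a X = -X := (hpm a).resolve_left ha
    have hne : (-X : ↥(h14l_sl ρbar)) ≠ X := by
      intro h1
      have h2 : (2 : k) • X = 0 := by
        rw [two_smul]
        nth_rewrite 1 [← h1]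
        exact neg_add_cancel X
      exact hX ((smul_eq_zero.1 h2).resolve_left hp2)
    rw [Subgroup.index_eq_two_iff]
    refine ⟨a, fun b => ?_⟩
    have h1 : h14l_Ad0 ρbar (b * a) X = -(h14l_Ad0 ρbar b X) := by
      rw [map_mul, Module.End.mul_apply, ha', map_neg]
    rw [h30c_mem_stab, h30c_mem_stab, h1]
    rcases hpm b with hb | hb
    · rw [hb]
      exact Or.inr ⟨rfl, hne⟩
    · rw [hb, neg_neg]
      exact Or.inl ⟨rfl, hne⟩

/-- no stable line spanned by a regular endomorphism. -/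
theorem h30c_noLine_reg (p : ℕ) [Fact p.Prime] [CharP k p] (ρbar : ResidualGaloisRep k)
    (hyp : h56c_Hyp p ρbar) (X : ↥(h14l_sl ρbar)) (hX : X ≠ 0)
    (hdet : LinearMap.det (X : Module.End k ρbar.V) ≠ 0)
    (hst : ∀ σ : GQ, ∃ c : k, h14l_Ad0 ρbar σ X = c • X) : False := by
  have hp2 : (2 : k) ≠ 0 := by
    apply Ring.two_ne_zero
    rw [ringChar.eq k p]
    exact hyp.hp2
  have hpm : ∀ σ : GQ, h14l_Ad0 ρbar σ X = X ∨ h14l_Ad0 ρbar σ X = -X := by
    intro σ
    obtain ⟨c, hc⟩ := hst σ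
    rcases h30c_sign ρbar σ X hdet c hc with h | h
    · left
      rw [hc, h, one_smul]
    · right
      rw [hc, h]
      exact neg_one_smul k X
  have hfr : Module.finrank (AlgebraicClosure k) (AlgebraicClosure k ⊗[k] ρbar.V) = 2 :=
    (ρbar.baseChange (AlgebraicClosure k)).finrank_eq
  haveI : FiniteDimensional (AlgebraicClosure k) (AlgebraicClosure k ⊗[k] ρbar.V) :=
    Module.finite_of_finrank_eq_succ hfr
  haveI : Nontrivial (AlgebraicClosure k ⊗[k] ρbar.V) :=
    Module.nontrivial_of_finrank_pos (R := AlgebraicClosure k) (by rw [hfr]; norm_num)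
  obtain ⟨μ, hμ⟩ := Module.End.exists_eigenvalue
    ((X : Module.End k ρbar.V).baseChange (AlgebraicClosure k))
  have hE1 : Module.End.eigenspace
      ((X : Module.End k ρbar.V).baseChange (AlgebraicClosure k)) μ ≠ ⊥ := hμ
  have hE2 : Module.End.eigenspace
      ((X : Module.End k ρbar.V).baseChange (AlgebraicClosure k)) μ ≠ ⊤ := by
    intro htop
    have h1 : (X : Module.End k ρbar.V).baseChange (AlgebraicClosure k) =
        μ • (LinearMap.id : Module.End (AlgebraicClosure k) (AlgebraicClosure k ⊗[k] ρbar.V)) := by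
      ext w
      have hw : (1 : AlgebraicClosure k) ⊗ₜ[k] w ∈ Module.End.eigenspace
          ((X : Module.End k ρbar.V).baseChange (AlgebraicClosure k)) μ := by
        rw [htop]
        trivial
      rw [Module.End.mem_eigenspace_iff] at hw
      simpa using hw
    have h2 := congrArg (LinearMap.trace (AlgebraicClosure k) (AlgebraicClosure k ⊗[k] ρbar.V)) h1
    rw [LinearMap.trace_baseChange, (h14l_mem_sl ρbar _).1 X.2, map_zero, map_smul,
      LinearMap.trace_id, hfr, smul_eq_mul] at h2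
    have h2' : (2 : AlgebraicClosure k) ≠ 0 := by
      have h5 := (map_ne_zero (algebraMap k (AlgebraicClosure k))).2 hp2
      rwa [map_ofNat] at h5
    have hμ0 : μ = 0 := by
      rcases mul_eq_zero.1 h2.symm with h | h
      · exact h
      · exact absurd (by exact_mod_cast h) h2'
    rw [hμ0, zero_smul] at h1
    have h3 : (X : Module.End k ρbar.V) = 0 := by
      apply LinearMap.baseChangeHom_injective k ρbar.V (N := ρbar.V) (AlgebraicClosure k)
      show (X : Module.End k ρbar.V).baseChange (AlgebraicClosure k) =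
        (0 : Module.End k ρbar.V).baseChange (AlgebraicClosure k)
      rw [LinearMap.baseChange_zero]
      exact h1
    exact hX (Subtype.ext h3)
  have hEst : ∀ σ ∈ h30c_stab ρbar X, ∀ x ∈ Module.End.eigenspace
      ((X : Module.End k ρbar.V).baseChange (AlgebraicClosure k)) μ,
      (ρbar.baseChange (AlgebraicClosure k)).ρ σ x ∈ Module.End.eigenspace
        ((X : Module.End k ρbar.V).baseChange (AlgebraicClosure k)) μ := by
    intro σ hσ x hx
    rw [Module.End.mem_eigenspace_iff] at hx ⊢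
    have h1 : h14l_Ad0 ρbar σ⁻¹ X = (1 : k) • X := by
      rw [one_smul]
      exact (h30c_stab ρbar X).inv_mem hσ
    have h2 := h30c_comm ρbar σ X 1 h1
    rw [one_smul] at h2
    have h3 := congrArg (LinearMap.baseChange (AlgebraicClosure k)) h2
    rw [LinearMap.baseChange_mul, LinearMap.baseChange_mul] at h3
    have h4 := LinearMap.congr_fun h3 x
    rw [Module.End.mul_apply, Module.End.mul_apply, hx, map_smul] at h4
    exact h4
  rcases h30c_stab_index ρbar hp2 X hX hpm with h | h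
  · rcases hyp.habs _ (fun σ x hx => hEst σ (h ▸ Subgroup.mem_top σ) x hx) with h' | h'
    · exact hE1 h'
    · exact hE2 h'
  · rcases hyp.hTW (AlgebraicClosure k) (h30c_stab ρbar X) h _ hEst with h' | h'
    · exact hE1 h'
    · exact hE2 h'

/-- no stable line in `ad⁰ ρbar`. -/
theorem h30c_noLine (p : ℕ) [Fact p.Prime] [CharP k p] (ρbar : ResidualGaloisRep k)
    (hyp : h56c_Hyp p ρbar) (X : ↥(h14l_sl ρbar)) (hX : X ≠ 0)
    (hst : ∀ σ : GQ, ∃ c : k, h14l_Ad0 ρbar σ X = c • X) : False := by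
  by_cases hdet : LinearMap.det (X : Module.End k ρbar.V) = 0
  · exact h30c_noLine_sing ρbar hyp.habs X hX hdet hst
  · exact h30c_noLine_reg p ρbar hyp X hX hdet hst

/-! ## The trace form -/

/-- the trace form on `ad⁰`. -/
def h30c_B (ρbar : ResidualGaloisRep k) : LinearMap.BilinForm k ↥(h14l_sl ρbar) :=
  LinearMap.mk₂ k
    (fun Y Z => LinearMap.trace k ρbar.V
      ((Y : Module.End k ρbar.V) * (Z : Module.End k ρbar.V)))
    (by intro Y Y' Z; rw [Submodule.coe_add, add_mul, map_add])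
    (by intro c Y Z; rw [Submodule.coe_smul, smul_mul_assoc, map_smul])
    (by intro Y Z Z'; rw [Submodule.coe_add, mul_add, map_add])
    (by intro c Y Z; rw [Submodule.coe_smul, mul_smul_comm, map_smul])

theorem h30c_B_apply (ρbar : ResidualGaloisRep k) (Y Z : ↥(h14l_sl ρbar)) :
    h30c_B ρbar Y Z = LinearMap.trace k ρbar.V
      ((Y : Module.End k ρbar.V) * (Z : Module.End k ρbar.V)) := rfl

theorem h30c_B_inv (ρbar : ResidualGaloisRep k) (σ : GQ) (Y Z : ↥(h14l_sl ρbar)) :
    h30c_B ρbar (h14l_Ad0 ρbar σ Y) (h14l_Ad0 ρbar σ Z) = h30c_B ρbar Y Z := by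
  rw [h30c_B_apply, h30c_B_apply, h14l_Ad0_coe, h14l_Ad0_coe]
  have h1 : ρbar.ρ σ * (Y : Module.End k ρbar.V) * ρbar.ρ σ⁻¹ *
      (ρbar.ρ σ * (Z : Module.End k ρbar.V) * ρbar.ρ σ⁻¹) =
      ρbar.ρ σ * ((Y : Module.End k ρbar.V) * (Z : Module.End k ρbar.V)) * ρbar.ρ σ⁻¹ := by
    calc ρbar.ρ σ * (Y : Module.End k ρbar.V) * ρbar.ρ σ⁻¹ *
          (ρbar.ρ σ * (Z : Module.End k ρbar.V) * ρbar.ρ σ⁻¹)
        = ρbar.ρ σ * (Y : Module.End k ρbar.V) * (ρbar.ρ σ⁻¹ * ρbar.ρ σ) *
            (Z : Module.End k ρbar.V) * ρbar.ρ σ⁻¹ := by simp only [mul_assoc]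
      _ = ρbar.ρ σ * ((Y : Module.End k ρbar.V) * (Z : Module.End k ρbar.V)) * ρbar.ρ σ⁻¹ := by
          rw [h14l_rho_inv_mul, mul_one]
          simp only [mul_assoc]
  rw [h1, LinearMap.trace_mul_comm, ← mul_assoc, h14l_rho_inv_mul, one_mul]

section Coord

variable {ρbar : ResidualGaloisRep k} (e : Module.Basis (Fin 2) k ρbar.V)

theorem h30c_tr01 (m : Module.End k ρbar.V) :
    LinearMap.trace k ρbar.V (m * (e.coord 1).smulRight (e 0)) = e.repr (m (e 0)) 1 := by
  rw [h30s_trace e]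
  simp [Module.End.mul_apply, LinearMap.smulRight_apply, Module.Basis.coord_apply,
    Module.Basis.repr_self]

theorem h30c_tr10 (m : Module.End k ρbar.V) :
    LinearMap.trace k ρbar.V (m * (e.coord 0).smulRight (e 1)) = e.repr (m (e 1)) 0 := by
  rw [h30s_trace e]
  simp [Module.End.mul_apply, LinearMap.smulRight_apply, Module.Basis.coord_apply,
    Module.Basis.repr_self]

theorem h30c_trH (m : Module.End k ρbar.V) :
    LinearMap.trace k ρbar.V
      (m * ((e.coord 0).smulRight (e 0) - (e.coord 1).smulRight (e 1))) =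
      e.repr (m (e 0)) 0 - e.repr (m (e 1)) 1 := by
  rw [h30s_trace e]
  simp [Module.End.mul_apply, LinearMap.smulRight_apply, Module.Basis.coord_apply,
    Module.Basis.repr_self]
  ring

end Coord

/-- the trace form on `ad⁰` is nondegenerate (`2 ≠ 0`). -/
theorem h30c_B_ker (ρbar : ResidualGaloisRep k) (hp2 : (2 : k) ≠ 0) :
    LinearMap.ker (h30c_B ρbar) = ⊥ := by
  rw [LinearMap.ker_eq_bot']
  intro Y hY
  let e : Module.Basis (Fin 2) k ρbar.V := Module.finBasisOfFinrankEq k ρbar.V ρbar.finrank_eq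
  have hB : ∀ Z : Module.End k ρbar.V, Z ∈ h14l_sl ρbar →
      LinearMap.trace k ρbar.V ((Y : Module.End k ρbar.V) * Z) = 0 := by
    intro Z hZ
    have h1 := LinearMap.congr_fun hY ⟨Z, hZ⟩
    rw [h30c_B_apply] at h1
    exact h1
  have m01 : (e.coord 1).smulRight (e 0) ∈ h14l_sl ρbar := by
    rw [h14l_mem_sl]
    have h := h30c_tr01 e (1 : Module.End k ρbar.V)
    rw [one_mul, Module.End.one_apply, Module.Basis.repr_self] at h
    rw [h]
    simp
  have m10 : (e.coord 0).smulRight (e 1) ∈ h14l_sl ρbar := by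
    rw [h14l_mem_sl]
    have h := h30c_tr10 e (1 : Module.End k ρbar.V)
    rw [one_mul, Module.End.one_apply, Module.Basis.repr_self] at h
    rw [h]
    simp
  have mH : (e.coord 0).smulRight (e 0) - (e.coord 1).smulRight (e 1) ∈ h14l_sl ρbar := by
    rw [h14l_mem_sl]
    have h := h30c_trH e (1 : Module.End k ρbar.V)
    rw [one_mul, Module.End.one_apply, Module.End.one_apply, Module.Basis.repr_self,
      Module.Basis.repr_self] at h
    rw [h]
    simp
  have y10 : e.repr ((Y : Module.End k ρbar.V) (e 0)) 1 = 0 := by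
    rw [← h30c_tr01 e]
    exact hB _ m01
  have y01 : e.repr ((Y : Module.End k ρbar.V) (e 1)) 0 = 0 := by
    rw [← h30c_tr10 e]
    exact hB _ m10
  have yH : e.repr ((Y : Module.End k ρbar.V) (e 0)) 0 -
      e.repr ((Y : Module.End k ρbar.V) (e 1)) 1 = 0 := by
    rw [← h30c_trH e]
    exact hB _ mH
  have yT : e.repr ((Y : Module.End k ρbar.V) (e 0)) 0 +
      e.repr ((Y : Module.End k ρbar.V) (e 1)) 1 = 0 := by
    rw [← h30s_trace e]
    exact (h14l_mem_sl ρbar _).1 Y.2
  have y00 : e.repr ((Y : Module.End k ρbar.V) (e 0)) 0 = 0 := by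
    have h2 : (2 : k) * e.repr ((Y : Module.End k ρbar.V) (e 0)) 0 = 0 := by
      linear_combination yH + yT
    exact (mul_eq_zero.1 h2).resolve_left hp2
  have y11 : e.repr ((Y : Module.End k ρbar.V) (e 1)) 1 = 0 := by
    rw [y00, zero_add] at yT
    exact yT
  apply Subtype.ext
  apply e.ext
  intro i
  rw [Submodule.coe_zero, LinearMap.zero_apply]
  apply e.repr.injective
  ext j
  rw [map_zero, Finsupp.zero_apply]
  fin_cases i <;> fin_cases j
  · exact y00
  · exact y10
  · exact y01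
  · exact y11

/-- **CHEB-IRR.**  `ad⁰ ρbar` is irreducible. -/
theorem h30c_slIrr : H56SlIrr := by
  intro p _ k _ _ _ ρbar hyp W hW
  have hp2 : (2 : k) ≠ 0 := by
    apply Ring.two_ne_zero
    rw [ringChar.eq k p]
    exact hyp.hp2
  have h3 := h30h_finrank_sl ρbar
  haveI : FiniteDimensional k ↥(h14l_sl ρbar) :=
    Module.finite_of_finrank_pos (by rw [h3]; norm_num)
  have hle : Module.finrank k ↥W ≤ 3 := h3 ▸ Submodule.finrank_le W
  have hline : ∀ U : Submodule k ↥(h14l_sl ρbar),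
      (∀ σ : GQ, ∀ X ∈ U, h14l_Ad0 ρbar σ X ∈ U) → Module.finrank k ↥U ≠ 1 := by
    intro U hU h1
    haveI : Module.Free k ↥U := Module.Free.of_divisionRing k ↥U
    obtain ⟨⟨X, hXU⟩, hX0, hXs⟩ := (finrank_eq_one_iff' (K := k) (V := ↥U)).1 h1
    have hX : X ≠ 0 := fun h => hX0 (Subtype.ext h)
    refine h30c_noLine p ρbar hyp X hX (fun σ => ?_)
    obtain ⟨c, hc⟩ := hXs ⟨h14l_Ad0 ρbar σ X, hU σ X hXU⟩
    exact ⟨c, (congrArg Subtype.val hc).symm⟩
  have horth : ∀ σ : GQ, ∀ X ∈ (h30c_B ρbar).orthogonal W,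
      h14l_Ad0 ρbar σ X ∈ (h30c_B ρbar).orthogonal W := by
    intro σ X hX
    rw [LinearMap.BilinForm.mem_orthogonal_iff] at hX ⊢
    intro Z hZ
    have h1 := hX (h14l_Ad0 ρbar σ⁻¹ Z) (hW σ⁻¹ Z hZ)
    rw [← h30c_B_inv ρbar σ, ← Module.End.mul_apply, ← map_mul, mul_inv_cancel, map_one,
      Module.End.one_apply] at h1
    exact h1
  have hsum := LinearMap.BilinForm.finrank_add_finrank_orthogonal' (B := h30c_B ρbar) W
  rw [h30c_B_ker ρbar hp2, inf_bot_eq, finrank_bot, add_zero, h3] at hsum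
  have h1 := hline W hW
  have h2 := hline _ horth
  by_cases h0 : Module.finrank k ↥W = 0
  · left
    exact Submodule.finrank_eq_zero.1 h0
  · right
    apply Submodule.eq_top_of_finrank_eq
    rw [h3]
    omega

end Fermat.Agent.S56
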