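import Fermat.Agent.S56.SelGWIface
import Fermat.Agent.S56.H30ChebIrr

/-!
# S56, row SEL-GW-1 (helper5): the trace form

* `h5t_tNe      : H38TNe`      — the chosen additive map `k → 𝔽_p` is nonzero;
* `h5t_tauBij   : H38TauBij`   — the trace form `τ : M → Hom_{𝔽_p}(M, 𝔽_p)` is bijective (`p` odd);
* `h5t_tauEquiv : H38TauEquiv` — `τ` intertwines `ad⁰(1)` with the twisted dual of `ad⁰`.

Nothing is assumed in this file.
-/

set_option autoImplicit false

open Polynomial IsLocalRing ExtCitation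

noncomputable section

namespace Fermat.Agent.S56

open Fermat.Agent.PT Fermat.Agent.S56L Fermat.Agent.S56G

/-- a nonzero additive map `k → 𝔽_p` exists (a coordinate of a basis over `𝔽_p`). -/
theorem h5t_exists_ne (p : ℕ) [Fact p.Prime] (k : Type) [Field k] [Finite k] [CharP k p] :
    ∃ t : k →+ ZMod p, t ≠ 0 := by
  letI : Algebra (ZMod p) k := ZMod.algebra k p
  let b := Module.Free.chooseBasis (ZMod p) k
  have hne : Nonempty (Module.Free.ChooseBasisIndex (ZMod p) k) := by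
    by_contra hcon
    rw [not_nonempty_iff] at hcon
    have h1 : (1 : k) = 0 := by
      have h2 := b.repr.injective (a₁ := (1 : k)) (a₂ := 0) (by
        ext i
        exact (hcon.false i).elim)
      exact h2
    exact one_ne_zero h1
  obtain ⟨i⟩ := hne
  refine ⟨(b.coord i).toAddMonoidHom, fun h => ?_⟩
  have h1 : (b.coord i).toAddMonoidHom (b i) = 0 := by
    rw [h]
    rfl
  have h2 : (b.coord i) (b i) = 1 := by
    rw [Module.Basis.coord_apply, Module.Basis.repr_self, Finsupp.single_eq_same]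
  have h3 : (b.coord i).toAddMonoidHom (b i) = (b.coord i) (b i) := rfl
  rw [h3, h2] at h1
  exact one_ne_zero h1

/-- **SEL-GW-1a.** -/
theorem h5t_tNe : H38TNe := by
  intro p _ k _ _ _
  exact Classical.epsilon_spec (p := fun t : k →+ ZMod p => t ≠ 0) (h5t_exists_ne p k)

/-- `2 ≠ 0` in a field of odd characteristic. -/
theorem h5t_two_ne_zero (p : ℕ) [Fact p.Prime] (hp2 : p ≠ 2) (k : Type) [Field k] [CharP k p] :
    (2 : k) ≠ 0 := by
  intro h
  have h1 : ((2 : ℕ) : k) = 0 := by exact_mod_cast h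
  rw [CharP.cast_eq_zero_iff k p] at h1
  exact hp2 ((Nat.prime_dvd_prime_iff_eq (Fact.out : p.Prime) Nat.prime_two).1 h1)

/-- the `𝔽_p`-valued form detects the `k`-valued trace form. -/
theorem h5t_form_eq_zero (p : ℕ) [Fact p.Prime] {k : Type} [Field k] [Finite k] [CharP k p]
    (ρbar : ResidualGaloisRep k) (X : ↥(h14l_sl ρbar))
    (h : ∀ Y : ↥(h14l_sl ρbar), h38g_form p ρbar X Y = 0) (Y : ↥(h14l_sl ρbar)) :
    h30c_B ρbar X Y = 0 := by
  by_contra hb
  apply h5t_tNe p k
  ext z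
  have h1 := h ((z / h30c_B ρbar X Y) • Y)
  rw [h38g_form, Submodule.coe_smul, mul_smul_comm, map_smul, smul_eq_mul] at h1
  rw [← h30c_B_apply, div_mul_cancel₀ z hb] at h1
  rw [h1]
  rfl

/-- `M` is finite. -/
theorem h5t_finite_sl {k : Type} [Field k] [Finite k] (ρbar : ResidualGaloisRep k) :
    Finite ↥(h14l_sl ρbar) := by
  haveI : Finite (Module.End k ρbar.V) := Module.finite_of_finite k
  exact Subtype.finite

/-- **SEL-GW-1b.** -/
theorem h5t_tauBij : H38TauBij := by
  intro p _ hp2 k _ _ _ ρbar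
  have hinj : Function.Injective (h38g_tau p ρbar) := by
    rw [injective_iff_map_eq_zero]
    intro X hX
    have h1 : ∀ Y : ↥(h14l_sl ρbar), h38g_form p ρbar (h38g_to p ρbar X) Y = 0 := by
      intro Y
      have h2 := LinearMap.congr_fun hX (h38g_of p ρbar Y)
      exact h2
    have h3 : h38g_to p ρbar X ∈ LinearMap.ker (h30c_B ρbar) := by
      rw [LinearMap.mem_ker]
      ext Y
      exact h5t_form_eq_zero p ρbar _ h1 Y
    rw [h30c_B_ker ρbar (h5t_two_ne_zero p hp2 k), Submodule.mem_bot] at h3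
    exact h3
  haveI : Finite (h38g_M p ρbar) := h5t_finite_sl ρbar
  haveI : Module.Finite (ZMod p) (h38g_M p ρbar) := Module.Finite.of_finite
  refine ⟨hinj, ?_⟩
  exact (LinearMap.injective_iff_surjective_of_finrank_eq_finrank
    (Subspace.dual_finrank_eq (K := ZMod p) (V := h38g_M p ρbar)).symm).1 hinj

/-- the trace form is invariant: `tr (Ad0 σ X · Y) = tr (X · Ad0 σ⁻¹ Y)`. -/
theorem h5t_B_adj {k : Type} [Field k] (ρbar : ResidualGaloisRep k) (σ : GQ)
    (X Y : ↥(h14l_sl ρbar)) :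
    h30c_B ρbar (h14l_Ad0 ρbar σ X) Y = h30c_B ρbar X (h14l_Ad0 ρbar σ⁻¹ Y) := by
  have h1 := h30c_B_inv ρbar σ⁻¹ (h14l_Ad0 ρbar σ X) Y
  have h2 : h14l_Ad0 ρbar σ⁻¹ (h14l_Ad0 ρbar σ X) = X := by
    rw [← Module.End.mul_apply, ← map_mul, inv_mul_cancel, map_one, Module.End.one_apply]
  rw [h2] at h1
  exact h1.symm

/-- **SEL-GW-1c.** -/
theorem h5t_tauEquiv : H38TauEquiv := by
  intro p _ k _ _ ρbar σ X
  ext Y
  rw [dualTw_apply, LinearMap.smul_apply, LinearMap.comp_apply, h38g_tau_apply, h38g_tau_apply,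
    h38g_to_of, h38g_to_of, h38g_rho_apply, h38g_to_of, h56c_Ad0tw_apply, h56c_cyc_apply,
    h38g_form_cast_left, smul_eq_mul]
  congr 1
  have h1 := h5t_B_adj ρbar σ X (h38g_to p ρbar Y)
  rw [h30c_B_apply, h30c_B_apply] at h1
  rw [h38g_form, h38g_form, h1]

end Fermat.Agent.S56
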