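import Fermat.Agent.S56.SelGWDefs

/-!
# S56, row SEL-GW (sub-architect helper38): frozen leaves of the adapter `H47GW ⟹ H56GWSel`

Vocabulary: `S56/SelGWDefs.lean`.  Target: `H56GWSel` (`S56/SelIface.lean`), assembled in
`S56/SelGWAsm.lean` from `H47GW`, `H47AnnTop` (`S56G/Iface.lean`) and the leaves below.

* `H38TNe`, `H38TauBij`, `H38TauEquiv` (row SEL-GW-1, pure algebra): the trace form
  `τ : M → Hom_{𝔽_p}(M, 𝔽_p)` is bijective and intertwines `ad⁰(1)` with the twisted dual;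
* `H38Disc`, `H38LevSel`, `H38LevDual` (row SEL-GW-2): the dictionary between the levels
  `levQ Sg` and "`levFin` + unramified outside `Sg`";
* `H38H0` (row SEL-GW-3): `H⁰(G_ℚ, ad⁰) = 0` and `dim_{𝔽_p} (ad⁰)^{c = 1} = [k : 𝔽_p]`;
* `H38Dim` (row SEL-GW-4): `dim_{𝔽_p} = [k : 𝔽_p] · dim_k` for `k`-subspaces of cochains;
* `H38LocFin` (row SEL-GW-5): the continuous local cocycles form a finite dimensional space;
* `H38GWSelFin` : `H56GWSel` with the additional hypothesis that the `Ls v` are finite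
  dimensional (what the assembly proves without `H38LocFin`).

Nothing is assumed in this file.
-/

set_option autoImplicit false

open Polynomial IsLocalRing ExtCitation

noncomputable section

namespace Fermat.Agent.S56

open Fermat.Agent.PT Fermat.Agent.S56L Fermat.Agent.S56G

/-! ## Row SEL-GW-1: the trace form (pure algebra) -/

/-- **SEL-GW-1a.**  There is a nonzero additive map `k → 𝔽_p`, so the chosen one is nonzero. -/
def H38TNe : Prop :=
  ∀ (p : ℕ) [Fact p.Prime] (k : Type) [Field k] [Finite k] [CharP k p], h38g_t p k ≠ 0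

/-- **SEL-GW-1b.**  The trace form `τ : M → Hom_{𝔽_p}(M, 𝔽_p)` is bijective (`p` odd: the form
`(X, Y) ↦ tr (X Y)` on the trace zero endomorphisms of a plane is nondegenerate; `t ≠ 0`;
`M` is finite). -/
def H38TauBij : Prop :=
  ∀ (p : ℕ) [Fact p.Prime], p ≠ 2 → ∀ (k : Type) [Field k] [Finite k] [CharP k p]
    (ρbar : ResidualGaloisRep k), Function.Bijective (h38g_tau p ρbar)

/-- **SEL-GW-1c.**  `τ` intertwines `ad⁰(1) = ω · ad⁰` with the twisted dual of `ad⁰` over
`𝔽_p`. -/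
def H38TauEquiv : Prop :=
  ∀ (p : ℕ) [Fact p.Prime] (k : Type) [Field k] [CharP k p] (ρbar : ResidualGaloisRep k)
    (σ : GQ) (X : ↥(h14l_sl ρbar)),
    h38g_tau p ρbar (h38g_of p ρbar (h56c_Ad0tw p ρbar σ X)) =
      dualTw (cycloChar p) (h38g_rho p ρbar) σ (h38g_tau p ρbar (h38g_of p ρbar X))

/-! ## Row SEL-GW-2: levels -/

/-- **SEL-GW-2a.**  `ad⁰ ρbar` is discrete; it is discrete for the levels unramified outside
`Sg` when `ρbar` is unramified outside `Sg`. -/
def H38Disc : Prop :=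
  ∀ (p : ℕ) [Fact p.Prime] (k : Type) [Field k] [Finite k] [CharP k p]
    (ρbar : ResidualGaloisRep k),
    IsDisc levFin (h38g_rho p ρbar) ∧
    ∀ Sg : Finset Nat.Primes, (∀ q : Nat.Primes, q ∉ Sg → ρbar.IsUnramifiedAt (q : ℕ)) →
      IsDisc (levQ Sg) (h38g_rho p ρbar)

/-- **SEL-GW-2b.**  Cocycles of `ad⁰`: continuous for the levels unramified outside `Sg` `⟺`
continuous and zero on the inertia groups outside `Sg`. -/
def H38LevSel : Prop :=
  ∀ (p : ℕ) [Fact p.Prime] (k : Type) [Field k] [Finite k] [CharP k p]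
    (ρbar : ResidualGaloisRep k) (Sg : Finset Nat.Primes),
    (∀ q : Nat.Primes, q ∉ Sg → ρbar.IsUnramifiedAt (q : ℕ)) →
    ∀ c : GQ → ↥(h14l_sl ρbar),
      (fun g => h38g_of p ρbar (c g)) ∈ Z1 (levQ Sg) (h38g_rho p ρbar) ↔
        c ∈ Z1 levFin (h14l_Ad0 ρbar) ∧ c ∈ h56s_unr ρbar Sg

/-- **SEL-GW-2c.**  Cocycles of `ad⁰(1)`, transported by `τ` to cocycles of the twisted dual:
continuous for the levels unramified outside `Sg ∋ p` `⟺` continuous and zero on the inertia
groups outside `Sg`. -/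
def H38LevDual : Prop :=
  ∀ (p : ℕ) [Fact p.Prime], p ≠ 2 → ∀ (k : Type) [Field k] [Finite k] [CharP k p]
    (ρbar : ResidualGaloisRep k) (Sg : Finset Nat.Primes), pPrime p ∈ Sg →
    (∀ q : Nat.Primes, q ∉ Sg → ρbar.IsUnramifiedAt (q : ℕ)) →
    ∀ y : GQ → ↥(h14l_sl ρbar),
      (fun g => h38g_tau p ρbar (h38g_of p ρbar (y g))) ∈
          Z1 (levQ Sg) (dualTw (cycloChar p) (h38g_rho p ρbar)) ↔
        y ∈ Z1 levFin (h56c_Ad0tw p ρbar) ∧ y ∈ h56s_unr ρbar Sg

/-- the frozen statement of row SEL-GW-2c. -/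
def H38LevDualOf : Prop := H38TauBij → H38TauEquiv → H38LevDual

/-! ## Row SEL-GW-3: the `H⁰` terms -/

/-- **SEL-GW-3.**  `ad⁰ ρbar` has no invariants, and the fixed space of complex conjugation
has `𝔽_p`-dimension `[k : 𝔽_p]`. -/
def H38H0 : Prop :=
  ∀ (p : ℕ) [Fact p.Prime] (k : Type) [Field k] [Finite k] [CharP k p]
    (ρbar : ResidualGaloisRep k), h56c_Hyp p ρbar →
    (∀ X : h38g_M p ρbar, (∀ σ : GQ, h38g_rho p ρbar σ X = X) → X = 0) ∧
    Module.finrank (ZMod p) ↥(h47g_cFix (h38g_rho p ρbar)) = h38g_d p k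

/-- the frozen statement of row SEL-GW-3. -/
def H38H0Of : Prop := H56SlIrr → H38H0

/-! ## Row SEL-GW-4: dimensions -/

/-- **SEL-GW-4.**  `#k = p ^ d`, `d > 0`, `dim_{𝔽_p} M = 3 d`, and for a `k`-subspace `W` of
`sl`-valued cochains: `W` is finite dimensional over `k` iff it is over `𝔽_p`, and then
`dim_{𝔽_p} W = d · dim_k W`. -/
def H38Dim : Prop :=
  ∀ (p : ℕ) [Fact p.Prime] (k : Type) [Field k] [Finite k] [CharP k p]
    (ρbar : ResidualGaloisRep k),
    Nat.card k = p ^ h38g_d p k ∧ 0 < h38g_d p k ∧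
    Module.Finite (ZMod p) (h38g_M p ρbar) ∧
    Module.finrank (ZMod p) (h38g_M p ρbar) = 3 * h38g_d p k ∧
    ∀ (X : Type) (W : Submodule k (X → ↥(h14l_sl ρbar))),
      (Module.Finite k ↥W ↔ Module.Finite (ZMod p) ↥(h38g_rs p ρbar W)) ∧
      (Module.Finite k ↥W →
        Module.finrank (ZMod p) ↥(h38g_rs p ρbar W) = h38g_d p k * Module.finrank k ↥W)

/-! ## Row SEL-GW-5: local finiteness -/

/-- **SEL-GW-5.**  The continuous local cocycles of `ad⁰ ρbar` at a prime `v` form a finite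
dimensional space.  (Restriction to an open normal subgroup `U` acting trivially, `μ_p` in its
fixed field: a cocycle is determined by its values on representatives of `G_v / U` and its
restriction to `U`, a continuous homomorphism `U → sl`; local Kummer theory.) -/
def H38LocFin : Prop :=
  ∀ (p : ℕ) [Fact p.Prime] (k : Type) [Field k] [Finite k] [CharP k p]
    (ρbar : ResidualGaloisRep k) (v : Nat.Primes),
    Module.Finite k ↥(Z1 (h14l_lev v) (h14l_locAd0 ρbar v))

/-! ## The target with finite dimensional local conditions -/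

/-- **`H56GWSel` for finite dimensional local conditions** (`H56GWSel` with the additional
hypothesis `Module.Finite k (Ls v)`, `v ∈ Sg`). -/
def H38GWSelFin : Prop :=
  ∀ (p : ℕ) [Fact p.Prime] (k : Type) [Field k] [Finite k] [CharP k p]
    (ρbar : ResidualGaloisRep k), h56c_Hyp p ρbar →
    ∃ (T₀ : Finset Nat.Primes) (ann : ∀ v : Nat.Primes,
        Submodule k (primeLocalGaloisGroup v → ↥(h14l_sl ρbar)) →
        Submodule k (primeLocalGaloisGroup v → ↥(h14l_sl ρbar))),
      (∀ v : Nat.Primes, ann v (Z1 (h14l_lev v) (h14l_locAd0 ρbar v)) ≤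
        B1 (h56s_locAd0tw p ρbar v)) ∧
      ∀ Sg : Finset Nat.Primes, T₀ ⊆ Sg → pPrime p ∈ Sg →
        (∀ q : Nat.Primes, q ∉ Sg → ρbar.IsUnramifiedAt (q : ℕ)) →
        ∀ Ls : h56s_Loc ρbar,
          (∀ v ∈ Sg, B1 (h14l_locAd0 ρbar v) ≤ Ls v ∧
            Ls v ≤ Z1 (h14l_lev v) (h14l_locAd0 ρbar v)) →
          (∀ v ∈ Sg, Module.Finite k ↥(Ls v)) →
          Module.Finite k ↥(h56s_Sel ρbar Sg Ls) ∧
          Module.Finite k ↥(h56s_Dual p ρbar Sg (fun v => ann v (Ls v))) ∧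
          Module.finrank k ↥(h56s_Sel ρbar Sg Ls) +
              Module.finrank k ↥(h56s_Dual p ρbar Sg (fun v => ann v (Ls v)) ⊓
                B1 (h56c_Ad0tw p ρbar)) + 1 + 3 * Sg.card ≤
            Module.finrank k ↥(h56s_Dual p ρbar Sg (fun v => ann v (Ls v))) +
              Module.finrank k ↥(h56s_Sel ρbar Sg Ls ⊓ B1 (h14l_Ad0 ρbar)) +
              ∑ v ∈ Sg, Module.finrank k ↥(Ls v)

/-- `H56GWSel` from its finite dimensional form and local finiteness. -/
theorem h38g_gwSel_of_fin (h : H38GWSelFin) (hfin : H38LocFin) : H56GWSel := by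
  intro p _ k _ _ _ ρbar hyp
  obtain ⟨T₀, ann, h1, h2⟩ := h p k ρbar hyp
  refine ⟨T₀, ann, h1, fun Sg hT hp hunr Ls hLs => h2 Sg hT hp hunr Ls hLs (fun v hv => ?_)⟩
  have hZ : FiniteDimensional k ↥(Z1 (h14l_lev v) (h14l_locAd0 ρbar v)) := hfin p k ρbar v
  exact Submodule.finiteDimensional_of_le (hLs v hv).2

/-- **SEL-GW (assembly), frozen statement.** -/
def H38GWSelFinOf : Prop :=
  H47GW → H47AnnTop → H38TNe → H38TauBij → H38TauEquiv → H38Disc → H38LevSel → H38LevDual →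
    H38H0 → H38Dim → H38GWSelFin

end Fermat.Agent.S56
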