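import Fermat.Agent.PT.Bridge.Levels
import Fermat.Agent.PT.Bridge.DQGood
import Fermat.Agent.S56.SelGWIface

/-!
# S56, row SEL-GW-2 (helper98): levels `levQ Sg` versus `levFin` + unramified outside `Sg`

* `h98v_lev` : for a cocycle `c` of a representation `σ` of `G_ℚ` which is trivial on a normal
  subgroup `K` containing an open subgroup and the inertia groups outside `Sg`:
  `c` is level-constant for `levQ Sg` iff it is level-constant for `levFin` and vanishes on the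
  inertia groups outside `Sg`;
* `h98v_disc : H38Disc`, `h98v_levSel : H38LevSel`, `h98v_levDualOf : H38LevDualOf`.
-/

set_option autoImplicit false
set_option linter.style.haveILetI false

open ExtCitation

namespace Fermat.Agent.S56

open Fermat.Agent.PT Fermat.Agent.S56L Fermat.Agent.S56G

section Gen

variable {k : Type} [Field k] {W : Type} [AddCommGroup W] [Module k W]
variable (σ : Representation k GQ W)

/-- a cocycle vanishes at `1`. -/
theorem h98v_coc_one {c : GQ → W} (hc : d1 σ c = 0) : c 1 = 0 := by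
  have h := congrFun hc (1, 1)
  simp only [d1_apply, map_one, Module.End.one_apply, mul_one, Pi.zero_apply] at h
  simpa using h

/-- the cocycle relation. -/
theorem h98v_coc_mul {c : GQ → W} (hc : d1 σ c = 0) (g h : GQ) :
    c (g * h) = σ g (c h) + c g := by
  have h1 := congrFun hc (g, h)
  simp only [d1_apply, Pi.zero_apply] at h1
  have h3 : σ g (c h) + c g - c (g * h) = 0 := by
    rw [← h1]
    abel
  exact (sub_eq_zero.mp h3).symm

/-- the subgroup of `K` where the cocycle `c` vanishes (`σ` is trivial on `K`). -/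
noncomputable def h98v_N (K : Subgroup GQ) (hK : ∀ g ∈ K, ∀ w, σ g w = w) {c : GQ → W}
    (hc : d1 σ c = 0) : Subgroup GQ where
  carrier := {g | g ∈ K ∧ c g = 0}
  one_mem' := ⟨K.one_mem, h98v_coc_one σ hc⟩
  mul_mem' := by
    rintro a b ⟨ha, ha0⟩ ⟨hb, hb0⟩
    refine ⟨K.mul_mem ha hb, ?_⟩
    rw [h98v_coc_mul σ hc, hb0, ha0, map_zero, add_zero]
  inv_mem' := by
    rintro a ⟨ha, ha0⟩
    refine ⟨K.inv_mem ha, ?_⟩
    have h := h98v_coc_mul σ hc a a⁻¹
    rw [mul_inv_cancel, h98v_coc_one σ hc, ha0, add_zero, hK a ha] at h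
    exact h.symm

theorem h98v_mem_N (K : Subgroup GQ) (hK : ∀ g ∈ K, ∀ w, σ g w = w) {c : GQ → W}
    (hc : d1 σ c = 0) (g : GQ) : g ∈ h98v_N σ K hK hc ↔ g ∈ K ∧ c g = 0 := Iff.rfl

theorem h98v_N_normal (K : Subgroup GQ) [hKn : K.Normal] (hK : ∀ g ∈ K, ∀ w, σ g w = w)
    {c : GQ → W} (hc : d1 σ c = 0) : (h98v_N σ K hK hc).Normal where
  conj_mem := by
    rintro n ⟨hn, hn0⟩ g
    refine ⟨hKn.conj_mem n hn g, ?_⟩
    have h1 : c (g * n * g⁻¹) = σ (g * n) (c g⁻¹) + c (g * n) := h98v_coc_mul σ hc (g * n) g⁻¹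
    have h2 : c (g * n) = σ g (c n) + c g := h98v_coc_mul σ hc g n
    have h3 : c (g * g⁻¹) = σ g (c g⁻¹) + c g := h98v_coc_mul σ hc g g⁻¹
    rw [mul_inv_cancel, h98v_coc_one σ hc] at h3
    rw [h1, h2, hn0, map_zero, zero_add, map_mul, Module.End.mul_apply, hK n hn]
    exact h3.symm

/-- **the dictionary of levels** for a cocycle. -/
theorem h98v_lev (Sg : Finset Nat.Primes) (K : Subgroup GQ) [hKn : K.Normal]
    (hK : ∀ g ∈ K, ∀ w, σ g w = w)
    (hopen : ∃ F : IntermediateField ℚ (AlgebraicClosure ℚ), FiniteDimensional ℚ F ∧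
      F.fixingSubgroup ≤ K)
    (hur : ∀ q : Nat.Primes, q ∉ Sg → ∀ A : ValuationSubring (AlgebraicClosure ℚ),
      A.LiesOverPrime (q : ℕ) → A.inertiaSubgroupIn ℚ ≤ K)
    {c : GQ → W} (hc : d1 σ c = 0) :
    IsLC1 (levQ Sg) c ↔ IsLC1 levFin c ∧
      ∀ q : Nat.Primes, q ∉ Sg → ∀ P : ValuationSubring (AlgebraicClosure ℚ),
        P.LiesOverPrime (q : ℕ) → ∀ s ∈ P.inertiaSubgroupIn ℚ, c s = 0 := by
  constructor
  · rintro ⟨N, hN, h⟩
    refine ⟨⟨N, Bridge.h23b_levQ_sets_subset_levFin Sg hN, h⟩, fun q hq P hP s hs => ?_⟩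
    obtain ⟨F, hF, -, rfl⟩ := hN
    have hsF : s ∈ F.fixingSubgroup := hF.2 q hq P hP hs
    have := h 1 s hsF
    rw [one_mul] at this
    rw [this, h98v_coc_one σ hc]
  · rintro ⟨⟨N', ⟨F', hF', -, rfl⟩, h'⟩, hunr⟩
    obtain ⟨F₀, hF₀, hle₀⟩ := hopen
    haveI := h98v_N_normal σ K hK hc
    have hopenN : ∃ F : IntermediateField ℚ Qbar, FiniteDimensional ℚ F ∧
        F.fixingSubgroup ≤ h98v_N σ K hK hc := by
      haveI := hF'
      haveI := hF₀
      refine ⟨F' ⊔ F₀, inferInstance, fun s hs => ?_⟩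
      have hs1 : s ∈ F'.fixingSubgroup :=
        IntermediateField.fixingSubgroup_antitone le_sup_left hs
      have hs2 : s ∈ F₀.fixingSubgroup :=
        IntermediateField.fixingSubgroup_antitone le_sup_right hs
      refine ⟨hle₀ hs2, ?_⟩
      have := h' 1 s hs1
      rw [one_mul] at this
      rw [this, h98v_coc_one σ hc]
    have hurN : ∀ q : Nat.Primes, q ∉ Sg → ∀ A : ValuationSubring Qbar,
        A.LiesOverPrime (q : ℕ) → A.inertiaSubgroupIn ℚ ≤ h98v_N σ K hK hc :=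
      fun q hq A hA s hs => ⟨hur q hq A hA hs, hunr q hq A hA s hs⟩
    obtain ⟨F, hF, hgal, hfix⟩ := pt79_level_of_normal Sg (h98v_N σ K hK hc) hopenN hurN
    haveI := hgal
    refine ⟨F.fixingSubgroup, ⟨F, hF, IsGalois.to_normal, rfl⟩, fun g s hs => ?_⟩
    rw [hfix] at hs
    rw [h98v_coc_mul σ hc, hs.2, map_zero, zero_add]

end Gen

section Ad

variable {k : Type} [Field k] (ρbar : ResidualGaloisRep k)

/-- the kernel of `ρbar`. -/
noncomputable def h98v_ker : Subgroup GQ := MonoidHom.ker ρbar.ρ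

instance h98v_ker_normal : (h98v_ker ρbar).Normal := MonoidHom.normal_ker ρbar.ρ

theorem h98v_mem_ker (g : GQ) : g ∈ h98v_ker ρbar ↔ ρbar.ρ g = 1 := MonoidHom.mem_ker

/-- `ad⁰` is trivial on the kernel of `ρbar`. -/
theorem h98v_Ad0_of_ker {g : GQ} (hg : g ∈ h98v_ker ρbar) (X : ↥(h14l_sl ρbar)) :
    h14l_Ad0 ρbar g X = X := by
  have h1 : ρbar.ρ g = 1 := (h98v_mem_ker ρbar g).1 hg
  have h2 : ρbar.ρ g⁻¹ = 1 := (h98v_mem_ker ρbar g⁻¹).1 ((h98v_ker ρbar).inv_mem hg)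
  apply Subtype.ext
  rw [h14l_Ad0_coe, h1, h2, one_mul, mul_one]

/-- the kernel of `ρbar` contains an open subgroup. -/
theorem h98v_ker_open : ∃ F : IntermediateField ℚ (AlgebraicClosure ℚ),
    FiniteDimensional ℚ F ∧ F.fixingSubgroup ≤ h98v_ker ρbar := by
  obtain ⟨L, hL, h⟩ := ρbar.factorsThroughFiniteLevel
  refine ⟨L, hL, fun s hs => ?_⟩
  rw [h98v_mem_ker]
  refine h s fun x hx => ?_
  exact (IntermediateField.mem_fixingSubgroup_iff L s).1 hs x hx

/-- the kernel of `ρbar` contains the inertia groups at the unramified primes. -/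
theorem h98v_ker_inertia (Sg : Finset Nat.Primes)
    (hunr : ∀ q : Nat.Primes, q ∉ Sg → ρbar.IsUnramifiedAt (q : ℕ)) :
    ∀ q : Nat.Primes, q ∉ Sg → ∀ A : ValuationSubring (AlgebraicClosure ℚ),
      A.LiesOverPrime (q : ℕ) → A.inertiaSubgroupIn ℚ ≤ h98v_ker ρbar :=
  fun q hq A hA s hs => (h98v_mem_ker ρbar s).2 (hunr q hq A hA s hs)

end Ad

/-- **SEL-GW-2a.** -/
theorem h98v_disc : H38Disc := by
  intro p _ k _ _ _ ρbar
  have key : ∀ g ∈ h98v_ker ρbar, ∀ X : h38g_M p ρbar, h38g_rho p ρbar g X = X :=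
    fun g hg X => h98v_Ad0_of_ker ρbar hg X
  constructor
  · obtain ⟨F, hF, hle⟩ := h98v_ker_open ρbar
    haveI := hF
    intro X
    refine ⟨(pt79_galClosure F).fixingSubgroup,
      ⟨pt79_galClosure F, pt79_galClosure_finiteDimensional F, pt79_galClosure_normal F, rfl⟩,
      fun s hs => key s (hle ?_) X⟩
    exact IntermediateField.fixingSubgroup_antitone (pt79_le_galClosure F) hs
  · intro Sg hunr
    obtain ⟨F, hF, hgal, hfix⟩ := pt79_level_of_normal Sg (h98v_ker ρbar) (h98v_ker_open ρbar)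
      (h98v_ker_inertia ρbar Sg hunr)
    haveI := hgal
    intro X
    exact ⟨F.fixingSubgroup, ⟨F, hF, IsGalois.to_normal, rfl⟩,
      fun s hs => key s (hfix ▸ hs) X⟩

/-- **SEL-GW-2b.** -/
theorem h98v_levSel : H38LevSel := by
  intro p _ k _ _ _ ρbar Sg hunr c
  have key : ∀ g ∈ h98v_ker ρbar, ∀ X : h38g_M p ρbar, h38g_rho p ρbar g X = X :=
    fun g hg X => h98v_Ad0_of_ker ρbar hg X
  have hd : d1 (h38g_rho p ρbar) (fun g => h38g_of p ρbar (c g)) = 0 ↔
      d1 (h14l_Ad0 ρbar) c = 0 := by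
    constructor
    · intro h
      funext x
      exact congrFun h x
    · intro h
      funext x
      exact congrFun h x
  rw [mem_Z1, mem_Z1, hd]
  constructor
  · rintro ⟨h1, h2⟩
    have h3 := (h98v_lev (h38g_rho p ρbar) Sg (h98v_ker ρbar) key (h98v_ker_open ρbar)
      (h98v_ker_inertia ρbar Sg hunr) (hd.2 h1)).1 h2
    exact ⟨⟨h1, h3.1⟩, h3.2⟩
  · rintro ⟨⟨h1, h2⟩, h3⟩
    exact ⟨h1, (h98v_lev (h38g_rho p ρbar) Sg (h98v_ker ρbar) key (h98v_ker_open ρbar)
      (h98v_ker_inertia ρbar Sg hunr) (hd.2 h1)).2 ⟨h2, h3⟩⟩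

/-- **SEL-GW-2c.** -/
theorem h98v_levDualOf : H38LevDualOf := by
  intro hbij hequiv p _ hp2 k _ _ _ ρbar Sg hpS hunr y
  have hinj : Function.Injective (h38g_tau p ρbar) := (hbij p hp2 k ρbar).1
  have heq := hequiv p k ρbar
  -- the subgroup
  have hKn : (h98v_ker ρbar ⊓ (cycloChar p).ker).Normal := inferInstance
  have hK : ∀ g ∈ h98v_ker ρbar ⊓ (cycloChar p).ker,
      ∀ f : Module.Dual (ZMod p) (h38g_M p ρbar),
        dualTw (cycloChar p) (h38g_rho p ρbar) g f = f := by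
    rintro g ⟨hg1, hg2⟩ f
    have h1 : cycloChar p g = 1 := MonoidHom.mem_ker.mp hg2
    have h2 : h38g_rho p ρbar g⁻¹ = LinearMap.id := by
      ext X
      exact h98v_Ad0_of_ker ρbar ((h98v_ker ρbar).inv_mem hg1) X
    rw [dualTw_apply, h1, h2]
    simp
  have hopen : ∃ F : IntermediateField ℚ (AlgebraicClosure ℚ), FiniteDimensional ℚ F ∧
      F.fixingSubgroup ≤ h98v_ker ρbar ⊓ (cycloChar p).ker := by
    obtain ⟨F₁, hF₁, h₁⟩ := h98v_ker_open ρbar
    obtain ⟨F₂, hF₂, h₂⟩ := pt79_cycloChar_open p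
    haveI := hF₁
    haveI := hF₂
    exact ⟨F₁ ⊔ F₂, inferInstance, fun s hs =>
      ⟨h₁ (IntermediateField.fixingSubgroup_antitone le_sup_left hs),
        h₂ (IntermediateField.fixingSubgroup_antitone le_sup_right hs)⟩⟩
  have hur : ∀ q : Nat.Primes, q ∉ Sg → ∀ A : ValuationSubring (AlgebraicClosure ℚ),
      A.LiesOverPrime (q : ℕ) →
        A.inertiaSubgroupIn ℚ ≤ h98v_ker ρbar ⊓ (cycloChar p).ker :=
    fun q hq A hA s hs => ⟨h98v_ker_inertia ρbar Sg hunr q hq A hA hs,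
      MonoidHom.mem_ker.mpr (pt79_cycloChar_inertia p q (fun h => hq (h ▸ hpS)) A hA s hs)⟩
  -- transport along `τ`
  have hτ0 : ∀ X : ↥(h14l_sl ρbar), h38g_tau p ρbar (h38g_of p ρbar X) = 0 ↔ X = 0 := by
    intro X
    constructor
    · intro h
      have : h38g_of p ρbar X = 0 := hinj (h.trans (map_zero _).symm)
      exact this
    · rintro rfl
      exact map_zero _
  have hd : d1 (dualTw (cycloChar p) (h38g_rho p ρbar))
      (fun g => h38g_tau p ρbar (h38g_of p ρbar (y g))) = 0 ↔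
      d1 (h56c_Ad0tw p ρbar) y = 0 := by
    have hpt : ∀ x : GQ × GQ, d1 (dualTw (cycloChar p) (h38g_rho p ρbar))
        (fun g => h38g_tau p ρbar (h38g_of p ρbar (y g))) x
        = h38g_tau p ρbar (h38g_of p ρbar (d1 (h56c_Ad0tw p ρbar) y x)) := by
      rintro ⟨g, h⟩
      rw [d1_apply, d1_apply, ← heq g (y h), map_add, map_sub, map_add, map_sub]
    constructor
    · intro h
      funext x
      have h1 := congrFun h x
      rw [hpt x] at h1
      exact (hτ0 _).1 h1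
    · intro h
      funext x
      rw [hpt x, h]
      exact (hτ0 _).2 rfl
  have hlc : ∀ L : Lev GQ, IsLC1 L (fun g => h38g_tau p ρbar (h38g_of p ρbar (y g))) ↔
      IsLC1 L y := by
    intro L
    constructor
    · rintro ⟨N, hN, h⟩
      exact ⟨N, hN, fun g s hs => hinj (h g s hs)⟩
    · rintro ⟨N, hN, h⟩
      exact ⟨N, hN, fun g s hs => by simp only [h g s hs]⟩
  rw [mem_Z1, mem_Z1, hd]
  constructor
  · rintro ⟨h1, h2⟩
    have h3 := (h98v_lev (dualTw (cycloChar p) (h38g_rho p ρbar)) Sg _ hK hopen hur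
      (hd.2 h1)).1 h2
    exact ⟨⟨h1, (hlc levFin).1 h3.1⟩, fun q hq P hP s hs => (hτ0 _).1 (h3.2 q hq P hP s hs)⟩
  · rintro ⟨⟨h1, h2⟩, h3⟩
    exact ⟨h1, (h98v_lev (dualTw (cycloChar p) (h38g_rho p ρbar)) Sg _ hK hopen hur
      (hd.2 h1)).2 ⟨(hlc levFin).2 h2, fun q hq P hP s hs => (hτ0 _).2 (h3 q hq P hP s hs)⟩⟩

end Fermat.Agent.S56
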