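import Fermat.Agent.S56.SelGWIface

/-!
# S56, row SEL-GW-ASM (helper38): the adapter `H47GW ⟹ H38GWSelFin`

`h38g_gwSelFinOf : H38GWSelFinOf` : the Greenberg–Wiles inequality in the `k`-linear vocabulary of
`S56/SelIface.lean` from the inequality `H47GW` over `𝔽_p`, local duality `H47AnnTop` and the
leaves of `S56/SelGWIface.lean`.
-/

set_option autoImplicit false
set_option linter.unusedSectionVars false
set_option linter.unusedVariables false

open Polynomial IsLocalRing ExtCitation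

noncomputable section

namespace Fermat.Agent.S56

open Fermat.Agent.PT Fermat.Agent.S56L Fermat.Agent.S56G

section Transport

variable (p : ℕ) [Fact p.Prime] {k : Type} [Field k] [CharP k p] (ρbar : ResidualGaloisRep k)

/-- post-composition of cochains with `τ ∘ of`. -/
def h38g_push {X : Type} (y : X → ↥(h14l_sl ρbar)) :
    X → Module.Dual (ZMod p) (h38g_M p ρbar) :=
  fun x => h38g_tau p ρbar (h38g_of p ρbar (y x))

/-- `sl`-valued cochains as `M`-valued cochains. -/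
def h38g_ofC {X : Type} (c : X → ↥(h14l_sl ρbar)) : X → h38g_M p ρbar :=
  fun x => h38g_of p ρbar (c x)

/-- `M`-valued cochains as `sl`-valued cochains. -/
def h38g_toC {X : Type} (c : X → h38g_M p ρbar) : X → ↥(h14l_sl ρbar) :=
  fun x => h38g_to p ρbar (c x)

lemma h38g_mem_rs' {X : Type} (W : Submodule k (X → ↥(h14l_sl ρbar)))
    (f : X → h38g_M p ρbar) : f ∈ h38g_rs p ρbar W ↔ h38g_toC p ρbar f ∈ W := Iff.rfl

lemma h38g_ofC_mem_rs {X : Type} (W : Submodule k (X → ↥(h14l_sl ρbar)))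
    (f : X → ↥(h14l_sl ρbar)) : h38g_ofC p ρbar f ∈ h38g_rs p ρbar W ↔ f ∈ W := Iff.rfl

/-- `Z¹` in the two frames: same set. -/
lemma h38g_Z1_rs {H : Type} [Group H] (L : Lev H) (φ : H →* GQ) :
    h38g_rs p ρbar (Z1 L ((h14l_Ad0 ρbar).comp φ)) = Z1 L (resRep (h38g_rho p ρbar) φ) := by
  ext f
  rw [h38g_mem_rs, mem_Z1, mem_Z1]
  refine and_congr ?_ Iff.rfl
  constructor
  · intro h
    funext x
    exact congrFun h x
  · intro h
    funext x
    exact congrFun h x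

/-- `B¹` in the two frames: same set. -/
lemma h38g_B1_rs {H : Type} [Group H] (φ : H →* GQ) :
    h38g_rs p ρbar (B1 ((h14l_Ad0 ρbar).comp φ)) = B1 (resRep (h38g_rho p ρbar) φ) := by
  ext f
  rw [h38g_mem_rs, mem_B1, mem_B1]
  constructor
  · rintro ⟨X, hX⟩
    refine ⟨h38g_of p ρbar X, ?_⟩
    funext x
    exact congrFun hX x
  · rintro ⟨X, hX⟩
    refine ⟨h38g_to p ρbar X, ?_⟩
    funext x
    exact congrFun hX x

/-- `τ ∘ of` commutes with the differential `d¹` for intertwined representations. -/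
lemma h38g_push_d1 {H : Type} [Group H]
    (σ : Representation k H ↥(h14l_sl ρbar))
    (σ' : Representation (ZMod p) H (Module.Dual (ZMod p) (h38g_M p ρbar)))
    (hσ : ∀ h X, h38g_tau p ρbar (h38g_of p ρbar (σ h X)) =
      σ' h (h38g_tau p ρbar (h38g_of p ρbar X)))
    (y : H → ↥(h14l_sl ρbar)) :
    d1 σ' (h38g_push p ρbar y) = h38g_push p ρbar (d1 σ y) := by
  funext x
  obtain ⟨g, h⟩ := x
  simp only [d1_apply, h38g_push, map_add, map_sub, hσ]

/-- transport of continuous cocycles along `τ`. -/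
lemma h38g_push_mem_Z1 (hinj : Function.Injective (h38g_tau p ρbar)) {H : Type} [Group H]
    (L : Lev H) (σ : Representation k H ↥(h14l_sl ρbar))
    (σ' : Representation (ZMod p) H (Module.Dual (ZMod p) (h38g_M p ρbar)))
    (hσ : ∀ h X, h38g_tau p ρbar (h38g_of p ρbar (σ h X)) =
      σ' h (h38g_tau p ρbar (h38g_of p ρbar X)))
    (y : H → ↥(h14l_sl ρbar)) :
    h38g_push p ρbar y ∈ Z1 L σ' ↔ y ∈ Z1 L σ := by
  rw [mem_Z1, mem_Z1, h38g_push_d1 p ρbar σ σ' hσ]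
  refine and_congr ?_ ?_
  · constructor
    · intro h
      funext x
      have := congrFun h x
      simp only [h38g_push, Pi.zero_apply] at this
      have h0 : h38g_tau p ρbar (h38g_of p ρbar (d1 σ y x)) = h38g_tau p ρbar 0 := by
        rw [this, map_zero]
      exact hinj h0
    · intro h
      rw [h]
      funext x
      simp only [h38g_push, Pi.zero_apply, map_zero]
  · constructor
    · rintro ⟨N, hN, h⟩
      exact ⟨N, hN, fun g s hs => hinj (h g s hs)⟩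
    · rintro ⟨N, hN, h⟩
      refine ⟨N, hN, fun g s hs => ?_⟩
      simp only [h38g_push, h g s hs]

/-- transport of coboundaries along `τ`. -/
lemma h38g_push_mem_B1 (hbij : Function.Bijective (h38g_tau p ρbar)) {H : Type} [Group H]
    (σ : Representation k H ↥(h14l_sl ρbar))
    (σ' : Representation (ZMod p) H (Module.Dual (ZMod p) (h38g_M p ρbar)))
    (hσ : ∀ h X, h38g_tau p ρbar (h38g_of p ρbar (σ h X)) =
      σ' h (h38g_tau p ρbar (h38g_of p ρbar X)))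
    (y : H → ↥(h14l_sl ρbar)) :
    h38g_push p ρbar y ∈ B1 σ' ↔ y ∈ B1 σ := by
  rw [mem_B1, mem_B1]
  constructor
  · rintro ⟨f, hf⟩
    obtain ⟨X, rfl⟩ := hbij.2 f
    refine ⟨h38g_to p ρbar X, ?_⟩
    funext s
    have := congrFun hf s
    simp only [d0_apply, h38g_push] at this
    have h2 : h38g_tau p ρbar (h38g_of p ρbar (d0 σ (h38g_to p ρbar X) s)) =
        σ' s (h38g_tau p ρbar X) - h38g_tau p ρbar X := by
      simp only [d0_apply, map_sub, hσ]
      rfl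
    have key : h38g_tau p ρbar (h38g_of p ρbar (d0 σ (h38g_to p ρbar X) s)) =
        h38g_tau p ρbar (h38g_of p ρbar (y s)) := by
      rw [h2, this]
    exact hbij.1 key
  · rintro ⟨X, rfl⟩
    refine ⟨h38g_tau p ρbar (h38g_of p ρbar X), ?_⟩
    funext s
    simp only [d0_apply, h38g_push, map_sub, hσ]

/-- the local cup product in the two vocabularies. -/
lemma h38g_cup_push (hE : H38TauEquiv) (v : Nat.Primes)
    (b : primeLocalGaloisGroup v → h38g_M p ρbar)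
    (y : primeLocalGaloisGroup v → ↥(h14l_sl ρbar)) :
    cup11 (Module.Dual.eval (ZMod p) (h38g_M p ρbar))
        (resRep (dualTw (cycloChar p) (h38g_rho p ρbar)) (primeLocalToGlobal v)) b
        (h38g_push p ρbar y) =
      h38g_pair p ρbar v (h38g_toC p ρbar b) y := by
  funext x
  obtain ⟨g, h⟩ := x
  simp only [cup11_apply, Module.Dual.eval_apply, resRep_apply, h38g_push, h38g_pair,
    h38g_toC]
  rw [← hE p k ρbar (primeLocalToGlobal v g) (y h)]
  rfl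

/-- the intertwining property of `τ`, local form. -/
lemma h38g_equiv_loc (hE : H38TauEquiv) (v : Nat.Primes) (h : primeLocalGaloisGroup v)
    (X : ↥(h14l_sl ρbar)) :
    h38g_tau p ρbar (h38g_of p ρbar (h56s_locAd0tw p ρbar v h X)) =
      resRep (dualTw (cycloChar p) (h38g_rho p ρbar)) (primeLocalToGlobal v) h
        (h38g_tau p ρbar (h38g_of p ρbar X)) :=
  hE p k ρbar (primeLocalToGlobal v h) X

/-- the annihilator in the two vocabularies. -/
lemma h38g_annReal_iff (hB : H38TauBij) (hE : H38TauEquiv) (hp2 : p ≠ 2) [Finite k]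
    (S : Finset Nat.Primes) (v : ↥S)
    (L : Submodule k (primeLocalGaloisGroup v.1 → ↥(h14l_sl ρbar)))
    (y : primeLocalGaloisGroup v.1 → ↥(h14l_sl ρbar)) :
    h38g_push p ρbar y ∈ h47g_ann (DQ p S) (h38g_rho p ρbar) v (h38g_rs p ρbar L) ↔
      y ∈ h38g_annReal p ρbar v.1 L := by
  change (h38g_push p ρbar y ∈ Z1 (h14l_lev v.1)
        (resRep (dualTw (cycloChar p) (h38g_rho p ρbar)) (primeLocalToGlobal v.1)) ∧
      ∀ b ∈ h38g_rs p ρbar L,
        cup11 (Module.Dual.eval (ZMod p) (h38g_M p ρbar))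
          (resRep (dualTw (cycloChar p) (h38g_rho p ρbar)) (primeLocalToGlobal v.1)) b
          (h38g_push p ρbar y) ∈
        B2 (h14l_lev v.1) (chiRep ((cycloChar p).comp (primeLocalToGlobal v.1)))) ↔
    (y ∈ Z1 (h14l_lev v.1) (h56s_locAd0tw p ρbar v.1) ∧
      ∀ b ∈ L, h38g_pair p ρbar v.1 b y ∈
        B2 (h14l_lev v.1) (chiRep ((cycloChar p).comp (primeLocalToGlobal v.1))))
  refine and_congr ?_ ?_
  · exact h38g_push_mem_Z1 p ρbar (hB p hp2 k ρbar).1 _ _ _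
      (h38g_equiv_loc p ρbar hE v.1) y
  · constructor
    · intro h b hb
      have := h (h38g_ofC p ρbar b) hb
      rw [h38g_cup_push p ρbar hE] at this
      exact this
    · intro h b hb
      rw [h38g_cup_push p ρbar hE]
      exact h _ hb

/-- **local duality in degree one** in the `k`-vocabulary, from `H47AnnTop`. -/
lemma h38g_annTop (hAnn : H47AnnTop) (hB : H38TauBij) (hE : H38TauEquiv) (hDisc : H38Disc)
    (hp2 : p ≠ 2) [Finite k] (v : Nat.Primes) :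
    h38g_ann p ρbar v (Z1 (h14l_lev v) (h14l_locAd0 ρbar v)) ≤
      B1 (h56s_locAd0tw p ρbar v) := by
  classical
  unfold h38g_ann
  split_ifs with hS
  · obtain ⟨Sg, hSg⟩ := hS
    intro y hy
    set S : Finset Nat.Primes := insert (pPrime p) (insert v Sg) with hSdef
    have hpS : pPrime p ∈ S := Finset.mem_insert_self _ _
    have hvS : v ∈ S := Finset.mem_insert_of_mem (Finset.mem_insert_self _ _)
    have hunr : ∀ q : Nat.Primes, q ∉ S → ρbar.IsUnramifiedAt (q : ℕ) := by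
      intro q hq
      apply hSg q
      intro hq'
      exact hq (Finset.mem_insert_of_mem (Finset.mem_insert_of_mem hq'))
    have hdisc := (hDisc p k ρbar).2 S hunr
    have hM : Module.Finite (ZMod p) (h38g_M p ρbar) := by
      have : Finite (h38g_M p ρbar) := by
        have : Finite (Module.End k ρbar.V) := Module.finite_of_finite k
        exact inferInstanceAs (Finite ↥(h14l_sl ρbar))
      exact Module.Finite.of_finite
    have hA := @hAnn p _ hp2 S hpS (h38g_M p ρbar) _ _ hM (h38g_rho p ρbar) hdisc ⟨v, hvS⟩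
    have hy' : h38g_push p ρbar y ∈ h47g_ann (DQ p S) (h38g_rho p ρbar) ⟨v, hvS⟩
        (h38g_rs p ρbar (Z1 (h14l_lev v) (h14l_locAd0 ρbar v))) :=
      (h38g_annReal_iff p ρbar hB hE hp2 S ⟨v, hvS⟩ _ y).2 hy
    have hZ : h38g_rs p ρbar (Z1 (h14l_lev v) (h14l_locAd0 ρbar v)) =
        Z1 ((DQ p S).levH ⟨v, hvS⟩) ((DQ p S).repAt (h38g_rho p ρbar) ⟨v, hvS⟩) :=
      h38g_Z1_rs p ρbar (h14l_lev v) (primeLocalToGlobal v)
    have hEq := congrArg (h47g_ann (DQ p S) (h38g_rho p ρbar) ⟨v, hvS⟩) hZ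
    have h3 := hA ((SetLike.ext_iff.mp hEq _).mp hy')
    exact (h38g_push_mem_B1 p ρbar (hB p hp2 k ρbar) _ _
      (h38g_equiv_loc p ρbar hE v) y).1 h3
  · exact bot_le

/-- under the finiteness of the ramification the annihilator operation is the real one. -/
lemma h38g_ann_eq (Sg : Finset Nat.Primes)
    (hunr : ∀ q : Nat.Primes, q ∉ Sg → ρbar.IsUnramifiedAt (q : ℕ)) (v : Nat.Primes)
    (L : Submodule k (primeLocalGaloisGroup v → ↥(h14l_sl ρbar))) :
    h38g_ann p ρbar v L = h38g_annReal p ρbar v L := by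
  classical
  unfold h38g_ann
  rw [if_pos ⟨Sg, hunr⟩]

/-- the local conditions of the `𝔽_p`-frame. -/
def h38g_Ls0 (Sg : Finset Nat.Primes) (Ls : h56s_Loc ρbar) :
    ∀ v : (DQ p Sg).P, Submodule (ZMod p) ((DQ p Sg).H v → h38g_M p ρbar) :=
  fun v : ↥Sg => h38g_rs p ρbar (Ls v.1)

/-- **Selmer cocycles in the two vocabularies.** -/
lemma h38g_ZSel_eq (hLev : H38LevSel) [Finite k] (Sg : Finset Nat.Primes)
    (hunr : ∀ q : Nat.Primes, q ∉ Sg → ρbar.IsUnramifiedAt (q : ℕ)) (Ls : h56s_Loc ρbar) :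
    h47g_ZSel (DQ p Sg) (h38g_rho p ρbar) (h38g_Ls0 p ρbar Sg Ls) =
      h38g_rs p ρbar (h56s_Sel ρbar Sg Ls) := by
  ext c
  have h1 := hLev p k ρbar Sg hunr (h38g_toC p ρbar c)
  constructor
  · intro hc
    obtain ⟨hZ, hloc⟩ := (h47g_mem_ZSel (DQ p Sg) (h38g_rho p ρbar) _ c).1 hc
    obtain ⟨ha, hb⟩ := h1.1 hZ
    exact (h56s_mem_Sel ρbar Sg Ls _).2 ⟨ha, hb, fun v hv => hloc ⟨v, hv⟩⟩
  · intro hc
    obtain ⟨ha, hb, hloc⟩ := (h56s_mem_Sel ρbar Sg Ls _).1 hc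
    exact (h47g_mem_ZSel (DQ p Sg) (h38g_rho p ρbar) _ c).2
      ⟨h1.2 ⟨ha, hb⟩, fun v => hloc v.1 v.2⟩

/-- post-composition with `τ`, as a linear map on cochains. -/
def h38g_tauC (X : Type) :
    (X → h38g_M p ρbar) →ₗ[ZMod p] (X → Module.Dual (ZMod p) (h38g_M p ρbar)) :=
  (h38g_tau p ρbar).compLeft X

lemma h38g_tauC_apply {X : Type} (c : X → h38g_M p ρbar) :
    h38g_tauC p ρbar X c = h38g_push p ρbar (h38g_toC p ρbar c) := rfl

lemma h38g_tauC_injective (hinj : Function.Injective (h38g_tau p ρbar)) (X : Type) :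
    Function.Injective (h38g_tauC p ρbar X) := by
  intro c c' h
  funext x
  exact hinj (congrFun h x)

/-- every cochain with values in the dual is `τ ∘ of ∘ y`. -/
lemma h38g_exists_push (hsurj : Function.Surjective (h38g_tau p ρbar)) {X : Type}
    (y' : X → Module.Dual (ZMod p) (h38g_M p ρbar)) :
    ∃ y : X → ↥(h14l_sl ρbar), h38g_push p ρbar y = y' := by
  choose f hf using hsurj
  exact ⟨fun x => h38g_to p ρbar (f (y' x)), funext fun x => hf (y' x)⟩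

/-- **dual Selmer cocycles in the two vocabularies.** -/
lemma h38g_ZSelD_eq (hB : H38TauBij) (hE : H38TauEquiv) (hLev : H38LevDual) (hp2 : p ≠ 2)
    [Finite k] (Sg : Finset Nat.Primes) (hpS : pPrime p ∈ Sg)
    (hunr : ∀ q : Nat.Primes, q ∉ Sg → ρbar.IsUnramifiedAt (q : ℕ)) (Ls : h56s_Loc ρbar) :
    h47g_ZSel (DQ p Sg) (dualTw (DQ p Sg).chi (h38g_rho p ρbar))
        (fun v => h47g_ann (DQ p Sg) (h38g_rho p ρbar) v (h38g_Ls0 p ρbar Sg Ls v)) =
      (h38g_rs p ρbar (h56s_Dual p ρbar Sg (fun v => h38g_ann p ρbar v (Ls v)))).map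
        (h38g_tauC p ρbar GQ) := by
  have key : ∀ y : GQ → ↥(h14l_sl ρbar),
      h38g_push p ρbar y ∈ h47g_ZSel (DQ p Sg) (dualTw (DQ p Sg).chi (h38g_rho p ρbar))
        (fun v => h47g_ann (DQ p Sg) (h38g_rho p ρbar) v (h38g_Ls0 p ρbar Sg Ls v)) ↔
      y ∈ h56s_Dual p ρbar Sg (fun v => h38g_ann p ρbar v (Ls v)) := by
    intro y
    have h1 := hLev p hp2 k ρbar Sg hpS hunr y
    constructor
    · intro hy
      obtain ⟨hZ, hloc⟩ := (h47g_mem_ZSel (DQ p Sg) _ _ _).1 hy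
      obtain ⟨ha, hb⟩ := h1.1 hZ
      refine (h56s_mem_Dual p ρbar Sg _ y).2 ⟨ha, hb, fun v hv => ?_⟩
      rw [h38g_ann_eq p ρbar Sg hunr]
      exact (h38g_annReal_iff p ρbar hB hE hp2 Sg ⟨v, hv⟩ (Ls v) _).1 (hloc ⟨v, hv⟩)
    · intro hy
      obtain ⟨ha, hb, hloc⟩ := (h56s_mem_Dual p ρbar Sg _ y).1 hy
      refine (h47g_mem_ZSel (DQ p Sg) _ _ _).2 ⟨h1.2 ⟨ha, hb⟩, fun v => ?_⟩
      have := hloc v.1 v.2
      rw [h38g_ann_eq p ρbar Sg hunr] at this
      exact (h38g_annReal_iff p ρbar hB hE hp2 Sg v (Ls v.1) _).2 this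
  refine Submodule.ext fun (y' : GQ → Module.Dual (ZMod p) (h38g_M p ρbar)) => ?_
  constructor
  · intro hy'
    obtain ⟨y, rfl⟩ := h38g_exists_push p ρbar (hB p hp2 k ρbar).2 (X := GQ) y'
    exact (Submodule.mem_map (f := h38g_tauC p ρbar GQ)).2
      ⟨h38g_ofC p ρbar y, (key y).1 hy', rfl⟩
  · intro hy'
    obtain ⟨c, hc, rfl⟩ := (Submodule.mem_map (f := h38g_tauC p ρbar GQ)).1 hy'
    exact (key (h38g_toC p ρbar c)).2 hc

/-- `B¹` of `ad⁰` in the two frames (global). -/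
lemma h38g_B1_rs_glob : h38g_rs p ρbar (B1 (h14l_Ad0 ρbar)) = B1 (h38g_rho p ρbar) := by
  ext f
  rw [h38g_mem_rs, mem_B1, mem_B1]
  constructor
  · rintro ⟨X, hX⟩
    refine ⟨h38g_of p ρbar X, ?_⟩
    funext x
    exact congrFun hX x
  · rintro ⟨X, hX⟩
    refine ⟨h38g_to p ρbar X, ?_⟩
    funext x
    exact congrFun hX x

lemma h38g_rs_inf {X : Type} (W W' : Submodule k (X → ↥(h14l_sl ρbar))) :
    h38g_rs p ρbar (W ⊓ W') = h38g_rs p ρbar W ⊓ h38g_rs p ρbar W' := by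
  ext f
  exact Iff.rfl

/-- the image under `τ` of the coboundaries of `ad⁰(1)` inside a space of cocycles. -/
lemma h38g_map_inf_B1 (hB : H38TauBij) (hE : H38TauEquiv) (hp2 : p ≠ 2) [Finite k]
    (W : Submodule k (GQ → ↥(h14l_sl ρbar))) :
    (h38g_rs p ρbar W).map (h38g_tauC p ρbar GQ) ⊓
        B1 (dualTw (cycloChar p) (h38g_rho p ρbar)) =
      (h38g_rs p ρbar (W ⊓ B1 (h56c_Ad0tw p ρbar))).map (h38g_tauC p ρbar GQ) := by
  refine Submodule.ext fun (y' : GQ → Module.Dual (ZMod p) (h38g_M p ρbar)) => ?_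
  have hb : ∀ y : GQ → ↥(h14l_sl ρbar),
      h38g_push p ρbar y ∈ B1 (dualTw (cycloChar p) (h38g_rho p ρbar)) ↔
        y ∈ B1 (h56c_Ad0tw p ρbar) :=
    fun y => h38g_push_mem_B1 p ρbar (hB p hp2 k ρbar) _ _ (hE p k ρbar) y
  constructor
  · rintro ⟨h1, h2⟩
    obtain ⟨c, hc, rfl⟩ := (Submodule.mem_map (f := h38g_tauC p ρbar GQ)).1 h1
    exact (Submodule.mem_map (f := h38g_tauC p ρbar GQ)).2
      ⟨c, ⟨hc, (hb (h38g_toC p ρbar c)).1 h2⟩, rfl⟩
  · intro h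
    obtain ⟨c, ⟨hc, hc'⟩, rfl⟩ := (Submodule.mem_map (f := h38g_tauC p ρbar GQ)).1 h
    exact ⟨(Submodule.mem_map (f := h38g_tauC p ρbar GQ)).2 ⟨c, hc, rfl⟩,
      (hb (h38g_toC p ρbar c)).2 hc'⟩

end Transport

/-- the dimension of a quotient `Z / (Z ∩ B)`. -/
lemma h38g_finrank_quot {F : Type} [Field F] {E : Type} [AddCommGroup E] [Module F E]
    (Z B : Submodule F E) [Module.Finite F ↥Z] :
    Module.finrank F (↥Z ⧸ B.comap Z.subtype) + Module.finrank F ↥(Z ⊓ B) =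
      Module.finrank F ↥Z := by
  have h := Submodule.finrank_quotient_add_finrank (B.comap Z.subtype)
  have h2 : B.comap Z.subtype = (Z ⊓ B).comap Z.subtype := by
    rw [Submodule.comap_inf, Submodule.comap_subtype_self, top_inf_eq]
  have h3 : Module.finrank F ↥(B.comap Z.subtype) = Module.finrank F ↥(Z ⊓ B) := by
    rw [h2]
    exact (Submodule.comapSubtypeEquivOfLe (inf_le_left : Z ⊓ B ≤ Z)).finrank_eq
  rw [← h3]
  exact h


/-- **SEL-GW (assembly)**: the Greenberg–Wiles inequality in the `k`-linear vocabulary, for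
finite dimensional local conditions. -/
theorem h38g_gwSelFinOf : H38GWSelFinOf := by
  intro hGW hAnn hTNe hBij hEquiv hDisc hLevSel hLevDual hH0 hDim p _ k _ _ _ ρbar hyp
  classical
  have hp2 := hyp.hp2
  obtain ⟨hcard, hdpos, hMfin, hMrank, hW⟩ := hDim p k ρbar
  obtain ⟨hdisc, hdiscS⟩ := hDisc p k ρbar
  obtain ⟨hinv, hcFix⟩ := hH0 p k ρbar hyp
  obtain ⟨T₀, hT₀⟩ := @hGW p _ hp2 (h38g_M p ρbar) _ _ hMfin (h38g_rho p ρbar) hdisc
  refine ⟨T₀, h38g_ann p ρbar, fun v => h38g_annTop p ρbar hAnn hBij hEquiv hDisc hp2 v, ?_⟩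
  intro Sg hT hpS hunr Ls hLs hLsfin
  -- the local conditions of the `𝔽_p`-frame
  have hB1 : ∀ v : (DQ p Sg).P,
      B1 ((DQ p Sg).repAt (h38g_rho p ρbar) v) ≤ h38g_Ls0 p ρbar Sg Ls v := by
    intro v f hf
    have hf' := (SetLike.ext_iff.mp (h38g_B1_rs p ρbar (primeLocalToGlobal v.1)) f).2 hf
    exact (hLs v.1 v.2).1 hf'
  have hZ1 : ∀ v : (DQ p Sg).P, h38g_Ls0 p ρbar Sg Ls v ≤
      Z1 ((DQ p Sg).levH v) ((DQ p Sg).repAt (h38g_rho p ρbar) v) := by
    intro v f hf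
    have hf' : h38g_toC p ρbar f ∈ Z1 (h14l_lev v.1) (h14l_locAd0 ρbar v.1) :=
      (hLs v.1 v.2).2 hf
    exact (SetLike.ext_iff.mp
      (h38g_Z1_rs p ρbar (h14l_lev v.1) (primeLocalToGlobal v.1)) f).1 hf'
  have hfin0 : ∀ v : (DQ p Sg).P, Module.Finite (ZMod p) ↥(h38g_Ls0 p ρbar Sg Ls v) :=
    fun v => (hW _ (Ls v.1)).1.1 (hLsfin v.1 v.2)
  obtain ⟨hfinSel, hfinDual, hineq⟩ :=
    hT₀ Sg hT hpS (hdiscS Sg hunr) (h38g_Ls0 p ρbar Sg Ls) hB1 hZ1 hfin0
  -- identifications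
  have eqS := h38g_ZSel_eq p ρbar hLevSel Sg hunr Ls
  have eqD := h38g_ZSelD_eq p ρbar hBij hEquiv hLevDual hp2 Sg hpS hunr Ls
  have hinjC := h38g_tauC_injective p ρbar (hBij p hp2 k ρbar).1 GQ
  -- finiteness over `k`
  have hSelfin0 : Module.Finite (ZMod p) ↥(h38g_rs p ρbar (h56s_Sel ρbar Sg Ls)) :=
    @Module.Finite.equiv _ _ _ _ _ _ _ _ hfinSel (LinearEquiv.ofEq _ _ eqS)
  have hSelfin : Module.Finite k ↥(h56s_Sel ρbar Sg Ls) := (hW GQ _).1.2 hSelfin0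
  have hDualfin1 : Module.Finite (ZMod p)
      ↥((h38g_rs p ρbar (h56s_Dual p ρbar Sg (fun v => h38g_ann p ρbar v (Ls v)))).map
        (h38g_tauC p ρbar GQ)) :=
    @Module.Finite.equiv _ _ _ _ _ _ _ _ hfinDual (LinearEquiv.ofEq _ _ eqD)
  have hDualfin0 : Module.Finite (ZMod p)
      ↥(h38g_rs p ρbar (h56s_Dual p ρbar Sg (fun v => h38g_ann p ρbar v (Ls v)))) :=
    Module.Finite.equiv (Submodule.equivMapOfInjective (h38g_tauC p ρbar GQ) hinjC _).symm
  have hDualfin : Module.Finite k ↥(h56s_Dual p ρbar Sg (fun v => h38g_ann p ρbar v (Ls v))) :=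
    (hW GQ _).1.2 hDualfin0
  refine ⟨hSelfin, hDualfin, ?_⟩
  have hSelBfin : Module.Finite k ↥(h56s_Sel ρbar Sg Ls ⊓ B1 (h14l_Ad0 ρbar)) :=
    Submodule.finiteDimensional_of_le inf_le_left
  have hDualBfin : Module.Finite k
      ↥(h56s_Dual p ρbar Sg (fun v => h38g_ann p ρbar v (Ls v)) ⊓ B1 (h56c_Ad0tw p ρbar)) :=
    Submodule.finiteDimensional_of_le inf_le_left
  -- dimensions, primal side
  have hq1 := h38g_finrank_quot (h47g_ZSel (DQ p Sg) (h38g_rho p ρbar) (h38g_Ls0 p ρbar Sg Ls))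
    (B1 (h38g_rho p ρbar))
  have he1 : Module.finrank (ZMod p)
      ↥(h47g_ZSel (DQ p Sg) (h38g_rho p ρbar) (h38g_Ls0 p ρbar Sg Ls)) =
      h38g_d p k * Module.finrank k ↥(h56s_Sel ρbar Sg Ls) := by
    rw [← (hW GQ _).2 hSelfin]
    exact (LinearEquiv.ofEq _ _ eqS).finrank_eq
  have eqSB : h47g_ZSel (DQ p Sg) (h38g_rho p ρbar) (h38g_Ls0 p ρbar Sg Ls) ⊓
      B1 (h38g_rho p ρbar) =
      h38g_rs p ρbar (h56s_Sel ρbar Sg Ls ⊓ B1 (h14l_Ad0 ρbar)) := by
    rw [h38g_rs_inf, h38g_B1_rs_glob]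
    exact congrArg (· ⊓ B1 (h38g_rho p ρbar)) eqS
  have he2 : Module.finrank (ZMod p)
      ↥(h47g_ZSel (DQ p Sg) (h38g_rho p ρbar) (h38g_Ls0 p ρbar Sg Ls) ⊓
        B1 (h38g_rho p ρbar)) =
      h38g_d p k * Module.finrank k ↥(h56s_Sel ρbar Sg Ls ⊓ B1 (h14l_Ad0 ρbar)) := by
    rw [← (hW GQ _).2 hSelBfin]
    exact (LinearEquiv.ofEq _ _ eqSB).finrank_eq
  -- dimensions, dual side
  have hq2 := h38g_finrank_quot
    (h47g_ZSel (DQ p Sg) (dualTw (DQ p Sg).chi (h38g_rho p ρbar))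
      (fun v => h47g_ann (DQ p Sg) (h38g_rho p ρbar) v (h38g_Ls0 p ρbar Sg Ls v)))
    (B1 (dualTw (DQ p Sg).chi (h38g_rho p ρbar)))
  have he3 : Module.finrank (ZMod p)
      ↥(h47g_ZSel (DQ p Sg) (dualTw (DQ p Sg).chi (h38g_rho p ρbar))
        (fun v => h47g_ann (DQ p Sg) (h38g_rho p ρbar) v (h38g_Ls0 p ρbar Sg Ls v))) =
      h38g_d p k *
        Module.finrank k ↥(h56s_Dual p ρbar Sg (fun v => h38g_ann p ρbar v (Ls v))) := by
    rw [← (hW GQ _).2 hDualfin]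
    rw [(LinearEquiv.ofEq _ _ eqD).finrank_eq]
    exact (Submodule.equivMapOfInjective (h38g_tauC p ρbar GQ) hinjC _).finrank_eq.symm
  have eqDB : h47g_ZSel (DQ p Sg) (dualTw (DQ p Sg).chi (h38g_rho p ρbar))
        (fun v => h47g_ann (DQ p Sg) (h38g_rho p ρbar) v (h38g_Ls0 p ρbar Sg Ls v)) ⊓
      B1 (dualTw (DQ p Sg).chi (h38g_rho p ρbar)) =
      (h38g_rs p ρbar (h56s_Dual p ρbar Sg (fun v => h38g_ann p ρbar v (Ls v)) ⊓
        B1 (h56c_Ad0tw p ρbar))).map (h38g_tauC p ρbar GQ) := by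
    rw [← h38g_map_inf_B1 p ρbar hBij hEquiv hp2]
    exact congrArg (· ⊓ B1 (dualTw (cycloChar p) (h38g_rho p ρbar))) eqD
  have he4 : Module.finrank (ZMod p)
      ↥(h47g_ZSel (DQ p Sg) (dualTw (DQ p Sg).chi (h38g_rho p ρbar))
          (fun v => h47g_ann (DQ p Sg) (h38g_rho p ρbar) v (h38g_Ls0 p ρbar Sg Ls v)) ⊓
        B1 (dualTw (DQ p Sg).chi (h38g_rho p ρbar))) =
      h38g_d p k * Module.finrank k
        ↥(h56s_Dual p ρbar Sg (fun v => h38g_ann p ρbar v (Ls v)) ⊓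
          B1 (h56c_Ad0tw p ρbar)) := by
    rw [← (hW GQ _).2 hDualBfin]
    rw [(LinearEquiv.ofEq _ _ eqDB).finrank_eq]
    exact (Submodule.equivMapOfInjective (h38g_tauC p ρbar GQ) hinjC _).finrank_eq.symm
  -- the `H⁰` terms
  have hinv0 : Module.finrank (ZMod p) ↥(h38g_rho p ρbar).invariants = 0 := by
    have : (h38g_rho p ρbar).invariants = ⊥ := by
      rw [eq_bot_iff]
      intro X hX
      rw [Submodule.mem_bot]
      exact hinv X (fun σ => hX σ)
    rw [this]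
    exact finrank_bot _ _
  -- the sum of the local terms
  have hsum : ∑ v : (DQ p Sg).P,
      (Module.finrank (ZMod p) ↥(h38g_Ls0 p ρbar Sg Ls v) : ℤ) =
      (h38g_d p k : ℤ) * ∑ v ∈ Sg, (Module.finrank k ↥(Ls v) : ℤ) := by
    have h1 : ∀ v : ↥Sg, (Module.finrank (ZMod p) ↥(h38g_Ls0 p ρbar Sg Ls v) : ℤ) =
        (h38g_d p k : ℤ) * (Module.finrank k ↥(Ls v.1) : ℤ) := by
      intro v
      have := (hW _ (Ls v.1)).2 (hLsfin v.1 v.2)
      exact_mod_cast this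
    rw [Finset.mul_sum, ← Finset.sum_coe_sort Sg]
    exact Finset.sum_congr rfl (fun v _ => h1 v)
  -- arithmetic
  rw [hsum, hinv0, hcFix, hMrank] at hineq
  have e1 : (Module.finrank (ZMod p)
      (h47g_HSel (DQ p Sg) (h38g_rho p ρbar) (h38g_Ls0 p ρbar Sg Ls)) : ℤ) +
      (h38g_d p k : ℤ) *
        (Module.finrank k ↥(h56s_Sel ρbar Sg Ls ⊓ B1 (h14l_Ad0 ρbar)) : ℤ) =
      (h38g_d p k : ℤ) * (Module.finrank k ↥(h56s_Sel ρbar Sg Ls) : ℤ) := by
    rw [he1, he2] at hq1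
    exact_mod_cast hq1
  have e2 : (Module.finrank (ZMod p)
      (h47g_HSel (DQ p Sg) (dualTw (DQ p Sg).chi (h38g_rho p ρbar))
        (fun v => h47g_ann (DQ p Sg) (h38g_rho p ρbar) v (h38g_Ls0 p ρbar Sg Ls v))) : ℤ) +
      (h38g_d p k : ℤ) * (Module.finrank k
        ↥(h56s_Dual p ρbar Sg (fun v => h38g_ann p ρbar v (Ls v)) ⊓
          B1 (h56c_Ad0tw p ρbar)) : ℤ) =
      (h38g_d p k : ℤ) *
        (Module.finrank k ↥(h56s_Dual p ρbar Sg (fun v => h38g_ann p ρbar v (Ls v))) : ℤ) := by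
    rw [he3, he4] at hq2
    exact_mod_cast hq2
  have hd0 : (0 : ℤ) < (h38g_d p k : ℤ) := by exact_mod_cast hdpos
  have hI : (0 : ℤ) ≤ (Module.finrank (ZMod p)
      ↥(dualTw (DQ p Sg).chi (h38g_rho p ρbar)).invariants : ℤ) := Int.natCast_nonneg _
  have key : (h38g_d p k : ℤ) *
      ((Module.finrank k ↥(h56s_Sel ρbar Sg Ls) : ℤ) +
        (Module.finrank k ↥(h56s_Dual p ρbar Sg (fun v => h38g_ann p ρbar v (Ls v)) ⊓
          B1 (h56c_Ad0tw p ρbar)) : ℤ) + 1 + 3 * (Sg.card : ℤ)) ≤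
      (h38g_d p k : ℤ) *
      ((Module.finrank k ↥(h56s_Dual p ρbar Sg (fun v => h38g_ann p ρbar v (Ls v))) : ℤ) +
        (Module.finrank k ↥(h56s_Sel ρbar Sg Ls ⊓ B1 (h14l_Ad0 ρbar)) : ℤ) +
        ∑ v ∈ Sg, (Module.finrank k ↥(Ls v) : ℤ)) := by
    push_cast at hineq
    nlinarith [hineq, e1, e2, hI]
  have := le_of_mul_le_mul_left key hd0
  exact_mod_cast this

end Fermat.Agent.S56
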