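import Fermat.Agent.S56.Chain2
import Fermat.Agent.S56.SelGWAsm
import Fermat.Agent.S56.H5GwTrace
import Fermat.Agent.S56.H98GwLev
import Fermat.Agent.S56.H1GwDim
import Fermat.Agent.S56.H1GwH0
import Fermat.Agent.S56.H42Cheb
import Fermat.Agent.S56G.H47GWWire
import Fermat.Agent.S56G.H45Add
import Fermat.Agent.S56G.H93EqArith

/-!
# S56: the top chain, GW side closed (helper56)

With the blocks ADD (`h45a_phiAdd`), EQ-ARITH (`h93e_eqArith`), the wiring `h47g_tateGE_of`,
GW-LINALG (`h98g_gwOfGE`), LD1 (`h33y_annTop`) and the adapter SEL-GW (`h38g_gwSelFinOf` and its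
leaves) the Greenberg-Wiles input of the top is unconditional:

* `h56a_tateGE : H47TateGE`, `h56a_gwFin : H38GWSelFin`;
* `h56a_tanStrFin : H56TanStr` (the strict-ordinary conjunct, unconditional);
* `h56a_tanFl_of_pfl : LocPFL → H56TanFl`.

The only open input of S56 after this file is `Fermat.Agent.S56F.LocPFL` (flat conjunct).
-/

set_option autoImplicit false

namespace Fermat.Agent.S56

open Fermat.Agent.S56G

/-- the Tate Euler characteristic inequality, unconditional. -/
theorem h56a_tateGE : H47TateGE := h47g_tateGE_of h45a_phiAdd h93e_eqArith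

/-- **the Greenberg-Wiles input of the top, unconditional.** -/
theorem h56a_gwFin : H38GWSelFin :=
  h38g_gwSelFinOf (h98g_gwOfGE h56a_tateGE) h33y_annTop h5t_tNe h5t_tauBij h5t_tauEquiv
    h98v_disc h98v_levSel (h98v_levDualOf h5t_tauBij h5t_tauEquiv) (h1w_h0Of h42c_slIrr) h1w_dim

/-- **TAN, strict-ordinary conjunct, unconditional.** -/
theorem h56a_tanStrFin : H56TanStr := h56a_tanStr_of_gw h56a_gwFin

/-- **TAN, flat conjunct, from LocPFL only.** -/
theorem h56a_tanFl_of_pfl (hPFL : Fermat.Agent.S56F.LocPFL) : H56TanFl :=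
  h56a_tanFl_of_gw h56a_gwFin hPFL

end Fermat.Agent.S56
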