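import Fermat.Agent.S56.SelIface
import Fermat.Agent.S56L.H52UnipLift

/-!
# S56, block SEL: the final assembly `H56SelOf cond` (helper56)

`h56a_selOf cond : H56SelOf cond`, i.e. the Selmer bound `H56Sel cond` from the
Greenberg–Wiles inequality `H56GWSel`, the killing of the dual Selmer group `H56Kill`, the
local conditions `H56LocBase cond`, `H56LocTW`, and the dictionary leaves.
-/

set_option autoImplicit false
set_option linter.style.haveILetI false

open Polynomial IsLocalRing ExtCitation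

noncomputable section

namespace Fermat.Agent.S56

open Fermat.Agent.PT Fermat.Agent.S56L

/-! ## Pure algebra: counting classes -/

/-- A finite set of pairwise non-cohomologous elements of a finite dimensional space `W` with
`dim W ≤ dim (W ⊓ B) + r` has at most `#k ^ r` elements. -/
theorem h56a_count {k M : Type} [Field k] [Finite k] [AddCommGroup M] [Module k M]
    (W B : Submodule k M) [Module.Finite k ↥W] (r : ℕ)
    (h : Module.finrank k ↥W ≤ Module.finrank k ↥(W ⊓ B) + r)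
    (T : Finset M) (hT : ∀ c ∈ T, c ∈ W)
    (hT2 : ∀ c ∈ T, ∀ c' ∈ T, c - c' ∈ B → c = c') :
    T.card ≤ Nat.card k ^ r := by
  classical
  set N : Submodule k ↥W := B.comap W.subtype with hN
  have hNeq : Module.finrank k ↥N = Module.finrank k ↥(W ⊓ B) := by
    have h1 : N = (W ⊓ B).comap W.subtype := by
      ext x
      simp [hN, Submodule.mem_comap]
    rw [h1]
    exact LinearEquiv.finrank_eq (Submodule.comapSubtypeEquivOfLe (inf_le_left : W ⊓ B ≤ W))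
  have hq : Module.finrank k (↥W ⧸ N) + Module.finrank k ↥N = Module.finrank k ↥W :=
    Submodule.finrank_quotient_add_finrank N
  have hqr : Module.finrank k (↥W ⧸ N) ≤ r := by omega
  have hcard : Nat.card (↥W ⧸ N) = Nat.card k ^ Module.finrank k (↥W ⧸ N) :=
    Module.natCard_eq_pow_finrank (K := k) (V := ↥W ⧸ N)
  have hk1 : 1 ≤ Nat.card k := Nat.one_le_iff_ne_zero.mpr Nat.card_pos.ne'
  haveI : Finite (↥W ⧸ N) := Module.finite_of_finite k
  let f : {c // c ∈ T} → ↥W ⧸ N := fun c => Submodule.Quotient.mk ⟨c.1, hT c.1 c.2⟩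
  have hf : Function.Injective f := by
    intro c c' hcc
    have h1 : (⟨c.1, hT c.1 c.2⟩ : ↥W) - ⟨c'.1, hT c'.1 c'.2⟩ ∈ N :=
      (Submodule.Quotient.eq N).mp hcc
    have h2 : c.1 - c'.1 ∈ B := by
      simpa [hN, Submodule.mem_comap] using h1
    exact Subtype.ext (hT2 c.1 c.2 c'.1 c'.2 h2)
  calc T.card = Nat.card {c // c ∈ T} := by
        rw [Nat.card_eq_fintype_card, Fintype.card_coe]
    _ ≤ Nat.card (↥W ⧸ N) := Nat.card_le_card_of_injective f hf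
    _ = Nat.card k ^ Module.finrank k (↥W ⧸ N) := hcard
    _ ≤ Nat.card k ^ r := Nat.pow_le_pow_right hk1 hqr

/-- the residue field has characteristic `p`. -/
theorem h56a_charP {𝒪 : Type} [CommRing 𝒪] [IsLocalRing 𝒪] (p : ℕ) [hp : Fact p.Prime]
    (h : (p : 𝒪) ∈ maximalIdeal 𝒪) : CharP (ResidueField 𝒪) p := by
  have h0 : ((p : ℕ) : ResidueField 𝒪) = 0 := by
    have : residue 𝒪 (p : 𝒪) = 0 := (residue_eq_zero_iff _).mpr h
    simpa using this
  obtain ⟨q, hq⟩ := CharP.exists (ResidueField 𝒪)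
  have hdvd : q ∣ p := (CharP.cast_eq_zero_iff (ResidueField 𝒪) q p).mp h0
  rcases (Nat.dvd_prime hp.out).mp hdvd with h1 | h1
  · exact absurd h1 (CharP.char_ne_one (ResidueField 𝒪) q)
  · exact h1 ▸ hq

/-- a Taylor–Wiles tuple for a larger set `S'` is one for `S`. -/
theorem h56a_isTW_mono {k : Type} [Field k] (ρbar : ResidualGaloisRep k) (p : ℕ)
    {S S' : Finset ℕ} (hS : S ⊆ S') (n r : ℕ) (qv : Fin r → ℕ)
    (h : h56t_IsTW ρbar p S' n r qv) : h56t_IsTW ρbar p S n r qv :=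
  ⟨h.1, fun i => ⟨(h.2.1 i).1, fun hi => (h.2.1 i).2.1 (hS hi), (h.2.1 i).2.2⟩, h.2.2⟩

/-- **SEL, the assembly.** -/
theorem h56a_selOf
    (cond : ∀ (𝒪 : Type) [CommRing 𝒪] (_p : ℕ) (_Smin _Q : Finset ℕ)
      ⦃A : Type⦄ [CommRing A] [IsLocalRing A] [Algebra 𝒪 A], GaloisRepAdic A → Prop) :
    H56SelOf cond := by
  intro hGW hKill hLoc hTW hUnr hDet hcondUnr 𝒪 _ _ _ _ _ p _ ρbar S Smin hyp
  haveI hCP : CharP (ResidueField 𝒪) p := h56a_charP p hyp.hp𝒪
  have hc : h56c_Hyp p ρbar :=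
    ⟨hyp.hp2, hyp.habs, fun σ => hDet p (ResidueField 𝒪) ρbar hyp.hdet σ, hyp.hsplit, hyp.hTW⟩
  by_cases hnd : ∃ (Q : Finset ℕ) (c : GQ → ↥(h14l_sl ρbar)),
      h56t_IsLiftCoc 𝒪 ρbar (cond 𝒪 p Smin Q) c
  swap
  · -- no lift at all: `r = 0`
    refine ⟨0, fun n => ⟨fun i => i.elim0, ⟨fun i => i.elim0, fun i => i.elim0,
      fun i => i.elim0⟩, fun T hT1 _ => ?_⟩⟩
    have hTe : T = ∅ := by
      rw [Finset.eq_empty_iff_forall_notMem]
      intro c hcT
      exact hnd ⟨_, c, hT1 c hcT⟩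
    rw [hTe]
    simp
  -- the main case
  obtain ⟨Ls, hLs1, hLs4, hLs3, hLsmem⟩ := hLoc p ρbar S Smin hyp hnd
  obtain ⟨T₀, ann, hAnnTop, hGWin⟩ := hGW p (ResidueField 𝒪) ρbar hc
  -- the base set of primes
  set Sm : Finset Nat.Primes := Finset.subtype Nat.Prime Smin with hSmdef
  set Sg0 : Finset Nat.Primes := T₀ ∪ {pPrime p} ∪ Sm with hSg0def
  have hT₀ : T₀ ⊆ Sg0 := fun v hv => Finset.mem_union_left _ (Finset.mem_union_left _ hv)
  have hp0 : pPrime p ∈ Sg0 :=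
    Finset.mem_union_left _ (Finset.mem_union_right _ (Finset.mem_singleton_self _))
  have hSm : ∀ v : Nat.Primes, (v : ℕ) ∈ Smin → v ∈ Sg0 := fun v hv =>
    Finset.mem_union_right _ (Finset.mem_subtype.mpr hv)
  have hnep : ∀ v : Nat.Primes, v ∉ Sg0 → (v : ℕ) ≠ p := by
    intro v hv h
    apply hv
    have : v = pPrime p := Subtype.ext h
    rw [this]
    exact hp0
  have hunr0 : ∀ q : Nat.Primes, q ∉ Sg0 → ρbar.IsUnramifiedAt (q : ℕ) := by
    intro q hq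
    by_contra hram
    exact hq (hSm q ((hyp.hmin q q.2 (hnep q hq)).mpr hram))
  have hLsB : ∀ v ∈ Sg0, B1 (h14l_locAd0 ρbar v) ≤ Ls v ∧
      Ls v ≤ Z1 (h14l_lev v) (h14l_locAd0 ρbar v) := fun v _ => ⟨(hLs1 v).1, (hLs1 v).2.1⟩
  obtain ⟨-, hfin0, -⟩ := hGWin Sg0 hT₀ hp0 hunr0 Ls hLsB
  -- killing the dual Selmer group
  obtain ⟨r, hr⟩ := hKill p (ResidueField 𝒪) ρbar hc Sg0 (fun v => ann v (Ls v))
    (S ∪ Sg0.image (fun v : Nat.Primes => (v : ℕ))) hp0 hunr0 hfin0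
  refine ⟨r, fun n => ?_⟩
  obtain ⟨qv, hTWq, hqv, hkill⟩ := hr n
  refine ⟨fun i => (qv i : ℕ),
    h56a_isTW_mono ρbar p Finset.subset_union_left n r _ hTWq, fun T hT1 hT2 => ?_⟩
  have hqvinj : Function.Injective qv := fun a b h => hTWq.1 (congrArg Subtype.val h)
  set Q : Finset Nat.Primes := Finset.univ.image qv with hQdef
  have hQcard : Q.card = r := by
    rw [hQdef, Finset.card_image_of_injective _ hqvinj, Finset.card_univ, Fintype.card_fin]
  have hdisj : Disjoint Sg0 Q := by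
    rw [Finset.disjoint_left]
    intro v hv hvQ
    obtain ⟨i, -, rfl⟩ := Finset.mem_image.mp hvQ
    exact hqv i hv
  have hQn : ∀ v : Nat.Primes, (v : ℕ) ∈ Finset.univ.image (fun i => (qv i : ℕ)) → v ∈ Q := by
    intro v hv
    obtain ⟨i, -, hi⟩ := Finset.mem_image.mp hv
    exact Finset.mem_image.mpr ⟨i, Finset.mem_univ _, Subtype.ext hi⟩
  -- the local conditions for `Sg0 ∪ Q`
  set LsQ : h56s_Loc ρbar :=
    fun v => if v ∈ Sg0 then Ls v else Z1 (h14l_lev v) (h14l_locAd0 ρbar v) with hLsQdef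
  have hLsQ0 : ∀ v, v ∈ Sg0 → LsQ v = Ls v := fun v hv => by
    simp only [hLsQdef, if_pos hv]
  have hLsQ1 : ∀ v, v ∉ Sg0 → LsQ v = Z1 (h14l_lev v) (h14l_locAd0 ρbar v) := fun v hv => by
    simp only [hLsQdef, if_neg hv]
  have hLsQB : ∀ v ∈ Sg0 ∪ Q, B1 (h14l_locAd0 ρbar v) ≤ LsQ v ∧
      LsQ v ≤ Z1 (h14l_lev v) (h14l_locAd0 ρbar v) := by
    intro v _
    by_cases hv : v ∈ Sg0
    · rw [hLsQ0 v hv]
      exact ⟨(hLs1 v).1, (hLs1 v).2.1⟩
    · rw [hLsQ1 v hv]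
      exact ⟨(hLs1 v).1.trans (hLs1 v).2.1, le_rfl⟩
  have hunr : ∀ q : Nat.Primes, q ∉ Sg0 ∪ Q → ρbar.IsUnramifiedAt (q : ℕ) := fun q hq =>
    hunr0 q (fun h => hq (Finset.mem_union_left _ h))
  obtain ⟨hfinSel, hfinDual, hineq⟩ := hGWin (Sg0 ∪ Q) (hT₀.trans Finset.subset_union_left)
    (Finset.mem_union_left _ hp0) hunr LsQ hLsQB
  -- the dual Selmer group vanishes
  have hD : h56s_Dual p ρbar (Sg0 ∪ Q) (fun v => ann v (LsQ v)) ≤ B1 (h56c_Ad0tw p ρbar) := by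
    refine le_trans ?_ hkill
    intro ψ hψ
    rw [h56s_mem_Dual] at hψ ⊢
    refine ⟨hψ.1, hψ.2.1, fun v hv => ?_⟩
    have h1 := hψ.2.2 v hv
    by_cases hv0 : v ∈ Sg0
    · rw [if_pos hv0]
      rw [hLsQ0 v hv0] at h1
      exact h1
    · rw [if_neg hv0]
      rw [hLsQ1 v hv0] at h1
      exact hAnnTop v h1
  have hDeq : h56s_Dual p ρbar (Sg0 ∪ Q) (fun v => ann v (LsQ v)) ⊓ B1 (h56c_Ad0tw p ρbar) =
      h56s_Dual p ρbar (Sg0 ∪ Q) (fun v => ann v (LsQ v)) := inf_eq_left.mpr hD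
  rw [hDeq] at hineq
  -- the local dimensions
  have hsum0 : ∑ v ∈ Sg0, Module.finrank (ResidueField 𝒪) ↥(LsQ v) ≤ 3 * Sg0.card + 1 := by
    have h1 : ∀ v ∈ Sg0, Module.finrank (ResidueField 𝒪) ↥(LsQ v) ≤
        3 + (if v = pPrime p then 1 else 0) := by
      intro v hv
      rw [hLsQ0 v hv]
      by_cases hvp : v = pPrime p
      · rw [if_pos hvp]
        exact hLs4 v (by rw [hvp]; rfl)
      · rw [if_neg hvp]
        exact hLs3 v (fun h => hvp (Subtype.ext h))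
    refine (Finset.sum_le_sum h1).trans ?_
    rw [Finset.sum_add_distrib, Finset.sum_const, smul_eq_mul, Finset.sum_ite_eq' Sg0 (pPrime p),
      if_pos hp0, mul_comm]
  have hsumQ : ∑ v ∈ Q, Module.finrank (ResidueField 𝒪) ↥(LsQ v) ≤ 4 * r := by
    have h1 : ∀ v ∈ Q, Module.finrank (ResidueField 𝒪) ↥(LsQ v) ≤ 4 := by
      intro v hv
      obtain ⟨i, -, rfl⟩ := Finset.mem_image.mp hv
      rw [hLsQ1 _ (hqv i)]
      refine (hTW p hyp.hp2 (ResidueField 𝒪) ρbar (qv i) (hnep _ (hqv i)) ?_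
        (hunr0 _ (hqv i)) (fun P hP φ hφ => hTWq.2.2 i P hP φ hφ)).2
      exact dvd_trans (dvd_pow_self p (Nat.succ_ne_zero n)) (hTWq.2.1 i).2.2
    refine (Finset.sum_le_sum h1).trans ?_
    rw [Finset.sum_const, smul_eq_mul, hQcard, mul_comm]
  have hcardS : (Sg0 ∪ Q).card = Sg0.card + r := by
    rw [Finset.card_union_of_disjoint hdisj, hQcard]
  rw [Finset.sum_union hdisj, hcardS] at hineq
  have hle : Module.finrank (ResidueField 𝒪) ↥(h56s_Sel ρbar (Sg0 ∪ Q) LsQ) ≤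
      Module.finrank (ResidueField 𝒪)
        ↥(h56s_Sel ρbar (Sg0 ∪ Q) LsQ ⊓ B1 (h14l_Ad0 ρbar)) + r := by
    omega
  -- the cocycles of `T` are Selmer cocycles
  have hTSel : ∀ c ∈ T, c ∈ h56s_Sel ρbar (Sg0 ∪ Q) LsQ := by
    intro c hcT
    obtain ⟨hcZ, ρA, hcoc, hcond⟩ := hT1 c hcT
    rw [h56s_mem_Sel]
    refine ⟨hcZ, ?_, fun v hv => ?_⟩
    · intro q hq P hP s hs
      refine hUnr (ResidueField 𝒪) ρbar ρA c (q : ℕ) hcoc
        (hcondUnr p Smin _ ρA hcond (q : ℕ) q.2 ?_) P hP s hs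
      intro hmem
      rcases Finset.mem_union.mp hmem with h | h
      · exact hq (Finset.mem_union_left _ (hSm q h))
      · exact hq (Finset.mem_union_right _ (hQn q h))
    · by_cases hv0 : v ∈ Sg0
      · rw [hLsQ0 v hv0]
        refine hLsmem _ c ⟨hcZ, ρA, hcoc, hcond⟩ v ?_
        intro hmem
        exact Finset.disjoint_left.mp hdisj hv0 (hQn v hmem)
      · rw [hLsQ1 v hv0]
        exact h52l_loc_mem_Z1 ρbar v hcZ
  haveI := hfinSel
  exact h56a_count (h56s_Sel ρbar (Sg0 ∪ Q) LsQ) (B1 (h14l_Ad0 ρbar)) r hle T hTSel hT2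

/-- **SEL, strict-ordinary conjunct.** -/
theorem h56a_selStr (hGW : H56GWSel) (hKill : H56Kill) (hLoc : H56LocBaseStr)
    (hTW : H56LocTW) (hUnr : H56UnrOfLift) (hDet : h14l_DetCyc) : H56SelStr :=
  h56a_selOf _ hGW hKill hLoc hTW hUnr hDet (by
    intro 𝒪 _ p Smin Q A _ _ _ ρ h q hq hqS
    exact h.1.2.2 q hq hqS)

/-- **SEL, flat conjunct.** -/
theorem h56a_selFl (hGW : H56GWSel) (hKill : H56Kill) (hLoc : H56LocBaseFl)
    (hTW : H56LocTW) (hUnr : H56UnrOfLift) (hDet : h14l_DetCyc) : H56SelFl :=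
  h56a_selOf _ hGW hKill hLoc hTW hUnr hDet (by
    intro 𝒪 _ p Smin Q A _ _ _ ρ h q hq hqS
    exact h.1.2.2 q hq hqS)

end Fermat.Agent.S56
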