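import Fermat.Agent.S56.Top
import Fermat.Agent.S56.SelAsm

/-!
# S56: the compiled conditional chain (helper56)

`h56a_Inputs` bundles the frozen block `Prop`s; `h56a_tanStr`, `h56a_tanFl` give the two
top interfaces of `S56/Top.lean` (`h56t_s56_of`) from them.

Blocks: `nak` (done: `h76k_nak`), `defStr`/`defFl` (block DEF), `gw` (block GW, adapter SEL-GW),
`kill` (block TW-CHEB, row SEL-KILL), `locStr`/`locFl`/`locTW`/`unr`/`detCyc` (blocks LOC and
LOC-p-FL).
-/

set_option autoImplicit false

open Polynomial IsLocalRing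

namespace Fermat.Agent.S56

open Fermat.Agent.PT Fermat.Agent.S56L

/-- everything the top assembly of S56 consumes. -/
structure h56a_Inputs : Prop where
  nak : H56Nak
  defStr : H56DefStr
  defFl : H56DefFl
  gw : H56GWSel
  kill : H56Kill
  locStr : H56LocBaseStr
  locFl : H56LocBaseFl
  locTW : H56LocTW
  unr : H56UnrOfLift
  detCyc : h14l_DetCyc

/-- **TAN, strict-ordinary conjunct, from the blocks.** -/
theorem h56a_tanStr (h : h56a_Inputs) : H56TanStr :=
  h56t_tanStr_of h.defStr (h56a_selStr h.gw h.kill h.locStr h.locTW h.unr h.detCyc)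

/-- **TAN, flat conjunct, from the blocks.** -/
theorem h56a_tanFl (h : h56a_Inputs) : H56TanFl :=
  h56t_tanFl_of h.defFl (h56a_selFl h.gw h.kill h.locFl h.locTW h.unr h.detCyc)

end Fermat.Agent.S56
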