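import Fermat.Agent.S56.SelIface
import Fermat.Agent.S56L.H72QFinal
import Fermat.Agent.S56L.H52ResRam
import Fermat.Agent.PT.Bridge.Frob

/-!
# S56, block SEL, row SEL-LOCTW (helper45): the local count at Taylor–Wiles primes

`h45s_locTW_of : h14l_LocQBound → h14l_ResRam → H56LocTW` (adapter from the LOC vocabulary to the
frozen `H56LocTW` of `S56/SelIface.lean`), and the unconditional
`h45s_locTW : H56LocTW` (using `h72q_locQBound` and `h52l_resRam`).

Steps: `p ∣ q - 1` gives `(q : k) = 1`; `ρbar` unramified at `q` (frozen form) gives the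
triviality on the local inertia group (`h14l_ResRam`); a local Frobenius element exists and is a
Frobenius element at `primeLocalPlace q`, so it is regular by hypothesis; the injection of
`Z¹` into `k⁴` gives finiteness and the bound on the dimension.
-/

set_option autoImplicit false
set_option linter.style.haveILetI false

open Polynomial ExtCitation

noncomputable section

namespace Fermat.Agent.S56

open Fermat.Agent.PT Fermat.Agent.PT.Bridge Fermat.Agent.S56L

/-- `p ∣ q - 1` and `q ≥ 1` give `(q : k) = 1` in characteristic `p`. -/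
theorem h45s_cast_eq_one (p : ℕ) (k : Type) [Field k] [CharP k p] (q : ℕ) (hq : 1 ≤ q)
    (hdvd : p ∣ q - 1) : ((q : ℕ) : k) = 1 := by
  have h0 : (((q - 1 : ℕ) : ℕ) : k) = 0 := (CharP.cast_eq_zero_iff k p (q - 1)).2 hdvd
  rw [Nat.cast_sub hq, Nat.cast_one, sub_eq_zero] at h0
  exact h0

/-- A local Frobenius element exists at `primeLocalPlace q`. -/
theorem h45s_exists_localFrob (q : Nat.Primes) :
    (primeLocalPlace q).LiesOverPrime (q : ℕ) ∧
      ∃ φ : primeLocalGaloisGroup q,
        (primeLocalPlace q).IsFrobeniusAt (primeLocalToGlobal q φ) (q : ℕ) := by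
  haveI : Fact (q : ℕ).Prime := ⟨q.2⟩
  have hA : (padicPlace (q : ℕ)).LiesOverPrime (q : ℕ) := h23b_padicPlace_liesOver (q : ℕ)
  refine ⟨hA, ?_⟩
  obtain ⟨σ, hσ⟩ := Fermat.Agent.Bridge.existsFrob (padicPlace (q : ℕ)) (q : ℕ) q.2 hA
  obtain ⟨φ, hφ⟩ := h23b_exists_localGalois_of_mem_decomp (q : ℕ) hσ.mem_decompositionSubgroup
  refine ⟨φ, ?_⟩
  change (padicPlace (q : ℕ)).IsFrobeniusAt (localGaloisToGlobal (q : ℕ) φ) (q : ℕ)
  rw [hφ]
  exact hσ

/-- **SEL-LOCTW (adapter).**  The frozen local count at the Taylor–Wiles primes, from the two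
LOC inputs `h14l_LocQBound` and `h14l_ResRam`. -/
theorem h45s_locTW_of (hQ : h14l_LocQBound) (hR : h14l_ResRam) : H56LocTW := by
  intro p _ hp2 k _ _ _ ρbar q hqp hdvd hunr hreg
  have hq1 : (((q : ℕ) : ℕ) : k) = 1 := h45s_cast_eq_one p k (q : ℕ) q.2.one_le hdvd
  have hin : ∀ s ∈ h14l_inert q, h14l_locRho ρbar q s = 1 := (hR k ρbar q).2 hunr
  obtain ⟨hA, φ, hφ⟩ := h45s_exists_localFrob q
  obtain ⟨α, β, hαβ, hch⟩ := hreg (primeLocalPlace q) hA (primeLocalToGlobal q φ) hφ
  obtain ⟨⟨f, hf⟩, -⟩ := hQ p hp2 k ρbar q hqp hq1 hin ⟨φ, hφ, α, β, hαβ, hch⟩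
  haveI : Module.Finite k ↥(Z1 (h14l_lev q) (h14l_locAd0 ρbar q)) :=
    Module.Finite.of_injective f hf
  refine ⟨inferInstance, ?_⟩
  have h := LinearMap.finrank_le_finrank_of_injective hf
  rwa [Module.finrank_fin_fun] at h

/-- **SEL-LOCTW**, unconditional. -/
theorem h45s_locTW : H56LocTW := h45s_locTW_of h72q_locQBound h52l_resRam

end Fermat.Agent.S56
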