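import Fermat.Agent.S56.ChebIface
import Fermat.Agent.Cheb.Final
import Fermat.Agent.Bridge.FrobeniusConj
import Fermat.Agent.Bridge.Main

/-!
# S56, block TW-CHEB, leaf CHEB-FROB (helper51): `h51f_frob : H56Frob`

Adapter of the landed weak Chebotarev theorem `Fermat.Agent.Cheb.WC_exists_isFrobeniusAt_pow`.
-/

set_option autoImplicit false
set_option linter.unusedSectionVars false
set_option linter.unusedVariables false
set_option linter.style.haveILetI false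

open ExtCitation
open scoped Pointwise

namespace Fermat.Agent.S56

open Fermat.Agent.Bridge

section Restrict

variable (L : IntermediateField ℚ (AlgebraicClosure ℚ)) [Normal ℚ L]

/-- a normal subfield is stable under the Galois group. -/
theorem h51f_stable (g : GQ) (x : AlgebraicClosure ℚ) (hx : x ∈ L) : g x ∈ L := by
  have h := AlgEquiv.restrictNormal_commutes g L ⟨x, hx⟩
  have h2 : g x = ((AlgEquiv.restrictNormal g L ⟨x, hx⟩ : L) : AlgebraicClosure ℚ) := h.symm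
  rw [h2]
  exact (AlgEquiv.restrictNormal g L ⟨x, hx⟩).2

/-- the restriction to `L`, elementwise. -/
theorem h51f_restrict_apply (g : GQ) (x : AlgebraicClosure ℚ) (hx : x ∈ L) :
    ((AlgEquiv.restrictNormalHom L g ⟨x, hx⟩ : L) : AlgebraicClosure ℚ) = g x :=
  AlgEquiv.restrictNormal_commutes g L ⟨x, hx⟩

/-- two elements with the same restriction agree on `L`. -/
theorem h51f_eq_of_restrict_eq {g h : GQ}
    (e : AlgEquiv.restrictNormalHom L g = AlgEquiv.restrictNormalHom L h)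
    (x : AlgebraicClosure ℚ) (hx : x ∈ L) : g x = h x := by
  rw [← h51f_restrict_apply L g x hx, ← h51f_restrict_apply L h x hx, e]

/-- two elements which agree on `L` have the same restriction. -/
theorem h51f_restrict_eq_of_eq {g h : GQ}
    (e : ∀ x ∈ L, g x = h x) :
    AlgEquiv.restrictNormalHom L g = AlgEquiv.restrictNormalHom L h := by
  apply AlgEquiv.ext
  intro y
  apply Subtype.ext
  rw [h51f_restrict_apply L g y.1 y.2, h51f_restrict_apply L h y.1 y.2]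
  exact e y.1 y.2

end Restrict

/-- **CHEB-FROB.** -/
theorem h51f_frob : H56Frob := by
  intro p hp L hfin hnorm σ S'
  haveI := hfin
  haveI := hnorm
  haveI : IsGalois ℚ L := ⟨⟩
  obtain ⟨q, A, φ, k, hq, hqS, hA, hφ, hin, hcop, hφσ⟩ :=
    Fermat.Agent.Cheb.WC_exists_isFrobeniusAt_pow L σ S'
  set r := AlgEquiv.restrictNormalHom (F := ℚ) (K₁ := AlgebraicClosure ℚ) L with hr
  set m := orderOf (r σ) with hm
  have hmpos : 0 < m := orderOf_pos (r σ)
  have hpp : p.Prime := hp.out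
  -- powers of `σ` on `L` depend on the exponent modulo `m`
  have hpowL : ∀ a b : ℕ, a ≡ b [MOD m] → ∀ x ∈ L, (σ ^ a) x = (σ ^ b) x := by
    intro a b hab x hx
    apply h51f_eq_of_restrict_eq L _ x hx
    rw [map_pow, map_pow]
    exact pow_eq_pow_iff_modEq.mpr hab
  -- the exponent `j`
  obtain ⟨j, hpj, hjk⟩ : ∃ j : ℕ, ¬ p ∣ j ∧ j ≡ k [MOD m] := by
    by_cases hpk : p ∣ k
    · refine ⟨k + m, ?_, ?_⟩
      · intro h
        have hpm : p ∣ m := (Nat.dvd_add_right hpk).mp h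
        have h1 : p ∣ Nat.gcd k m := Nat.dvd_gcd hpk hpm
        rw [hcop] at h1
        exact hpp.one_lt.ne' (Nat.dvd_one.mp h1)
      · exact Nat.add_modEq_right
    · exact ⟨k, hpk, Nat.ModEq.refl k⟩
  -- the exponent `i`
  obtain ⟨i, hi⟩ : ∃ i : ℕ, k * i ≡ 1 [MOD m] := by
    by_cases hm1 : m = 1
    · exact ⟨0, by rw [hm1]; exact Nat.modEq_one⟩
    · have h1 : 1 < m := by omega
      obtain ⟨i, -, hi⟩ := Nat.exists_mul_mod_eq_one_of_coprime hcop h1
      refine ⟨i, ?_⟩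
      rw [Nat.ModEq, hi, Nat.mod_eq_of_lt h1]
  have hrφ : r φ = r σ ^ k := by
    rw [← map_pow]
    exact h51f_restrict_eq_of_eq L hφσ
  refine ⟨q, A, φ, j, i, hq, hqS, hA, hφ, ?_, ?_, hpj, ?_, ?_⟩
  · -- every inertia group at `q` fixes `L`
    intro P' hP' g hg x hx
    obtain ⟨τ, rfl⟩ := exists_smul_eq_of_liesOverPrime hq hA hP'
    have h1 : τ⁻¹ * g * τ ∈ A.inertiaSubgroupIn ℚ := (mem_inertiaSubgroupIn_smul_iff τ g A).mp hg
    have hx' : τ⁻¹ x ∈ L := h51f_stable L τ⁻¹ x hx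
    have h2 := hin _ h1 _ hx'
    have h3 : (τ⁻¹ * g * τ) (τ⁻¹ x) = τ⁻¹ (g x) := by
      simp [AlgEquiv.mul_apply]
    rw [h3] at h2
    exact (τ⁻¹ : GQ).injective h2
  · -- every Frobenius at `q` is conjugate to `φ` on `L`
    intro P' φ' hP' hφ'
    obtain ⟨τ, rfl⟩ := exists_smul_eq_of_liesOverPrime hq hA hP'
    refine ⟨τ, fun x hx => ?_⟩
    have hc : (τ • A).IsFrobeniusAt (τ * φ * τ⁻¹) q := isFrobeniusAt_conj hq hA hφ τ
    have h1 : (τ * φ * τ⁻¹)⁻¹ * φ' ∈ (τ • A).inertiaSubgroupIn ℚ :=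
      (isFrobeniusAt_iff_inv_mul_mem_inertia hc φ').mp hφ'
    have h2 : τ⁻¹ * ((τ * φ * τ⁻¹)⁻¹ * φ') * τ ∈ A.inertiaSubgroupIn ℚ :=
      (mem_inertiaSubgroupIn_smul_iff τ _ A).mp h1
    have hx' : τ⁻¹ x ∈ L := h51f_stable L τ⁻¹ x hx
    have h3 := hin _ h2 _ hx'
    have h4 : (τ⁻¹ * ((τ * φ * τ⁻¹)⁻¹ * φ') * τ) (τ⁻¹ x)
        = τ⁻¹ ((τ * φ * τ⁻¹)⁻¹ (φ' x)) := by
      simp [AlgEquiv.mul_apply]
    rw [h4] at h3
    have h5 : (τ * φ * τ⁻¹)⁻¹ (φ' x) = x := (τ⁻¹ : GQ).injective h3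
    have e : (τ * φ * τ⁻¹) ((τ * φ * τ⁻¹)⁻¹ (φ' x)) = φ' x := by
      rw [← AlgEquiv.mul_apply, mul_inv_cancel, AlgEquiv.one_apply]
    rw [← e, h5]
  · intro x hx
    rw [hφσ x hx]
    exact (hpowL j k hjk x hx).symm
  · intro x hx
    apply h51f_eq_of_restrict_eq L _ x hx
    rw [map_pow, hrφ, ← pow_mul]
    have : r σ ^ (k * i) = r σ ^ 1 := pow_eq_pow_iff_modEq.mpr hi
    rw [this, pow_one]

end Fermat.Agent.S56
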