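import Fermat.Agent.S56.ChebIface
import Fermat.Agent.S29.CycChar

/-!
# S56, block TW-CHEB, leaf CHEB-FROBMU (helper51): `h51m_frobMu : H56FrobMu`

A Frobenius element at `q` raises the roots of unity of order prime to `q` to the power `q`.

Proof: `φ μ - μ ^ q` lies in the maximal ideal of `P` (landed `S29.CycChar.frobenius_sub_mem`);
both `φ μ` and `μ ^ q` are `m`-th roots of unity; two `m`-th roots of unity which are congruent
modulo the maximal ideal are equal, because otherwise `m` lies in the maximal ideal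
(`S29.CycChar.natCast_mem_nonunits_of_sub_one_mem`), which is impossible for `q ∤ m`.
-/

set_option autoImplicit false

namespace Fermat.Agent.S56

/-- Distinct `m`-th roots of unity stay distinct modulo the maximal ideal of a valuation subring
lying over a prime `q ∤ m`. -/
theorem h51m_eq_of_sub_mem_nonunits {L : Type*} [Field L] (A : ValuationSubring L) {m q : ℕ}
    (hq : q.Prime) (hqm : ¬ q ∣ m) (hA : (q : L) ∈ A.nonunits) {x y : L} (hx : x ^ m = 1)
    (hy : y ^ m = 1) (h : x - y ∈ A.nonunits) : x = y := by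
  by_contra hxy
  have hm0 : m ≠ 0 := by
    rintro rfl
    exact hqm (dvd_zero q)
  have hy0 : y ≠ 0 := by
    rintro rfl
    rw [zero_pow hm0] at hy
    exact zero_ne_one hy
  have hyint : IsIntegral ℤ y⁻¹ := by
    refine ⟨Polynomial.X ^ m - 1, Polynomial.monic_X_pow_sub_C (1 : ℤ) hm0, ?_⟩
    simp [inv_pow, hy]
  have hyA : y⁻¹ ∈ A := Fermat.Agent.S54.mem_valuationSubring_of_isIntegral A hyint
  have hξ : (x * y⁻¹) ^ m = 1 := by rw [mul_pow, inv_pow, hx, hy, inv_one, mul_one]
  have hξ1 : x * y⁻¹ ≠ 1 := by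
    intro h1
    apply hxy
    field_simp at h1
    exact h1
  have hmem : x * y⁻¹ - 1 ∈ A.nonunits := by
    have e : x * y⁻¹ - 1 = (x - y) * y⁻¹ := by
      field_simp
    rw [e, ValuationSubring.mem_nonunits_iff] at *
    rw [map_mul]
    exact mul_lt_one_of_nonneg_of_lt_one_left zero_le h ((A.valuation_le_one_iff _).mpr hyA)
  have hpmem := Fermat.Agent.S29.CycChar.natCast_mem_nonunits_of_sub_one_mem A hξ hξ1 hmem
  have hnd : ¬ (q : ℤ) ∣ (m : ℤ) := by
    intro hdvd
    exact hqm (Int.natCast_dvd_natCast.mp hdvd)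
  have := Fermat.Agent.S54.intCast_not_mem_nonunits A hq hA hnd
  apply this
  simpa using hpmem

/-- **CHEB-FROBMU.** -/
theorem h51m_frobMu : H56FrobMu := by
  intro q m P φ hq hqm hP hφ μ hμ
  have hm0 : m ≠ 0 := by
    rintro rfl
    exact hqm (dvd_zero q)
  have hμint : IsIntegral ℤ μ := by
    refine ⟨Polynomial.X ^ m - 1, Polynomial.monic_X_pow_sub_C (1 : ℤ) hm0, ?_⟩
    simp [hμ]
  have hμP : μ ∈ P := Fermat.Agent.S54.mem_valuationSubring_of_isIntegral P hμint
  have h1 : φ μ - μ ^ q ∈ P.nonunits := Fermat.Agent.S29.CycChar.frobenius_sub_mem P hφ hμP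
  have hσm : (φ μ) ^ m = 1 := by rw [← map_pow, hμ, map_one]
  have hqm' : (μ ^ q) ^ m = 1 := by rw [← pow_mul, mul_comm, pow_mul, hμ, one_pow]
  exact h51m_eq_of_sub_mem_nonunits P hq hqm hP hσm hqm' h1

end Fermat.Agent.S56
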