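import Fermat.Agent.S56.ChebIface
import Fermat.Agent.PT.Bridge.Levels

/-!
# S56, block TW-CHEB, row CHEB-GRP: the choice of `σ` (helper5, prefix `h5g_`)

`h5g_grpOneOf : H56GrpOneOf`, i.e. `H56SlIrr → H56H1Van → H56SS → H56GrpOne`.

Let `ψ` be a continuous cocycle of `ad⁰ ρbar (1)` which is not a coboundary and
`N = ker ρbar ∩ G_{ℚ(ζ_{p^(n+1)})}`.

* By `H56H1Van` there is `τ ∈ N` with `ψ τ ≠ 0`.
* `N` acts trivially on `ad⁰ ρbar (1)`, so `ψ (g τ g⁻¹) = g · ψ τ` for `τ ∈ N`: the `k`-span `W`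
  of `ψ N` is a nonzero stable subspace of `ad⁰ ρbar`, hence `W = ⊤` by `H56SlIrr`.
* Let `σ₀ ∈ G_{ℚ(ζ_{p^(n+1)})}` have two distinct eigenvalues (`H56SS`).  The trace zero
  endomorphism `ρbar σ₀ - (tr / 2)` is nonzero and fixed by `Ad0 σ₀`, so
  `R = (Ad0 σ₀ - 1) sl` is a proper subspace.
* For `τ ∈ N` the element `τ σ₀` fixes the roots of unity, `ρbar (τ σ₀) = ρbar σ₀` and
  `ψ (τ σ₀) = ψ τ + ψ σ₀`.  If all these values were in `R` then `ψ N ⊆ R`, so `W ⊆ R`.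
-/

set_option autoImplicit false
set_option linter.unusedSectionVars false

open Polynomial ExtCitation

noncomputable section

namespace Fermat.Agent.S56

open Fermat.Agent.PT Fermat.Agent.S56L

variable {p : ℕ} [Fact p.Prime] {k : Type} [Field k] [CharP k p]

/-- the mod `p` cyclotomic character is trivial on `G_{ℚ(ζ_{p^(n+1)})}`. -/
theorem h5g_cyc_eq_one {n : ℕ} {τ : GQ} (h : h56c_FixMu p n τ) : h56c_cyc k p τ = 1 := by
  obtain ⟨ζ, hζ⟩ := pt79_exists_primitiveRoot p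
  have h1 : ζ ^ p ^ (n + 1) = 1 := by
    rw [pow_succ', pow_mul, hζ.pow_eq_one, one_pow]
  have h2 := pt79_cycloChar_eq_one_of_fix p hζ τ (h ζ h1)
  rw [h56c_cyc_apply, h2]
  simp

theorem h5g_fixMu_mul {n : ℕ} {σ τ : GQ} (hσ : h56c_FixMu p n σ) (hτ : h56c_FixMu p n τ) :
    h56c_FixMu p n (σ * τ) := by
  intro μ hμ
  rw [AlgEquiv.mul_apply, hτ μ hμ, hσ μ hμ]

theorem h5g_fixMu_conj {n : ℕ} (g : GQ) {τ : GQ} (hτ : h56c_FixMu p n τ) :
    h56c_FixMu p n (g * τ * g⁻¹) := by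
  intro μ hμ
  have h1 : (g⁻¹ μ) ^ p ^ (n + 1) = 1 := by
    rw [← map_pow, hμ, map_one]
  rw [AlgEquiv.mul_apply, AlgEquiv.mul_apply, hτ _ h1]
  change (g * g⁻¹) μ = μ
  rw [mul_inv_cancel]
  rfl

variable (ρbar : ResidualGaloisRep k)

theorem h5g_rho_inv_eq_one {τ : GQ} (h : ρbar.ρ τ = 1) : ρbar.ρ τ⁻¹ = 1 := by
  have h1 := h14l_rho_inv_mul ρbar τ
  rwa [h, mul_one] at h1

/-- `Ad0 τ = 1` if `ρbar τ = 1`. -/
theorem h5g_Ad0_eq_of_rho_eq_one {τ : GQ} (h : ρbar.ρ τ = 1) (X : ↥(h14l_sl ρbar)) :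
    h14l_Ad0 ρbar τ X = X := by
  apply Subtype.ext
  rw [h14l_Ad0_coe, h, h5g_rho_inv_eq_one ρbar h, one_mul, mul_one]

/-- `Ad0 (τ σ) = Ad0 σ` if `ρbar τ = 1`. -/
theorem h5g_Ad0_mul_of_rho_eq_one {τ : GQ} (h : ρbar.ρ τ = 1) (σ : GQ) :
    h14l_Ad0 ρbar (τ * σ) = h14l_Ad0 ρbar σ := by
  rw [map_mul]
  ext X : 1
  rw [Module.End.mul_apply, h5g_Ad0_eq_of_rho_eq_one ρbar h]

/-- `N` acts trivially on the twist. -/
theorem h5g_tw_eq {n : ℕ} {τ : GQ} (h1 : ρbar.ρ τ = 1) (h2 : h56c_FixMu p n τ)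
    (X : ↥(h14l_sl ρbar)) : h56c_Ad0tw p ρbar τ X = X := by
  rw [h56c_Ad0tw_apply, h5g_cyc_eq_one h2, one_smul, h5g_Ad0_eq_of_rho_eq_one ρbar h1]

section Cocycle

variable {ρbar}
variable {ψ : GQ → ↥(h14l_sl ρbar)}

/-- the cocycle identity. -/
theorem h5g_coc (hψ : ψ ∈ Z1 levFin (h56c_Ad0tw p ρbar)) (g h : GQ) :
    ψ (g * h) = ψ g + h56c_Ad0tw p ρbar g (ψ h) := by
  have h1 := (mem_Z1 levFin (h56c_Ad0tw p ρbar) ψ).mp hψ
  have h2 := congrFun h1.1 (g, h)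
  rw [d1_apply, Pi.zero_apply] at h2
  have h3 : ψ (g * h) = h56c_Ad0tw p ρbar g (ψ h) + ψ g := by
    rw [sub_add_eq_add_sub, sub_eq_zero] at h2
    exact h2.symm
  rw [h3, add_comm]

theorem h5g_coc_one (hψ : ψ ∈ Z1 levFin (h56c_Ad0tw p ρbar)) : ψ 1 = 0 := by
  have h := h5g_coc hψ 1 1
  rw [mul_one, map_one, Module.End.one_apply] at h
  exact left_eq_add.mp h

/-- equivariance of the restriction of `ψ` to `N`. -/
theorem h5g_conj (hψ : ψ ∈ Z1 levFin (h56c_Ad0tw p ρbar)) {n : ℕ} (g : GQ) {τ : GQ}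
    (h1 : ρbar.ρ τ = 1) (h2 : h56c_FixMu p n τ) :
    ψ (g * τ * g⁻¹) = h56c_Ad0tw p ρbar g (ψ τ) := by
  have e1 : ψ (g * τ * g⁻¹) = ψ (g * τ) + h56c_Ad0tw p ρbar (g * τ) (ψ g⁻¹) := h5g_coc hψ _ _
  have e2 : ψ (g * τ) = ψ g + h56c_Ad0tw p ρbar g (ψ τ) := h5g_coc hψ _ _
  have e3 : h56c_Ad0tw p ρbar (g * τ) (ψ g⁻¹) = h56c_Ad0tw p ρbar g (ψ g⁻¹) := by
    rw [map_mul, Module.End.mul_apply, h5g_tw_eq ρbar h1 h2]
  have e4 : ψ g + h56c_Ad0tw p ρbar g (ψ g⁻¹) = 0 := by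
    rw [← h5g_coc hψ, mul_inv_cancel, h5g_coc_one hψ]
  rw [e1, e2, e3, add_right_comm, e4, zero_add]

end Cocycle

/-- the cyclotomic character does not vanish. -/
theorem h5g_cyc_ne_zero (g : GQ) : h56c_cyc k p g ≠ 0 := by
  intro h
  have h1 : h56c_cyc k p g * h56c_cyc k p g⁻¹ = 1 := by
    rw [← map_mul, mul_inv_cancel, map_one]
  rw [h, zero_mul] at h1
  exact zero_ne_one h1

/-- an endomorphism with two distinct eigenvalues is not a scalar. -/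
theorem h5g_not_scalar {σ : GQ} (hreg : h56c_Reg ρbar σ) (c : k) :
    ρbar.ρ σ ≠ c • (1 : Module.End k ρbar.V) := by
  obtain ⟨α, β, hαβ, hcp⟩ := hreg
  intro hsc
  have key : ∀ γ : k, (LinearMap.charpoly (ρbar.ρ σ)).IsRoot γ → c = γ := by
    intro γ hγ
    have h1 : Module.End.HasEigenvalue (ρbar.ρ σ) γ :=
      (Module.End.hasEigenvalue_iff_isRoot_charpoly (ρbar.ρ σ) γ).mpr hγ
    obtain ⟨v, hv⟩ := h1.exists_hasEigenvector
    have h2 : ρbar.ρ σ v = γ • v := hv.apply_eq_smul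
    rw [hsc, LinearMap.smul_apply, Module.End.one_apply] at h2
    have h3 : (c - γ) • v = 0 := by rw [sub_smul, h2, sub_self]
    rcases smul_eq_zero.mp h3 with h4 | h4
    · exact sub_eq_zero.mp h4
    · exact absurd h4 hv.2
  have hα : c = α := key α (by rw [hcp]; simp)
  have hβ : c = β := key β (by rw [hcp]; simp)
  exact hαβ (hα.symm.trans hβ)

/-- `(Ad0 σ - 1) sl` is a proper subspace if `ρbar σ` has two distinct eigenvalues
(`p` odd). -/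
theorem h5g_range_ne_top (hp2 : p ≠ 2) {σ : GQ} (hreg : h56c_Reg ρbar σ) :
    LinearMap.range ((h14l_Ad0 ρbar σ : ↥(h14l_sl ρbar) →ₗ[k] ↥(h14l_sl ρbar)) -
      LinearMap.id) ≠ ⊤ := by
  have hp : p.Prime := Fact.out
  have h2 : (2 : k) ≠ 0 := by
    intro h
    have h3 : ((2 : ℕ) : k) = 0 := by exact_mod_cast h
    have h4 := (CharP.cast_eq_zero_iff k p 2).mp h3
    exact hp2 ((Nat.prime_dvd_prime_iff_eq hp Nat.prime_two).mp h4)
  set f : Module.End k ρbar.V := ρbar.ρ σ with hf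
  set c : k := LinearMap.trace k ρbar.V f / 2 with hc
  have htr : LinearMap.trace k ρbar.V (f - c • 1) = 0 := by
    rw [map_sub, map_smul, LinearMap.trace_one, ρbar.finrank_eq, smul_eq_mul, hc]
    push_cast
    field_simp
    ring
  let X₀ : ↥(h14l_sl ρbar) := ⟨f - c • 1, (h14l_mem_sl ρbar _).mpr htr⟩
  have hX₀ : X₀ ≠ 0 := by
    intro h
    have h1 : f - c • 1 = 0 := congrArg Subtype.val h
    exact h5g_not_scalar ρbar hreg c (sub_eq_zero.mp h1)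
  have hfix : h14l_Ad0 ρbar σ X₀ = X₀ := by
    apply Subtype.ext
    rw [h14l_Ad0_coe]
    change f * (f - c • 1) * ρbar.ρ σ⁻¹ = f - c • 1
    have h1 : f * (f - c • 1) = (f - c • 1) * f := by
      rw [mul_sub, sub_mul, mul_smul_comm, smul_mul_assoc, mul_one, one_mul]
    rw [h1, mul_assoc, hf, h14l_rho_mul_inv, mul_one]
  intro htop
  set D : ↥(h14l_sl ρbar) →ₗ[k] ↥(h14l_sl ρbar) :=
    (h14l_Ad0 ρbar σ : ↥(h14l_sl ρbar) →ₗ[k] ↥(h14l_sl ρbar)) - LinearMap.id with hD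
  have hsurj : Function.Surjective D := LinearMap.range_eq_top.mp htop
  have hinj : Function.Injective D := LinearMap.injective_iff_surjective.mpr hsurj
  have h0 : D X₀ = 0 := by
    rw [hD, LinearMap.sub_apply, hfix, LinearMap.id_apply, sub_self]
  exact hX₀ (hinj (h0.trans (map_zero D).symm))

/-- **CHEB-GRP.** -/
theorem h5g_grpOneOf : H56GrpOneOf := by
  intro hIrr hH1 hSS p _ k _ _ _ ρbar hyp n ψ hψ hψB
  -- a `τ ∈ N` with `ψ τ ≠ 0`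
  have hex : ∃ τ : GQ, ρbar.ρ τ = 1 ∧ h56c_FixMu p n τ ∧ ψ τ ≠ 0 := by
    by_contra hne
    refine hψB (hH1 p k ρbar hyp n ψ hψ fun τ h1 h2 => ?_)
    by_contra h3
    exact hne ⟨τ, h1, h2, h3⟩
  obtain ⟨τ₀, hτ₀1, hτ₀2, hτ₀3⟩ := hex
  -- the span of `ψ N`
  let T : Set ↥(h14l_sl ρbar) := {X | ∃ τ : GQ, ρbar.ρ τ = 1 ∧ h56c_FixMu p n τ ∧ ψ τ = X}
  let W : Submodule k ↥(h14l_sl ρbar) := Submodule.span k T
  have hWst : ∀ g : GQ, ∀ X ∈ W, h14l_Ad0 ρbar g X ∈ W := by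
    intro g X hX
    have hle : W ≤ W.comap (h14l_Ad0 ρbar g) := by
      refine Submodule.span_le.mpr ?_
      rintro _ ⟨τ, h1, h2, rfl⟩
      rw [SetLike.mem_coe, Submodule.mem_comap]
      have e1 : ψ (g * τ * g⁻¹) = h56c_cyc k p g • h14l_Ad0 ρbar g (ψ τ) := by
        rw [h5g_conj hψ g h1 h2, h56c_Ad0tw_apply]
      have e2 : h14l_Ad0 ρbar g (ψ τ) = (h56c_cyc k p g)⁻¹ • ψ (g * τ * g⁻¹) := by
        rw [e1, smul_smul, inv_mul_cancel₀ (h5g_cyc_ne_zero g), one_smul]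
      rw [e2]
      refine Submodule.smul_mem _ _ (Submodule.subset_span ⟨g * τ * g⁻¹, ?_, ?_, rfl⟩)
      · rw [map_mul, map_mul, h1, mul_one, h14l_rho_mul_inv]
      · exact h5g_fixMu_conj g h2
    exact hle hX
  have hWtop : W = ⊤ := by
    rcases hIrr p k ρbar hyp W hWst with h | h
    · exfalso
      have h1 : ψ τ₀ ∈ W := Submodule.subset_span ⟨τ₀, hτ₀1, hτ₀2, rfl⟩
      rw [h, Submodule.mem_bot] at h1
      exact hτ₀3 h1
    · exact h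
  -- the regular element
  obtain ⟨σ₀, hσ₀1, hσ₀2⟩ := hSS p k ρbar hyp n
  have hR := h5g_range_ne_top ρbar hyp.hp2 hσ₀2
  by_contra hcon
  have hall : ∀ σ : GQ, h56c_FixMu p n σ → h56c_Reg ρbar σ →
      ψ σ ∈ LinearMap.range (h14l_Ad0 ρbar σ - LinearMap.id) := by
    intro σ h1 h2
    by_contra h3
    exact hcon ⟨σ, h1, h2, h3⟩
  have h0 := hall σ₀ hσ₀1 hσ₀2
  have hTR : T ⊆ (LinearMap.range (h14l_Ad0 ρbar σ₀ - LinearMap.id) : Set ↥(h14l_sl ρbar)) := by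
    rintro _ ⟨τ, h1, h2, rfl⟩
    have hreg : h56c_Reg ρbar (τ * σ₀) := by
      obtain ⟨α, β, hαβ, hcp⟩ := hσ₀2
      refine ⟨α, β, hαβ, ?_⟩
      rw [map_mul, h1, one_mul]
      exact hcp
    have h3 := hall (τ * σ₀) (h5g_fixMu_mul h2 hσ₀1) hreg
    rw [h5g_Ad0_mul_of_rho_eq_one ρbar h1, h5g_coc hψ, h5g_tw_eq ρbar h1 h2] at h3
    have h4 := Submodule.sub_mem _ h3 h0
    rwa [add_sub_cancel_right] at h4
  have hWR : W ≤ LinearMap.range (h14l_Ad0 ρbar σ₀ - LinearMap.id) := Submodule.span_le.mpr hTR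
  rw [hWtop] at hWR
  exact hR (top_le_iff.mp hWR)

end Fermat.Agent.S56
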