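import Fermat.Agent.S56.SelIface
import Fermat.Agent.S56.H51FrobMu
import Fermat.Agent.PT.Bridge.Inertia
import Fermat.Agent.PT.Bridge.LocGrpE
import Fermat.Agent.PT.Bridge.Levels

/-!
# S56, block SEL, row SEL-KILL: Taylor–Wiles primes kill the dual Selmer group
(helper5, prefix `h5k_`)

`h5k_killOf : H56KillOf`, i.e. `H56ChebOne → H56ChebZero → H56Kill`.

* `h5k_coc_conj` : for a cocycle `c` with `c t = t X - X`, `c (g t g⁻¹) = (g t g⁻¹) Y - Y` with
  `Y = g X - c g`.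
* `h5k_decomp_conj` : every element of a decomposition group at `v` is conjugate to an element of
  the image of the local group (landed `h23b_exists_smul_padicPlace`,
  `h23b_mem_decomp_conj_iff`).
* `h5k_local_cob` : a cocycle which is locally a coboundary at `v` is of the form `σ Y - Y` at
  every element `σ` of every decomposition group at `v`.
* `h5k_unram`, `h5k_frob` : hence it vanishes on the inertia groups at `v` (if `ρbar` is
  unramified at `v ≠ p`) and `c φ ∈ (Ad0 φ - 1) sl` at the Frobenius elements (if `v ≡ 1 mod p`).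
* induction: `E Q` = the cocycles of the dual Selmer space which are locally coboundaries at the
  primes of `Q`; a Taylor–Wiles prime given by CHEB-ONE for `ψ ∈ E Q`, `ψ ∉ B¹` makes `E` strictly
  smaller.
-/

set_option autoImplicit false
set_option linter.unusedSectionVars false
set_option linter.style.haveILetI false

open Polynomial ExtCitation

noncomputable section

namespace Fermat.Agent.S56

open Fermat.Agent.PT Fermat.Agent.S56L

/-! ## Cocycles -/

section Gen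

variable {k : Type} [CommRing k] {G : Type} [Group G] {V : Type} [AddCommGroup V] [Module k V]
  (ρ : Representation k G V)

theorem h5k_coc {c : G → V} (hc : d1 ρ c = 0) (g h : G) : c (g * h) = c g + ρ g (c h) := by
  have h2 := congrFun hc (g, h)
  rw [d1_apply, Pi.zero_apply] at h2
  have h3 : c (g * h) = ρ g (c h) + c g := by
    rw [sub_add_eq_add_sub, sub_eq_zero] at h2
    exact h2.symm
  rw [h3, add_comm]

theorem h5k_coc_one {c : G → V} (hc : d1 ρ c = 0) : c 1 = 0 := by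
  have h := h5k_coc ρ hc 1 1
  rw [mul_one, map_one, Module.End.one_apply] at h
  exact left_eq_add.mp h

theorem h5k_coc_inv {c : G → V} (hc : d1 ρ c = 0) (g : G) : ρ g (c g⁻¹) = - c g := by
  have h := h5k_coc ρ hc g g⁻¹
  rw [mul_inv_cancel, h5k_coc_one ρ hc] at h
  exact (neg_eq_of_add_eq_zero_right h.symm).symm

theorem h5k_coc_conj {c : G → V} (hc : d1 ρ c = 0) (g t : G) (X : V) (ht : c t = ρ t X - X) :
    c (g * t * g⁻¹) = ρ (g * t * g⁻¹) (ρ g X - c g) - (ρ g X - c g) := by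
  have e1 : c (g * t * g⁻¹) = c (g * t) + ρ (g * t) (c g⁻¹) := h5k_coc ρ hc _ _
  have e2 : c (g * t) = c g + ρ g (c t) := h5k_coc ρ hc _ _
  have e3 : ρ (g * t) (c g⁻¹) = - ρ (g * t * g⁻¹) (c g) := by
    have h1 : ρ (g * t * g⁻¹) (c g) = ρ (g * t) (ρ g⁻¹ (c g)) := by
      rw [map_mul (ρ) (g * t) g⁻¹, Module.End.mul_apply]
    have h2 : ρ g⁻¹ (c g) = - c g⁻¹ := by
      have := h5k_coc_inv ρ hc g⁻¹
      rw [inv_inv] at this
      exact this
    rw [h1, h2, map_neg, neg_neg]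
  have e4 : ρ (g * t * g⁻¹) (ρ g X) = ρ g (ρ t X) := by
    rw [← Module.End.mul_apply, ← map_mul, inv_mul_cancel_right, map_mul, Module.End.mul_apply]
  rw [e1, e2, e3, ht, map_sub, map_sub, e4]
  abel

end Gen

/-! ## Decomposition groups -/

/-- every element of a decomposition group at `v` is conjugate to an element of the image of
the local Galois group. -/
theorem h5k_decomp_conj (v : Nat.Primes) {P : ValuationSubring (AlgebraicClosure ℚ)}
    (hP : P.LiesOverPrime (v : ℕ)) {σ : GQ} (hσ : σ ∈ P.decompositionSubgroup ℚ) :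
    ∃ (x : GQ) (h : primeLocalGaloisGroup v), σ = x⁻¹ * primeLocalToGlobal v h * x := by
  haveI : Fact (v : ℕ).Prime := ⟨v.2⟩
  obtain ⟨g, hg⟩ := Fermat.Agent.PT.Bridge.h23b_exists_smul_padicPlace (v : ℕ) hP
  rw [← hg] at hσ
  obtain ⟨h, hh⟩ := (Fermat.Agent.PT.Bridge.h23b_mem_decomp_conj_iff (v : ℕ) g σ).mp hσ
  exact ⟨g, h, hh⟩

theorem h5k_inertia_le_decomp {P : ValuationSubring (AlgebraicClosure ℚ)} {s : GQ}
    (hs : s ∈ P.inertiaSubgroupIn ℚ) : s ∈ P.decompositionSubgroup ℚ := by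
  obtain ⟨τ, -, rfl⟩ := hs
  exact τ.2

variable {p : ℕ} [Fact p.Prime] {k : Type} [Field k] [CharP k p]
variable (ρbar : ResidualGaloisRep k)

/-- a cocycle of `ad⁰(1)` which is locally a coboundary at `v` is of the form `σ Y - Y` at every
element of every decomposition group at `v`. -/
theorem h5k_local_cob {c : GQ → ↥(h14l_sl ρbar)} (hc : c ∈ Z1 levFin (h56c_Ad0tw p ρbar))
    (v : Nat.Primes)
    (hloc : (fun s => c (primeLocalToGlobal v s)) ∈ B1 (h56s_locAd0tw p ρbar v))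
    {P : ValuationSubring (AlgebraicClosure ℚ)} (hP : P.LiesOverPrime (v : ℕ)) {σ : GQ}
    (hσ : σ ∈ P.decompositionSubgroup ℚ) :
    ∃ Y : ↥(h14l_sl ρbar), c σ = h56c_Ad0tw p ρbar σ Y - Y := by
  have hc1 : d1 (h56c_Ad0tw p ρbar) c = 0 := ((mem_Z1 _ _ c).mp hc).1
  obtain ⟨X, hX⟩ := (mem_B1 _ _).mp hloc
  obtain ⟨x, h, rfl⟩ := h5k_decomp_conj v hP hσ
  have ht : c (primeLocalToGlobal v h) =
      h56c_Ad0tw p ρbar (primeLocalToGlobal v h) X - X := by
    have := congrFun hX h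
    rw [d0_apply] at this
    exact this.symm
  have key := h5k_coc_conj (h56c_Ad0tw p ρbar) hc1 x⁻¹ (primeLocalToGlobal v h) X ht
  rw [inv_inv] at key
  exact ⟨_, key⟩

/-- the twist is trivial at `s` if `ρbar s = 1` and the cyclotomic character is trivial at
`s`. -/
theorem h5k_tw_eq_of {s : GQ} (h1 : ρbar.ρ s = 1) (h2 : cycloChar p s = 1)
    (X : ↥(h14l_sl ρbar)) : h56c_Ad0tw p ρbar s X = X := by
  have h3 : ρbar.ρ s⁻¹ = 1 := by
    have := h14l_rho_inv_mul ρbar s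
    rwa [h1, mul_one] at this
  have h4 : h56c_cyc k p s = 1 := by
    rw [h56c_cyc_apply, h2]
    simp
  rw [h56c_Ad0tw_apply, h4, one_smul]
  apply Subtype.ext
  rw [h14l_Ad0_coe, h1, h3, one_mul, mul_one]

/-- the twist is the adjoint action at `s` if the cyclotomic character is trivial at `s`. -/
theorem h5k_tw_eq_Ad0_of {s : GQ} (h2 : cycloChar p s = 1) (X : ↥(h14l_sl ρbar)) :
    h56c_Ad0tw p ρbar s X = h14l_Ad0 ρbar s X := by
  have h4 : h56c_cyc k p s = 1 := by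
    rw [h56c_cyc_apply, h2]
    simp
  rw [h56c_Ad0tw_apply, h4, one_smul]

/-- a cocycle which is locally a coboundary at `v ≠ p`, `ρbar` unramified at `v`, vanishes on
the inertia groups at `v`. -/
theorem h5k_unram {c : GQ → ↥(h14l_sl ρbar)} (hc : c ∈ Z1 levFin (h56c_Ad0tw p ρbar))
    (v : Nat.Primes) (hvp : v ≠ pPrime p) (hun : ρbar.IsUnramifiedAt (v : ℕ))
    (hloc : (fun s => c (primeLocalToGlobal v s)) ∈ B1 (h56s_locAd0tw p ρbar v))
    (P : ValuationSubring (AlgebraicClosure ℚ)) (hP : P.LiesOverPrime (v : ℕ)) (s : GQ)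
    (hs : s ∈ P.inertiaSubgroupIn ℚ) : c s = 0 := by
  obtain ⟨Y, hY⟩ := h5k_local_cob ρbar hc v hloc hP (h5k_inertia_le_decomp hs)
  rw [hY, h5k_tw_eq_of ρbar (hun P hP s hs) (pt79_cycloChar_inertia p v hvp P hP s hs), sub_self]

/-- the cyclotomic character is trivial at the Frobenius elements at `v ≡ 1 mod p`. -/
theorem h5k_cyc_frob (v : Nat.Primes) (hvp : v ≠ pPrime p) (hdvd : p ∣ (v : ℕ) - 1)
    {P : ValuationSubring (AlgebraicClosure ℚ)} (hP : P.LiesOverPrime (v : ℕ)) {φ : GQ}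
    (hφ : P.IsFrobeniusAt φ (v : ℕ)) : cycloChar p φ = 1 := by
  have hp : p.Prime := Fact.out
  obtain ⟨ζ, hζ⟩ := pt79_exists_primitiveRoot p
  have hvp' : ¬ (v : ℕ) ∣ p := by
    intro h
    exact hvp (Subtype.ext ((Nat.prime_dvd_prime_iff_eq v.2 hp).mp h))
  have h1 := h51m_frobMu (v : ℕ) p P φ v.2 hvp' hP hφ ζ hζ.pow_eq_one
  have h2 : ζ ^ (v : ℕ) = ζ := by
    obtain ⟨t, ht⟩ := hdvd
    have hv1 : 1 ≤ (v : ℕ) := v.2.one_lt.le
    have h3 : (v : ℕ) = p * t + 1 := by omega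
    rw [h3, pow_succ, pow_mul, hζ.pow_eq_one, one_pow, one_mul]
  rw [h2] at h1
  exact pt79_cycloChar_eq_one_of_fix p hζ φ h1

/-- a cocycle which is locally a coboundary at `v ≡ 1 mod p` has `c φ ∈ (Ad0 φ - 1) sl` at
every Frobenius element at `v`. -/
theorem h5k_frob {c : GQ → ↥(h14l_sl ρbar)} (hc : c ∈ Z1 levFin (h56c_Ad0tw p ρbar))
    (v : Nat.Primes) (hvp : v ≠ pPrime p) (hdvd : p ∣ (v : ℕ) - 1)
    (hloc : (fun s => c (primeLocalToGlobal v s)) ∈ B1 (h56s_locAd0tw p ρbar v))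
    (P : ValuationSubring (AlgebraicClosure ℚ)) (hP : P.LiesOverPrime (v : ℕ)) (φ : GQ)
    (hφ : P.IsFrobeniusAt φ (v : ℕ)) :
    c φ ∈ LinearMap.range ((h14l_Ad0 ρbar φ : ↥(h14l_sl ρbar) →ₗ[k] ↥(h14l_sl ρbar)) -
      LinearMap.id) := by
  obtain ⟨Y, hY⟩ := h5k_local_cob ρbar hc v hloc hP hφ.mem_decompositionSubgroup
  rw [h5k_tw_eq_Ad0_of ρbar (h5k_cyc_frob v hvp hdvd hP hφ)] at hY
  exact ⟨Y, by rw [hY]; rfl⟩

/-! ## The induction -/

/-- the cocycles of the dual Selmer space which are locally coboundaries at the primes of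
`Q`. -/
def h5k_E (p : ℕ) [Fact p.Prime] {k : Type} [Field k] [CharP k p] (ρbar : ResidualGaloisRep k)
    (Sg : Finset Nat.Primes) (As : h56s_Loc ρbar) (Q : Finset Nat.Primes) :
    Submodule k (GQ → ↥(h14l_sl ρbar)) :=
  h56s_Dual p ρbar Sg As ⊓ h56s_locCond ρbar Q (fun v => B1 (h56s_locAd0tw p ρbar v))

theorem h5k_mem_E (Sg : Finset Nat.Primes) (As : h56s_Loc ρbar) (Q : Finset Nat.Primes)
    (c : GQ → ↥(h14l_sl ρbar)) :
    c ∈ h5k_E p ρbar Sg As Q ↔ c ∈ h56s_Dual p ρbar Sg As ∧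
      ∀ v ∈ Q, (fun s => c (primeLocalToGlobal v s)) ∈ B1 (h56s_locAd0tw p ρbar v) := by
  simp only [h5k_E, h56s_locCond, Submodule.mem_inf, Submodule.mem_iInf, Submodule.mem_comap]
  rfl

theorem h5k_E_le_dual (Sg : Finset Nat.Primes) (As : h56s_Loc ρbar) (Q : Finset Nat.Primes) :
    h5k_E p ρbar Sg As Q ≤ h56s_Dual p ρbar Sg As := inf_le_left

theorem h5k_E_insert_le (Sg : Finset Nat.Primes) (As : h56s_Loc ρbar) (Q : Finset Nat.Primes)
    (q : Nat.Primes) : h5k_E p ρbar Sg As (insert q Q) ≤ h5k_E p ρbar Sg As Q := by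
  intro c hc
  rw [h5k_mem_E] at hc ⊢
  exact ⟨hc.1, fun v hv => hc.2 v (Finset.mem_insert_of_mem hv)⟩

/-- the Selmer space for `Sg ∪ Q` with the coboundary condition at `Q` is inside `E Q`. -/
theorem h5k_dual_le_E (Sg : Finset Nat.Primes) (As : h56s_Loc ρbar) (hpSg : pPrime p ∈ Sg)
    (hunr : ∀ q : Nat.Primes, q ∉ Sg → ρbar.IsUnramifiedAt (q : ℕ))
    (Q : Finset Nat.Primes) (hQ : ∀ q ∈ Q, q ∉ Sg) :
    h56s_Dual p ρbar (Sg ∪ Q)
        (fun v => if v ∈ Sg then As v else B1 (h56s_locAd0tw p ρbar v)) ≤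
      h5k_E p ρbar Sg As Q := by
  intro c hc
  rw [h56s_mem_Dual] at hc
  obtain ⟨hZ, hU, hL⟩ := hc
  have hQloc : ∀ v ∈ Q,
      (fun s => c (primeLocalToGlobal v s)) ∈ B1 (h56s_locAd0tw p ρbar v) := by
    intro v hv
    have h1 := hL v (Finset.mem_union_right _ hv)
    simp only [if_neg (hQ v hv)] at h1
    exact h1
  rw [h5k_mem_E, h56s_mem_Dual]
  refine ⟨⟨hZ, ?_, ?_⟩, hQloc⟩
  · intro q hq P hP s hs
    by_cases hqQ : q ∈ Q
    · exact h5k_unram ρbar hZ q (fun h => hq (h ▸ hpSg)) (hunr q hq) (hQloc q hqQ) P hP s hs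
    · exact hU q (fun h => (Finset.mem_union.mp h).elim hq hqQ) P hP s hs
  · intro v hv
    have h1 := hL v (Finset.mem_union_left _ hv)
    simp only [if_pos hv] at h1
    exact h1

/-- the property of a Taylor–Wiles prime of level `n`, outside `Sg` and `S'`. -/
def h5k_Good (p : ℕ) {k : Type} [Field k] (ρbar : ResidualGaloisRep k)
    (Sg : Finset Nat.Primes) (S' : Finset ℕ) (n : ℕ) (q : Nat.Primes) : Prop :=
  q ∉ Sg ∧ (q : ℕ) ∉ S' ∧ p ^ (n + 1) ∣ (q : ℕ) - 1 ∧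
    ∀ P : ValuationSubring (AlgebraicClosure ℚ), P.LiesOverPrime (q : ℕ) →
      ∀ φ : GQ, P.IsFrobeniusAt φ (q : ℕ) →
        ∃ α β : k, α ≠ β ∧ LinearMap.charpoly (ρbar.ρ φ) = (X - C α) * (X - C β)

theorem h5k_ind [Finite k] (hOne : H56ChebOne) (hZero : H56ChebZero) (hyp : h56c_Hyp p ρbar)
    (Sg : Finset Nat.Primes) (As : h56s_Loc ρbar) (S' : Finset ℕ) (hpSg : pPrime p ∈ Sg)
    (hfin : Module.Finite k ↥(h56s_Dual p ρbar Sg As)) (n : ℕ) :
    ∀ j : ℕ, ∃ Q : Finset Nat.Primes, Q.card = j ∧ (∀ q ∈ Q, h5k_Good p ρbar Sg S' n q) ∧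
      (h5k_E p ρbar Sg As Q ≤ B1 (h56c_Ad0tw p ρbar) ∨
        Module.finrank k ↥(h5k_E p ρbar Sg As Q) + j ≤
          Module.finrank k ↥(h56s_Dual p ρbar Sg As)) := by
  have hp : p.Prime := Fact.out
  intro j
  induction j with
  | zero =>
    refine ⟨∅, Finset.card_empty, fun q hq => absurd hq (Finset.notMem_empty q), Or.inr ?_⟩
    haveI : Module.Finite k ↥(h56s_Dual p ρbar Sg As) := hfin
    rw [add_zero]
    exact LinearMap.finrank_le_finrank_of_injective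
      (Submodule.inclusion_injective (h5k_E_le_dual ρbar Sg As ∅))
  | succ j ih =>
    obtain ⟨Q, hcard, hQ, hE⟩ := ih
    set S'' : Finset ℕ := S' ∪ Sg.image (fun v : Nat.Primes => (v : ℕ)) ∪
      Q.image (fun v : Nat.Primes => (v : ℕ)) with hS''
    have hnew : ∀ q : Nat.Primes, (q : ℕ) ∉ S'' → q ∉ Sg ∧ (q : ℕ) ∉ S' ∧ q ∉ Q := by
      intro q hqS
      rw [hS'', Finset.mem_union, Finset.mem_union, not_or, not_or] at hqS
      exact ⟨fun h => hqS.1.2 (Finset.mem_image.mpr ⟨q, h, rfl⟩), hqS.1.1,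
        fun h => hqS.2 (Finset.mem_image.mpr ⟨q, h, rfl⟩)⟩
    by_cases hle : h5k_E p ρbar Sg As Q ≤ B1 (h56c_Ad0tw p ρbar)
    · obtain ⟨q₀, hq₀, hqS, hdvd, -, hreg⟩ := hZero p k ρbar hyp n S''
      obtain ⟨q, rfl⟩ : ∃ q : Nat.Primes, (q : ℕ) = q₀ := ⟨⟨q₀, hq₀⟩, rfl⟩
      obtain ⟨h1, h2, h3⟩ := hnew q hqS
      refine ⟨insert q Q, ?_, ?_, Or.inl ((h5k_E_insert_le ρbar Sg As Q _).trans hle)⟩
      · rw [Finset.card_insert_of_notMem h3, hcard]
      · intro q' hq'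
        rcases Finset.mem_insert.mp hq' with rfl | hq'
        · exact ⟨h1, h2, hdvd, hreg⟩
        · exact hQ q' hq'
    · have hE' := hE.resolve_left hle
      obtain ⟨ψ, hψE, hψB⟩ := SetLike.not_le_iff_exists.mp hle
      have hψZ : ψ ∈ Z1 levFin (h56c_Ad0tw p ρbar) :=
        ((h56s_mem_Dual p ρbar Sg As ψ).mp (h5k_E_le_dual ρbar Sg As Q hψE)).1
      obtain ⟨q₀, hq₀, hqS, hdvd, -, -, hreg, P, φ, hP, hφ, hψφ⟩ :=
        hOne p k ρbar hyp n S'' ψ hψZ hψB
      obtain ⟨q, rfl⟩ : ∃ q : Nat.Primes, (q : ℕ) = q₀ := ⟨⟨q₀, hq₀⟩, rfl⟩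
      obtain ⟨h1, h2, h3⟩ := hnew q hqS
      have hqp : q ≠ pPrime p := fun h => h1 (h ▸ hpSg)
      have hdvd1 : p ∣ (q : ℕ) - 1 := (dvd_pow_self p (Nat.succ_ne_zero n)).trans hdvd
      have hnot : ψ ∉ h5k_E p ρbar Sg As (insert q Q) := by
        intro h
        have h4 := ((h5k_mem_E ρbar Sg As _ ψ).mp h).2 q (Finset.mem_insert_self _ Q)
        exact hψφ (h5k_frob ρbar hψZ q hqp hdvd1 h4 P hP φ hφ)
      have hlt : h5k_E p ρbar Sg As (insert q Q) < h5k_E p ρbar Sg As Q :=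
        lt_of_le_of_ne (h5k_E_insert_le ρbar Sg As Q _) (fun h => hnot (h ▸ hψE))
      haveI : FiniteDimensional k ↥(h56s_Dual p ρbar Sg As) := hfin
      haveI : FiniteDimensional k ↥(h5k_E p ρbar Sg As Q) :=
        Submodule.finiteDimensional_of_le (h5k_E_le_dual ρbar Sg As Q)
      have hrk := Submodule.finrank_lt_finrank_of_lt hlt
      refine ⟨insert q Q, ?_, ?_, Or.inr (by omega)⟩
      · rw [Finset.card_insert_of_notMem h3, hcard]
      · intro q' hq'
        rcases Finset.mem_insert.mp hq' with rfl | hq'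
        · exact ⟨h1, h2, hdvd, hreg⟩
        · exact hQ q' hq'

/-- **SEL-KILL.** -/
theorem h5k_killOf : H56KillOf := by
  intro hOne hZero p _ k _ _ _ ρbar hyp Sg As S' hpSg hunr hfin
  refine ⟨Module.finrank k ↥(h56s_Dual p ρbar Sg As), fun n => ?_⟩
  obtain ⟨Q, hcard, hQ, hE⟩ := h5k_ind ρbar hOne hZero hyp Sg As S' hpSg hfin n
    (Module.finrank k ↥(h56s_Dual p ρbar Sg As))
  let e : ↥Q ≃ Fin (Module.finrank k ↥(h56s_Dual p ρbar Sg As)) := Finset.equivFinOfCardEq hcard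
  let qv : Fin (Module.finrank k ↥(h56s_Dual p ρbar Sg As)) → Nat.Primes :=
    fun i => ((e.symm i : ↥Q) : Nat.Primes)
  have hqvQ : ∀ i, qv i ∈ Q := fun i => (e.symm i).2
  have himg : Finset.univ.image qv = Q := by
    ext v
    constructor
    · intro hv
      obtain ⟨i, -, rfl⟩ := Finset.mem_image.mp hv
      exact hqvQ i
    · intro hv
      refine Finset.mem_image.mpr ⟨e ⟨v, hv⟩, Finset.mem_univ _, ?_⟩
      change ((e.symm (e ⟨v, hv⟩) : ↥Q) : Nat.Primes) = v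
      rw [Equiv.symm_apply_apply]
  refine ⟨qv, ⟨?_, ?_, ?_⟩, fun i => (hQ _ (hqvQ i)).1, ?_⟩
  · intro i i' h
    have h1 : qv i = qv i' := Subtype.ext h
    exact e.symm.injective (Subtype.ext h1)
  · intro i
    exact ⟨(qv i).2, (hQ _ (hqvQ i)).2.1, (hQ _ (hqvQ i)).2.2.1⟩
  · intro i
    exact (hQ _ (hqvQ i)).2.2.2
  · rw [himg]
    refine (h5k_dual_le_E ρbar Sg As hpSg hunr Q (fun q hq => (hQ q hq).1)).trans ?_
    rcases hE with hE | hE
    · exact hE
    · haveI : FiniteDimensional k ↥(h56s_Dual p ρbar Sg As) := hfin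
      haveI : FiniteDimensional k ↥(h5k_E p ρbar Sg As Q) :=
        Submodule.finiteDimensional_of_le (h5k_E_le_dual ρbar Sg As Q)
      have h0 : Module.finrank k ↥(h5k_E p ρbar Sg As Q) = 0 := by omega
      rw [Submodule.finrank_eq_zero.mp h0]
      exact bot_le

end Fermat.Agent.S56
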