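import Mathlib
import Fermat.Agent.PT.Defs
import Fermat.Agent.S56L.H72QAbs
import Fermat.Agent.S56L.H72QLin

/-!
# S56, block TW-CHEB (helper72): linear algebra and cocycle algebra of the assembly

* `h72c_charpoly_eigen` : the characteristic polynomial in a basis of eigenvectors;
* `h72c_charpoly_conj` : invariance of the characteristic polynomial under conjugation;
* `h72c_reg_pow` : if `Φ` has distinct eigenvalues `α ≠ β` and `(Φ ^ j) ^ i = Φ`, then `Φ ^ j`
  has distinct eigenvalues `α ^ j ≠ β ^ j`;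
* `h72c_pow_sub_mem` : `T ^ j x - x ∈ (T - 1) M`;
* `h72c_coc_pow_mem` : `c(σ ^ j) ≡ j c(σ)` modulo `(ρ σ - 1) M` for a cocycle `c`.
-/

set_option autoImplicit false

open Polynomial

noncomputable section

namespace Fermat.Agent.S56

open Fermat.Agent.PT Fermat.Agent.S56L

section LinAlg

variable {k : Type} [Field k] {V : Type} [AddCommGroup V] [Module k V]

/-- powers of an endomorphism on an eigenvector. -/
theorem h72c_pow_eigen (Φ : Module.End k V) {γ : k} {v : V} (hv : Φ v = γ • v) (n : ℕ) :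
    (Φ ^ n) v = γ ^ n • v := by
  induction n with
  | zero => simp
  | succ n ih =>
    rw [pow_succ, Module.End.mul_apply, hv, map_smul, ih, smul_smul, pow_succ, mul_comm]

/-- the characteristic polynomial in a basis of eigenvectors. -/
theorem h72c_charpoly_eigen [Module.Finite k V] (b : Module.Basis (Fin 2) k V)
    (Ψ : Module.End k V) {a c : k} (h0 : Ψ (b 0) = a • b 0) (h1 : Ψ (b 1) = c • b 1) :
    LinearMap.charpoly Ψ = (X - C a) * (X - C c) := by
  rw [← LinearMap.charpoly_toMatrix Ψ b, h72q_toMatrix_eigen b Ψ h0 h1, Matrix.charpoly_fin_two,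
    Matrix.trace_fin_two_of, Matrix.det_fin_two_of]
  simp only [mul_zero, sub_zero, map_add, map_mul]
  ring

/-- the characteristic polynomial is invariant under conjugation. -/
theorem h72c_charpoly_conj [Module.Finite k V] (A A' Ψ : Module.End k V) (h1 : A * A' = 1)
    (h2 : A' * A = 1) : LinearMap.charpoly (A * Ψ * A') = LinearMap.charpoly Ψ := by
  let e : V ≃ₗ[k] V := LinearEquiv.ofLinearMap A A' h1 h2
  have he : e.conj Ψ = A * Ψ * A' := by
    ext v
    simp [e, LinearEquiv.conj_apply]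
  rw [← he, LinearEquiv.charpoly_conj]

/-- if `Φ` has distinct eigenvalues `α ≠ β` and `(Φ ^ j) ^ i = Φ`, then `Φ ^ j` has distinct
eigenvalues `α ^ j ≠ β ^ j`. -/
theorem h72c_reg_pow [Module.Finite k V] (hV : Module.finrank k V = 2) (Φ : Module.End k V)
    {α β : k} (hαβ : α ≠ β) (hΦ : LinearMap.charpoly Φ = (X - C α) * (X - C β)) (j i : ℕ)
    (hji : (Φ ^ j) ^ i = Φ) :
    α ^ j ≠ β ^ j ∧ LinearMap.charpoly (Φ ^ j) = (X - C (α ^ j)) * (X - C (β ^ j)) := by
  obtain ⟨b, hb0, hb1⟩ := h72q_exists_eigenbasis hV Φ hαβ hΦ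
  have h0 : (Φ ^ j) (b 0) = α ^ j • b 0 := h72c_pow_eigen Φ hb0 j
  have h1 : (Φ ^ j) (b 1) = β ^ j • b 1 := h72c_pow_eigen Φ hb1 j
  refine ⟨fun h => hαβ ?_, h72c_charpoly_eigen b _ h0 h1⟩
  have e0 : (α ^ j) ^ i • b 0 = α • b 0 := by
    rw [← h72c_pow_eigen (Φ ^ j) h0 i, hji, hb0]
  have e1 : (β ^ j) ^ i • b 1 = β • b 1 := by
    rw [← h72c_pow_eigen (Φ ^ j) h1 i, hji, hb1]
  have e0' : (α ^ j) ^ i = α := smul_left_injective k (b.ne_zero 0) e0
  have e1' : (β ^ j) ^ i = β := smul_left_injective k (b.ne_zero 1) e1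
  rw [← e0', ← e1', h]

variable {M : Type} [AddCommGroup M] [Module k M]

/-- `T ^ j x - x ∈ (T - 1) M`. -/
theorem h72c_pow_sub_mem (T : Module.End k M) (x : M) (j : ℕ) :
    (T ^ j) x - x ∈ LinearMap.range (T - LinearMap.id) := by
  induction j with
  | zero => simp
  | succ j ih =>
    have e : (T ^ (j + 1)) x - x =
        (T - (LinearMap.id : M →ₗ[k] M)) ((T ^ j) x) + ((T ^ j) x - x) := by
      rw [pow_succ', Module.End.mul_apply, LinearMap.sub_apply, LinearMap.id_apply]
      abel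
    rw [e]
    exact Submodule.add_mem _ (LinearMap.mem_range_self _ _) ih

/-- `(T ^ j - 1) M ⊆ (T - 1) M`. -/
theorem h72c_range_pow_le (T : Module.End k M) (j : ℕ) :
    LinearMap.range (T ^ j - LinearMap.id) ≤ LinearMap.range (T - LinearMap.id) := by
  rintro _ ⟨x, rfl⟩
  rw [LinearMap.sub_apply, LinearMap.id_apply]
  exact h72c_pow_sub_mem T x j

/-- `c(σ ^ j) ≡ j c(σ)` modulo `(ρ σ - 1) M`. -/
theorem h72c_coc_pow_mem {G : Type} [Group G] (ρ : Representation k G M) {c : G → M}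
    (hc : d1 ρ c = 0) (σ : G) (j : ℕ) :
    c (σ ^ j) - (j : k) • c σ ∈ LinearMap.range (ρ σ - LinearMap.id) := by
  induction j with
  | zero => simp [h72q_coc_one hc]
  | succ j ih =>
    have e : c (σ ^ (j + 1)) - ((j + 1 : ℕ) : k) • c σ =
        ((ρ σ ^ j) (c σ) - c σ) + (c (σ ^ j) - (j : k) • c σ) := by
      rw [pow_succ, h72q_coc_mul hc, map_pow, Nat.cast_succ, add_smul, one_smul]
      abel
    rw [e]
    exact Submodule.add_mem _ (h72c_pow_sub_mem (ρ σ) (c σ) j) ih

end LinAlg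

end Fermat.Agent.S56
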