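import Fermat.Agent.S56.ChebIface
import Fermat.Agent.S56.H72ChebLin
import Fermat.Agent.PT.Bridge.Levels

/-!
# S56, block TW-CHEB (helper72): the two assemblies

* `h72c_chebZeroOf : H56ChebZeroOf` : `H56SS → H56Frob → H56FrobMu → H56ChebZero`;
* `h72c_chebOneOf : H56ChebOneOf` : `H56GrpOne → H56Frob → H56FrobMu → H56ChebOne`.

Given `σ` fixing `μ_{p^(n+1)}` with two distinct eigenvalues, the weak Chebotarev theorem is
applied to the normal closure `L` of `F · L₀ · ℚ(μ_{p^(n+1)})` (`F` a level of the cocycle, `L₀`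
a level of `ρbar`): it produces `q`, `P`, `φ` with `φ = σ ^ j` on `L`, `p ∤ j`, and `σ = φ ^ i`
on `L`.
-/

set_option autoImplicit false
set_option linter.unusedSectionVars false
set_option linter.style.haveILetI false

open Polynomial ExtCitation

noncomputable section

namespace Fermat.Agent.S56

open Fermat.Agent.PT Fermat.Agent.S56L

/-- `σ⁻¹ (σ x) = x`. -/
theorem h72c_inv_apply (σ : GQ) (x : AlgebraicClosure ℚ) : σ⁻¹ (σ x) = x := by
  rw [← AlgEquiv.mul_apply, inv_mul_cancel, AlgEquiv.one_apply]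

/-- powers of an automorphism fixing `x` fix `x`. -/
theorem h72c_pow_fix (σ : GQ) {x : AlgebraicClosure ℚ} (h : σ x = x) (j : ℕ) :
    (σ ^ j) x = x := by
  induction j with
  | zero => rw [pow_zero, AlgEquiv.one_apply]
  | succ j ih => rw [pow_succ, AlgEquiv.mul_apply, h, ih]

/-- `ρbar e = 1 ⇒ Ad0 e = 1`. -/
theorem h72c_Ad0_eq_one {k : Type} [Field k] (ρbar : ResidualGaloisRep k) {e : GQ}
    (h : ρbar.ρ e = 1) : h14l_Ad0 ρbar e = 1 := by
  have h' : ρbar.ρ e⁻¹ = 1 := by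
    have := h14l_rho_inv_mul ρbar e
    rw [h, mul_one] at this
    exact this
  ext m : 2
  rw [h14l_Ad0_coe, h, h', one_mul, mul_one]
  rfl

/-- the twisted and the untwisted adjoint action agree where the cyclotomic character is
trivial. -/
theorem h72c_Ad0tw_eq (p : ℕ) [Fact p.Prime] {k : Type} [Field k] [CharP k p]
    (ρbar : ResidualGaloisRep k) {n : ℕ} {σ : GQ} (hσ : h56c_FixMu p n σ) :
    h56c_Ad0tw p ρbar σ = h14l_Ad0 ρbar σ := by
  obtain ⟨ζ, hζ⟩ := pt79_exists_primitiveRoot p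
  have h1 : ζ ^ p ^ (n + 1) = 1 := by
    rw [pow_succ', pow_mul, hζ.pow_eq_one, one_pow]
  have h2 : cycloChar p σ = 1 := pt79_cycloChar_eq_one_of_fix p hζ σ (hσ ζ h1)
  ext X : 1
  rw [h56c_Ad0tw_apply, h56c_cyc_apply, h2]
  simp

/-- **the common core of the two assemblies.** -/
theorem h72c_core (hFrob : H56Frob) (hMu : H56FrobMu) (p : ℕ) [Fact p.Prime] (k : Type)
    [Field k] [Finite k] [CharP k p] (ρbar : ResidualGaloisRep k) (n : ℕ) (S' : Finset ℕ)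
    (σ : GQ) (hσμ : h56c_FixMu p n σ) (hσreg : h56c_Reg ρbar σ)
    (F : IntermediateField ℚ (AlgebraicClosure ℚ)) (hF : FiniteDimensional ℚ F) :
    ∃ (q : ℕ) (P : ValuationSubring (AlgebraicClosure ℚ)) (φ : GQ) (j : ℕ) (e : GQ),
      q.Prime ∧ q ∉ S' ∧ p ^ (n + 1) ∣ q - 1 ∧ ρbar.IsUnramifiedAt q ∧
      (∀ P' : ValuationSubring (AlgebraicClosure ℚ), P'.LiesOverPrime q →
        ∀ s ∈ P'.inertiaSubgroupIn ℚ, s ∈ F.fixingSubgroup) ∧
      (∀ P' : ValuationSubring (AlgebraicClosure ℚ), P'.LiesOverPrime q →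
        ∀ φ' : GQ, P'.IsFrobeniusAt φ' q →
          ∃ α β : k, α ≠ β ∧ LinearMap.charpoly (ρbar.ρ φ') = (X - C α) * (X - C β)) ∧
      P.LiesOverPrime q ∧ P.IsFrobeniusAt φ q ∧ ¬ p ∣ j ∧ φ = σ ^ j * e ∧
      e ∈ F.fixingSubgroup ∧ ρbar.ρ e = 1 := by
  have hp : p.Prime := Fact.out
  haveI : Algebra.IsAlgebraic ℚ (AlgebraicClosure ℚ) := AlgebraicClosure.isAlgebraic ℚ
  haveI : Normal ℚ (AlgebraicClosure ℚ) := pt79_normal_Qbar
  obtain ⟨L₀, hL₀, hker⟩ := ρbar.factorsThroughFiniteLevel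
  haveI : NeZero ((p ^ (n + 1) : ℕ) : AlgebraicClosure ℚ) :=
    ⟨by exact_mod_cast (pow_pos hp.pos (n + 1)).ne'⟩
  obtain ⟨μ₀, hμ₀⟩ := HasEnoughRootsOfUnity.exists_primitiveRoot (AlgebraicClosure ℚ)
    (p ^ (n + 1))
  -- the field `L`
  haveI := hF
  haveI := hL₀
  haveI hμfin : FiniteDimensional ℚ (IntermediateField.adjoin ℚ ({μ₀} : Set (AlgebraicClosure ℚ))) :=
    IntermediateField.adjoin.finiteDimensional (Algebra.IsIntegral.isIntegral μ₀)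
  haveI h1fin : FiniteDimensional ℚ ↥(F ⊔ L₀) := IntermediateField.finiteDimensional_sup F L₀
  haveI hEfin : FiniteDimensional ℚ
      ↥(F ⊔ L₀ ⊔ IntermediateField.adjoin ℚ ({μ₀} : Set (AlgebraicClosure ℚ))) :=
    IntermediateField.finiteDimensional_sup _ _
  set E : IntermediateField ℚ (AlgebraicClosure ℚ) :=
    F ⊔ L₀ ⊔ IntermediateField.adjoin ℚ ({μ₀} : Set (AlgebraicClosure ℚ)) with hE
  set L : IntermediateField ℚ (AlgebraicClosure ℚ) :=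
    IntermediateField.normalClosure ℚ E (AlgebraicClosure ℚ) with hL
  have hLfin : FiniteDimensional ℚ L := normalClosure.is_finiteDimensional ℚ E (AlgebraicClosure ℚ)
  have hLnorm : Normal ℚ L := normalClosure.normal ℚ E (AlgebraicClosure ℚ)
  have hEL : E ≤ L := IntermediateField.le_normalClosure E
  have hFL : F ≤ L := le_trans (le_trans le_sup_left le_sup_left) hEL
  have hL₀L : L₀ ≤ L := le_trans (le_trans le_sup_right le_sup_left) hEL
  have hμ₀L : μ₀ ∈ L :=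
    hEL ((le_sup_right : _ ≤ E) (IntermediateField.subset_adjoin ℚ _ (Set.mem_singleton μ₀)))
  -- consequences of fixing `L`
  have hfixF : ∀ g : GQ, (∀ x ∈ L, g x = x) → g ∈ F.fixingSubgroup := fun g hg =>
    (IntermediateField.mem_fixingSubgroup_iff F g).2 fun x hx => hg x (hFL hx)
  have hfixρ : ∀ g : GQ, (∀ x ∈ L, g x = x) → ρbar.ρ g = 1 := fun g hg =>
    hker g fun x hx => hg x (hL₀L hx)
  have hagree : ∀ g h : GQ, (∀ x ∈ L, g x = h x) → ρbar.ρ g = ρbar.ρ h := by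
    intro g h hgh
    have h1 : ρbar.ρ (h⁻¹ * g) = 1 := hfixρ _ fun x hx => by
      rw [AlgEquiv.mul_apply, hgh x hx, h72c_inv_apply]
    have h2 : g = h * (h⁻¹ * g) := by group
    rw [h2, map_mul, h1, mul_one]
  -- Chebotarev
  obtain ⟨q, P, φ, j, i, hq, hqS, hP, hφ, hinert, hconj, hpj, hφσ, hφi⟩ :=
    hFrob p L hLfin hLnorm σ (insert p S')
  have hqS' : q ∉ S' := fun h => hqS (Finset.mem_insert_of_mem h)
  have hqp : q ≠ p := fun h => hqS (h ▸ Finset.mem_insert_self _ _)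
  -- `p ^ (n + 1) ∣ q - 1`
  have hdvd : p ^ (n + 1) ∣ q - 1 := by
    have hnd : ¬ q ∣ p ^ (n + 1) := fun h =>
      hqp ((Nat.prime_dvd_prime_iff_eq hq hp).1 (hq.dvd_of_dvd_pow h))
    have h1 : φ μ₀ = μ₀ ^ q := hMu q (p ^ (n + 1)) P φ hq hnd hP hφ μ₀ hμ₀.pow_eq_one
    have h2 : φ μ₀ = μ₀ := by
      rw [hφσ μ₀ hμ₀L]
      exact h72c_pow_fix σ (hσμ μ₀ hμ₀.pow_eq_one) j
    have h3 : μ₀ ^ (q - 1) * μ₀ = 1 * μ₀ := by
      rw [← pow_succ, Nat.sub_add_cancel hq.one_le, ← h1, h2, one_mul]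
    have hμ0 : μ₀ ≠ 0 := hμ₀.ne_zero (pow_pos hp.pos (n + 1)).ne'
    exact hμ₀.dvd_of_pow_eq_one _ (mul_right_cancel₀ hμ0 h3)
  -- the Frobenius elements
  obtain ⟨α, β, hαβ, hσc⟩ := hσreg
  have hρφ : ρbar.ρ φ = ρbar.ρ σ ^ j := by
    rw [← map_pow]
    exact hagree _ _ hφσ
  have hji : (ρbar.ρ σ ^ j) ^ i = ρbar.ρ σ := by
    rw [← hρφ, ← map_pow]
    exact hagree _ _ hφi
  obtain ⟨hne, hcp⟩ := h72c_reg_pow ρbar.finrank_eq (ρbar.ρ σ) hαβ hσc j i hji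
  refine ⟨q, P, φ, j, (σ ^ j)⁻¹ * φ, hq, hqS', hdvd, ?_, ?_, ?_, hP, hφ, hpj, by group, ?_, ?_⟩
  · intro A hA s hs
    exact hfixρ s (hinert A hA s hs)
  · intro P' hP' s hs
    exact hfixF s (hinert P' hP' s hs)
  · intro P' hP' φ' hφ'
    obtain ⟨g, hg⟩ := hconj P' φ' hP' hφ'
    refine ⟨α ^ j, β ^ j, hne, ?_⟩
    rw [hagree _ _ hg, map_mul, map_mul, hρφ,
      h72c_charpoly_conj _ _ _ (h14l_rho_mul_inv ρbar g) (h14l_rho_inv_mul ρbar g), hcp]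
  · exact hfixF _ fun x hx => by
      rw [AlgEquiv.mul_apply, hφσ x hx, h72c_inv_apply]
  · exact hfixρ _ fun x hx => by
      rw [AlgEquiv.mul_apply, hφσ x hx, h72c_inv_apply]

/-- **CHEB-ZERO from its leaves.** -/
theorem h72c_chebZeroOf : H56ChebZeroOf := by
  intro hSS hFrob hMu p _ k _ _ _ ρbar hyp n S'
  obtain ⟨σ, hσμ, hσreg⟩ := hSS p k ρbar hyp n
  obtain ⟨q, P, φ, j, e, hq, hqS, hdvd, hunr, -, hreg, -⟩ :=
    h72c_core hFrob hMu p k ρbar n S' σ hσμ hσreg ⊥ inferInstance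
  exact ⟨q, hq, hqS, hdvd, hunr, hreg⟩

/-- **CHEB-ONE from its leaves.** -/
theorem h72c_chebOneOf : H56ChebOneOf := by
  intro hGrp hFrob hMu p _ k _ _ _ ρbar hyp n S' ψ hψ hψB
  have hp : p.Prime := Fact.out
  obtain ⟨σ, hσμ, hσreg, hσψ⟩ := hGrp p k ρbar hyp n ψ hψ hψB
  obtain ⟨hd, N, ⟨F, hF, -, rfl⟩, hlc⟩ := (mem_Z1 _ _ ψ).1 hψ
  obtain ⟨q, P, φ, j, e, hq, hqS, hdvd, hunr, hinert, hreg, hP, hφ, hpj, hφe, heF, heρ⟩ :=
    h72c_core hFrob hMu p k ρbar n S' σ hσμ hσreg F hF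
  refine ⟨q, hq, hqS, hdvd, hunr, ?_, hreg, P, φ, hP, hφ, ?_⟩
  · intro P' hP' s hs
    have h1 := hlc 1 s (hinert P' hP' s hs)
    rw [one_mul, h72q_coc_one hd] at h1
    exact h1
  · intro hmem
    apply hσψ
    -- `ψ φ = ψ (σ ^ j)` and `Ad0 φ = Ad0 σ ^ j`
    have h1 : ψ φ = ψ (σ ^ j) := by rw [hφe, hlc _ _ heF]
    have h2 : h14l_Ad0 ρbar φ = h14l_Ad0 ρbar σ ^ j := by
      rw [hφe, map_mul, h72c_Ad0_eq_one ρbar heρ, mul_one, map_pow]
    rw [h1, h2] at hmem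
    have h3 : ψ (σ ^ j) ∈ LinearMap.range (h14l_Ad0 ρbar σ - LinearMap.id) :=
      h72c_range_pow_le _ j hmem
    have h4 := h72c_coc_pow_mem (h56c_Ad0tw p ρbar) hd σ j
    rw [h72c_Ad0tw_eq p ρbar hσμ] at h4
    have h5 : (j : k) • ψ σ ∈ LinearMap.range (h14l_Ad0 ρbar σ - LinearMap.id) := by
      have := Submodule.sub_mem _ h3 h4
      rwa [sub_sub_cancel] at this
    have hj0 : (j : k) ≠ 0 := by
      rw [Ne, CharP.cast_eq_zero_iff k p]
      exact hpj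
    have h6 := Submodule.smul_mem _ ((j : k)⁻¹) h5
    rwa [smul_smul, inv_mul_cancel₀ hj0, one_smul] at h6

end Fermat.Agent.S56
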