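import Mathlib.LinearAlgebra.Eigenspace.Charpoly
import Mathlib.LinearAlgebra.Matrix.Charpoly.Coeff
import Mathlib.LinearAlgebra.Charpoly.ToMatrix
import Mathlib.LinearAlgebra.Trace
import Mathlib.LinearAlgebra.Determinant
import Mathlib.GroupTheory.Index

/-!
# S56, row CHEB-SS: the abstract core (helper83, prefix `h83s_`; Mathlib only)

`h83s_core` : let `ρ : Γ →* End_k V`, `dim V = 2`, `2 ≠ 0` in `k`, every `ρ g` with split
characteristic polynomial, `Γ1` a normal subgroup containing all commutators, no proper nonzero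
subspace stable under `Γ` or under a subgroup of index `2`.  Then some `σ ∈ Γ1` has two distinct
eigenvalues.

Proof.  Otherwise every `ρ σ`, `σ ∈ Γ1`, is `a + N` with `N² = 0`.  The relation
`tr² = 4 det` for `σ τ` and `σ² τ` gives `tr (N_σ N_τ) = 0`, hence `N_σ N_τ = 0` (dimension `2`).
The common kernel of the `N_σ` is `Γ`-stable, so all `N_σ = 0`: `Γ1` acts by scalars.  Pick `g0`
with `ρ g0` non scalar; `ρ h ρ g0 = ± ρ g0 ρ h` for all `h`, the centraliser of `ρ g0` has
index `≤ 2` and preserves an eigenspace of `ρ g0`.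
-/

set_option autoImplicit false

open Polynomial

namespace Fermat.Agent.S56

section LinAlg

variable {k : Type*} [Field k] {V : Type*} [AddCommGroup V] [Module k V] [Module.Finite k V]

/-- trace and determinant from a split characteristic polynomial in dimension `2`. -/
theorem h83s_trace_det (hV : Module.finrank k V = 2) (f : Module.End k V) (a b : k)
    (hf : f.charpoly = (X - C a) * (X - C b)) :
    LinearMap.trace k V f = a + b ∧ LinearMap.det f = a * b := by
  let B := Module.finBasisOfFinrankEq k V hV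
  have h1 := LinearMap.charpoly_toMatrix f B
  have h2 := Matrix.charpoly_fin_two (LinearMap.toMatrix B B f)
  rw [h1, hf] at h2
  have ht : LinearMap.trace k V f = Matrix.trace (LinearMap.toMatrix B B f) :=
    LinearMap.trace_eq_matrix_trace k B f
  have hd : LinearMap.det f = Matrix.det (LinearMap.toMatrix B B f) :=
    (LinearMap.det_toMatrix B f).symm
  rw [ht, hd]
  have e0 := congrArg (Polynomial.eval 0) h2
  have e1 := congrArg (Polynomial.eval 1) h2
  simp only [eval_mul, eval_sub, eval_X, eval_C, eval_pow, eval_add] at e0 e1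
  constructor
  · linear_combination e1 - e0
  · linear_combination -e0

/-- Cayley–Hamilton for a characteristic polynomial `(X - a)²`. -/
theorem h83s_sq_zero (f : Module.End k V) (a : k)
    (hf : f.charpoly = (X - C a) * (X - C a)) : (f - a • 1) * (f - a • 1) = 0 := by
  have h := LinearMap.aeval_self_charpoly f
  rw [hf] at h
  simpa [Algebra.algebraMap_eq_smul_one] using h

theorem h83s_aux (p q r s p' q' r' s' : k) (hs : p + s = 0) (hs' : p' + s' = 0)
    (hA : p * p + q * r = 0) (hB : p' * p' + q' * r' = 0)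
    (hT : p * p' + q * r' + (r * q' + s * s') = 0) :
    p * p' + q * r' = 0 ∧ p * q' + q * s' = 0 ∧ r * p' + s * r' = 0 ∧ r * q' + s * s' = 0 := by
  have hs1 : s = -p := by linear_combination hs
  have hs2 : s' = -p' := by linear_combination hs'
  subst hs1 hs2
  refine ⟨?_, ?_, ?_, ?_⟩
  · have : (p * p' + q * r') ^ 2 = 0 := by
      linear_combination (q * r') * hT - (q' * r') * hA + p ^ 2 * hB
    exact pow_eq_zero_iff (two_ne_zero) |>.mp this
  · have : (p * q' + q * -p') ^ 2 = 0 := by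
      linear_combination q' ^ 2 * hA + q ^ 2 * hB - (q * q') * hT
    exact pow_eq_zero_iff (two_ne_zero) |>.mp this
  · have : (r * p' + -p * r') ^ 2 = 0 := by
      linear_combination r ^ 2 * hB + r' ^ 2 * hA - (r * r') * hT
    exact pow_eq_zero_iff (two_ne_zero) |>.mp this
  · have : (r * q' + -p * -p') ^ 2 = 0 := by
      linear_combination (r * q') * hT - (r' * q') * hA + p ^ 2 * hB
    exact pow_eq_zero_iff (two_ne_zero) |>.mp this

theorem h83s_mat_mul_zero (M N : Matrix (Fin 2) (Fin 2) k) (hM : M * M = 0) (hN : N * N = 0)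
    (htM : M.trace = 0) (htN : N.trace = 0) (ht : (M * N).trace = 0) : M * N = 0 := by
  have m00 := congrFun (congrFun hM 0) 0
  have n00 := congrFun (congrFun hN 0) 0
  simp only [Matrix.mul_apply, Fin.sum_univ_two, Matrix.zero_apply] at m00 n00
  rw [Matrix.trace_fin_two] at htM htN ht
  simp only [Matrix.mul_apply, Fin.sum_univ_two] at ht
  obtain ⟨h1, h2, h3, h4⟩ := h83s_aux _ _ _ _ _ _ _ _ htM htN m00 n00 ht
  ext i j
  fin_cases i <;> fin_cases j <;>
    simp only [Matrix.mul_apply, Fin.sum_univ_two, Matrix.zero_apply, Fin.zero_eta, Fin.mk_one] <;>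
    assumption

/-- in dimension `2`: two square-zero endomorphisms with `tr (N₁ N₂) = 0` have product `0`. -/
theorem h83s_end_mul_zero (hV : Module.finrank k V = 2) (M N : Module.End k V)
    (hM : M * M = 0) (hN : N * N = 0) (htM : LinearMap.trace k V M = 0)
    (htN : LinearMap.trace k V N = 0) (ht : LinearMap.trace k V (M * N) = 0) : M * N = 0 := by
  let B := Module.finBasisOfFinrankEq k V hV
  have key := h83s_mat_mul_zero (LinearMap.toMatrix B B M) (LinearMap.toMatrix B B N)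
    (by rw [← LinearMap.toMatrix_mul, hM, map_zero])
    (by rw [← LinearMap.toMatrix_mul, hN, map_zero])
    (by rw [← LinearMap.trace_eq_matrix_trace k B M, htM])
    (by rw [← LinearMap.trace_eq_matrix_trace k B N, htN])
    (by rw [← LinearMap.toMatrix_mul, ← LinearMap.trace_eq_matrix_trace k B (M * N), ht])
  rw [← LinearMap.toMatrix_mul] at key
  exact (LinearMap.toMatrix B B).injective (by rw [key, map_zero])

end LinAlg

section Core

variable {k : Type*} [Field k] {V : Type*} [AddCommGroup V] [Module k V] [Module.Finite k V]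
  {Γ : Type*} [Group Γ]

omit [Module.Finite k V] in
theorem h83s_det_ne_zero (ρ : Γ →* Module.End k V) (g : Γ) : LinearMap.det (ρ g) ≠ 0 := by
  intro h
  have h1 : LinearMap.det (ρ g) * LinearMap.det (ρ g⁻¹) = 1 := by
    rw [← map_mul, ← map_mul, mul_inv_cancel, map_one, map_one]
  rw [h, zero_mul] at h1
  exact zero_ne_one h1

/-- half the trace. -/
noncomputable def h83s_A (ρ : Γ →* Module.End k V) (g : Γ) : k := LinearMap.trace k V (ρ g) / 2

/-- the trace-free part. -/
noncomputable def h83s_N (ρ : Γ →* Module.End k V) (g : Γ) : Module.End k V :=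
  ρ g - h83s_A ρ g • (1 : Module.End k V)

omit [Module.Finite k V] in
theorem h83s_rho_eq (ρ : Γ →* Module.End k V) (g : Γ) :
    ρ g = h83s_A ρ g • (1 : Module.End k V) + h83s_N ρ g := by
  unfold h83s_N
  abel

theorem h83s_trace_one (hV : Module.finrank k V = 2) :
    LinearMap.trace k V (1 : Module.End k V) = 2 := by
  rw [LinearMap.trace_one, hV]
  norm_num

theorem h83s_trace_N (hV : Module.finrank k V = 2) (h2 : (2 : k) ≠ 0)
    (ρ : Γ →* Module.End k V) (g : Γ) : LinearMap.trace k V (h83s_N ρ g) = 0 := by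
  unfold h83s_N h83s_A
  rw [map_sub, map_smul, h83s_trace_one hV, smul_eq_mul]
  field_simp
  ring

theorem h83s_trace_mul (hV : Module.finrank k V = 2) (h2 : (2 : k) ≠ 0)
    (ρ : Γ →* Module.End k V) (g h : Γ) :
    LinearMap.trace k V (ρ (g * h)) =
      2 * (h83s_A ρ g * h83s_A ρ h) + LinearMap.trace k V (h83s_N ρ g * h83s_N ρ h) := by
  have e : ρ (g * h) = (h83s_A ρ g * h83s_A ρ h) • (1 : Module.End k V) +
      h83s_A ρ g • h83s_N ρ h + h83s_A ρ h • h83s_N ρ g + h83s_N ρ g * h83s_N ρ h := by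
    rw [map_mul]
    conv_lhs => rw [h83s_rho_eq ρ g, h83s_rho_eq ρ h]
    rw [add_mul, mul_add, mul_add, smul_mul_smul_comm, mul_one, smul_mul_assoc, one_mul,
      mul_smul_comm, mul_one]
    abel
  rw [e, map_add, map_add, map_add, map_smul, map_smul, map_smul, h83s_trace_N hV h2,
    h83s_trace_N hV h2, h83s_trace_one hV, smul_eq_mul, smul_eq_mul, smul_eq_mul]
  ring

theorem h83s_A_mul (hV : Module.finrank k V = 2) (h2 : (2 : k) ≠ 0)
    (ρ : Γ →* Module.End k V) (g h : Γ) :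
    h83s_A ρ (g * h) =
      h83s_A ρ g * h83s_A ρ h + LinearMap.trace k V (h83s_N ρ g * h83s_N ρ h) / 2 := by
  have := h83s_trace_mul hV h2 ρ g h
  unfold h83s_A at *
  rw [this]
  field_simp

omit [Module.Finite k V] in
theorem h83s_A_conj (ρ : Γ →* Module.End k V) (g σ : Γ) :
    h83s_A ρ (g⁻¹ * σ * g) = h83s_A ρ σ := by
  unfold h83s_A
  congr 1
  rw [mul_assoc, map_mul, LinearMap.trace_mul_comm, ← map_mul, mul_assoc, mul_inv_cancel, mul_one]


/-- facts about the elements of `Γ1` when no element of `Γ1` is regular. -/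
theorem h83s_K1 (hV : Module.finrank k V = 2) (h2 : (2 : k) ≠ 0) (ρ : Γ →* Module.End k V)
    (σ : Γ) (a : k) (ha : (ρ σ).charpoly = (X - C a) * (X - C a)) :
    h83s_A ρ σ ≠ 0 ∧ LinearMap.det (ρ σ) = h83s_A ρ σ * h83s_A ρ σ ∧
      h83s_N ρ σ * h83s_N ρ σ = 0 := by
  obtain ⟨h1, h3⟩ := h83s_trace_det hV (ρ σ) a a ha
  have hA : h83s_A ρ σ = a := by
    unfold h83s_A
    rw [h1]
    field_simp
    ring
  have hd := h83s_det_ne_zero ρ σ
  refine ⟨?_, ?_, ?_⟩
  · rw [hA]
    rintro rfl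
    rw [h3] at hd
    simp at hd
  · rw [hA]
    exact h3
  · unfold h83s_N
    rw [hA]
    exact h83s_sq_zero (ρ σ) a ha

theorem h83s_core (hV : Module.finrank k V = 2) (ρ : Γ →* Module.End k V)
    (Γ1 : Subgroup Γ) (hn : Γ1.Normal) (hab : ∀ g h : Γ, g * h * g⁻¹ * h⁻¹ ∈ Γ1)
    (h2 : (2 : k) ≠ 0)
    (hsplit : ∀ g : Γ, ∃ a b : k, (ρ g).charpoly = (X - C a) * (X - C b))
    (hirr : ∀ W : Submodule k V, (∀ g : Γ, ∀ x ∈ W, ρ g x ∈ W) → W = ⊥ ∨ W = ⊤)
    (hTW : ∀ G : Subgroup Γ, G.index = 2 → ∀ W : Submodule k V,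
      (∀ g ∈ G, ∀ x ∈ W, ρ g x ∈ W) → W = ⊥ ∨ W = ⊤) :
    ∃ σ ∈ Γ1, ∃ a b : k, a ≠ b ∧ (ρ σ).charpoly = (X - C a) * (X - C b) := by
  by_contra hno
  have hdbl : ∀ σ ∈ Γ1, ∃ a : k, (ρ σ).charpoly = (X - C a) * (X - C a) := by
    intro σ hσ
    obtain ⟨a, b, hab'⟩ := hsplit σ
    by_cases h : a = b
    · subst h
      exact ⟨a, hab'⟩
    · exact absurd ⟨σ, hσ, a, b, h, hab'⟩ hno
  have hK1 : ∀ σ ∈ Γ1, h83s_A ρ σ ≠ 0 ∧ LinearMap.det (ρ σ) = h83s_A ρ σ * h83s_A ρ σ ∧
      h83s_N ρ σ * h83s_N ρ σ = 0 := by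
    intro σ hσ
    obtain ⟨a, ha⟩ := hdbl σ hσ
    exact h83s_K1 hV h2 ρ σ a ha
  -- the pair identity
  have hpair : ∀ σ ∈ Γ1, ∀ τ ∈ Γ1,
      LinearMap.trace k V (h83s_N ρ σ * h83s_N ρ τ) *
        (4 * (h83s_A ρ σ * h83s_A ρ τ) + LinearMap.trace k V (h83s_N ρ σ * h83s_N ρ τ)) = 0 := by
    intro σ hσ τ hτ
    obtain ⟨-, hdσ, -⟩ := hK1 σ hσ
    obtain ⟨-, hdτ, -⟩ := hK1 τ hτ
    obtain ⟨-, hdστ, -⟩ := hK1 (σ * τ) (Γ1.mul_mem hσ hτ)
    have e3 : LinearMap.det (ρ (σ * τ)) = LinearMap.det (ρ σ) * LinearMap.det (ρ τ) := by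
      rw [map_mul, map_mul]
    rw [hdστ, hdσ, hdτ, h83s_A_mul hV h2 ρ σ τ] at e3
    have h4 : (4 : k) ≠ 0 := by
      have : (4 : k) = 2 * 2 := by norm_num
      rw [this]
      exact mul_ne_zero h2 h2
    field_simp at e3
    linear_combination e3
  -- the trace form vanishes
  have htr0 : ∀ σ ∈ Γ1, ∀ τ ∈ Γ1, LinearMap.trace k V (h83s_N ρ σ * h83s_N ρ τ) = 0 := by
    intro σ hσ τ hτ
    obtain ⟨haσ, -, hNσ⟩ := hK1 σ hσ
    obtain ⟨haτ, -, -⟩ := hK1 τ hτ
    have p1 := hpair σ hσ τ hτ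
    have p2 := hpair (σ * σ) (Γ1.mul_mem hσ hσ) τ hτ
    have eA : h83s_A ρ (σ * σ) = h83s_A ρ σ * h83s_A ρ σ := by
      rw [h83s_A_mul hV h2 ρ σ σ, hNσ, map_zero, zero_div, add_zero]
    have eN : h83s_N ρ (σ * σ) = (2 * h83s_A ρ σ) • h83s_N ρ σ := by
      have e1 : h83s_N ρ (σ * σ) = ρ (σ * σ) - h83s_A ρ (σ * σ) • (1 : Module.End k V) := rfl
      rw [e1, eA, map_mul]
      conv_lhs => rw [h83s_rho_eq ρ σ]
      rw [add_mul, mul_add, mul_add, smul_mul_smul_comm, mul_one, smul_mul_assoc, one_mul,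
        mul_smul_comm, mul_one, hNσ, two_mul, add_smul]
      abel
    rw [eA, eN, smul_mul_assoc, map_smul, smul_eq_mul] at p2
    set t := LinearMap.trace k V (h83s_N ρ σ * h83s_N ρ τ) with ht
    set a := h83s_A ρ σ with ha
    set a' := h83s_A ρ τ with ha'
    by_contra htne
    have q1 : 4 * (a * a') + t = 0 := (mul_eq_zero.mp p1).resolve_left htne
    have q2 : 2 * a * t * (4 * (a * a * a') + 2 * a * t) = 0 := p2
    have q3 : 4 * (a * a * a') + 2 * a * t = 0 := by
      refine (mul_eq_zero.mp q2).resolve_left ?_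
      exact mul_ne_zero (mul_ne_zero h2 haσ) htne
    have q4 : a * t = 0 := by linear_combination q3 - a * q1
    exact mul_ne_zero haσ htne q4
  have hNN : ∀ σ ∈ Γ1, ∀ τ ∈ Γ1, h83s_N ρ σ * h83s_N ρ τ = 0 := by
    intro σ hσ τ hτ
    exact h83s_end_mul_zero hV _ _ (hK1 σ hσ).2.2 (hK1 τ hτ).2.2 (h83s_trace_N hV h2 ρ σ)
      (h83s_trace_N hV h2 ρ τ) (htr0 σ hσ τ hτ)
  -- `Γ1` acts by scalars
  have hscal : ∀ τ ∈ Γ1, h83s_N ρ τ = 0 := by
    let W : Submodule k V :=
      { carrier := {x | ∀ σ ∈ Γ1, h83s_N ρ σ x = 0}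
        add_mem' := fun {x y} hx hy σ hσ => by rw [map_add, hx σ hσ, hy σ hσ, add_zero]
        zero_mem' := fun σ _ => map_zero _
        smul_mem' := fun c x hx σ hσ => by rw [map_smul, hx σ hσ, smul_zero] }
    have hWmem : ∀ x, x ∈ W ↔ ∀ σ ∈ Γ1, h83s_N ρ σ x = 0 := fun x => Iff.rfl
    have hWst : ∀ g : Γ, ∀ x ∈ W, ρ g x ∈ W := by
      intro g x hx
      rw [hWmem] at hx ⊢
      intro σ hσ
      have hτ : g⁻¹ * σ * g ∈ Γ1 := by
        have := hn.conj_mem σ hσ g⁻¹
        rwa [inv_inv] at this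
      have h1 := hx _ hτ
      have e1 : h83s_N ρ σ * ρ g = ρ g * h83s_N ρ (g⁻¹ * σ * g) := by
        unfold h83s_N
        rw [h83s_A_conj, sub_mul, mul_sub, smul_mul_assoc, one_mul, mul_smul_comm, mul_one,
          ← map_mul, ← map_mul]
        congr 2
        group
      have e2 : h83s_N ρ σ (ρ g x) = (h83s_N ρ σ * ρ g) x := rfl
      rw [e2, e1, Module.End.mul_apply, h1, map_zero]
    intro τ hτ
    rcases hirr W hWst with hW | hW
    · ext v
      have hv : h83s_N ρ τ v ∈ W := by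
        rw [hWmem]
        intro σ hσ
        have e2 : h83s_N ρ σ (h83s_N ρ τ v) = (h83s_N ρ σ * h83s_N ρ τ) v := rfl
        rw [e2, hNN σ hσ τ hτ, LinearMap.zero_apply]
      rw [hW, Submodule.mem_bot] at hv
      rw [hv, LinearMap.zero_apply]
    · ext v
      have hv : v ∈ W := by rw [hW]; exact Submodule.mem_top
      rw [(hWmem v).1 hv τ hτ, LinearMap.zero_apply]
  have hscal' : ∀ τ ∈ Γ1, ρ τ = h83s_A ρ τ • (1 : Module.End k V) := by
    intro τ hτ
    conv_lhs => rw [h83s_rho_eq ρ τ, hscal τ hτ, add_zero]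
  -- a non scalar element
  have hns : ∃ g0 : Γ, ∀ c : k, ρ g0 ≠ c • (1 : Module.End k V) := by
    by_contra hall
    have hall' : ∀ g : Γ, ∃ c : k, ρ g = c • (1 : Module.End k V) := by
      intro g
      by_contra hg
      exact hall ⟨g, fun c hc => hg ⟨c, hc⟩⟩
    have : Nontrivial V := Module.nontrivial_of_finrank_pos (R := k) (by rw [hV]; norm_num)
    obtain ⟨v, hv⟩ := exists_ne (0 : V)
    have hst : ∀ g : Γ, ∀ x ∈ Submodule.span k {v}, ρ g x ∈ Submodule.span k {v} := by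
      intro g x hx
      obtain ⟨c, hc⟩ := hall' g
      rw [hc, LinearMap.smul_apply, Module.End.one_apply]
      exact Submodule.smul_mem _ c hx
    rcases hirr _ hst with h | h
    · exact hv ((Submodule.span_singleton_eq_bot).1 h)
    · have h1 : Module.finrank k (Submodule.span k {v}) = 1 := finrank_span_singleton hv
      rw [h, finrank_top, hV] at h1
      norm_num at h1
  obtain ⟨g0, hg0⟩ := hns
  obtain ⟨a, b, hab0⟩ := hsplit g0
  -- the eigenspace
  have hroot : (ρ g0).charpoly.IsRoot a := by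
    rw [hab0, Polynomial.IsRoot, eval_mul, eval_sub, eval_X, eval_C, sub_self, zero_mul]
  have hev : (ρ g0).HasEigenvalue a := (Module.End.hasEigenvalue_iff_isRoot_charpoly _ _).2 hroot
  obtain ⟨v, hv⟩ := hev.exists_hasEigenvector
  let E : Submodule k V := Module.End.eigenspace (ρ g0) a
  have hEmem : ∀ x, x ∈ E ↔ ρ g0 x = a • x := fun x => Module.End.mem_eigenspace_iff
  have hEbot : E ≠ ⊥ := by
    intro h
    have hvE : v ∈ E := (hEmem v).2 hv.apply_eq_smul
    rw [h, Submodule.mem_bot] at hvE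
    exact hv.2 hvE
  have hEtop : E ≠ ⊤ := by
    intro h
    apply hg0 a
    ext x
    have hx : x ∈ E := by rw [h]; exact Submodule.mem_top
    rw [(hEmem x).1 hx, LinearMap.smul_apply, Module.End.one_apply]
  -- commutation up to sign
  have hsign : ∀ h : Γ, ρ h * ρ g0 = ρ g0 * ρ h ∨ ρ h * ρ g0 = -(ρ g0 * ρ h) := by
    intro h
    have h1 := hscal' _ (hab h g0)
    set c := h83s_A ρ (h * g0 * h⁻¹ * g0⁻¹) with hc
    have h3 : ρ h * ρ g0 = c • (ρ g0 * ρ h) := by
      have e : ρ h * ρ g0 = ρ (h * g0 * h⁻¹ * g0⁻¹) * (ρ g0 * ρ h) := by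
        rw [← map_mul, ← map_mul, ← map_mul]
        congr 1
        group
      rw [e, h1, smul_mul_assoc, one_mul]
    have h4 := congrArg LinearMap.det h3
    rw [LinearMap.det_smul, hV, map_mul, map_mul] at h4
    have hd1 := h83s_det_ne_zero ρ h
    have hd2 := h83s_det_ne_zero ρ g0
    have h5 : (c - 1) * (c + 1) = 0 := by
      have : (LinearMap.det (ρ h) * LinearMap.det (ρ g0)) * ((c - 1) * (c + 1)) = 0 := by
        linear_combination -h4
      exact (mul_eq_zero.mp this).resolve_left (mul_ne_zero hd1 hd2)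
    rcases mul_eq_zero.mp h5 with h6 | h6
    · left
      rw [h3, sub_eq_zero.mp h6, one_smul]
    · right
      rw [h3, eq_neg_of_add_eq_zero_left h6, neg_smul, one_smul]
  -- the centraliser
  let K : Subgroup Γ :=
    { carrier := {h | ρ h * ρ g0 = ρ g0 * ρ h}
      mul_mem' := fun {x y} hx hy => by
        show ρ (x * y) * ρ g0 = ρ g0 * ρ (x * y)
        have hx' : ρ x * ρ g0 = ρ g0 * ρ x := hx
        have hy' : ρ y * ρ g0 = ρ g0 * ρ y := hy
        rw [map_mul, mul_assoc, hy', ← mul_assoc, hx', mul_assoc]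
      one_mem' := by
        show ρ 1 * ρ g0 = ρ g0 * ρ 1
        rw [map_one, one_mul, mul_one]
      inv_mem' := fun {x} hx => by
        show ρ x⁻¹ * ρ g0 = ρ g0 * ρ x⁻¹
        have hx' : ρ x * ρ g0 = ρ g0 * ρ x := hx
        have e1 : ρ x⁻¹ * ρ x = 1 := by rw [← map_mul, inv_mul_cancel, map_one]
        have e2 : ρ x * ρ x⁻¹ = 1 := by rw [← map_mul, mul_inv_cancel, map_one]
        calc ρ x⁻¹ * ρ g0 = ρ x⁻¹ * ρ g0 * (ρ x * ρ x⁻¹) := by rw [e2, mul_one]
          _ = ρ x⁻¹ * (ρ g0 * ρ x) * ρ x⁻¹ := by simp only [mul_assoc]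
          _ = ρ x⁻¹ * (ρ x * ρ g0) * ρ x⁻¹ := by rw [hx']
          _ = (ρ x⁻¹ * ρ x) * ρ g0 * ρ x⁻¹ := by simp only [mul_assoc]
          _ = ρ g0 * ρ x⁻¹ := by rw [e1, one_mul] }
  have hKmem : ∀ h, h ∈ K ↔ ρ h * ρ g0 = ρ g0 * ρ h := fun h => Iff.rfl
  have hKst : ∀ h ∈ K, ∀ x ∈ E, ρ h x ∈ E := by
    intro h hh x hx
    rw [hEmem] at hx ⊢
    have e : ρ g0 (ρ h x) = (ρ g0 * ρ h) x := rfl
    rw [e, ← (hKmem h).1 hh, Module.End.mul_apply, hx, map_smul]
  by_cases hK : ∀ h : Γ, h ∈ K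
  · rcases hirr E (fun g x hx => hKst g (hK g) x hx) with h | h
    · exact hEbot h
    · exact hEtop h
  · have hK' : ∃ a0 : Γ, a0 ∉ K := by
      by_contra hcon
      exact hK fun h => by
        by_contra hh
        exact hcon ⟨h, hh⟩
    obtain ⟨a0, ha0⟩ := hK'
    have hidx : K.index = 2 := by
      rw [Subgroup.index_eq_two_iff]
      refine ⟨a0, fun b => ?_⟩
      by_cases hb : b ∈ K
      · right
        refine ⟨hb, fun hba => ha0 ?_⟩
        have := K.mul_mem (K.inv_mem hb) hba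
        rwa [inv_mul_cancel_left] at this
      · left
        refine ⟨?_, hb⟩
        have hb1 : ρ b * ρ g0 = -(ρ g0 * ρ b) := (hsign b).resolve_left hb
        have ha1 : ρ a0 * ρ g0 = -(ρ g0 * ρ a0) := (hsign a0).resolve_left ha0
        rw [hKmem, map_mul, mul_assoc, ha1, mul_neg, ← mul_assoc, hb1, neg_mul, neg_neg,
          mul_assoc]
    rcases hTW K hidx E hKst with h | h
    · exact hEbot h
    · exact hEtop h

end Core

end Fermat.Agent.S56
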