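import Fermat.Agent.S56.ChebIface
import Fermat.Agent.S56.H83SSCore

/-!
# S56, row CHEB-SS (helper83, prefix `h83s_`): `h83s_ss : H56SS`

Instantiation of the abstract core `h83s_core` (`S56/H83SSCore.lean`) at `Γ = G_ℚ`,
`Γ1 = h83s_fixMu p n` (the fixer of the `p ^ (n + 1)`-th roots of unity, normal with abelian
quotient: `h83s_comm_mu`).  Irreducibility over `k` of `ρbar` and of its restrictions to the
subgroups of index `2` is obtained from `habs`, `hTW` by `h83s_stable_bc` (descent of stable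
subspaces along a field extension).
-/

set_option autoImplicit false

open Polynomial

noncomputable section

namespace Fermat.Agent.S56

open Fermat.Agent.PT Fermat.Agent.S56L
open scoped TensorProduct

/-- descent of stable subspaces along a field extension. -/
theorem h83s_stable_bc {k : Type*} [Field k] (K : Type*) [Field K] [Algebra k K]
    {V : Type*} [AddCommGroup V] [Module k V] {ι : Type*} (f : ι → Module.End k V)
    (W : Submodule k V) (hW : ∀ i, ∀ x ∈ W, f i x ∈ W)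
    (h : ∀ W' : Submodule K (K ⊗[k] V),
      (∀ i, ∀ x ∈ W', (f i).baseChange K x ∈ W') → W' = ⊥ ∨ W' = ⊤) :
    W = ⊥ ∨ W = ⊤ := by
  have hst : ∀ i, ∀ x ∈ W.baseChange K, (f i).baseChange K x ∈ W.baseChange K := by
    intro i x hx
    rw [Submodule.baseChange_eq_span] at hx ⊢
    induction hx using Submodule.span_induction with
    | mem x hx =>
      obtain ⟨w, hw, rfl⟩ := hx
      rw [TensorProduct.mk_apply, LinearMap.baseChange_tmul]
      exact Submodule.subset_span ⟨f i w, hW i w hw, rfl⟩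
    | zero => rw [map_zero]; exact Submodule.zero_mem _
    | add x y _ _ hx hy => rw [map_add]; exact Submodule.add_mem _ hx hy
    | smul c x _ hx => rw [map_smul]; exact Submodule.smul_mem _ c hx
  rcases h _ hst with h0 | h1
  · left
    rw [eq_bot_iff]
    intro w hw
    have h1 : (1 : K) ⊗ₜ[k] w ∈ W.baseChange K := Submodule.tmul_mem_baseChange_of_mem 1 hw
    rw [h0, Submodule.mem_bot] at h1
    have hinj := Module.Flat.tensorProduct_mk_injective k V K
    have : TensorProduct.mk k K V 1 w = TensorProduct.mk k K V 1 0 := by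
      rw [TensorProduct.mk_apply, h1, map_zero]
    rw [Submodule.mem_bot]
    exact hinj this
  · right
    by_contra hne
    obtain ⟨x, hx⟩ : ∃ x : V, x ∉ W := by
      by_contra hcon
      apply hne
      rw [eq_top_iff]
      intro x _
      by_contra hx
      exact hcon ⟨x, hx⟩
    obtain ⟨φ, hφx, hφ⟩ := Submodule.exists_dual_map_eq_bot_of_notMem hx inferInstance
    have hvan : ∀ y ∈ W.baseChange K, (LinearMap.baseChange K (φ : V →ₗ[k] k)) y = 0 := by
      intro y hy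
      rw [Submodule.baseChange_eq_span] at hy
      induction hy using Submodule.span_induction with
      | mem y hy =>
        obtain ⟨w, hw, rfl⟩ := hy
        have hw0 : φ w = 0 := by
          have : φ w ∈ W.map φ := ⟨w, hw, rfl⟩
          rw [hφ, Submodule.mem_bot] at this
          exact this
        rw [TensorProduct.mk_apply, LinearMap.baseChange_tmul, hw0, TensorProduct.tmul_zero]
      | zero => rw [map_zero]
      | add x y _ _ hx hy => rw [map_add, hx, hy, add_zero]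
      | smul c x _ hx => rw [map_smul, hx, smul_zero]
    have h2 := hvan ((1 : K) ⊗ₜ[k] x) (by rw [h1]; exact Submodule.mem_top)
    rw [LinearMap.baseChange_tmul] at h2
    have hinj := Module.Flat.tensorProduct_mk_injective k k K
    have : TensorProduct.mk k K k 1 (φ x) = TensorProduct.mk k K k 1 0 := by
      rw [TensorProduct.mk_apply, h2, map_zero]
    exact hφx (hinj this)

/-- the subgroup of `G_ℚ` fixing the `p ^ (n + 1)`-th roots of unity. -/
def h83s_fixMu (p n : ℕ) : Subgroup GQ where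
  carrier := {σ | h56c_FixMu p n σ}
  mul_mem' := fun {σ τ} hσ hτ μ hμ => by
    rw [AlgEquiv.mul_apply, hτ μ hμ, hσ μ hμ]
  one_mem' := fun μ _ => rfl
  inv_mem' := fun {σ} hσ μ hμ => by
    have h := hσ μ hμ
    calc σ⁻¹ μ = σ⁻¹ (σ μ) := by rw [h]
      _ = (σ⁻¹ * σ) μ := rfl
      _ = μ := by rw [inv_mul_cancel]; rfl

theorem h83s_mem_fixMu (p n : ℕ) (σ : GQ) : σ ∈ h83s_fixMu p n ↔ h56c_FixMu p n σ := Iff.rfl

/-- `G_ℚ` acts on the `m`-th roots of unity through an abelian quotient. -/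
theorem h83s_comm_mu (m : ℕ) [NeZero m] (g h : GQ) (μ : AlgebraicClosure ℚ) (hμ : μ ^ m = 1) :
    g (h μ) = h (g μ) := by
  obtain ⟨a, ha⟩ := rootsOfUnity.integer_power_of_ringEquiv m
    ((g : AlgebraicClosure ℚ ≃ₐ[ℚ] AlgebraicClosure ℚ).toRingEquiv)
  obtain ⟨b, hb⟩ := rootsOfUnity.integer_power_of_ringEquiv m
    ((h : AlgebraicClosure ℚ ≃ₐ[ℚ] AlgebraicClosure ℚ).toRingEquiv)
  let t : rootsOfUnity m (AlgebraicClosure ℚ) := rootsOfUnity.mkOfPowEq μ hμ
  have ht : ((t : (AlgebraicClosure ℚ)ˣ) : AlgebraicClosure ℚ) = μ :=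
    rootsOfUnity.coe_mkOfPowEq hμ
  have e1 : h μ = (((t ^ b : rootsOfUnity m (AlgebraicClosure ℚ)) : (AlgebraicClosure ℚ)ˣ) :
      AlgebraicClosure ℚ) := by
    have := hb t
    rw [ht] at this
    exact this
  have e2 : g μ = (((t ^ a : rootsOfUnity m (AlgebraicClosure ℚ)) : (AlgebraicClosure ℚ)ˣ) :
      AlgebraicClosure ℚ) := by
    have := ha t
    rw [ht] at this
    exact this
  have e3 := ha (t ^ b)
  have e4 := hb (t ^ a)
  rw [e1, e2]
  change (g : AlgebraicClosure ℚ ≃ₐ[ℚ] AlgebraicClosure ℚ).toRingEquiv _ =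
    (h : AlgebraicClosure ℚ ≃ₐ[ℚ] AlgebraicClosure ℚ).toRingEquiv _
  rw [e3, e4, Subgroup.coe_zpow, Subgroup.coe_zpow, ← zpow_mul, ← zpow_mul, mul_comm]

/-- **CHEB-SS.**  `G_{ℚ(ζ_{p^(n+1)})}` contains an element with two distinct eigenvalues. -/
theorem h83s_ss : H56SS := by
  intro p _ k _ _ _ ρbar hyp n
  have hm : NeZero (p ^ (n + 1)) := ⟨pow_ne_zero _ (Fact.out : p.Prime).ne_zero⟩
  have hnorm : (h83s_fixMu p n).Normal := by
    constructor
    intro σ hσ g μ hμ
    have hν : (g⁻¹ μ) ^ p ^ (n + 1) = 1 := by rw [← map_pow, hμ, map_one]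
    have h1 := hσ _ hν
    calc (g * σ * g⁻¹) μ = g (σ (g⁻¹ μ)) := rfl
      _ = g (g⁻¹ μ) := by rw [h1]
      _ = (g * g⁻¹) μ := rfl
      _ = μ := by rw [mul_inv_cancel]; rfl
  have hcomm : ∀ g h : GQ, g * h * g⁻¹ * h⁻¹ ∈ h83s_fixMu p n := by
    intro g h μ hμ
    have hν : (g⁻¹ (h⁻¹ μ)) ^ p ^ (n + 1) = 1 := by
      rw [← map_pow, ← map_pow, hμ, map_one, map_one]
    calc (g * h * g⁻¹ * h⁻¹) μ = g (h (g⁻¹ (h⁻¹ μ))) := rfl
      _ = h (g (g⁻¹ (h⁻¹ μ))) := h83s_comm_mu _ g h _ hν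
      _ = h ((g * g⁻¹) (h⁻¹ μ)) := rfl
      _ = h (h⁻¹ μ) := by rw [mul_inv_cancel]; rfl
      _ = (h * h⁻¹) μ := rfl
      _ = μ := by rw [mul_inv_cancel]; rfl
  have h2 : (2 : k) ≠ 0 := by
    have : ringChar k ≠ 2 := by rw [ringChar.eq k p]; exact hyp.hp2
    exact Ring.two_ne_zero this
  have hirr : ∀ W : Submodule k ρbar.V, (∀ g : GQ, ∀ x ∈ W, ρbar.ρ g x ∈ W) →
      W = ⊥ ∨ W = ⊤ := by
    intro W hW
    refine h83s_stable_bc (AlgebraicClosure k) (fun g : GQ => ρbar.ρ g) W hW ?_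
    intro W' hW'
    exact hyp.habs W' hW'
  have hTW : ∀ G : Subgroup GQ, G.index = 2 → ∀ W : Submodule k ρbar.V,
      (∀ g ∈ G, ∀ x ∈ W, ρbar.ρ g x ∈ W) → W = ⊥ ∨ W = ⊤ := by
    intro G hG W hW
    refine h83s_stable_bc k (fun g : G => ρbar.ρ (g : GQ)) W (fun g x hx => hW g g.2 x hx) ?_
    intro W' hW'
    exact hyp.hTW k G hG W' (fun σ hσ x hx => hW' ⟨σ, hσ⟩ x hx)
  obtain ⟨σ, hσ, a, b, hab, hc⟩ := h83s_core ρbar.finrank_eq ρbar.ρ (h83s_fixMu p n) hnorm
    hcomm h2 hyp.hsplit hirr hTW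
  exact ⟨σ, hσ, a, b, hab, hc⟩

end Fermat.Agent.S56
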