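import Fermat.Agent.S56.H48H1Final
import Fermat.Agent.S56.H30ChebIrr
import Fermat.Agent.S56.H83SS
import Fermat.Agent.S56.H5ChebGrp
import Fermat.Agent.S56.H72ChebAsm
import Fermat.Agent.S56.H51Frob
import Fermat.Agent.S56.H51FrobMu
import Fermat.Agent.S56.H5SelKill

/-!
# S56, block TW-CHEB, final wiring (helper48): all unconditional

* `h48k_h1Van   : H56H1Van`   — `H¹(Gal(K_n/ℚ), ad⁰ ρbar (1)) = 0` (DDT Lemma 2.48);
* `h48k_grpOne  : H56GrpOne`;
* `h48k_chebOne : H56ChebOne`, `h48k_chebZero : H56ChebZero` — Taylor–Wiles primes;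
* `h48k_kill    : H56Kill`    — Taylor–Wiles primes kill the dual Selmer group.
-/

namespace Fermat.Agent.S56

theorem h48k_h1Van : H56H1Van := h48a_h1Van_of_irr h30c_slIrr

theorem h48k_grpOne : H56GrpOne := h5g_grpOneOf h30c_slIrr h48k_h1Van h83s_ss

theorem h48k_chebOne : H56ChebOne := h72c_chebOneOf h48k_grpOne h51f_frob h51m_frobMu

theorem h48k_chebZero : H56ChebZero := h72c_chebZeroOf h83s_ss h51f_frob h51m_frobMu

theorem h48k_kill : H56Kill := h5k_killOf h48k_chebOne h48k_chebZero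

end Fermat.Agent.S56
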