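import Fermat.Agent.S56.SelIface
import Fermat.Agent.S56L.H14UnrLift

/-!
# S56, block SEL, row SEL-UNRLIFT (helper49, prefix `h49u_`)

`h49u_unrOfLift : H56UnrOfLift` (exact frozen Prop of `S56/SelIface.lean`): the cocycle of a lift
which is unramified at `q` vanishes on the inertia groups at `q`.  This is the second half of
the landed global form `h14u_unrOfLiftGlob` of helper14.
-/

set_option autoImplicit false

noncomputable section

namespace Fermat.Agent.S56

/-- **SEL-UNRLIFT.** -/
theorem h49u_unrOfLift : H56UnrOfLift := by
  intro k _ ρbar ρA c q hcoc hunr P hP s hs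
  exact (Fermat.Agent.S56L.h14u_unrOfLiftGlob k ρbar ρA c q hcoc hunr P hP s hs).2

end Fermat.Agent.S56
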