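import Fermat.Agent.S56.SelIface
import Fermat.Agent.S56L.Package
import Fermat.Agent.S56L.H96Unr

/-!
# S56, block SEL (helper72): the local conditions away from the Taylor–Wiles primes,
strict ordinary case

`h72s_locBaseStr_of : h14l_LocUnrBound → H56LocBaseStr`.

The family of local conditions is
* `v = p` : `h14l_ZStr ρbar v L`, `L` the line of the given strict ordinary lift;
* `v ∈ Smin`, `v ≠ p` : `h14l_ZUnip ρbar v`;
* all other `v` : `h14l_ZUnr ρbar v`.
-/

set_option autoImplicit false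
set_option linter.unusedSectionVars false
set_option linter.style.haveILetI false

open Polynomial IsLocalRing ExtCitation

noncomputable section

namespace Fermat.Agent.S56

open Fermat.Agent.PT Fermat.Agent.S56L

/-- the residue field has characteristic `p`. -/
theorem h72s_charP (𝒪 : Type) [CommRing 𝒪] [IsLocalRing 𝒪] (p : ℕ) [Fact p.Prime]
    (h : (p : 𝒪) ∈ maximalIdeal 𝒪) : CharP (ResidueField 𝒪) p := by
  have hp : p.Prime := Fact.out
  have h0 : ((p : ℕ) : ResidueField 𝒪) = 0 := by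
    have h1 : IsLocalRing.residue 𝒪 (p : 𝒪) = 0 := (IsLocalRing.residue_eq_zero_iff _).2 h
    rwa [map_natCast] at h1
  obtain ⟨r, hr⟩ := CharP.exists (ResidueField 𝒪)
  have hrp : r ∣ p := (CharP.cast_eq_zero_iff (ResidueField 𝒪) r p).1 h0
  rcases (Nat.dvd_prime hp).1 hrp with h1 | h1
  · exact absurd h1 (CharP.char_ne_one (ResidueField 𝒪) r)
  · rwa [h1] at hr

section Loc

variable {k : Type} [Field k]

/-- a subspace which embeds into `k ^ n` is finite dimensional of dimension `≤ n`. -/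
theorem h72s_finite_of_emb {V : Type} [AddCommGroup V] [Module k V] {W : Submodule k V}
    {n : ℕ} (h : ∃ f : ↥W →ₗ[k] (Fin n → k), Function.Injective f) :
    Module.Finite k ↥W ∧ Module.finrank k ↥W ≤ n := by
  obtain ⟨f, hf⟩ := h
  refine ⟨Module.Finite.of_injective f hf, ?_⟩
  have := LinearMap.finrank_le_finrank_of_injective hf
  rwa [Module.finrank_fin_fun] at this

/-- the local coboundaries satisfy the unipotent condition. -/
theorem h72s_B1_le_ZUnip (ρbar : ResidualGaloisRep k) (q : Nat.Primes) :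
    B1 (h14l_locAd0 ρbar q) ≤ h14l_ZUnip ρbar q := by
  intro c hc
  refine ⟨h14s_B1_le_Z1 ρbar q hc, fun s _ => ?_⟩
  obtain ⟨m, rfl⟩ := (mem_B1 _ _).1 hc
  have h1 : ((d0 (h14l_locAd0 ρbar q) m s : ↥(h14l_sl ρbar)) : Module.End k ρbar.V) =
      ρbar.ρ (primeLocalToGlobal q s) * (m : Module.End k ρbar.V) *
        ρbar.ρ (primeLocalToGlobal q s)⁻¹ - (m : Module.End k ρbar.V) := by
    rw [d0_apply, Submodule.coe_sub]
    congr 1
  have h2 : h14l_locRho ρbar q s = ρbar.ρ (primeLocalToGlobal q s) := rfl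
  rw [h1, h2, sub_mul, mul_assoc, h14l_rho_inv_mul, mul_one, map_sub, LinearMap.trace_mul_comm]
  exact sub_self _

end Loc

/-- **SEL-LOCBASE, strict ordinary case**, from the bound for unramified cocycles. -/
theorem h72s_locBaseStr_of (hUnr : h14l_LocUnrBound) : H56LocBaseStr := by
  intro 𝒪 _ _ _ _ _ p _ ρbar S Smin hyp hex
  classical
  haveI : CharP (ResidueField 𝒪) p := h72s_charP 𝒪 p hyp.hp𝒪
  have hp2 := hyp.hp2
  obtain ⟨Q₀, c₀, hc₀, ρA₀, hcoc₀, hcond₀⟩ := hex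
  -- the line at `p`
  obtain ⟨L, hL, -⟩ := h14s_strOfLift p hp2 (ResidueField 𝒪) ρbar ρA₀ c₀ (pPrime p) rfl hcoc₀
    hc₀ hcond₀.1.2.1
  have hvp : ∀ v : Nat.Primes, (v : ℕ) = p → v = pPrime p := fun v hv => Subtype.ext hv
  -- the three cases
  have hunip : ∀ v : Nat.Primes, (v : ℕ) ≠ p → (v : ℕ) ∈ Smin →
      ∃ f : ↥(h14l_ZUnip ρbar v) →ₗ[ResidueField 𝒪] (Fin 3 → ResidueField 𝒪),
        Function.Injective f := by
    intro v hv hvS
    refine h14l_locUnipBound p hp2 (ResidueField 𝒪) ρbar v hv ?_ ?_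
    · exact h52l_resUnip (ResidueField 𝒪) ρbar ρA₀ c₀ v hcoc₀ (hcond₀.2 v hvS v.2 hv)
    · exact (h52l_resRam (ResidueField 𝒪) ρbar v).1 ((hyp.hmin v v.2 hv).1 hvS)
  have hunr : ∀ v : Nat.Primes, (v : ℕ) ≠ p → (v : ℕ) ∉ Smin →
      B1 (h14l_locAd0 ρbar v) ≤ h14l_ZUnr ρbar v ∧
      ∃ f : ↥(h14l_ZUnr ρbar v) →ₗ[ResidueField 𝒪] (Fin 3 → ResidueField 𝒪),
        Function.Injective f := by
    intro v hv hvS
    refine hUnr (ResidueField 𝒪) ρbar v ?_
    refine (h52l_resRam (ResidueField 𝒪) ρbar v).2 ?_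
    by_contra h
    exact hvS ((hyp.hmin v v.2 hv).2 h)
  have hstr : ∀ v : Nat.Primes, (v : ℕ) = p →
      ∃ f : ↥(h14l_ZStr ρbar v L) →ₗ[ResidueField 𝒪] (Fin 4 → ResidueField 𝒪),
        Function.Injective f := by
    intro v hv
    have := hvp v hv
    subst this
    exact h14l_locStrBound p hp2 (ResidueField 𝒪) ρbar (pPrime p) rfl L hL
  -- the family
  let Ls : h56s_Loc ρbar := fun v =>
    if (v : ℕ) = p then h14l_ZStr ρbar v L
    else if (v : ℕ) ∈ Smin then h14l_ZUnip ρbar v else h14l_ZUnr ρbar v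
  have hLs1 : ∀ v : Nat.Primes, (v : ℕ) = p → Ls v = h14l_ZStr ρbar v L := fun v hv => by
    simp only [Ls, if_pos hv]
  have hLs2 : ∀ v : Nat.Primes, (v : ℕ) ≠ p → (v : ℕ) ∈ Smin → Ls v = h14l_ZUnip ρbar v :=
    fun v hv hvS => by simp only [Ls, if_neg hv, if_pos hvS]
  have hLs3 : ∀ v : Nat.Primes, (v : ℕ) ≠ p → (v : ℕ) ∉ Smin → Ls v = h14l_ZUnr ρbar v :=
    fun v hv hvS => by simp only [Ls, if_neg hv, if_neg hvS]
  refine ⟨Ls, fun v => ?_, fun v hv => ?_, fun v hv => ?_, fun Q c hc v hvQ => ?_⟩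
  · by_cases hv : (v : ℕ) = p
    · rw [hLs1 v hv]
      exact ⟨le_sup_right, sup_le inf_le_left (h14s_B1_le_Z1 ρbar v),
        (h72s_finite_of_emb (hstr v hv)).1⟩
    · by_cases hvS : (v : ℕ) ∈ Smin
      · rw [hLs2 v hv hvS]
        exact ⟨h72s_B1_le_ZUnip ρbar v, fun c hc => hc.1,
          (h72s_finite_of_emb (hunip v hv hvS)).1⟩
      · rw [hLs3 v hv hvS]
        exact ⟨(hunr v hv hvS).1, fun c hc => hc.1,
          (h72s_finite_of_emb (hunr v hv hvS).2).1⟩
  · rw [hLs1 v hv]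
    exact (h72s_finite_of_emb (hstr v hv)).2
  · by_cases hvS : (v : ℕ) ∈ Smin
    · rw [hLs2 v hv hvS]
      exact (h72s_finite_of_emb (hunip v hv hvS)).2
    · rw [hLs3 v hv hvS]
      exact (h72s_finite_of_emb (hunr v hv hvS).2).2
  · obtain ⟨hcZ, ρA, hcoc, hcond⟩ := hc
    by_cases hv : (v : ℕ) = p
    · rw [hLs1 v hv]
      have := hvp v hv
      subst this
      obtain ⟨L', hL', hmem⟩ := h14s_strOfLift p hp2 (ResidueField 𝒪) ρbar ρA c (pPrime p) rfl
        hcoc hcZ hcond.1.2.1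
      rw [h52l_strLineUnique p hp2 (ResidueField 𝒪) ρbar (pPrime p) rfl L L' hL hL']
      exact hmem
    · by_cases hvS : (v : ℕ) ∈ Smin
      · rw [hLs2 v hv hvS]
        exact h52l_unipOfLift (ResidueField 𝒪) ρbar ρA c v hcoc hcZ (hcond.2 v hvS v.2 hv)
      · rw [hLs3 v hv hvS]
        have hvSQ : (v : ℕ) ∉ Smin ∪ Q := by
          rw [Finset.mem_union]
          exact fun h => h.elim hvS hvQ
        exact (h14u_unrOfLift (ResidueField 𝒪) ρbar ρA c v hcoc hcZ
          (hcond.1.2.2 v v.2 hvSQ)).2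

/-- **SEL-LOCBASE, strict ordinary case**, unconditional. -/
theorem h72s_locBaseStr : H56LocBaseStr := h72s_locBaseStr_of h96u_locUnrBound

end Fermat.Agent.S56
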