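import Fermat.Agent.S56.SelIface
import Fermat.Agent.S56F.Defs
import Fermat.Agent.S56L.H72QAbs

/-!
# S56 (helper72): the dictionary FL-DICT between flat lifts and flat cocycles

If `ρA` is a lift of `ρbar` to the dual numbers `k[ε]` (`k` finite) with cocycle `c`
(`h14l_IsCocycleOf`), and `ρA` is flat at `p` (frozen `GaloisRepAdic.IsFlatAt`), then `c` is a
flat cocycle in the sense of the pillar LOC-p-FL (`Fermat.Agent.S56F.IsFlatCocycle`).

The level `I = ⊥` of `k[ε]` is used: `ρA.V ⧸ (⊥ • ⊤) ≃ ρA.V ≃ V × V`, `x ↦ (fst x, snd x)` in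
the compatible bases, equivariantly.
-/

set_option autoImplicit false
set_option linter.unusedSectionVars false
set_option linter.style.haveILetI false

open ExtCitation

noncomputable section

namespace Fermat.Agent.S56

open Fermat.Agent.PT Fermat.Agent.S56L

variable {k : Type} [Field k]

/-- the coordinate bijection `W ≃ V × V` attached to a basis `e` of `W` over `k[ε]` and a basis
`eb` of `V` over `k`. -/
def h72f_split {W V : Type} [AddCommGroup W] [Module (DualNumber k) W] [AddCommGroup V]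
    [Module k V] (e : Module.Basis (Fin 2) (DualNumber k) W) (eb : Module.Basis (Fin 2) k V) :
    W ≃ V × V where
  toFun x := (eb.equivFun.symm (fun i => (e.equivFun x i).fst),
    eb.equivFun.symm (fun i => (e.equivFun x i).snd))
  invFun y := e.equivFun.symm
    (fun i => TrivSqZeroExt.inl (eb.equivFun y.1 i) + TrivSqZeroExt.inr (eb.equivFun y.2 i))
  left_inv x := by
    apply e.equivFun.injective
    rw [LinearEquiv.apply_symm_apply]
    funext i
    simp only [LinearEquiv.apply_symm_apply]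
    exact TrivSqZeroExt.inl_fst_add_inr_snd_eq _
  right_inv y := by
    simp only [LinearEquiv.apply_symm_apply, TrivSqZeroExt.fst_add, TrivSqZeroExt.fst_inl,
      TrivSqZeroExt.fst_inr, add_zero, TrivSqZeroExt.snd_add, TrivSqZeroExt.snd_inl,
      TrivSqZeroExt.snd_inr, zero_add]
    rw [show (fun i => eb.equivFun y.1 i) = eb.equivFun y.1 from rfl,
      show (fun i => eb.equivFun y.2 i) = eb.equivFun y.2 from rfl,
      LinearEquiv.symm_apply_apply, LinearEquiv.symm_apply_apply]

section Split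

variable {W V : Type} [AddCommGroup W] [Module (DualNumber k) W] [AddCommGroup V]
  [Module k V] (e : Module.Basis (Fin 2) (DualNumber k) W) (eb : Module.Basis (Fin 2) k V)

theorem h72f_split_fst (x : W) (i : Fin 2) :
    eb.repr (h72f_split e eb x).1 i = (e.repr x i).fst := by
  have h : eb.equivFun (h72f_split e eb x).1 = fun i => (e.equivFun x i).fst :=
    LinearEquiv.apply_symm_apply _ _
  exact congrFun h i

theorem h72f_split_snd (x : W) (i : Fin 2) :
    eb.repr (h72f_split e eb x).2 i = (e.repr x i).snd := by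
  have h : eb.equivFun (h72f_split e eb x).2 = fun i => (e.equivFun x i).snd :=
    LinearEquiv.apply_symm_apply _ _
  exact congrFun h i

theorem h72f_split_add (x y : W) :
    h72f_split e eb (x + y) = h72f_split e eb x + h72f_split e eb y := by
  apply Prod.ext
  · apply eb.repr.injective
    ext i
    simp only [Prod.fst_add, map_add, Finsupp.add_apply, h72f_split_fst, TrivSqZeroExt.fst_add]
  · apply eb.repr.injective
    ext i
    simp only [Prod.snd_add, map_add, Finsupp.add_apply, h72f_split_snd, TrivSqZeroExt.snd_add]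

/-- **equivariance of the coordinate bijection.** -/
theorem h72f_split_equivariant (A : Module.End (DualNumber k) W) (R C : Module.End k V)
    (h : ∀ i j, LinearMap.toMatrix e e A i j =
      TrivSqZeroExt.inl (LinearMap.toMatrix eb eb R i j) +
        TrivSqZeroExt.inr (LinearMap.toMatrix eb eb C i j)) (x : W) :
    h72f_split e eb (A x) =
      (R (h72f_split e eb x).1, R (h72f_split e eb x).2 + C (h72f_split e eb x).1) := by
  have hA : ∀ i, e.repr (A x) i = ∑ j, LinearMap.toMatrix e e A i j * e.repr x j := by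
    intro i
    have := congrFun (LinearMap.toMatrix_mulVec_repr e e A x) i
    rw [← this]
    rfl
  have hR : ∀ (v : V) i, eb.repr (R v) i = ∑ j, LinearMap.toMatrix eb eb R i j * eb.repr v j := by
    intro v i
    have := congrFun (LinearMap.toMatrix_mulVec_repr eb eb R v) i
    rw [← this]
    rfl
  have hC : ∀ (v : V) i, eb.repr (C v) i = ∑ j, LinearMap.toMatrix eb eb C i j * eb.repr v j := by
    intro v i
    have := congrFun (LinearMap.toMatrix_mulVec_repr eb eb C v) i
    rw [← this]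
    rfl
  apply Prod.ext
  · apply eb.repr.injective
    ext i
    rw [h72f_split_fst, hA, hR]
    simp only [h72f_split_fst, Fin.sum_univ_two, TrivSqZeroExt.fst_add, TrivSqZeroExt.fst_mul,
      h i, TrivSqZeroExt.fst_inl, TrivSqZeroExt.fst_inr, add_zero]
  · apply eb.repr.injective
    ext i
    rw [h72f_split_snd, hA, map_add, Finsupp.add_apply, hR, hC]
    simp only [h72f_split_fst, h72f_split_snd, Fin.sum_univ_two, TrivSqZeroExt.snd_add,
      TrivSqZeroExt.snd_mul, TrivSqZeroExt.fst_add, h i, TrivSqZeroExt.fst_inl,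
      TrivSqZeroExt.fst_inr, TrivSqZeroExt.snd_inl, TrivSqZeroExt.snd_inr, add_zero, zero_add,
      smul_eq_mul, MulOpposite.smul_eq_mul_unop, MulOpposite.unop_op]
    ring

end Split

/-- `k[ε]` is finite if `k` is. -/
theorem h72f_finite_dual [Finite k] : Finite (DualNumber k) :=
  inferInstanceAs (Finite (k × k))

/-- **FL-DICT (flatness)**: the cocycle of a flat lift to `k[ε]` gives a flat action on
`V × V`. -/
theorem h72f_flat_of_lift [Finite k] (p : ℕ) (ρbar : ResidualGaloisRep k)
    (ρA : GaloisRepAdic (DualNumber k)) (c : GQ → ↥(h14l_sl ρbar))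
    (hcoc : h14l_IsCocycleOf ρbar ρA c) (hfl : ρA.IsFlatAt p) :
    Fermat.Agent.S56F.Flat p (ρbar.V × ρbar.V)
      (fun σ x => (ρbar.ρ σ x.1,
        ρbar.ρ σ x.2 + (c σ : Module.End k ρbar.V) (ρbar.ρ σ x.1))) := by
  obtain ⟨e, eb, hmat⟩ := hcoc
  haveI : Finite (DualNumber k) := h72f_finite_dual
  have hfinq : Finite (DualNumber k ⧸ (⊥ : Ideal (DualNumber k))) :=
    Finite.of_surjective (Ideal.Quotient.mk (⊥ : Ideal (DualNumber k)))
      Ideal.Quotient.mk_surjective
  obtain ⟨H, iH1, iH2, hfin, hflat, hcocomm, e₀, hadd, hequiv⟩ := hfl.2 ⊥ hfinq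
  have hbot : ((⊥ : Ideal (DualNumber k)) • (⊤ : Submodule (DualNumber k) ρA.V)) = ⊥ :=
    Submodule.bot_smul _
  let θ₁ : (ρA.V ⧸ ((⊥ : Ideal (DualNumber k)) • (⊤ : Submodule (DualNumber k) ρA.V)))
      ≃ₗ[DualNumber k] ρA.V := Submodule.quotEquivOfEqBot _ hbot
  have hθ₁ : ∀ y : ρA.V, θ₁ (Submodule.Quotient.mk y) = y := fun y =>
    Submodule.quotEquivOfEqBot_apply_mk _ hbot y
  refine ⟨H, iH1, iH2, hfin, hflat, hcocomm, e₀.trans (θ₁.toEquiv.trans (h72f_split e eb)),
    fun f g => ?_, fun σ f g hfg => ?_⟩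
  · show h72f_split e eb (θ₁ (e₀ (f * g))) =
      h72f_split e eb (θ₁ (e₀ f)) + h72f_split e eb (θ₁ (e₀ g))
    rw [hadd, map_add, h72f_split_add]
  · show h72f_split e eb (θ₁ (e₀ g)) = _
    rw [hequiv σ f g hfg]
    obtain ⟨x, hx⟩ := Submodule.Quotient.mk_surjective _ (e₀ f)
    have h1 : ρA.levelAction ⊥ σ (e₀ f) = Submodule.Quotient.mk (ρA.ρ σ x) := by
      rw [← hx]
      rfl
    rw [h1, hθ₁]
    have h2 : θ₁ (e₀ f) = x := by rw [← hx, hθ₁]
    have h3 := h72f_split_equivariant e eb (ρA.ρ σ) (ρbar.ρ σ)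
      ((c σ : Module.End k ρbar.V) * ρbar.ρ σ) (hmat σ) x
    rw [h3]
    show _ = (ρbar.ρ σ (h72f_split e eb (θ₁ (e₀ f))).1,
      ρbar.ρ σ (h72f_split e eb (θ₁ (e₀ f))).2 +
        (c σ : Module.End k ρbar.V) (ρbar.ρ σ (h72f_split e eb (θ₁ (e₀ f))).1))
    rw [h2]
    rfl

/-- **FL-DICT**: the cocycle of a flat lift to `k[ε]` is a flat cocycle. -/
theorem h72f_isFlatCocycle [Finite k] (p : ℕ) (ρbar : ResidualGaloisRep k)
    (ρA : GaloisRepAdic (DualNumber k)) (c : GQ → ↥(h14l_sl ρbar))
    (hc : c ∈ Z1 levFin (h14l_Ad0 ρbar)) (hcoc : h14l_IsCocycleOf ρbar ρA c)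
    (hfl : ρA.IsFlatAt p) :
    Fermat.Agent.S56F.IsFlatCocycle p ρbar.ρ (fun σ => (c σ : Module.End k ρbar.V)) where
  cocycle σ τ := by
    have h := h72q_coc_mul ((mem_Z1 _ _ c).1 hc).1 σ τ
    have h' := congrArg Subtype.val h
    rw [Submodule.coe_add, h14l_Ad0_coe] at h'
    rw [h', add_comm]
  trace σ := (h14l_mem_sl ρbar _).1 (c σ).2
  flat := h72f_flat_of_lift p ρbar ρA c hcoc hfl

end Fermat.Agent.S56
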