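import Fermat.Agent.S56.H72SelLocBase
import Fermat.Agent.S56.H72FlDict

/-!
# S56, block SEL (helper72): the local conditions away from the Taylor–Wiles primes, flat case

`h72f_locBaseFl_of : Fermat.Agent.S56F.LocPFL → H56LocBaseFl`.

The family of local conditions is
* `v = p` : the continuous cocycles whose underlying `End V`-valued function lies in the space
  `W` of `LocPFL`;
* `v ∈ Smin`, `v ≠ p` : `h14l_ZUnip ρbar v`;
* all other `v` : `h14l_ZUnr ρbar v`.
-/

set_option autoImplicit false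
set_option linter.unusedSectionVars false
set_option linter.style.haveILetI false

open Polynomial IsLocalRing ExtCitation

noncomputable section

namespace Fermat.Agent.S56

open Fermat.Agent.PT Fermat.Agent.S56L

section AtP

variable {k : Type} [Field k] (p : ℕ) [Fact p.Prime]

/-- forgetting that the values have trace zero, at the prime `p`. -/
def h72f_coe (ρbar : ResidualGaloisRep k) :
    (primeLocalGaloisGroup (pPrime p) → ↥(h14l_sl ρbar)) →ₗ[k]
      (Fermat.Agent.PT.Loc.Gq p → Module.End k ρbar.V) where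
  toFun c τ := ((c τ : ↥(h14l_sl ρbar)) : Module.End k ρbar.V)
  map_add' _ _ := rfl
  map_smul' _ _ := rfl

theorem h72f_coe_injective (ρbar : ResidualGaloisRep k) :
    Function.Injective (h72f_coe p ρbar) := by
  intro c c' h
  funext τ
  exact Subtype.ext (congrFun h τ)

/-- the flat local condition at `p` attached to a space `W` of `End V`-valued functions. -/
def h72f_LsP (ρbar : ResidualGaloisRep k)
    (W : Submodule k (Fermat.Agent.PT.Loc.Gq p → Module.End k ρbar.V)) :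
    Submodule k (primeLocalGaloisGroup (pPrime p) → ↥(h14l_sl ρbar)) :=
  Z1 (h14l_lev (pPrime p)) (h14l_locAd0 ρbar (pPrime p)) ⊓ W.comap (h72f_coe p ρbar)

theorem h72f_LsP_finite (ρbar : ResidualGaloisRep k)
    (W : Submodule k (Fermat.Agent.PT.Loc.Gq p → Module.End k ρbar.V)) [Module.Finite k W]
    (hW : Module.finrank k W ≤ 4) :
    Module.Finite k ↥(h72f_LsP p ρbar W) ∧ Module.finrank k ↥(h72f_LsP p ρbar W) ≤ 4 := by
  let f : ↥(h72f_LsP p ρbar W) →ₗ[k] ↥W :=
    LinearMap.codRestrict W ((h72f_coe p ρbar).comp (h72f_LsP p ρbar W).subtype)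
      (fun c => c.2.2)
  have hf : Function.Injective f := by
    intro c c' h
    apply Subtype.ext
    apply h72f_coe_injective p ρbar
    exact congrArg Subtype.val h
  exact ⟨Module.Finite.of_injective f hf,
    le_trans (LinearMap.finrank_le_finrank_of_injective hf) hW⟩

theorem h72f_B1_le_LsP (ρbar : ResidualGaloisRep k)
    (W : Submodule k (Fermat.Agent.PT.Loc.Gq p → Module.End k ρbar.V))
    (hW : ∀ X : Module.End k ρbar.V, LinearMap.trace k ρbar.V X = 0 →
      (fun τ : Fermat.Agent.PT.Loc.Gq p =>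
        X - ρbar.ρ (localGaloisToGlobal p τ) * X * ρbar.ρ (localGaloisToGlobal p τ)⁻¹) ∈ W) :
    B1 (h14l_locAd0 ρbar (pPrime p)) ≤ h72f_LsP p ρbar W := by
  intro c hc
  refine ⟨h14s_B1_le_Z1 ρbar (pPrime p) hc, ?_⟩
  obtain ⟨m, rfl⟩ := (mem_B1 _ _).1 hc
  have htr : LinearMap.trace k ρbar.V (-(m : Module.End k ρbar.V)) = 0 := by
    rw [map_neg, (h14l_mem_sl ρbar _).1 m.2, neg_zero]
  have h := hW _ htr
  have h1 : ∀ τ : primeLocalGaloisGroup (pPrime p),
      ((d0 (h14l_locAd0 ρbar (pPrime p)) m τ : ↥(h14l_sl ρbar)) : Module.End k ρbar.V) =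
        -(m : Module.End k ρbar.V) -
          ρbar.ρ (primeLocalToGlobal (pPrime p) τ) * (-(m : Module.End k ρbar.V)) *
            ρbar.ρ (primeLocalToGlobal (pPrime p) τ)⁻¹ := by
    intro τ
    have h2 : ((d0 (h14l_locAd0 ρbar (pPrime p)) m τ : ↥(h14l_sl ρbar)) :
        Module.End k ρbar.V) =
        ρbar.ρ (primeLocalToGlobal (pPrime p) τ) * (m : Module.End k ρbar.V) *
          ρbar.ρ (primeLocalToGlobal (pPrime p) τ)⁻¹ - (m : Module.End k ρbar.V) := by
      rw [d0_apply, Submodule.coe_sub]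
      congr 1
    rw [h2, mul_neg, neg_mul, sub_neg_eq_add, add_comm, ← sub_eq_add_neg]
  have e : h72f_coe p ρbar (d0 (h14l_locAd0 ρbar (pPrime p)) m) =
      fun τ : Fermat.Agent.PT.Loc.Gq p => -(m : Module.End k ρbar.V) -
        ρbar.ρ (localGaloisToGlobal p τ) * (-(m : Module.End k ρbar.V)) *
          ρbar.ρ (localGaloisToGlobal p τ)⁻¹ := by
    funext τ
    exact h1 τ
  show h72f_coe p ρbar (d0 (h14l_locAd0 ρbar (pPrime p)) m) ∈ W
  rw [e]
  exact h

end AtP

/-- the determinant hypothesis of `LocPFL` from the frozen `DetIsCyclotomic`. -/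
theorem h72f_det {k : Type} [Field k] (p : ℕ) [Fact p.Prime] [CharP k p]
    (ρbar : ResidualGaloisRep k)
    (hdet : (GaloisRepAdic.ofResidualGaloisRep ρbar).DetIsCyclotomic p) (σ : GQ) (a : ℕ)
    (h : ∀ μ : AlgebraicClosure ℚ, μ ^ p = 1 → σ μ = μ ^ a) :
    LinearMap.det (ρbar.ρ σ) = (a : k) := by
  have h1 := hdet.2 1 σ a (fun μ hμ => h μ (by rwa [pow_one] at hμ))
  have h2 : ((p ^ 1 : ℕ) : k) = 0 := by
    rw [pow_one]
    exact CharP.cast_eq_zero k p
  rw [h2, Ideal.span_singleton_eq_bot.2 rfl, Ideal.mem_bot, sub_eq_zero] at h1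
  exact h1

/-- **SEL-LOCBASE, flat case**, from the flat local bound `LocPFL`. -/
theorem h72f_locBaseFl_of (hPFL : Fermat.Agent.S56F.LocPFL) : H56LocBaseFl := by
  intro 𝒪 _ _ _ _ _ p _ ρbar S Smin hyp hex
  classical
  haveI : CharP (ResidueField 𝒪) p := h72s_charP 𝒪 p hyp.hp𝒪
  have hp2 := hyp.hp2
  obtain ⟨Q₀, c₀, hc₀, ρA₀, hcoc₀, hcond₀⟩ := hex
  -- the space `W` at `p`
  obtain ⟨W, hWfin, hWrank, hWB, hWfl⟩ := hPFL p hp2 (ResidueField 𝒪) ρbar.V ρbar.finrank_eq
    ρbar.ρ hyp.hsplit (fun σ a h => h72f_det p ρbar hyp.hdet σ a h)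
  haveI := hWfin
  have hvp : ∀ v : Nat.Primes, (v : ℕ) = p → v = pPrime p := fun v hv => Subtype.ext hv
  have hvp' : ∀ v : Nat.Primes, v ≠ pPrime p → (v : ℕ) ≠ p := fun v hv h => hv (hvp v h)
  -- the cases `v ≠ p`
  have hunip : ∀ v : Nat.Primes, (v : ℕ) ≠ p → (v : ℕ) ∈ Smin →
      ∃ f : ↥(h14l_ZUnip ρbar v) →ₗ[ResidueField 𝒪] (Fin 3 → ResidueField 𝒪),
        Function.Injective f := by
    intro v hv hvS
    refine h14l_locUnipBound p hp2 (ResidueField 𝒪) ρbar v hv ?_ ?_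
    · exact h52l_resUnip (ResidueField 𝒪) ρbar ρA₀ c₀ v hcoc₀ (hcond₀.2 v hvS v.2 hv)
    · exact (h52l_resRam (ResidueField 𝒪) ρbar v).1 ((hyp.hmin v v.2 hv).1 hvS)
  have hunr : ∀ v : Nat.Primes, (v : ℕ) ≠ p → (v : ℕ) ∉ Smin →
      B1 (h14l_locAd0 ρbar v) ≤ h14l_ZUnr ρbar v ∧
      ∃ f : ↥(h14l_ZUnr ρbar v) →ₗ[ResidueField 𝒪] (Fin 3 → ResidueField 𝒪),
        Function.Injective f := by
    intro v hv hvS
    refine h96u_locUnrBound (ResidueField 𝒪) ρbar v ?_
    refine (h52l_resRam (ResidueField 𝒪) ρbar v).2 ?_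
    by_contra h
    exact hvS ((hyp.hmin v v.2 hv).2 h)
  -- the family
  let Ls₀ : h56s_Loc ρbar := fun v =>
    if (v : ℕ) ∈ Smin then h14l_ZUnip ρbar v else h14l_ZUnr ρbar v
  let Ls : h56s_Loc ρbar := Function.update Ls₀ (pPrime p) (h72f_LsP p ρbar W)
  have hLs1 : Ls (pPrime p) = h72f_LsP p ρbar W := Function.update_self _ _ _
  have hLs2 : ∀ v : Nat.Primes, v ≠ pPrime p → (v : ℕ) ∈ Smin → Ls v = h14l_ZUnip ρbar v :=
    fun v hv hvS => by
      simp only [Ls, Function.update_of_ne hv, Ls₀, if_pos hvS]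
  have hLs3 : ∀ v : Nat.Primes, v ≠ pPrime p → (v : ℕ) ∉ Smin → Ls v = h14l_ZUnr ρbar v :=
    fun v hv hvS => by
      simp only [Ls, Function.update_of_ne hv, Ls₀, if_neg hvS]
  have hP := h72f_LsP_finite p ρbar W hWrank
  refine ⟨Ls, fun v => ?_, fun v hv => ?_, fun v hv => ?_, fun Q c hc v hvQ => ?_⟩
  · by_cases hv : v = pPrime p
    · subst hv
      rw [hLs1]
      exact ⟨h72f_B1_le_LsP p ρbar W hWB, inf_le_left, hP.1⟩
    · by_cases hvS : (v : ℕ) ∈ Smin
      · rw [hLs2 v hv hvS]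
        exact ⟨h72s_B1_le_ZUnip ρbar v, fun c hc => hc.1,
          (h72s_finite_of_emb (hunip v (hvp' v hv) hvS)).1⟩
      · rw [hLs3 v hv hvS]
        exact ⟨(hunr v (hvp' v hv) hvS).1, fun c hc => hc.1,
          (h72s_finite_of_emb (hunr v (hvp' v hv) hvS).2).1⟩
  · have := hvp v hv
    subst this
    rw [hLs1]
    exact hP.2
  · have hv' : v ≠ pPrime p := fun h => hv (by rw [h]; rfl)
    by_cases hvS : (v : ℕ) ∈ Smin
    · rw [hLs2 v hv' hvS]
      exact (h72s_finite_of_emb (hunip v hv hvS)).2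
    · rw [hLs3 v hv' hvS]
      exact (h72s_finite_of_emb (hunr v hv hvS).2).2
  · obtain ⟨hcZ, ρA, hcoc, hcond⟩ := hc
    by_cases hv : v = pPrime p
    · subst hv
      rw [hLs1]
      refine ⟨h14s_res_mem_Z1 ρbar (pPrime p) hcZ, ?_⟩
      exact hWfl _ (h72f_isFlatCocycle p ρbar ρA c hcZ hcoc hcond.1.2.1)
    · have hv' := hvp' v hv
      by_cases hvS : (v : ℕ) ∈ Smin
      · rw [hLs2 v hv hvS]
        exact h52l_unipOfLift (ResidueField 𝒪) ρbar ρA c v hcoc hcZ (hcond.2 v hvS v.2 hv')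
      · rw [hLs3 v hv hvS]
        have hvSQ : (v : ℕ) ∉ Smin ∪ Q := by
          rw [Finset.mem_union]
          exact fun h => h.elim hvS hvQ
        exact (h14u_unrOfLift (ResidueField 𝒪) ρbar ρA c v hcoc hcZ
          (hcond.1.2.2 v v.2 hvSQ)).2

end Fermat.Agent.S56
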