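import Mathlib
import Fermat.Prelude.Def_GaloisRep_DeformationRingData
import Fermat.Prelude.Def_GaloisRep_LocalConditions
import Fermat.Prelude.Def_GaloisRep_StrictOrdinary
import Fermat.Prelude.Def_GaloisRep_Flat
import Fermat.Prelude.Def_GaloisRep_Residual

/-!
# S56 (Taylor–Wiles primes): frozen TOP skeleton (architect of DEF + TW-CHEB + assembly: helper56)

Every declaration of this file is a definition or a frozen interface `Prop`; nothing is assumed.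
Board: table `s56_tasks`.  Pillars: LOC-p-FL (helper97, `S56F/`), GW + TATE-EC (helper47),
LOC (helper14, `S56L/`), DEF + TW-CHEB + assembly (helper56, `S56/`).

## The chain

`S56  ⟸  H56Nak  ∧  H56TanStr  ∧  H56TanFl`      (`S56/Top.lean`, `h56t_s56_of`)

* `H56Nak` (pure algebra): a deformation ring `R` with at most `#k ^ r` `𝒪`-algebra maps to the
  dual numbers `k[ε]` is a quotient of `𝒪⟦X₁, …, X_r⟧`.
* `H56TanStr`, `H56TanFl` (the arithmetic): there is `r` such that for every `n` there are `r`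
  Taylor–Wiles primes of level `n` for which every deformation ring of type `𝒟_Q` has at most
  `#k ^ r` maps to `k[ε]`.
-/

set_option autoImplicit false

open Polynomial IsLocalRing

noncomputable section

namespace Fermat.Agent.S56

/-- `ℚ̄`. -/
abbrev h56t_Qb : Type := AlgebraicClosure ℚ

/-- `G_ℚ`. -/
abbrev h56t_GQ : Type := h56t_Qb ≃ₐ[ℚ] h56t_Qb

/-! ## The data of the statement -/

/-- **Taylor–Wiles tuple of level `n`**: `r` distinct primes `q ∉ S`, `q ≡ 1` modulo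
`p ^ (n + 1)`, at which every Frobenius has two distinct eigenvalues in `k`. -/
def h56t_IsTW {k : Type} [Field k] (ρbar : ResidualGaloisRep k) (p : ℕ) (S : Finset ℕ)
    (n r : ℕ) (qv : Fin r → ℕ) : Prop :=
  Function.Injective qv ∧
    (∀ i, (qv i).Prime ∧ qv i ∉ S ∧ p ^ (n + 1) ∣ qv i - 1) ∧
    (∀ i, ∀ P : ValuationSubring (AlgebraicClosure ℚ), P.LiesOverPrime (qv i) →
      ∀ φ : AlgebraicClosure ℚ ≃ₐ[ℚ] AlgebraicClosure ℚ, P.IsFrobeniusAt φ (qv i) →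
        ∃ α β : k, α ≠ β ∧ LinearMap.charpoly (ρbar.ρ φ) = (X - C α) * (X - C β))

/-- the deformation condition of the first conjunct: strict-ordinary at `p`, determinant
cyclotomic, unramified outside `Smin ∪ Q`, unipotent inertia at the primes of `Smin ∖ {p}`. -/
abbrev h56t_condStr (𝒪 : Type) [CommRing 𝒪] (p : ℕ) (Smin Q : Finset ℕ) :
    ∀ ⦃A : Type⦄ [CommRing A] [IsLocalRing A] [Algebra 𝒪 A], GaloisRepAdic A → Prop :=
  fun _A _ _ _ ρ => GaloisRep.strictOrdinaryCondition 𝒪 p (Smin ∪ Q) ρ ∧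
    ∀ q ∈ Smin, q.Prime → q ≠ p → ρ.IsUnipotentOnInertiaAt q

/-- the deformation condition of the second conjunct: flat at `p`, determinant cyclotomic,
unramified outside `Smin ∪ Q`, unipotent inertia at the primes of `Smin ∖ {p}`. -/
abbrev h56t_condFl (𝒪 : Type) [CommRing 𝒪] (p : ℕ) (Smin Q : Finset ℕ) :
    ∀ ⦃A : Type⦄ [CommRing A] [IsLocalRing A] [Algebra 𝒪 A], GaloisRepAdic A → Prop :=
  fun _A _ _ _ ρ => GaloisRep.flatCondition 𝒪 p (Smin ∪ Q) ρ ∧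
    ∀ q ∈ Smin, q.Prime → q ≠ p → ρ.IsUnipotentOnInertiaAt q

/-- **the hypotheses of S56** on `(𝒪, p, ρ̄, S, Smin)`. -/
structure h56t_Hyp (𝒪 : Type) [CommRing 𝒪] [IsDomain 𝒪] [IsDiscreteValuationRing 𝒪]
    (p : ℕ) (ρbar : ResidualGaloisRep (ResidueField 𝒪)) (S Smin : Finset ℕ) : Prop where
  hp2 : p ≠ 2
  hp𝒪 : (p : 𝒪) ∈ maximalIdeal 𝒪
  habs : ρbar.IsAbsolutelyIrreducible
  hdet : (GaloisRepAdic.ofResidualGaloisRep ρbar).DetIsCyclotomic p
  hsplit : ∀ σ : AlgebraicClosure ℚ ≃ₐ[ℚ] AlgebraicClosure ℚ,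
    ∃ α β : ResidueField 𝒪, LinearMap.charpoly (ρbar.ρ σ) = (X - C α) * (X - C β)
  hTW : ∀ (K : Type) [Field K] [Algebra (ResidueField 𝒪) K]
    (G : Subgroup (AlgebraicClosure ℚ ≃ₐ[ℚ] AlgebraicClosure ℚ)), G.index = 2 →
    ∀ V : Submodule K (ρbar.baseChange K).V,
      (∀ σ ∈ G, ∀ x ∈ V, (ρbar.baseChange K).ρ σ x ∈ V) → V = ⊥ ∨ V = ⊤
  hpSmin : p ∈ Smin
  hSmin : Smin ⊆ S
  hS : ∀ q ∈ S, q.Prime
  hmin : ∀ q : ℕ, q.Prime → q ≠ p → (q ∈ Smin ↔ ¬ ρbar.IsUnramifiedAt q)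

/-! ## The two top interfaces -/

/-- **ALG / NAK (pure algebra).**  A deformation ring (any deformation condition `𝒟`) with at
most `#k ^ r` `𝒪`-algebra homomorphisms to the dual numbers `k[ε]` is a quotient of the power
series ring in `r` variables.  (`Hom_𝒪(R, k[ε]) ≃ Hom_k(𝔪_R / (𝔪_R² + 𝔪_𝒪 R), k)` is finite since
`R` is noetherian and `k` is finite; complete Nakayama.) -/
def H56Nak : Prop :=
  ∀ {𝒪 : Type} [CommRing 𝒪] [IsDomain 𝒪] [IsDiscreteValuationRing 𝒪]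
    [IsAdicComplete (maximalIdeal 𝒪) 𝒪] [Finite (ResidueField 𝒪)]
    (ρbar : ResidualGaloisRep (ResidueField 𝒪))
    (𝒟 : ∀ ⦃A : Type⦄ [CommRing A] [IsLocalRing A] [Algebra 𝒪 A], GaloisRepAdic A → Prop)
    (DQ : GaloisRep.DeformationRingData 𝒪 ρbar 𝒟) (r : ℕ),
    (∀ T : Finset (DQ.R →ₐ[𝒪] DualNumber (ResidueField 𝒪)),
      T.card ≤ Nat.card (ResidueField 𝒪) ^ r) →
    ∃ γ : MvPowerSeries (Fin r) 𝒪 →ₐ[𝒪] DQ.R, Function.Surjective γ

/-- **TAN (the arithmetic), for a family of deformation conditions `cond 𝒪 p Smin Q`.**  There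
is `r` such that for every `n` there is a Taylor–Wiles tuple `qv` of level `n` and length `r`
such that every deformation ring of type `cond 𝒪 p Smin (image qv)` has at most `#k ^ r`
`𝒪`-algebra homomorphisms to `k[ε]` ("the tangent space has dimension `≤ r`"). -/
def H56Tan
    (cond : ∀ (𝒪 : Type) [CommRing 𝒪] (_p : ℕ) (_Smin _Q : Finset ℕ)
      ⦃A : Type⦄ [CommRing A] [IsLocalRing A] [Algebra 𝒪 A], GaloisRepAdic A → Prop) : Prop :=
  ∀ {𝒪 : Type} [CommRing 𝒪] [IsDomain 𝒪] [IsDiscreteValuationRing 𝒪]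
    [IsAdicComplete (maximalIdeal 𝒪) 𝒪] [Finite (ResidueField 𝒪)]
    (p : ℕ) [Fact p.Prime] (ρbar : ResidualGaloisRep (ResidueField 𝒪)) (S Smin : Finset ℕ),
    h56t_Hyp 𝒪 p ρbar S Smin →
    ∃ r : ℕ, ∀ n : ℕ, ∃ qv : Fin r → ℕ, h56t_IsTW ρbar p S n r qv ∧
      ∀ DQ : GaloisRep.DeformationRingData 𝒪 ρbar (cond 𝒪 p Smin (Finset.univ.image qv)),
        ∀ T : Finset (DQ.R →ₐ[𝒪] DualNumber (ResidueField 𝒪)),
          T.card ≤ Nat.card (ResidueField 𝒪) ^ r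

/-- **TAN, strict-ordinary conjunct.** -/
def H56TanStr : Prop := H56Tan (fun 𝒪 _ p Smin Q => h56t_condStr 𝒪 p Smin Q)

/-- **TAN, flat conjunct.** -/
def H56TanFl : Prop := H56Tan (fun 𝒪 _ p Smin Q => h56t_condFl 𝒪 p Smin Q)

end Fermat.Agent.S56
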