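import Fermat.Agent.S56.H42Alg
import Fermat.Agent.S56.Skeleton

/-!
# S56, row TOP-NAK (helper76, prefix `h76k_`): the top interface `H56Nak`

`h76k_nak : H56Nak` (exact frozen `Prop` of `S56/Skeleton.lean`): a deformation ring with at
most `#k ^ r` homomorphisms of `𝒪`-algebras to the dual numbers `k[ε]` (bound stated for every
`Finset` of homomorphisms, default `𝒪`-algebra structure on `k[ε]`) is a quotient of
`𝒪⟦X₁, …, X_r⟧`.

Adapter of the landed `h42a_exists_surj_of_card_le'` / `h42a_finite_tangent`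
(`S56/H42Alg.lean`, helper42).
-/

set_option autoImplicit false
set_option linter.style.haveILetI false

noncomputable section

namespace Fermat.Agent.S56

open IsLocalRing

/-- the default `𝒪`-algebra structure on `k[ε]` is `c ↦ (c mod 𝔪_𝒪, 0)`. -/
theorem h76k_algebraMap_dualNumber {𝒪 : Type} [CommRing 𝒪] [IsLocalRing 𝒪] (c : 𝒪) :
    algebraMap 𝒪 (DualNumber (ResidueField 𝒪)) c = TrivSqZeroExt.inl (residue 𝒪 c) :=
  rfl

/-- **TOP-NAK.** -/
theorem h76k_nak : H56Nak := by
  intro 𝒪 _ _ _ _ _ ρbar 𝒟 DQ r hT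
  classical
  haveI : Finite (DQ.R →ₐ[𝒪] DualNumber (ResidueField 𝒪)) :=
    h42a_finite_tangent (R := DQ.R) h76k_algebraMap_dualNumber DQ.residue_surjective
  refine h42a_exists_surj_of_card_le' h76k_algebraMap_dualNumber DQ.residue_surjective r ?_
  letI : Fintype (DQ.R →ₐ[𝒪] DualNumber (ResidueField 𝒪)) := Fintype.ofFinite _
  rw [Nat.card_eq_fintype_card, ← Finset.card_univ]
  exact hT Finset.univ

end Fermat.Agent.S56
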