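import Fermat.Agent.S56.H77DefIface2
import Fermat.Agent.S53.MatGlue

/-!
# S56, block DEF, row DEF-D (helper45): residual representation of a base change

`h45r_resBc : H77ResBc` — if the residual representation of `ρ` (over the local `𝒪`-algebra `R`)
is `ρbar`, then so is the residual representation of the base change of `ρ` along a local
`𝒪`-algebra homomorphism `φ : R → B`.

Proof in matrices (`S53/MatGlue`): a conjugating matrix `g` over the residue field of `R` is
pushed to the residue field of `B` by `ResidueField.map φ`.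
-/

set_option autoImplicit false
set_option linter.style.haveILetI false

open IsLocalRing

noncomputable section

namespace Fermat.Agent.S56

open Fermat.Agent.S53

/-- `ResidueField.map φ ∘ ResidueField.map (algebraMap 𝒪 R) = ResidueField.map (algebraMap 𝒪 B)`
for an `𝒪`-algebra homomorphism `φ : R → B`. -/
theorem h45r_resMap_comp {𝒪 : Type} [CommRing 𝒪] [IsLocalRing 𝒪]
    {R : Type} [CommRing R] [IsLocalRing R] [Algebra 𝒪 R] [IsLocalHom (algebraMap 𝒪 R)]
    {B : Type} [CommRing B] [IsLocalRing B] [Algebra 𝒪 B] [IsLocalHom (algebraMap 𝒪 B)]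
    (φ : R →ₐ[𝒪] B) [hφ : IsLocalHom (φ : R →+* B)] (x : ResidueField 𝒪) :
    ResidueField.map (φ : R →+* B) (ResidueField.map (algebraMap 𝒪 R) x) =
      ResidueField.map (algebraMap 𝒪 B) x := by
  obtain ⟨a, rfl⟩ := IsLocalRing.residue_surjective x
  rw [ResidueField.map_residue, ResidueField.map_residue, ResidueField.map_residue]
  congr 1
  exact φ.commutes a

/-- **DEF-D.** -/
theorem h45r_resBc : H77ResBc := by
  intro 𝒪 _ _ R _ _ _ _ B _ _ _ _ φ hφ ρbar ρ h
  haveI : IsLocalHom (φ : R →+* B) := hφ
  set b := someBasis ρ with hb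
  set bbar := someBasisRes ρbar with hbbar
  obtain ⟨g, hg⟩ := (residual_isEquiv_baseChangeAlong_iff
    (ResidueField.map (algebraMap 𝒪 R)) ρbar bbar ρ b).1 h
  refine (residual_isEquiv_baseChangeAlong_iff (ResidueField.map (algebraMap 𝒪 B)) ρbar bbar
    (ρ.baseChangeAlong (φ : R →+* B) hφ) (baseChangeBasis (φ : R →+* B) hφ ρ b)).2 ?_
  let F : M2 (ResidueField R) →+* M2 (ResidueField B) :=
    (ResidueField.map (φ : R →+* B)).mapMatrix
  refine ⟨Units.map F.toMonoidHom g, fun σ => ?_⟩
  have h1 := congrArg F (hg σ)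
  rw [map_mul, map_mul] at h1
  have e1 : F ((toMat ρ b σ).map (residue R)) =
      (toMat (ρ.baseChangeAlong (φ : R →+* B) hφ)
        (baseChangeBasis (φ : R →+* B) hφ ρ b) σ).map (residue B) := by
    rw [toMat_baseChangeAlong]
    ext i j
    simp only [F, RingHom.mapMatrix_apply, Matrix.map_apply, mapMat_apply]
    exact ResidueField.map_residue (φ : R →+* B) _
  have e2 : F ((toMatRes ρbar bbar σ).map (ResidueField.map (algebraMap 𝒪 R))) =
      (toMatRes ρbar bbar σ).map (ResidueField.map (algebraMap 𝒪 B)) := by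
    ext i j
    simp only [F, RingHom.mapMatrix_apply, Matrix.map_apply]
    exact h45r_resMap_comp φ _
  rw [e1, e2] at h1
  exact h1

end Fermat.Agent.S56
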