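import Fermat.Agent.S56.H77DefDict

/-!
# S56, block DEF, leaf DEF-B (helper77): cohomologous cocycles give equivalent lifts

`h77d_cohEquiv : H77CohEquiv`.  If `ρA = (1 + ε c) ρbar` in the bases `(e, eb)`,
`ρA' = (1 + ε c') ρbar` in the bases `(e', eb')` and `c - c' = d⁰ X`, then the matrix
`g = [1] + ε [X]` (matrices from the basis `eb` to the basis `eb'`) intertwines the matrices of
`ρA` and `ρA'`.
-/

set_option autoImplicit false

open IsLocalRing

noncomputable section

namespace Fermat.Agent.S56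

open Fermat.Agent.PT Fermat.Agent.S56L Fermat.Agent.S53

section Parts

variable {k : Type} [Field k]

/-- the `fst` part of a product of matrices over the dual numbers. -/
theorem h77d_map_fst_mul (X Y : M2 (DualNumber k)) :
    (X * Y).map TrivSqZeroExt.fst = X.map TrivSqZeroExt.fst * Y.map TrivSqZeroExt.fst := by
  ext i j
  rw [Matrix.map_apply, h77d_fst_mul, Matrix.mul_apply]
  rfl

/-- the `snd` part of a product of matrices over the dual numbers. -/
theorem h77d_map_snd_mul (X Y : M2 (DualNumber k)) :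
    (X * Y).map TrivSqZeroExt.snd =
      X.map TrivSqZeroExt.fst * Y.map TrivSqZeroExt.snd +
        X.map TrivSqZeroExt.snd * Y.map TrivSqZeroExt.fst := by
  ext i j
  rw [Matrix.map_apply, h77d_snd_mul, Matrix.add_apply, Matrix.mul_apply, Matrix.mul_apply,
    ← Finset.sum_add_distrib]
  rfl

omit [Field k] in
/-- a matrix over the dual numbers is determined by its two parts. -/
theorem h77d_ext_parts {X Y : M2 (DualNumber k)}
    (h1 : X.map TrivSqZeroExt.fst = Y.map TrivSqZeroExt.fst)
    (h2 : X.map TrivSqZeroExt.snd = Y.map TrivSqZeroExt.snd) : X = Y := by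
  ext i j
  · exact congrFun (congrFun h1 i) j
  · exact congrFun (congrFun h2 i) j

/-- a matrix over the dual numbers with invertible `fst` part is invertible. -/
theorem h77d_isUnit_of_fst {X : M2 (DualNumber k)} {G G' : M2 k}
    (h1 : X.map TrivSqZeroExt.fst = G) (h2 : G * G' = 1) : IsUnit X := by
  rw [Matrix.isUnit_iff_isUnit_det, TrivSqZeroExt.isUnit_iff_isUnit_fst]
  have h3 : TrivSqZeroExt.fst X.det = G.det := by
    have := RingHom.map_det (TrivSqZeroExt.fstHom k k k : DualNumber k →+* k) X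
    rw [← h1]
    exact this
  rw [h3]
  have h4 : G.det * G'.det = 1 := by rw [← Matrix.det_mul, h2, Matrix.det_one]
  exact IsUnit.of_mul_eq_one _ h4

end Parts

/-- **DEF-B.** -/
theorem h77d_cohEquiv : H77CohEquiv := by
  intro k _ ρbar ρA ρA' c c' hc hc' hcoh
  obtain ⟨e, eb, h⟩ := hc
  obtain ⟨e', eb', h'⟩ := hc'
  obtain ⟨X, hX⟩ := hcoh
  -- the coboundary relation, as endomorphisms
  have hrel : ∀ σ : GQ, (c σ : Module.End k ρbar.V) * ρbar.ρ σ + (X : Module.End k ρbar.V) * ρbar.ρ σ =
      ρbar.ρ σ * (X : Module.End k ρbar.V) + (c' σ : Module.End k ρbar.V) * ρbar.ρ σ := by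
    intro σ
    have h1 := congrArg (fun m : ↥(h14l_sl ρbar) => (m : Module.End k ρbar.V)) (congrFun hX σ)
    simp only [d0_apply, Pi.sub_apply, Submodule.coe_sub, h14l_Ad0_coe] at h1
    have h2 := congrArg (fun m : Module.End k ρbar.V => m * ρbar.ρ σ) h1
    simp only [sub_mul, mul_assoc, h14l_rho_inv_mul, mul_one] at h2
    rw [sub_eq_sub_iff_add_eq_add] at h2
    exact h2.symm
  -- the parts of the two matrix representations
  have hF : ∀ σ, (toMat ρA e σ).map TrivSqZeroExt.fst = LinearMap.toMatrix eb eb (ρbar.ρ σ) := by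
    intro σ
    ext i j
    rw [Matrix.map_apply, toMat_apply, h σ i j]
    simp
  have hS : ∀ σ, (toMat ρA e σ).map TrivSqZeroExt.snd =
      LinearMap.toMatrix eb eb ((c σ : Module.End k ρbar.V) * ρbar.ρ σ) := by
    intro σ
    ext i j
    rw [Matrix.map_apply, toMat_apply, h σ i j]
    simp
  have hF' : ∀ σ, (toMat ρA' e' σ).map TrivSqZeroExt.fst =
      LinearMap.toMatrix eb' eb' (ρbar.ρ σ) := by
    intro σ
    ext i j
    rw [Matrix.map_apply, toMat_apply, h' σ i j]
    simp
  have hS' : ∀ σ, (toMat ρA' e' σ).map TrivSqZeroExt.snd =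
      LinearMap.toMatrix eb' eb' ((c' σ : Module.End k ρbar.V) * ρbar.ρ σ) := by
    intro σ
    ext i j
    rw [Matrix.map_apply, toMat_apply, h' σ i j]
    simp
  -- the intertwiner
  set G0 : M2 k := LinearMap.toMatrix eb eb' LinearMap.id with hG0
  set G1 : M2 k := LinearMap.toMatrix eb eb' (X : Module.End k ρbar.V) with hG1
  set G : M2 (DualNumber k) :=
    Matrix.of fun i j => TrivSqZeroExt.inl (G0 i j) + TrivSqZeroExt.inr (G1 i j) with hG
  have hGF : G.map TrivSqZeroExt.fst = G0 := by
    ext i j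
    simp [hG]
  have hGS : G.map TrivSqZeroExt.snd = G1 := by
    ext i j
    simp [hG]
  have hGunit : IsUnit G := by
    refine h77d_isUnit_of_fst hGF (G' := LinearMap.toMatrix eb' eb LinearMap.id) ?_
    rw [hG0, ← LinearMap.toMatrix_comp eb' eb eb', LinearMap.comp_id, LinearMap.toMatrix_id]
  obtain ⟨g, hg⟩ := hGunit
  refine (isEquiv_iff_toMat ρA ρA' e e').mpr ⟨g, fun σ => ?_⟩
  rw [hg]
  apply h77d_ext_parts
  · rw [h77d_map_fst_mul, h77d_map_fst_mul, hF, hF', hGF, hG0,
      ← LinearMap.toMatrix_comp eb eb eb', ← LinearMap.toMatrix_comp eb eb' eb',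
      LinearMap.id_comp, LinearMap.comp_id]
  · rw [h77d_map_snd_mul, h77d_map_snd_mul, hF, hF', hS, hS', hGF, hGS, hG0, hG1,
      ← LinearMap.toMatrix_comp eb eb eb', ← LinearMap.toMatrix_comp eb eb eb',
      ← LinearMap.toMatrix_comp eb eb' eb', ← LinearMap.toMatrix_comp eb eb' eb',
      ← map_add, ← map_add, LinearMap.id_comp, LinearMap.comp_id]
    congr 1
    have := hrel σ
    simp only [Module.End.mul_eq_comp] at this
    exact this

end Fermat.Agent.S56
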