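import Fermat.Agent.S56.H77DefAsm
import Fermat.Agent.S56.H77DefCoh
import Fermat.Agent.S56.H45DefRes

/-!
# S56, block DEF (helper77): `H56DefStr` and `H56DefFl`, unconditional

The tangent space `Hom_𝒪(DQ.R, k[ε])` of a deformation ring of type `𝒟_Q` injects into the
classes of cocycles of lifts of type `𝒟_Q`.

Leaves: DEF-A `h77d_dict` (helper77), DEF-B `h77d_cohEquiv` (helper77), DEF-C1..C4
`h45b_condStr_baseChange` (helper45), DEF-C5 `h15c_isFlatAt_baseChange_algHom` (helper15),
DEF-D `h45r_resBc` (helper45), DEF-E `h77d_def_of` (helper77).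
-/

set_option autoImplicit false

namespace Fermat.Agent.S56

/-- **DEF, strict-ordinary conjunct** (exact frozen Prop of `S56/Skeleton2.lean`). -/
theorem h77d_defStr : H56DefStr := h77d_defStr_of h77d_cohEquiv h45r_resBc

/-- **DEF, flat conjunct** (exact frozen Prop of `S56/Skeleton2.lean`). -/
theorem h77d_defFl : H56DefFl := h77d_defFl_of h77d_cohEquiv h45r_resBc

end Fermat.Agent.S56
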