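import Fermat.Agent.S56.SelAsmFin
import Fermat.Agent.S56.Top
import Fermat.Agent.S56.H48Kill
import Fermat.Agent.S56.H72SelLocBase
import Fermat.Agent.S56.H72SelLocBaseFl
import Fermat.Agent.S56.H76Nak
import Fermat.Agent.S56.H77Def
import Fermat.Agent.S56.H45SelLocTW
import Fermat.Agent.S56.H49SelUnrLift
import Fermat.Agent.S56L.H14DetCyc

/-!
# S56: the top chain with every landed block plugged in (helper56)

Open inputs of S56 after this file: `H38GWSelFin` (block GW: `H47TateGE` + `H47AnnTop` +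
adapter SEL-GW) and `Fermat.Agent.S56F.LocPFL` (pillar LOC-p-FL, only for the flat conjunct).

* `h56a_nak : H56Nak`;
* `h56a_tanStr_of_gw : H38GWSelFin → H56TanStr`;
* `h56a_tanFl_of_gw : H38GWSelFin → LocPFL → H56TanFl`;
* the frozen statement S56 is then `h56t_s56_of h56a_nak (h56a_tanStr_of_gw _) (h56a_tanFl_of_gw _ _)`.
-/

set_option autoImplicit false

namespace Fermat.Agent.S56

open Fermat.Agent.S56L

theorem h56a_nak : H56Nak := h76k_nak

/-- **SEL, strict-ordinary conjunct, from GW.** -/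
theorem h56a_selStr_of_gw (hGW : H38GWSelFin) : H56SelStr :=
  h56a_selStrFin hGW h48k_kill h72s_locBaseStr h45s_locTW h49u_unrOfLift h14d_detCyc

/-- **SEL, flat conjunct, from GW and LocPFL.** -/
theorem h56a_selFl_of_gw (hGW : H38GWSelFin) (hPFL : Fermat.Agent.S56F.LocPFL) : H56SelFl :=
  h56a_selFlFin hGW h48k_kill (h72f_locBaseFl_of hPFL) h45s_locTW h49u_unrOfLift h14d_detCyc

/-- **TAN, strict-ordinary conjunct, from GW.** -/
theorem h56a_tanStr_of_gw (hGW : H38GWSelFin) : H56TanStr :=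
  h56t_tanStr_of h77d_defStr (h56a_selStr_of_gw hGW)

/-- **TAN, flat conjunct, from GW and LocPFL.** -/
theorem h56a_tanFl_of_gw (hGW : H38GWSelFin) (hPFL : Fermat.Agent.S56F.LocPFL) : H56TanFl :=
  h56t_tanFl_of h77d_defFl (h56a_selFl_of_gw hGW hPFL)

end Fermat.Agent.S56
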