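import Fermat.Agent.S56.ChebIface
import Fermat.Agent.S56L.H30StrAbs

/-!
# S56, block TW-CHEB, row CHEB-H0 (helper30): `h30h_h0VanOf : H56H0VanOf`

If `X` is fixed by `ω · Ad⁰` then `k X` is stable under `Ad⁰`; `ad⁰` irreducible of dimension `3`
forces `X = 0`.

Also exported: `h30h_finrank_sl` (`finrank sl = 3`), `h30h_cyc_ne_zero`.
-/

set_option autoImplicit false

open Polynomial IsLocalRing ExtCitation

noncomputable section

namespace Fermat.Agent.S56

open Fermat.Agent.PT Fermat.Agent.S56L

variable {k : Type} [Field k]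

theorem h30h_cyc_ne_zero (p : ℕ) [Fact p.Prime] [CharP k p] (σ : GQ) : h56c_cyc k p σ ≠ 0 := by
  intro h
  have h1 : h56c_cyc k p σ * h56c_cyc k p σ⁻¹ = 1 := by
    rw [← map_mul, mul_inv_cancel, map_one]
  rw [h, zero_mul] at h1
  exact zero_ne_one h1

/-- the trace is surjective. -/
theorem h30h_trace_surjective (ρbar : ResidualGaloisRep k) :
    Function.Surjective (LinearMap.trace k ρbar.V) := by
  let e : Module.Basis (Fin 2) k ρbar.V := Module.finBasisOfFinrankEq k ρbar.V ρbar.finrank_eq
  intro c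
  refine ⟨c • (e.coord 0).smulRight (e 0), ?_⟩
  rw [map_smul, h30s_trace e]
  simp [LinearMap.smulRight_apply, Module.Basis.coord_apply, Module.Basis.repr_self]

/-- `finrank sl = 3`. -/
theorem h30h_finrank_sl (ρbar : ResidualGaloisRep k) :
    Module.finrank k ↥(h14l_sl ρbar) = 3 := by
  have h := LinearMap.finrank_range_add_finrank_ker (LinearMap.trace k ρbar.V)
  rw [LinearMap.range_eq_top.2 (h30h_trace_surjective ρbar), finrank_top, Module.finrank_self,
    Module.finrank_linearMap, ρbar.finrank_eq] at h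
  have h' : Module.finrank k ↥(LinearMap.ker (LinearMap.trace k ρbar.V)) = 3 := by omega
  exact h'

/-- **CHEB-H0.** -/
theorem h30h_h0VanOf : H56H0VanOf := by
  intro hIrr p _ k _ _ _ ρbar hyp X hX
  have hstab : ∀ σ : GQ, ∀ Y ∈ Submodule.span k {X}, h14l_Ad0 ρbar σ Y ∈ Submodule.span k {X} := by
    intro σ Y hY
    obtain ⟨a, rfl⟩ := Submodule.mem_span_singleton.1 hY
    have h1 := hX σ
    rw [h56c_Ad0tw_apply] at h1
    have h2 : h14l_Ad0 ρbar σ X = (h56c_cyc k p σ)⁻¹ • X := by
      rw [← h1, smul_smul, inv_mul_cancel₀ (h30h_cyc_ne_zero p σ), one_smul]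
      rw [h1]
    rw [map_smul, h2, smul_smul]
    exact Submodule.smul_mem _ _ (Submodule.mem_span_singleton_self X)
  rcases hIrr p k ρbar hyp _ hstab with h | h
  · exact (Submodule.span_singleton_eq_bot).1 h
  · exfalso
    have h3 : Module.finrank k ↥(Submodule.span k {X}) ≤ 1 :=
      (finrank_span_le_card ({X} : Set _)).trans (by simp)
    rw [h, finrank_top, h30h_finrank_sl] at h3
    omega

end Fermat.Agent.S56
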