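import Fermat.Agent.S56.H48H1Adapt
import Fermat.Agent.S56.H30ChebH0
import Fermat.Agent.S56G.H48Vanish

/-!
# CHEB-H1VAN in Galois form (helper48)

`h48a_h1Van_of_h0 : H56H0Van → H56H1Van` and `h48a_h1Van_of_irr : H56SlIrr → H56H1Van`:
`H¹(Gal(K_n/ℚ), ad⁰ ρbar (1)) = 0` (DDT Lemma 2.48), from the unconditional matrix form
`h48g_vanish` and the adapter `h48a_h1Van_of`.
-/

namespace Fermat.Agent.S56

open Fermat.Agent.S56G

theorem h48a_h1Van_of_h0 : H56H0Van → H56H1Van :=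
  h48a_h1Van_of h48g_vanish

theorem h48a_h1Van_of_irr : H56SlIrr → H56H1Van :=
  fun h => h48a_h1Van_of h48g_vanish (h30h_h0VanOf h)

end Fermat.Agent.S56
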