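import Fermat.Agent.S56.H42Cheb
import Fermat.Agent.S56.H48H1Final
import Fermat.Agent.S56.H5ChebGrp
import Fermat.Agent.S56.H72ChebAsm
import Fermat.Agent.S56.H51Frob
import Fermat.Agent.S56.H51FrobMu

/-!
# S56, block TW-CHEB: the unconditional results (wiring, helper56)

* `h56c_slIrr : H56SlIrr`       (helper42),
* `h56c_h1Van : H56H1Van`       (helper48, DDT Lemma 2.48, classification-free),
* `h56c_ss : H56SS`             (helper42 / helper83),
* `h56c_grpOne : H56GrpOne`     (helper5),
* `h56c_chebOne : H56ChebOne`, `h56c_chebZero : H56ChebZero` (helper72, helper51).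
-/

set_option autoImplicit false

namespace Fermat.Agent.S56

theorem h56c_slIrr : H56SlIrr := h42c_slIrr

theorem h56c_ss : H56SS := h42c_ss

theorem h56c_h1Van : H56H1Van := h48a_h1Van_of_irr h56c_slIrr

theorem h56c_grpOne : H56GrpOne := h5g_grpOneOf h56c_slIrr h56c_h1Van h56c_ss

theorem h56c_chebOne : H56ChebOne := h72c_chebOneOf h56c_grpOne h51f_frob h51m_frobMu

theorem h56c_chebZero : H56ChebZero := h72c_chebZeroOf h56c_ss h51f_frob h51m_frobMu

end Fermat.Agent.S56
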