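import Fermat.Agent.S56.Skeleton2

/-!
# S56, block TW-CHEB (architect helper56): frozen interface

`k` a finite field of characteristic `p` (odd), `ρbar : ResidualGaloisRep k`,
`sl = h14l_sl ρbar` (trace zero endomorphisms), `Ad0 = h14l_Ad0 ρbar`,
`ω = h56c_cyc k p` the mod `p` cyclotomic character with values in `k`,
`Ad0(1) = h56c_Ad0tw p ρbar = ω · Ad0` (the Tate twist; by the trace form
`(X, Y) ↦ tr (X Y)` it is the Cartier dual of `Ad0`).

Every declaration is a definition or a frozen interface `Prop`; nothing is assumed.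

* `h56c_Hyp p ρbar` : the hypotheses of S56 on `ρbar` (level `k`).
* `H56SlIrr`  : `sl` is an irreducible `k[G_ℚ]`-module.
  (A stable line `k X`: `X` nilpotent ⟹ `ker X` is a stable line of `V`; `X` semisimple ⟹ the
  index `≤ 2` subgroup centralising `X` is reducible over `k̄`, against `hTW`.  A stable plane:
  pass to the orthogonal for the trace form.)
* `H56H0Van`  : `H⁰(G_ℚ, Ad0(1)) = 0`.
* `H56H1Van`  : a continuous cocycle of `Ad0(1)` vanishing on
  `ker ρbar ∩ G_{ℚ(ζ_{p^(n+1)})}` is a coboundary (`H¹(Gal(K_n/ℚ), Ad0(1)) = 0`,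
  DDT Lemma 2.48).
* `H56ChebOne` : for a continuous cocycle `ψ` of `Ad0(1)` which is not a coboundary, every `n`
  and every finite set `S'` of primes there is a Taylor–Wiles prime `q ∉ S'` of level `n`
  and a Frobenius `φ` at `q` with `ψ φ ∉ (Ad0 φ - 1) sl`.
-/

set_option autoImplicit false

open Polynomial IsLocalRing ExtCitation

noncomputable section

namespace Fermat.Agent.S56

open Fermat.Agent.PT Fermat.Agent.S56L

/-- the mod `p` cyclotomic character with values in `k`. -/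
def h56c_cyc (k : Type) [Field k] (p : ℕ) [Fact p.Prime] [CharP k p] : GQ →* k :=
  ((ZMod.castHom (dvd_refl p) k : ZMod p →+* k) : ZMod p →* k).comp
    ((Units.coeHom (ZMod p)).comp (cycloChar p))

theorem h56c_cyc_apply (k : Type) [Field k] (p : ℕ) [Fact p.Prime] [CharP k p] (σ : GQ) :
    h56c_cyc k p σ = ZMod.castHom (dvd_refl p) k ((cycloChar p σ : (ZMod p)ˣ) : ZMod p) := rfl

/-- the Tate twist `Ad0(1) = ω · Ad0` of the adjoint representation. -/
def h56c_Ad0tw (p : ℕ) [Fact p.Prime] {k : Type} [Field k] [CharP k p]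
    (ρbar : ResidualGaloisRep k) : Representation k GQ ↥(h14l_sl ρbar) where
  toFun σ := h56c_cyc k p σ • h14l_Ad0 ρbar σ
  map_one' := by
    rw [map_one, map_one, one_smul]
  map_mul' σ τ := by
    rw [map_mul, map_mul, smul_mul_smul_comm]

theorem h56c_Ad0tw_apply (p : ℕ) [Fact p.Prime] {k : Type} [Field k] [CharP k p]
    (ρbar : ResidualGaloisRep k) (σ : GQ) (X : ↥(h14l_sl ρbar)) :
    h56c_Ad0tw p ρbar σ X = h56c_cyc k p σ • h14l_Ad0 ρbar σ X := rfl

/-- **the hypotheses of S56 on `ρbar`**, at the level of the residue field. -/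
structure h56c_Hyp (p : ℕ) [Fact p.Prime] {k : Type} [Field k] [CharP k p]
    (ρbar : ResidualGaloisRep k) : Prop where
  hp2 : p ≠ 2
  habs : ρbar.IsAbsolutelyIrreducible
  hdet : ∀ σ : GQ, LinearMap.det (ρbar.ρ σ) = h56c_cyc k p σ
  hsplit : ∀ σ : GQ, ∃ α β : k, LinearMap.charpoly (ρbar.ρ σ) = (X - C α) * (X - C β)
  hTW : ∀ (K : Type) [Field K] [Algebra k K] (G : Subgroup GQ), G.index = 2 →
    ∀ V : Submodule K (ρbar.baseChange K).V,
      (∀ σ ∈ G, ∀ x ∈ V, (ρbar.baseChange K).ρ σ x ∈ V) → V = ⊥ ∨ V = ⊤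

/-- **CHEB-IRR.**  `ad⁰ ρbar` is an irreducible `k[G_ℚ]`-module. -/
def H56SlIrr : Prop :=
  ∀ (p : ℕ) [Fact p.Prime] (k : Type) [Field k] [Finite k] [CharP k p]
    (ρbar : ResidualGaloisRep k), h56c_Hyp p ρbar →
    ∀ W : Submodule k ↥(h14l_sl ρbar),
      (∀ σ : GQ, ∀ X ∈ W, h14l_Ad0 ρbar σ X ∈ W) → W = ⊥ ∨ W = ⊤

/-- **CHEB-H0.**  `H⁰(G_ℚ, ad⁰ ρbar (1)) = 0`. -/
def H56H0Van : Prop :=
  ∀ (p : ℕ) [Fact p.Prime] (k : Type) [Field k] [Finite k] [CharP k p]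
    (ρbar : ResidualGaloisRep k), h56c_Hyp p ρbar →
    ∀ X : ↥(h14l_sl ρbar), (∀ σ : GQ, h56c_Ad0tw p ρbar σ X = X) → X = 0

/-- **CHEB-H1VAN.**  `H¹(Gal(K_n/ℚ), ad⁰ ρbar (1)) = 0`, `K_n = ℚ(ρbar, ζ_{p^(n+1)})`: a
continuous cocycle which vanishes on `ker ρbar ∩ G_{ℚ(ζ_{p^(n+1)})}` is a coboundary. -/
def H56H1Van : Prop :=
  ∀ (p : ℕ) [Fact p.Prime] (k : Type) [Field k] [Finite k] [CharP k p]
    (ρbar : ResidualGaloisRep k), h56c_Hyp p ρbar →
    ∀ (n : ℕ) (ψ : GQ → ↥(h14l_sl ρbar)), ψ ∈ Z1 levFin (h56c_Ad0tw p ρbar) →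
      (∀ τ : GQ, ρbar.ρ τ = 1 →
        (∀ μ : AlgebraicClosure ℚ, μ ^ p ^ (n + 1) = 1 → τ μ = μ) → ψ τ = 0) →
      ψ ∈ B1 (h56c_Ad0tw p ρbar)

/-- **CHEB-ONE.**  One Taylor–Wiles prime detecting a given nonzero class of `ad⁰ ρbar (1)`. -/
def H56ChebOne : Prop :=
  ∀ (p : ℕ) [Fact p.Prime] (k : Type) [Field k] [Finite k] [CharP k p]
    (ρbar : ResidualGaloisRep k), h56c_Hyp p ρbar →
    ∀ (n : ℕ) (S' : Finset ℕ) (ψ : GQ → ↥(h14l_sl ρbar)),
      ψ ∈ Z1 levFin (h56c_Ad0tw p ρbar) → ψ ∉ B1 (h56c_Ad0tw p ρbar) →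
      ∃ q : ℕ, q.Prime ∧ q ∉ S' ∧ p ^ (n + 1) ∣ q - 1 ∧ ρbar.IsUnramifiedAt q ∧
        (∀ P : ValuationSubring (AlgebraicClosure ℚ), P.LiesOverPrime q →
          ∀ s ∈ P.inertiaSubgroupIn ℚ, ψ s = 0) ∧
        (∀ P : ValuationSubring (AlgebraicClosure ℚ), P.LiesOverPrime q →
          ∀ φ : GQ, P.IsFrobeniusAt φ q →
            ∃ α β : k, α ≠ β ∧ LinearMap.charpoly (ρbar.ρ φ) = (X - C α) * (X - C β)) ∧
        ∃ (P : ValuationSubring (AlgebraicClosure ℚ)) (φ : GQ),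
          P.LiesOverPrime q ∧ P.IsFrobeniusAt φ q ∧
          ψ φ ∉ LinearMap.range (h14l_Ad0 ρbar φ - LinearMap.id)

/-! ## The leaves of CHEB-ONE -/

/-- `σ` fixes the `p ^ (n + 1)`-th roots of unity. -/
def h56c_FixMu (p n : ℕ) (σ : GQ) : Prop :=
  ∀ μ : AlgebraicClosure ℚ, μ ^ p ^ (n + 1) = 1 → σ μ = μ

/-- `ρbar σ` has two distinct eigenvalues in `k`. -/
def h56c_Reg {k : Type} [Field k] (ρbar : ResidualGaloisRep k) (σ : GQ) : Prop :=
  ∃ α β : k, α ≠ β ∧ LinearMap.charpoly (ρbar.ρ σ) = (X - C α) * (X - C β)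

/-- **CHEB-SS.**  `G_{ℚ(ζ_{p^(n+1)})}` contains an element with two distinct eigenvalues.
(Otherwise every element of the image `H` of this normal subgroup is scalar times unipotent; two
non scalar elements of `H` with different fixed lines have a product `u ^ i u'` of trace
`2 + i x y`, impossible for `i = 1, 2`; so the non scalar elements of `H` have a common fixed
line, which is stable under `G_ℚ`: `H` is scalar.  Then the projective image is abelian, a non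
scalar `ρbar g` is centralised by a subgroup of index `≤ 2`, which preserves an eigenline.) -/
def H56SS : Prop :=
  ∀ (p : ℕ) [Fact p.Prime] (k : Type) [Field k] [Finite k] [CharP k p]
    (ρbar : ResidualGaloisRep k), h56c_Hyp p ρbar →
    ∀ n : ℕ, ∃ σ : GQ, h56c_FixMu p n σ ∧ h56c_Reg ρbar σ

/-- **CHEB-GRP.**  A continuous cocycle of `ad⁰ ρbar (1)` which is not a coboundary takes, on
some `σ ∈ G_{ℚ(ζ_{p^(n+1)})}` with two distinct eigenvalues, a value outside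
`(Ad0 σ - 1) sl`. -/
def H56GrpOne : Prop :=
  ∀ (p : ℕ) [Fact p.Prime] (k : Type) [Field k] [Finite k] [CharP k p]
    (ρbar : ResidualGaloisRep k), h56c_Hyp p ρbar →
    ∀ (n : ℕ) (ψ : GQ → ↥(h14l_sl ρbar)),
      ψ ∈ Z1 levFin (h56c_Ad0tw p ρbar) → ψ ∉ B1 (h56c_Ad0tw p ρbar) →
      ∃ σ : GQ, h56c_FixMu p n σ ∧ h56c_Reg ρbar σ ∧
        ψ σ ∉ LinearMap.range (h14l_Ad0 ρbar σ - LinearMap.id)

/-- **CHEB-FROB** (adapter of the landed weak Chebotarev theorem).  For a finite normal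
extension `L` of `ℚ` inside `ℚ̄`, `σ ∈ G_ℚ` and a finite set `S'` of primes there are a prime
`q ∉ S'` unramified in `L`, a place `P` above `q` and a Frobenius `φ` at `P` which acts on `L`
as `σ ^ j`, `j` prime to `p`, with `σ` a power of `φ` on `L`; all Frobenius elements at `q`
are conjugate to `φ` on `L`. -/
def H56Frob : Prop :=
  ∀ (p : ℕ) [Fact p.Prime] (L : IntermediateField ℚ (AlgebraicClosure ℚ)),
    FiniteDimensional ℚ L → Normal ℚ L → ∀ (σ : GQ) (S' : Finset ℕ),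
    ∃ (q : ℕ) (P : ValuationSubring (AlgebraicClosure ℚ)) (φ : GQ) (j i : ℕ),
      q.Prime ∧ q ∉ S' ∧ P.LiesOverPrime q ∧ P.IsFrobeniusAt φ q ∧
      (∀ P' : ValuationSubring (AlgebraicClosure ℚ), P'.LiesOverPrime q →
        ∀ g ∈ P'.inertiaSubgroupIn ℚ, ∀ x ∈ L, g x = x) ∧
      (∀ (P' : ValuationSubring (AlgebraicClosure ℚ)) (φ' : GQ), P'.LiesOverPrime q →
        P'.IsFrobeniusAt φ' q → ∃ g : GQ, ∀ x ∈ L, φ' x = (g * φ * g⁻¹) x) ∧
      ¬ p ∣ j ∧ (∀ x ∈ L, φ x = (σ ^ j) x) ∧ (∀ x ∈ L, (φ ^ i) x = σ x)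

/-- **CHEB-FROBMU.**  A Frobenius element at `q` raises the roots of unity of order prime to
`q` to the power `q`. -/
def H56FrobMu : Prop :=
  ∀ (q m : ℕ) (P : ValuationSubring (AlgebraicClosure ℚ)) (φ : GQ),
    q.Prime → ¬ q ∣ m → P.LiesOverPrime q → P.IsFrobeniusAt φ q →
    ∀ μ : AlgebraicClosure ℚ, μ ^ m = 1 → φ μ = μ ^ q

/-- **CHEB-ZERO.**  Taylor–Wiles primes exist (no class to detect). -/
def H56ChebZero : Prop :=
  ∀ (p : ℕ) [Fact p.Prime] (k : Type) [Field k] [Finite k] [CharP k p]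
    (ρbar : ResidualGaloisRep k), h56c_Hyp p ρbar →
    ∀ (n : ℕ) (S' : Finset ℕ),
      ∃ q : ℕ, q.Prime ∧ q ∉ S' ∧ p ^ (n + 1) ∣ q - 1 ∧ ρbar.IsUnramifiedAt q ∧
        (∀ P : ValuationSubring (AlgebraicClosure ℚ), P.LiesOverPrime q →
          ∀ φ : GQ, P.IsFrobeniusAt φ q →
            ∃ α β : k, α ≠ β ∧ LinearMap.charpoly (ρbar.ρ φ) = (X - C α) * (X - C β))

/-! ## Frozen assembly statements -/

/-- `H⁰` vanishes because `ad⁰` is irreducible (a fixed vector of the twist spans a stable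
line). -/
def H56H0VanOf : Prop := H56SlIrr → H56H0Van

/-- the choice of `σ`. -/
def H56GrpOneOf : Prop := H56SlIrr → H56H1Van → H56SS → H56GrpOne

/-- **CHEB-ONE from its leaves.** -/
def H56ChebOneOf : Prop := H56GrpOne → H56Frob → H56FrobMu → H56ChebOne

/-- **CHEB-ZERO from its leaves.** -/
def H56ChebZeroOf : Prop := H56SS → H56Frob → H56FrobMu → H56ChebZero

end Fermat.Agent.S56
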