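import Fermat.Agent.S56.Chain
import Fermat.Agent.S56.ChebFinal
import Fermat.Agent.S56.H76Nak
import Fermat.Agent.S56.H77Def
import Fermat.Agent.S56.H45SelLocTW
import Fermat.Agent.S56.H49SelUnrLift
import Fermat.Agent.S56L.Package
import Fermat.Agent.S56L.H14DetCyc

/-!
# S56: the top assembly with all landed blocks plugged in (helper56)

`h56a_inputs_of` : the inputs of the top assembly from the blocks which are still open
(`H56GWSel`, `H56Kill`, `H56LocBaseStr`, `H56LocBaseFl`); everything else is a landed theorem.
This file also checks that all landed S56 blocks are co-importable.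
-/

set_option autoImplicit false

namespace Fermat.Agent.S56

open Fermat.Agent.S56L

/-- the inputs of the top assembly from the four open blocks. -/
theorem h56a_inputs_of (hGW : H56GWSel) (hKill : H56Kill) (hLocStr : H56LocBaseStr)
    (hLocFl : H56LocBaseFl) : h56a_Inputs where
  nak := h76k_nak
  defStr := h77d_defStr
  defFl := h77d_defFl
  gw := hGW
  kill := hKill
  locStr := hLocStr
  locFl := hLocFl
  locTW := h45s_locTW
  unr := h49u_unrOfLift
  detCyc := h14d_detCyc

end Fermat.Agent.S56
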