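import Fermat.Agent.S56F.Defs

/-!
# S56, block DEF, leaf DEF-C5 (helper15): flatness is stable under base change to `k[ε]`

Vocabulary: `Fermat.Agent.S56F.Flat p M act` (the Prelude's flatness of one finite level,
`S56F.isFlatAt_iff`).

* `h15c_flat_of_addEquiv` : transport of `Flat` along an equivariant additive isomorphism;
* `h15c_flat_prod` : the product of two `Flat` modules is `Flat` (tensor product of the Hopf
  algebras);
* `h15c_mem_smul_top_iff` : `x ∈ I • ⊤ ↔` all coordinates of `x` in a basis are in `I`;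
* `h15c_isFlatAt_baseChange` : for a local homomorphism `φ : R → k[ε]` (`k` a finite field)
  whose image contains `k`, `ρ.IsFlatAt p → (ρ.baseChangeAlong φ hφ).IsFlatAt p`;
* `h15c_isFlatAt_baseChange_algHom` : the same for an `𝒪`-algebra homomorphism
  `φ : R →ₐ[𝒪] k[ε]`, `k` the residue field of `𝒪`.
-/

set_option autoImplicit false
set_option linter.style.haveILetI false

open TensorProduct WithConv

noncomputable section

namespace Fermat.Agent.S56

open Fermat.Agent.S56F (Flat GQ Qb)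

/-! ## Closure properties of `Flat` -/

/-- Transport of `Flat` along an equivariant additive isomorphism. -/
theorem h15c_flat_of_addEquiv {p : ℕ} {M M' : Type} [AddCommGroup M] [AddCommGroup M']
    {act : GQ → M → M} {act' : GQ → M' → M'} (ε : M ≃+ M')
    (hε : ∀ σ x, ε (act σ x) = act' σ (ε x)) (h : Flat p M act) : Flat p M' act' := by
  obtain ⟨H, i1, i2, hfin, hflat, hco, e, he1, he2⟩ := h
  refine ⟨H, i1, i2, hfin, hflat, hco, e.trans ε.toEquiv, ?_, ?_⟩
  · intro f g
    show ε (e (f * g)) = ε (e f) + ε (e g)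
    rw [he1, map_add]
  · intro σ f g hfg
    show ε (e g) = act' σ (ε (e f))
    rw [he2 σ f g hfg, hε]

section Prod

variable {p : ℕ} {H₁ H₂ : Type} [CommRing H₁] [CommRing H₂]
  [HopfAlgebra (GaloisRep.ratLocalizedAt p) H₁] [HopfAlgebra (GaloisRep.ratLocalizedAt p) H₂]

/-- `a ↦ a ⊗ 1` as a homomorphism of bialgebras. -/
def h15c_incL : H₁ →ₐc[GaloisRep.ratLocalizedAt p] H₁ ⊗[GaloisRep.ratLocalizedAt p] H₂ :=
  (Bialgebra.TensorProduct.map (BialgHom.id (GaloisRep.ratLocalizedAt p) H₁)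
    (Bialgebra.unitBialgHom (GaloisRep.ratLocalizedAt p) H₂)).comp
    (Bialgebra.TensorProduct.rid (GaloisRep.ratLocalizedAt p) (GaloisRep.ratLocalizedAt p)
      H₁).symm.toBialgHom

/-- `b ↦ 1 ⊗ b` as a homomorphism of bialgebras. -/
def h15c_incR : H₂ →ₐc[GaloisRep.ratLocalizedAt p] H₁ ⊗[GaloisRep.ratLocalizedAt p] H₂ :=
  (Bialgebra.TensorProduct.map (Bialgebra.unitBialgHom (GaloisRep.ratLocalizedAt p) H₁)
    (BialgHom.id (GaloisRep.ratLocalizedAt p) H₂)).comp
    (Bialgebra.TensorProduct.lid (GaloisRep.ratLocalizedAt p) H₂).symm.toBialgHom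

theorem h15c_incL_apply (a : H₁) :
    (h15c_incL : H₁ →ₐc[GaloisRep.ratLocalizedAt p] H₁ ⊗[GaloisRep.ratLocalizedAt p] H₂) a =
      a ⊗ₜ 1 := by
  simp [h15c_incL]

theorem h15c_incR_apply (b : H₂) :
    (h15c_incR : H₂ →ₐc[GaloisRep.ratLocalizedAt p] H₁ ⊗[GaloisRep.ratLocalizedAt p] H₂) b =
      1 ⊗ₜ b := by
  simp [h15c_incR]

theorem h15c_incL_eq :
    ((h15c_incL : H₁ →ₐc[GaloisRep.ratLocalizedAt p] H₁ ⊗[GaloisRep.ratLocalizedAt p] H₂) :
      H₁ →ₐ[GaloisRep.ratLocalizedAt p] H₁ ⊗[GaloisRep.ratLocalizedAt p] H₂) =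
      Algebra.TensorProduct.includeLeft :=
  AlgHom.ext fun a => h15c_incL_apply a

theorem h15c_incR_eq :
    ((h15c_incR : H₂ →ₐc[GaloisRep.ratLocalizedAt p] H₁ ⊗[GaloisRep.ratLocalizedAt p] H₂) :
      H₂ →ₐ[GaloisRep.ratLocalizedAt p] H₁ ⊗[GaloisRep.ratLocalizedAt p] H₂) =
      Algebra.TensorProduct.includeRight :=
  AlgHom.ext fun a => h15c_incR_apply a

end Prod

/-- The product of two `Flat` modules is `Flat`. -/
theorem h15c_flat_prod {p : ℕ} {M₁ M₂ : Type} [AddCommGroup M₁] [AddCommGroup M₂]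
    {act₁ : GQ → M₁ → M₁} {act₂ : GQ → M₂ → M₂} (h₁ : Flat p M₁ act₁) (h₂ : Flat p M₂ act₂) :
    Flat p (M₁ × M₂) (fun σ x => (act₁ σ x.1, act₂ σ x.2)) := by
  obtain ⟨H₁, i1, i2, hfin₁, hflat₁, hco₁, e₁, he₁, he₁'⟩ := h₁
  obtain ⟨H₂, j1, j2, hfin₂, hflat₂, hco₂, e₂, he₂, he₂'⟩ := h₂
  let E : WithConv (H₁ ⊗[GaloisRep.ratLocalizedAt p] H₂ →ₐ[GaloisRep.ratLocalizedAt p] Qb) ≃
      M₁ × M₂ :=
    { toFun := fun f =>
        (e₁ (toConv (f.ofConv.comp ((h15c_incL :
            H₁ →ₐc[GaloisRep.ratLocalizedAt p] H₁ ⊗[GaloisRep.ratLocalizedAt p] H₂) :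
            H₁ →ₐ[GaloisRep.ratLocalizedAt p] H₁ ⊗[GaloisRep.ratLocalizedAt p] H₂))),
         e₂ (toConv (f.ofConv.comp ((h15c_incR :
            H₂ →ₐc[GaloisRep.ratLocalizedAt p] H₁ ⊗[GaloisRep.ratLocalizedAt p] H₂) :
            H₂ →ₐ[GaloisRep.ratLocalizedAt p] H₁ ⊗[GaloisRep.ratLocalizedAt p] H₂))))
      invFun := fun x => toConv (Algebra.TensorProduct.lift (e₁.symm x.1).ofConv
        (e₂.symm x.2).ofConv (fun _ _ => Commute.all _ _))
      left_inv := fun f => by
        apply WithConv.ofConv_injective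
        simp only [Equiv.symm_apply_apply, ofConv_toConv]
        apply Algebra.TensorProduct.ext
        · rw [Algebra.TensorProduct.lift_comp_includeLeft, h15c_incL_eq]
        · ext b
          simp [h15c_incR_eq]
      right_inv := fun x => by
        refine Prod.ext ?_ ?_
        · simp only [h15c_incL_eq, Algebra.TensorProduct.lift_comp_includeLeft,
            toConv_ofConv, Equiv.apply_symm_apply]
        · have h2 : (Algebra.TensorProduct.lift (e₁.symm x.1).ofConv (e₂.symm x.2).ofConv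
              (fun _ _ => Commute.all _ _)).comp Algebra.TensorProduct.includeRight =
              (e₂.symm x.2).ofConv := by
            ext b
            simp
          simp only [h15c_incR_eq, h2, toConv_ofConv, Equiv.apply_symm_apply] }
  refine ⟨H₁ ⊗[GaloisRep.ratLocalizedAt p] H₂, inferInstance, inferInstance, inferInstance,
    inferInstance, inferInstance, E, ?_, ?_⟩
  · intro f g
    refine Prod.ext ?_ ?_
    · show e₁ (toConv ((f * g).ofConv.comp _)) = e₁ _ + e₁ _
      rw [AlgHom.convMul_comp_bialgHom_distrib, toConv_ofConv, he₁]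
    · show e₂ (toConv ((f * g).ofConv.comp _)) = e₂ _ + e₂ _
      rw [AlgHom.convMul_comp_bialgHom_distrib, toConv_ofConv, he₂]
  · intro σ f g hfg
    refine Prod.ext ?_ ?_
    · exact he₁' σ _ _ fun h => hfg (h15c_incL h)
    · exact he₂' σ _ _ fun h => hfg (h15c_incR h)

/-! ## Coordinates -/

/-- `w ∈ I • ⊤` iff all coordinates of `w` in a basis are in `I`. -/
theorem h15c_mem_smul_top_iff {A : Type*} [CommRing A] {W : Type*} [AddCommGroup W] [Module A W]
    {ι : Type*} (β : Module.Basis ι A W) (I : Ideal A) (w : W) :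
    w ∈ I • (⊤ : Submodule A W) ↔ ∀ i, β.repr w i ∈ I := by
  constructor
  · intro hw i
    refine Submodule.smul_induction_on (p := fun w => β.repr w i ∈ I) hw ?_ ?_
    · intro r hr n _
      rw [map_smul, Finsupp.smul_apply, smul_eq_mul]
      exact I.mul_mem_right _ hr
    · intro x y hx hy
      rw [map_add, Finsupp.add_apply]
      exact I.add_mem hx hy
  · intro h
    rw [← β.linearCombination_repr w, Finsupp.linearCombination_apply, Finsupp.sum]
    refine Submodule.sum_mem _ fun i _ => ?_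
    exact Submodule.smul_mem_smul (h i) Submodule.mem_top

/-! ## The levels of a base change -/

section Level

variable {R : Type} [CommRing R] [IsLocalRing R] {B : Type} [CommRing B] [IsLocalRing B]

/-- **Case 1.**  If `R → B ⧸ J` is surjective, the level `J` of the base change is the level
`φ⁻¹ J` of `ρ`. -/
theorem h15c_flat_level_of_surj (φ : R →+* B) (hφ : IsLocalHom φ) (ρ : GaloisRepAdic R) (p : ℕ)
    (J : Ideal B) (hsurj : ∀ b : B, ∃ r : R, b - φ r ∈ J)
    (hflat : Flat p (ρ.V ⧸ ((J.comap φ) • (⊤ : Submodule R ρ.V)))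
      (fun σ => ρ.levelAction (J.comap φ) σ)) :
    Flat p ((ρ.baseChangeAlong φ hφ).V ⧸ (J • (⊤ : Submodule B (ρ.baseChangeAlong φ hφ).V)))
      (fun σ => (ρ.baseChangeAlong φ hφ).levelAction J σ) := by
  letI : Algebra R B := φ.toAlgebra
  have halg : ∀ r : R, algebraMap R B r = φ r := fun r => rfl
  -- the map `v ↦ [1 ⊗ v]`
  let F : ρ.V →ₗ[R] ((B ⊗[R] ρ.V) ⧸ (J • (⊤ : Submodule B (B ⊗[R] ρ.V)))) :=
    ((Submodule.mkQ (J • (⊤ : Submodule B (B ⊗[R] ρ.V)))).restrictScalars R).comp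
      (TensorProduct.mk R B ρ.V 1)
  have hF : ∀ v : ρ.V, F v = Submodule.Quotient.mk ((1 : B) ⊗ₜ[R] v) := fun v => rfl
  have hJmem : ∀ (b : B) (v : ρ.V), b ∈ J →
      b ⊗ₜ[R] v ∈ J • (⊤ : Submodule B (B ⊗[R] ρ.V)) := by
    intro b v hb
    have h1 : b ⊗ₜ[R] v = b • ((1 : B) ⊗ₜ[R] v) := by
      rw [TensorProduct.smul_tmul', smul_eq_mul, mul_one]
    rw [h1]
    exact Submodule.smul_mem_smul hb Submodule.mem_top
  have hker : (J.comap φ) • (⊤ : Submodule R ρ.V) ≤ LinearMap.ker F := by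
    intro x hx
    refine Submodule.smul_induction_on (p := fun x => x ∈ LinearMap.ker F) hx ?_ ?_
    · intro r hr v _
      rw [LinearMap.mem_ker, hF, Submodule.Quotient.mk_eq_zero]
      have h1 : (1 : B) ⊗ₜ[R] (r • v) = (φ r) ⊗ₜ[R] v := by
        rw [TensorProduct.tmul_smul, TensorProduct.smul_tmul', Algebra.smul_def, halg, mul_one]
      rw [h1]
      exact hJmem _ _ hr
    · intro x y hx hy
      exact Submodule.add_mem _ hx hy
  let Fb : (ρ.V ⧸ ((J.comap φ) • (⊤ : Submodule R ρ.V))) →ₗ[R]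
      ((B ⊗[R] ρ.V) ⧸ (J • (⊤ : Submodule B (B ⊗[R] ρ.V)))) :=
    Submodule.liftQ _ F hker
  have hFb : ∀ v : ρ.V, Fb (Submodule.Quotient.mk v) =
      Submodule.Quotient.mk ((1 : B) ⊗ₜ[R] v) := fun v => rfl
  -- injectivity
  have hinj : Function.Injective Fb := by
    rw [← LinearMap.ker_eq_bot, eq_bot_iff]
    intro x hx
    obtain ⟨v, rfl⟩ := Submodule.Quotient.mk_surjective _ x
    rw [LinearMap.mem_ker, hFb, Submodule.Quotient.mk_eq_zero] at hx
    rw [Submodule.mem_bot, Submodule.Quotient.mk_eq_zero]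
    let b := Module.Free.chooseBasis R ρ.V
    rw [h15c_mem_smul_top_iff b]
    intro i
    have h1 := (h15c_mem_smul_top_iff (b.baseChange B) J _).mp hx i
    rw [Module.Basis.baseChange_repr_tmul, Algebra.smul_def, mul_one, halg] at h1
    exact h1
  -- surjectivity
  have hsur : Function.Surjective Fb := by
    intro y
    obtain ⟨x, rfl⟩ := Submodule.Quotient.mk_surjective _ y
    induction x using TensorProduct.induction_on with
    | zero => exact ⟨0, by rw [map_zero]; rfl⟩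
    | tmul b v =>
      obtain ⟨r, hr⟩ := hsurj b
      refine ⟨Submodule.Quotient.mk (r • v), ?_⟩
      rw [hFb, Submodule.Quotient.eq]
      have h1 : (1 : B) ⊗ₜ[R] (r • v) - b ⊗ₜ[R] v = -((b - φ r) ⊗ₜ[R] v) := by
        rw [TensorProduct.tmul_smul, TensorProduct.smul_tmul', Algebra.smul_def, halg, mul_one,
          TensorProduct.sub_tmul, neg_sub]
      rw [h1]
      exact Submodule.neg_mem _ (hJmem _ _ hr)
    | add x y hx hy =>
      obtain ⟨a, ha⟩ := hx
      obtain ⟨c, hc⟩ := hy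
      exact ⟨a + c, by rw [map_add, ha, hc]; rfl⟩
  let ε : (ρ.V ⧸ ((J.comap φ) • (⊤ : Submodule R ρ.V))) ≃+
      ((B ⊗[R] ρ.V) ⧸ (J • (⊤ : Submodule B (B ⊗[R] ρ.V)))) :=
    AddEquiv.ofBijective Fb.toAddMonoidHom ⟨hinj, hsur⟩
  refine h15c_flat_of_addEquiv ε ?_ hflat
  intro σ x
  obtain ⟨v, rfl⟩ := Submodule.Quotient.mk_surjective _ x
  show Fb (ρ.levelAction (J.comap φ) σ (Submodule.Quotient.mk v)) =
    (ρ.baseChangeAlong φ hφ).levelAction J σ (Fb (Submodule.Quotient.mk v))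
  rw [hFb]
  show Fb (Submodule.Quotient.mk (ρ.ρ σ v)) =
    Submodule.Quotient.mk ((ρ.ρ σ).baseChange B ((1 : B) ⊗ₜ[R] v))
  rw [hFb, LinearMap.baseChange_tmul]

/-- **Case 2.**  If `φ : R → k[ε]` has image `k`, the level `0` of the base change is the
product of two copies of the residual level of `ρ`. -/
theorem h15c_flat_level_bot_of_const {k : Type} [Field k] (φ : R →+* DualNumber k)
    (hφ : IsLocalHom φ) (ρ : GaloisRepAdic R) (p : ℕ)
    (hsnd : ∀ r : R, (φ r).snd = 0) (hk : ∀ a : k, ∃ r : R, φ r = TrivSqZeroExt.inl a)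
    (hflat : Flat p (ρ.V ⧸ ((IsLocalRing.maximalIdeal R) • (⊤ : Submodule R ρ.V)))
      (fun σ => ρ.levelAction (IsLocalRing.maximalIdeal R) σ)) :
    Flat p ((ρ.baseChangeAlong φ hφ).V ⧸
        ((⊥ : Ideal (DualNumber k)) • (⊤ : Submodule (DualNumber k) (ρ.baseChangeAlong φ hφ).V)))
      (fun σ => (ρ.baseChangeAlong φ hφ).levelAction ⊥ σ) := by
  letI : Algebra R (DualNumber k) := φ.toAlgebra
  have halg : ∀ r : R, algebraMap R (DualNumber k) r = φ r := fun r => rfl
  have hzero_of : ∀ r : R, (φ r).fst = 0 → φ r = 0 := fun r h =>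
    TrivSqZeroExt.ext h (hsnd r)
  have hm : ∀ r ∈ IsLocalRing.maximalIdeal R, φ r = 0 := by
    intro r hr
    apply hzero_of
    by_contra h0
    have h1 : IsUnit (φ r) := TrivSqZeroExt.isUnit_iff_isUnit_fst.mpr (IsUnit.mk0 _ h0)
    exact (IsLocalRing.mem_maximalIdeal r).mp hr (hφ.map_nonunit r h1)
  have hm' : ∀ r : R, φ r = 0 → r ∈ IsLocalRing.maximalIdeal R := by
    intro r h0
    rw [IsLocalRing.mem_maximalIdeal]
    intro hu
    have h1 : IsUnit (φ r) := hu.map φ
    rw [h0] at h1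
    exact not_isUnit_zero h1
  -- the maps `v ↦ [c ⊗ v]`
  let G : DualNumber k → (ρ.V →ₗ[R] ((DualNumber k ⊗[R] ρ.V) ⧸
      ((⊥ : Ideal (DualNumber k)) • (⊤ : Submodule (DualNumber k) (DualNumber k ⊗[R] ρ.V))))) :=
    fun c => ((Submodule.mkQ ((⊥ : Ideal (DualNumber k)) •
      (⊤ : Submodule (DualNumber k) (DualNumber k ⊗[R] ρ.V)))).restrictScalars R).comp
      (TensorProduct.mk R (DualNumber k) ρ.V c)
  have hG : ∀ (c : DualNumber k) (v : ρ.V), G c v = Submodule.Quotient.mk (c ⊗ₜ[R] v) :=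
    fun c v => rfl
  have htm : ∀ (c : DualNumber k) (r : R) (v : ρ.V), c ⊗ₜ[R] (r • v) = (φ r * c) ⊗ₜ[R] v := by
    intro c r v
    rw [TensorProduct.tmul_smul, TensorProduct.smul_tmul', Algebra.smul_def, halg]
  have hker : ∀ c : DualNumber k,
      (IsLocalRing.maximalIdeal R) • (⊤ : Submodule R ρ.V) ≤ LinearMap.ker (G c) := by
    intro c x hx
    refine Submodule.smul_induction_on (p := fun x => x ∈ LinearMap.ker (G c)) hx ?_ ?_
    · intro r hr v _
      rw [LinearMap.mem_ker, hG, htm, hm r hr, zero_mul, TensorProduct.zero_tmul]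
      rfl
    · intro x y hx hy
      exact Submodule.add_mem _ hx hy
  let Gb : DualNumber k → ((ρ.V ⧸ ((IsLocalRing.maximalIdeal R) • (⊤ : Submodule R ρ.V))) →ₗ[R]
      ((DualNumber k ⊗[R] ρ.V) ⧸
      ((⊥ : Ideal (DualNumber k)) • (⊤ : Submodule (DualNumber k) (DualNumber k ⊗[R] ρ.V))))) :=
    fun c => Submodule.liftQ _ (G c) (hker c)
  have hGb : ∀ (c : DualNumber k) (v : ρ.V), Gb c (Submodule.Quotient.mk v) =
      Submodule.Quotient.mk (c ⊗ₜ[R] v) := fun c v => rfl
  let Θ : (ρ.V ⧸ ((IsLocalRing.maximalIdeal R) • (⊤ : Submodule R ρ.V))) ×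
      (ρ.V ⧸ ((IsLocalRing.maximalIdeal R) • (⊤ : Submodule R ρ.V))) →+
      ((DualNumber k ⊗[R] ρ.V) ⧸
      ((⊥ : Ideal (DualNumber k)) • (⊤ : Submodule (DualNumber k) (DualNumber k ⊗[R] ρ.V)))) :=
    AddMonoidHom.coprod (Gb 1).toAddMonoidHom (Gb DualNumber.eps).toAddMonoidHom
  have hΘ : ∀ v w : ρ.V, Θ (Submodule.Quotient.mk v, Submodule.Quotient.mk w) =
      Submodule.Quotient.mk ((1 : DualNumber k) ⊗ₜ[R] v + DualNumber.eps ⊗ₜ[R] w) := by
    intro v w
    show Gb 1 (Submodule.Quotient.mk v) + Gb DualNumber.eps (Submodule.Quotient.mk w) = _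
    rw [hGb, hGb]
    rfl
  -- injectivity
  have hinj : Function.Injective Θ := by
    rw [injective_iff_map_eq_zero]
    rintro ⟨x, y⟩ hxy
    obtain ⟨v, rfl⟩ := Submodule.Quotient.mk_surjective _ x
    obtain ⟨w, rfl⟩ := Submodule.Quotient.mk_surjective _ y
    rw [hΘ, Submodule.Quotient.mk_eq_zero] at hxy
    let b := Module.Free.chooseBasis R ρ.V
    have hcoord : ∀ i, φ (b.repr v i) + φ (b.repr w i) * DualNumber.eps = 0 := by
      intro i
      have h1 := (h15c_mem_smul_top_iff (b.baseChange (DualNumber k)) ⊥ _).mp hxy i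
      rw [map_add, Finsupp.add_apply, Module.Basis.baseChange_repr_tmul,
        Module.Basis.baseChange_repr_tmul, Algebra.smul_def, Algebra.smul_def, mul_one, halg,
        halg, Ideal.mem_bot] at h1
      exact h1
    have hv : ∀ i, b.repr v i ∈ IsLocalRing.maximalIdeal R := by
      intro i
      apply hm'
      apply hzero_of
      have h1 := congrArg TrivSqZeroExt.fst (hcoord i)
      simp only [TrivSqZeroExt.fst_add, TrivSqZeroExt.fst_mul, DualNumber.fst_eps, mul_zero,
        add_zero, TrivSqZeroExt.fst_zero] at h1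
      exact h1
    have hw : ∀ i, b.repr w i ∈ IsLocalRing.maximalIdeal R := by
      intro i
      apply hm'
      apply hzero_of
      have h1 := congrArg TrivSqZeroExt.snd (hcoord i)
      simp only [TrivSqZeroExt.snd_add, TrivSqZeroExt.snd_mul, DualNumber.fst_eps,
        DualNumber.snd_eps, hsnd, MulOpposite.op_zero, zero_smul, smul_eq_mul, mul_one,
        add_zero, zero_add, TrivSqZeroExt.snd_zero] at h1
      exact h1
    refine Prod.ext ?_ ?_
    · show Submodule.Quotient.mk v = 0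
      rw [Submodule.Quotient.mk_eq_zero, h15c_mem_smul_top_iff b]
      exact hv
    · show Submodule.Quotient.mk w = 0
      rw [Submodule.Quotient.mk_eq_zero, h15c_mem_smul_top_iff b]
      exact hw
  -- surjectivity
  have hsur : Function.Surjective Θ := by
    intro y
    obtain ⟨x, rfl⟩ := Submodule.Quotient.mk_surjective _ y
    induction x using TensorProduct.induction_on with
    | zero => exact ⟨0, by rw [map_zero]; rfl⟩
    | tmul c v =>
      obtain ⟨ra, hra⟩ := hk c.fst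
      obtain ⟨rc, hrc⟩ := hk c.snd
      refine ⟨(Submodule.Quotient.mk (ra • v), Submodule.Quotient.mk (rc • v)), ?_⟩
      rw [hΘ, htm, htm, ← TensorProduct.add_tmul, hra, hrc]
      congr 2
      refine TrivSqZeroExt.ext ?_ ?_
      · simp only [TrivSqZeroExt.fst_add, TrivSqZeroExt.fst_mul, TrivSqZeroExt.fst_inl,
          DualNumber.fst_eps, mul_one, mul_zero, add_zero]
      · simp only [TrivSqZeroExt.snd_add, TrivSqZeroExt.snd_mul, TrivSqZeroExt.fst_inl,
          TrivSqZeroExt.snd_inl, DualNumber.fst_eps, DualNumber.snd_eps, MulOpposite.op_zero,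
          smul_zero, smul_eq_mul, mul_one, add_zero, zero_add]
    | add x y hx hy =>
      obtain ⟨a, ha⟩ := hx
      obtain ⟨c, hc⟩ := hy
      exact ⟨a + c, by rw [map_add, ha, hc]; rfl⟩
  refine h15c_flat_of_addEquiv (AddEquiv.ofBijective Θ ⟨hinj, hsur⟩) ?_
    (h15c_flat_prod hflat hflat)
  rintro σ ⟨x, y⟩
  obtain ⟨v, rfl⟩ := Submodule.Quotient.mk_surjective _ x
  obtain ⟨w, rfl⟩ := Submodule.Quotient.mk_surjective _ y
  show Θ (Submodule.Quotient.mk (ρ.ρ σ v), Submodule.Quotient.mk (ρ.ρ σ w)) =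
    (ρ.baseChangeAlong φ hφ).levelAction ⊥ σ
      (Θ (Submodule.Quotient.mk v, Submodule.Quotient.mk w))
  rw [hΘ, hΘ]
  show _ = Submodule.Quotient.mk ((ρ.ρ σ).baseChange (DualNumber k)
    ((1 : DualNumber k) ⊗ₜ[R] v + DualNumber.eps ⊗ₜ[R] w))
  rw [map_add, LinearMap.baseChange_tmul, LinearMap.baseChange_tmul]

/-- `k[ε]` is finite if `k` is. -/
theorem h15c_finite_dualNumber (k : Type) [Field k] [Finite k] : Finite (DualNumber k) :=
  Finite.of_injective (fun x : DualNumber k => (x.fst, x.snd)) fun _ _ h =>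
    TrivSqZeroExt.ext (congrArg Prod.fst h) (congrArg Prod.snd h)

/-- **DEF-C5.**  Flatness is stable under base change along a local homomorphism
`φ : R → k[ε]` whose image contains `k`. -/
theorem h15c_isFlatAt_baseChange {k : Type} [Field k] [Finite k] (φ : R →+* DualNumber k)
    (hφ : IsLocalHom φ) (hk : ∀ a : k, ∃ r : R, φ r = TrivSqZeroExt.inl a)
    (ρ : GaloisRepAdic R) (p : ℕ) (h : ρ.IsFlatAt p) :
    (ρ.baseChangeAlong φ hφ).IsFlatAt p := by
  have hfinB : Finite (DualNumber k) := h15c_finite_dualNumber k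
  obtain ⟨hres, hlev⟩ := (Fermat.Agent.S56F.isFlatAt_iff ρ p).mp h
  rw [Fermat.Agent.S56F.isFlatAt_iff]
  refine ⟨Finite.of_surjective (IsLocalRing.residue (DualNumber k))
    Ideal.Quotient.mk_surjective, fun J _ => ?_⟩
  by_cases hs : ∀ b : DualNumber k, ∃ r : R, b - φ r ∈ J
  · -- `R → k[ε] ⧸ J` is surjective
    have hfinI : Finite (R ⧸ J.comap φ) :=
      Finite.of_injective (Ideal.quotientMap J φ le_rfl)
        (Ideal.quotientMap_injective' le_rfl)
    exact h15c_flat_level_of_surj φ hφ ρ p J hs (hlev _ hfinI)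
  · -- otherwise the image of `φ` is `k` and `J = 0`
    have hsnd : ∀ r : R, (φ r).snd = 0 := by
      by_contra hcon
      push Not at hcon
      obtain ⟨r₀, hr₀⟩ := hcon
      apply hs
      intro b
      obtain ⟨r₁, hr₁⟩ := hk (φ r₀).fst
      obtain ⟨r₂, hr₂⟩ := hk (b.snd / (φ r₀).snd)
      obtain ⟨r₃, hr₃⟩ := hk b.fst
      refine ⟨r₃ + r₂ * (r₀ - r₁), ?_⟩
      have h1 : b - φ (r₃ + r₂ * (r₀ - r₁)) = 0 := by
        rw [map_add, map_mul, map_sub, hr₁, hr₂, hr₃]
        refine TrivSqZeroExt.ext ?_ ?_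
        · simp only [TrivSqZeroExt.fst_sub, TrivSqZeroExt.fst_add, TrivSqZeroExt.fst_mul,
            TrivSqZeroExt.fst_inl, TrivSqZeroExt.fst_zero, sub_self, mul_zero, add_zero]
        · simp only [TrivSqZeroExt.snd_sub, TrivSqZeroExt.snd_add, TrivSqZeroExt.snd_mul,
            TrivSqZeroExt.fst_sub, TrivSqZeroExt.fst_inl, TrivSqZeroExt.snd_inl,
            TrivSqZeroExt.snd_zero, sub_self, MulOpposite.op_zero, smul_zero,
            smul_eq_mul, sub_zero, add_zero, zero_add]
          rw [div_mul_cancel₀ _ hr₀, sub_self]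
      rw [h1]
      exact J.zero_mem
    have hJ : J = ⊥ := by
      by_contra hcon
      apply hs
      obtain ⟨x, hxJ, hx0⟩ := Submodule.exists_mem_ne_zero_of_ne_bot hcon
      have heps : ∀ c : k, (TrivSqZeroExt.inr c : DualNumber k) ∈ J := by
        intro c
        by_cases hx1 : x.fst = 0
        · have hx2 : x.snd ≠ 0 := fun h2 => hx0 (TrivSqZeroExt.ext hx1 h2)
          have h3 : (TrivSqZeroExt.inr c : DualNumber k) = TrivSqZeroExt.inl (c / x.snd) * x := by
            refine TrivSqZeroExt.ext ?_ ?_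
            · simp only [TrivSqZeroExt.fst_inr, TrivSqZeroExt.fst_mul, TrivSqZeroExt.fst_inl, hx1,
                mul_zero]
            · simp only [TrivSqZeroExt.snd_inr, TrivSqZeroExt.snd_mul, TrivSqZeroExt.fst_inl,
                TrivSqZeroExt.snd_inl, hx1, MulOpposite.op_zero, zero_smul, smul_eq_mul,
                add_zero]
              rw [div_mul_cancel₀ _ hx2]
          rw [h3]
          exact J.mul_mem_left _ hxJ
        · have hu : IsUnit x := TrivSqZeroExt.isUnit_iff_isUnit_fst.mpr (IsUnit.mk0 _ hx1)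
          rw [Ideal.eq_top_of_isUnit_mem J hxJ hu]
          exact Submodule.mem_top
      intro b
      obtain ⟨r, hr⟩ := hk b.fst
      refine ⟨r, ?_⟩
      have h1 : b - φ r = TrivSqZeroExt.inr b.snd := by
        rw [hr]
        refine TrivSqZeroExt.ext ?_ ?_
        · simp only [TrivSqZeroExt.fst_sub, TrivSqZeroExt.fst_inl, TrivSqZeroExt.fst_inr, sub_self]
        · simp only [TrivSqZeroExt.snd_sub, TrivSqZeroExt.snd_inl, TrivSqZeroExt.snd_inr, sub_zero]
      rw [h1]
      exact heps _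
    subst hJ
    exact h15c_flat_level_bot_of_const φ hφ ρ p hsnd hk (hlev _ hres)

/-- **DEF-C5**, for an `𝒪`-algebra homomorphism to the dual numbers of the residue field. -/
theorem h15c_isFlatAt_baseChange_algHom {𝒪 : Type} [CommRing 𝒪] [IsLocalRing 𝒪]
    [Finite (IsLocalRing.ResidueField 𝒪)] [Algebra 𝒪 R]
    (φ : R →ₐ[𝒪] DualNumber (IsLocalRing.ResidueField 𝒪))
    (hφ : IsLocalHom (φ : R →+* DualNumber (IsLocalRing.ResidueField 𝒪)))
    (ρ : GaloisRepAdic R) (p : ℕ) (h : ρ.IsFlatAt p) :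
    (ρ.baseChangeAlong (φ : R →+* DualNumber (IsLocalRing.ResidueField 𝒪)) hφ).IsFlatAt p := by
  refine h15c_isFlatAt_baseChange _ hφ (fun a => ?_) ρ p h
  obtain ⟨x, rfl⟩ := IsLocalRing.residue_surjective a
  refine ⟨algebraMap 𝒪 R x, ?_⟩
  rw [RingHom.coe_coe, AlgHom.commutes, TrivSqZeroExt.algebraMap_eq_inl']
  rfl

end Level

end Fermat.Agent.S56
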