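import Fermat.Agent.S53.EvalSurj
import Fermat.Agent.S53.QuotCNL
import Fermat.Agent.S53.TestAlg
import Fermat.Prelude.Def_GaloisRep_DeformationRingData

/-!
# S56, leaf ALG (helper42): complete noetherian local `𝒪`-algebras are quotients of power
series rings in as many variables as the relative tangent space requires

`R` is a complete noetherian local `𝒪`-algebra with residue field that of `𝒪` (exactly the
fields of `GaloisRep.DeformationRingData`).

* `h42a_surj_of_gen` : if `a : σ → 𝔪_R` generates `𝔪_R` modulo `𝔪_𝒪 R + 𝔪_R ^ 2`, then the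
  evaluation homomorphism `S53.evalHom : 𝒪⟦X_i : i ∈ σ⟧ →ₐ[𝒪] R`, `X_i ↦ a_i`, is surjective
  (`R` complete, not necessarily artinian).
* `h42a_exists_tangent` : for a MINIMAL generating family `a : Fin d → 𝔪_R` and every
  `c : Fin d → k` there is an `𝒪`-algebra homomorphism `θ : R → k[ε]` with `θ (a i) = c i ε`.
* `h42a_finite_tangent` : `R →ₐ[𝒪] k[ε]` is finite when `k` is.
* `h42a_exists_surj_of_card_le` (**counting form**) : if `R` has at most `#k ^ r`
  `𝒪`-algebra homomorphisms to `k[ε]`, then `R` is a quotient of `𝒪⟦X_1, …, X_r⟧`.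
-/

set_option autoImplicit false
set_option linter.style.haveILetI false
set_option linter.unusedSectionVars false

noncomputable section

namespace Fermat.Agent.S56

open IsLocalRing MvPowerSeries Fermat.Agent.S53

section Surj

variable {𝒪 : Type} [CommRing 𝒪] [IsLocalRing 𝒪] [IsPrecomplete (maximalIdeal 𝒪) 𝒪]
  {R : Type} [CommRing R] [IsLocalRing R] [IsNoetherianRing R]
  [IsAdicComplete (maximalIdeal R) R] [Algebra 𝒪 R] [IsLocalHom (algebraMap 𝒪 R)]
  {σ : Type} [Finite σ]

/-- Nakayama: generators of `𝔪_R` modulo `𝔪_R ^ 2`. -/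
theorem h42a_nakayama (a : σ → R)
    (hgen : maximalIdeal R ≤ Ideal.span (Set.range a) ⊔
      (maximalIdeal 𝒪).map (algebraMap 𝒪 R) ⊔ maximalIdeal R ^ 2) :
    maximalIdeal R ≤ Ideal.span (Set.range a) ⊔ (maximalIdeal 𝒪).map (algebraMap 𝒪 R) := by
  refine Submodule.le_of_le_smul_of_le_jacobson_bot (IsNoetherian.noetherian _)
    (IsLocalRing.maximalIdeal_le_jacobson ⊥) ?_
  rw [smul_eq_mul, ← sq]
  exact hgen

/-- **ALG (A).**  Surjectivity of the evaluation homomorphism onto a complete noetherian local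
`𝒪`-algebra: it suffices that `𝒪` hits the residue field and that the `a i` together with
`𝔪_𝒪` generate `𝔪_R` modulo `𝔪_R ^ 2`. -/
theorem h42a_surj_of_gen
    (hres : Function.Surjective (IsLocalRing.residue R ∘ algebraMap 𝒪 R))
    (a : σ → R) (ha : ∀ i, a i ∈ maximalIdeal R)
    (hgen : maximalIdeal R ≤ Ideal.span (Set.range a) ⊔
      (maximalIdeal 𝒪).map (algebraMap 𝒪 R) ⊔ maximalIdeal R ^ 2) :
    Function.Surjective (evalHom (𝒪 := 𝒪) (maximalIdeal R) a ha) := by
  classical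
  set φ : MvPowerSeries σ 𝒪 →ₐ[𝒪] R := evalHom (𝒪 := 𝒪) (maximalIdeal R) a ha with hφ
  haveI hloc : IsLocalHom (φ : MvPowerSeries σ 𝒪 →+* R) := isLocalHom_evalHom a ha
  have hnak := h42a_nakayama (𝒪 := 𝒪) a hgen
  -- the image of the maximal ideal generates the maximal ideal
  have hmap : (maximalIdeal (MvPowerSeries σ 𝒪)).map (φ : MvPowerSeries σ 𝒪 →+* R)
      = maximalIdeal R := by
    refine le_antisymm ?_ (hnak.trans (sup_le ?_ ?_))
    · rw [Ideal.map_le_iff_le_comap]
      intro f hf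
      exact map_nonunit (φ : MvPowerSeries σ 𝒪 →+* R) f hf
    · rw [Ideal.span_le]
      rintro _ ⟨i, rfl⟩
      have hX : (MvPowerSeries.X i : MvPowerSeries σ 𝒪) ∈ maximalIdeal (MvPowerSeries σ 𝒪) := by
        rw [mem_maximalIdeal, mem_nonunits_iff, MvPowerSeries.isUnit_iff_constantCoeff,
          MvPowerSeries.constantCoeff_X]
        exact not_isUnit_zero
      have := Ideal.mem_map_of_mem (φ : MvPowerSeries σ 𝒪 →+* R) hX
      rwa [AlgHom.coe_toRingHom, hφ, evalHom_X] at this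
    · rw [Ideal.map_le_iff_le_comap]
      intro c hc
      rw [Ideal.mem_comap]
      have hC : (MvPowerSeries.C c : MvPowerSeries σ 𝒪) ∈ maximalIdeal (MvPowerSeries σ 𝒪) := by
        rw [mem_maximalIdeal, mem_nonunits_iff, MvPowerSeries.isUnit_iff_constantCoeff,
          MvPowerSeries.constantCoeff_C]
        exact hc
      have := Ideal.mem_map_of_mem (φ : MvPowerSeries σ 𝒪 →+* R) hC
      rwa [AlgHom.coe_toRingHom, MvPowerSeries.c_eq_algebraMap, AlgHom.commutes] at this
  haveI hpre : IsPrecomplete (maximalIdeal (MvPowerSeries σ 𝒪)) (MvPowerSeries σ 𝒪) :=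
    isPrecomplete_mvPowerSeries (σ := σ) (𝒪 := 𝒪)
  haveI hhaus : IsHausdorff ((maximalIdeal (MvPowerSeries σ 𝒪)).map
      (φ : MvPowerSeries σ 𝒪 →+* R)) R := by
    rw [hmap]
    infer_instance
  have hsurj : Function.Surjective ((Ideal.Quotient.mk
      ((maximalIdeal (MvPowerSeries σ 𝒪)).map (φ : MvPowerSeries σ 𝒪 →+* R))).comp
        (φ : MvPowerSeries σ 𝒪 →+* R)) := by
    intro y
    obtain ⟨x, rfl⟩ := Ideal.Quotient.mk_surjective y
    obtain ⟨c, hc⟩ := hres (IsLocalRing.residue R x)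
    refine ⟨MvPowerSeries.C c, ?_⟩
    rw [RingHom.comp_apply, AlgHom.coe_toRingHom, MvPowerSeries.c_eq_algebraMap,
      AlgHom.commutes, Ideal.Quotient.eq, hmap]
    have : IsLocalRing.residue R (algebraMap 𝒪 R c) = IsLocalRing.residue R x := hc
    rw [← sub_eq_zero, ← map_sub, IsLocalRing.residue_eq_zero_iff] at this
    exact this
  exact surjective_of_mk_map_comp_surjective (φ : MvPowerSeries σ 𝒪 →+* R) hsurj

end Surj


/-! ## Generating families and their minimal size -/

section Count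

variable (𝒪 : Type) [CommRing 𝒪] [IsLocalRing 𝒪]
  (R : Type) [CommRing R] [IsLocalRing R] [Algebra 𝒪 R]

/-- `𝔪_R` is generated modulo `𝔪_𝒪 R + 𝔪_R ^ 2` by a family of `s` elements. -/
def h42a_Gen (s : ℕ) : Prop :=
  ∃ a : Fin s → R, (∀ i, a i ∈ maximalIdeal R) ∧
    maximalIdeal R ≤ Ideal.span (Set.range a) ⊔
      (maximalIdeal 𝒪).map (algebraMap 𝒪 R) ⊔ maximalIdeal R ^ 2

variable {𝒪 R}

theorem h42a_exists_gen [IsNoetherianRing R] : ∃ s, h42a_Gen 𝒪 R s := by
  obtain ⟨n, a, ha⟩ := Submodule.fg_iff_exists_fin_generating_family.mp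
    (Ideal.fg_of_isNoetherianRing (maximalIdeal R))
  refine ⟨n, a, fun i => ?_, ?_⟩
  · rw [← ha]
    exact Submodule.subset_span ⟨i, rfl⟩
  · intro x hx
    refine Ideal.mem_sup_left (Ideal.mem_sup_left ?_)
    have : x ∈ Submodule.span R (Set.range a) := by rw [ha]; exact hx
    exact this

theorem h42a_gen_mono {s t : ℕ} (hst : s ≤ t) (h : h42a_Gen 𝒪 R s) : h42a_Gen 𝒪 R t := by
  obtain ⟨a, ha, hgen⟩ := h
  refine ⟨fun i => if h : (i : ℕ) < s then a ⟨i, h⟩ else 0, fun i => ?_, ?_⟩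
  · dsimp only
    split_ifs with h
    · exact ha _
    · exact Ideal.zero_mem _
  · refine hgen.trans (sup_le_sup_right (sup_le_sup_right (Ideal.span_mono ?_) _) _)
    rintro _ ⟨i, rfl⟩
    refine ⟨⟨i, lt_of_lt_of_le i.2 hst⟩, ?_⟩
    simp

/-- Removing a redundant member of a generating family. -/
theorem h42a_gen_pred {d : ℕ} (a : Fin (d + 1) → R) (ha : ∀ i, a i ∈ maximalIdeal R)
    (hgen : maximalIdeal R ≤ Ideal.span (Set.range a) ⊔
      (maximalIdeal 𝒪).map (algebraMap 𝒪 R) ⊔ maximalIdeal R ^ 2)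
    (j : Fin (d + 1))
    (hj : a j ∈ Ideal.span (Set.range (a ∘ j.succAbove)) ⊔
      (maximalIdeal 𝒪).map (algebraMap 𝒪 R) ⊔ maximalIdeal R ^ 2) :
    h42a_Gen 𝒪 R d := by
  refine ⟨a ∘ j.succAbove, fun i => ha _, hgen.trans (sup_le (sup_le ?_ ?_) ?_)⟩
  · rw [Ideal.span_le]
    rintro _ ⟨i, rfl⟩
    by_cases hij : i = j
    · rw [hij]; exact hj
    · obtain ⟨z, hz⟩ := Fin.exists_succAbove_eq hij
      refine Ideal.mem_sup_left (Ideal.mem_sup_left (Ideal.subset_span ⟨z, ?_⟩))
      simp [hz]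
  · exact le_sup_of_le_left le_sup_right
  · exact le_sup_right

end Count

/-! ## Power series modulo the square of the maximal ideal -/

section Trunc

variable {𝒪 : Type} [CommRing 𝒪] {σ : Type} [Fintype σ]

theorem h42a_degree_lt_two (d : σ →₀ ℕ) (hd : Finsupp.degree d < 2) :
    d = 0 ∨ ∃ j, d = Finsupp.single j 1 := by
  classical
  by_cases h0 : d = 0
  · exact Or.inl h0
  · right
    obtain ⟨j, hj⟩ : ∃ j, d j ≠ 0 := by
      by_contra hne
      exact h0 (Finsupp.ext fun i => by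
        by_contra hi
        exact hne ⟨i, hi⟩)
    refine ⟨j, ?_⟩
    have hle : Finsupp.single j 1 ≤ d := by
      rw [Finsupp.single_le_iff]
      omega
    obtain ⟨e, he⟩ := exists_add_of_le hle
    have hdeg : Finsupp.degree d = 1 + Finsupp.degree e := by
      rw [he, map_add, Finsupp.degree_single]
    have he0 : Finsupp.degree e = 0 := by omega
    rw [Finsupp.degree_eq_zero_iff] at he0
    rw [he, he0, add_zero]

/-- The truncation of a power series below total degree `2`. -/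
theorem h42a_truncTotal_two (f : MvPowerSeries σ 𝒪) :
    (MvPowerSeries.truncTotal 2 f : MvPolynomial σ 𝒪) =
      MvPolynomial.C (MvPowerSeries.constantCoeff f) +
        ∑ i, MvPolynomial.C (MvPowerSeries.coeff (Finsupp.single i 1) f) * MvPolynomial.X i := by
  classical
  ext d
  rw [MvPowerSeries.coeff_truncTotal_eq_ite, MvPolynomial.coeff_add, MvPolynomial.coeff_C,
    MvPolynomial.coeff_sum]
  simp only [MvPolynomial.coeff_C_mul, MvPolynomial.coeff_X, mul_ite, mul_one, mul_zero]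
  by_cases hd : Finsupp.degree d < 2
  · rw [if_pos hd]
    rcases h42a_degree_lt_two d hd with rfl | ⟨j, rfl⟩
    · rw [if_pos rfl, Finset.sum_eq_zero, add_zero]
      · rfl
      · intro i _
        rw [if_neg]
        intro h
        have := congrArg (fun e => e i) h
        simp at this
    · rw [if_neg, zero_add, Finset.sum_eq_single j]
      · rw [if_pos rfl]
      · intro i _ hij
        rw [if_neg]
        intro h
        exact hij (Finsupp.single_left_injective one_ne_zero h)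
      · intro h
        exact absurd (Finset.mem_univ j) h
      · intro h
        have := congrArg (fun e => e j) h
        simp at this
  · rw [if_neg hd, if_neg, zero_add, Finset.sum_eq_zero]
    · intro i _
      rw [if_neg]
      intro h
      apply hd
      rw [← h, Finsupp.degree_single]
      norm_num
    · intro h
      apply hd
      rw [← h, map_zero]
      norm_num

variable {A : Type} [CommRing A] [Algebra 𝒪 A]

/-- An `𝒪`-algebra homomorphism out of a power series ring sending the variables into an ideal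
`I` is given, modulo `I ^ 2`, by the constant and linear coefficients. -/
theorem h42a_eval_mod_sq (I : Ideal A) (φ : MvPowerSeries σ 𝒪 →ₐ[𝒪] A)
    (hφ : ∀ i, φ (MvPowerSeries.X i) ∈ I) (f : MvPowerSeries σ 𝒪) :
    φ f - (algebraMap 𝒪 A (MvPowerSeries.constantCoeff f) +
      ∑ i, algebraMap 𝒪 A (MvPowerSeries.coeff (Finsupp.single i 1) f) *
        φ (MvPowerSeries.X i)) ∈ I ^ 2 := by
  have h1 := map_mem_pow_of_mem_span_X_pow I φ hφ 2 _ (sub_truncTotal_mem_pow f 2)
  have h2 : φ ((MvPowerSeries.truncTotal 2 f : MvPolynomial σ 𝒪) : MvPowerSeries σ 𝒪) =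
      algebraMap 𝒪 A (MvPowerSeries.constantCoeff f) +
      ∑ i, algebraMap 𝒪 A (MvPowerSeries.coeff (Finsupp.single i 1) f) *
        φ (MvPowerSeries.X i) := by
    rw [h42a_truncTotal_two, MvPolynomial.coe_add, map_add, MvPolynomial.coe_C,
      MvPowerSeries.c_eq_algebraMap, AlgHom.commutes]
    congr 1
    have : ((∑ i, MvPolynomial.C (MvPowerSeries.coeff (Finsupp.single i 1) f) *
        MvPolynomial.X i : MvPolynomial σ 𝒪) : MvPowerSeries σ 𝒪) =
        ∑ i, MvPowerSeries.C (MvPowerSeries.coeff (Finsupp.single i 1) f) *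
          MvPowerSeries.X i := by
      rw [← MvPolynomial.coeToMvPowerSeries.ringHom_apply, map_sum]
      refine Finset.sum_congr rfl fun i _ => ?_
      rw [MvPolynomial.coeToMvPowerSeries.ringHom_apply, MvPolynomial.coe_mul,
        MvPolynomial.coe_C, MvPolynomial.coe_X]
    rw [this, map_sum]
    refine Finset.sum_congr rfl fun i _ => ?_
    rw [map_mul, MvPowerSeries.c_eq_algebraMap, AlgHom.commutes]
  rw [map_sub, h2] at h1
  exact h1

end Trunc

/-! ## Homomorphisms to square-zero test algebras -/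

section Tangent

variable {𝒪 : Type} [CommRing 𝒪] [IsLocalRing 𝒪] [IsPrecomplete (maximalIdeal 𝒪) 𝒪]
  {R : Type} [CommRing R] [IsLocalRing R] [IsNoetherianRing R]
  [IsAdicComplete (maximalIdeal R) R] [Algebra 𝒪 R] [IsLocalHom (algebraMap 𝒪 R)]

/-- For a minimal generating family, the elements of the kernel of the evaluation
homomorphism have constant and linear coefficients in `𝔪_𝒪`. -/
theorem h42a_coeff_mem_of_ker {d : ℕ} (hmin : ¬ h42a_Gen 𝒪 R d) (a : Fin (d + 1) → R)
    (ha : ∀ i, a i ∈ maximalIdeal R)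
    (hgen : maximalIdeal R ≤ Ideal.span (Set.range a) ⊔
      (maximalIdeal 𝒪).map (algebraMap 𝒪 R) ⊔ maximalIdeal R ^ 2)
    (f : MvPowerSeries (Fin (d + 1)) 𝒪)
    (hf : evalHom (𝒪 := 𝒪) (maximalIdeal R) a ha f = 0) :
    MvPowerSeries.constantCoeff f ∈ maximalIdeal 𝒪 ∧
      ∀ j, MvPowerSeries.coeff (Finsupp.single j 1) f ∈ maximalIdeal 𝒪 := by
  classical
  have h0 : MvPowerSeries.constantCoeff f ∈ maximalIdeal 𝒪 := by
    rw [mem_maximalIdeal, mem_nonunits_iff]
    intro hu
    have hfu : IsUnit f := MvPowerSeries.isUnit_iff_constantCoeff.mpr hu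
    have := hfu.map (evalHom (𝒪 := 𝒪) (maximalIdeal R) a ha)
    rw [hf] at this
    exact not_isUnit_zero this
  refine ⟨h0, fun j => ?_⟩
  rw [mem_maximalIdeal, mem_nonunits_iff]
  intro hu
  apply hmin
  refine h42a_gen_pred a ha hgen j ?_
  have hsq := h42a_eval_mod_sq (maximalIdeal R) (evalHom (𝒪 := 𝒪) (maximalIdeal R) a ha)
    (fun i => by rw [evalHom_X]; exact ha i) f
  rw [hf, zero_sub, neg_mem_iff] at hsq
  simp only [evalHom_X] at hsq
  rw [Fin.sum_univ_succAbove _ j] at hsq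
  set I' : Ideal R := Ideal.span (Set.range (a ∘ j.succAbove)) ⊔
      (maximalIdeal 𝒪).map (algebraMap 𝒪 R) ⊔ maximalIdeal R ^ 2 with hI'
  have h1 : algebraMap 𝒪 R (MvPowerSeries.constantCoeff f) ∈ I' :=
    Ideal.mem_sup_left (Ideal.mem_sup_right (Ideal.mem_map_of_mem _ h0))
  have h2 : ∑ z, algebraMap 𝒪 R (MvPowerSeries.coeff (Finsupp.single (j.succAbove z) 1) f) *
      a (j.succAbove z) ∈ I' := by
    refine Ideal.sum_mem _ fun z _ => Ideal.mul_mem_left _ _ ?_
    exact Ideal.mem_sup_left (Ideal.mem_sup_left (Ideal.subset_span ⟨z, rfl⟩))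
  have h3 : algebraMap 𝒪 R (MvPowerSeries.coeff (Finsupp.single j 1) f) * a j ∈ I' := by
    have h4 : algebraMap 𝒪 R (MvPowerSeries.constantCoeff f) +
        (algebraMap 𝒪 R (MvPowerSeries.coeff (Finsupp.single j 1) f) * a j +
          ∑ z, algebraMap 𝒪 R (MvPowerSeries.coeff (Finsupp.single (j.succAbove z) 1) f) *
            a (j.succAbove z)) ∈ I' := Ideal.mem_sup_right hsq
    have := Ideal.sub_mem _ (Ideal.sub_mem _ h4 h1) h2
    convert this using 1
    ring
  have hunit : IsUnit (algebraMap 𝒪 R (MvPowerSeries.coeff (Finsupp.single j 1) f)) :=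
    hu.map (algebraMap 𝒪 R)
  exact (Ideal.unit_mul_mem_iff_mem _ hunit).mp h3

variable {A : Type} [CommRing A] [IsLocalRing A] [Algebra 𝒪 A]
  [IsAdicComplete (maximalIdeal A) A]

omit [IsPrecomplete (maximalIdeal 𝒪) 𝒪] in
/-- An evaluation homomorphism to a local `𝒪`-algebra `A` with `𝔪_A ^ 2 = 0` and `𝔪_𝒪 A = 0`
kills the power series whose constant and linear coefficients lie in `𝔪_𝒪`. -/
theorem h42a_tan_kills {σ : Type} [Fintype σ] (hsq : maximalIdeal A ^ 2 = ⊥)
    (hzero : ∀ c ∈ maximalIdeal 𝒪, algebraMap 𝒪 A c = 0)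
    (b : σ → A) (hb : ∀ i, b i ∈ maximalIdeal A) (f : MvPowerSeries σ 𝒪)
    (hf0 : MvPowerSeries.constantCoeff f ∈ maximalIdeal 𝒪)
    (hf1 : ∀ j, MvPowerSeries.coeff (Finsupp.single j 1) f ∈ maximalIdeal 𝒪) :
    evalHom (𝒪 := 𝒪) (maximalIdeal A) b hb f = 0 := by
  have h := h42a_eval_mod_sq (maximalIdeal A) (evalHom (𝒪 := 𝒪) (maximalIdeal A) b hb)
    (fun i => by rw [evalHom_X]; exact hb i) f
  rw [hsq, Ideal.mem_bot, hzero _ hf0, zero_add, Finset.sum_eq_zero, sub_zero] at h
  · exact h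
  · intro i _
    rw [hzero _ (hf1 i), zero_mul]

/-- **Tangent vectors of a minimal generating family.**  If `a : Fin (d + 1) → 𝔪_R` generates
`𝔪_R` modulo `𝔪_𝒪 R + 𝔪_R ^ 2` and no family of `d` elements does, then for every local
`𝒪`-algebra `A` with `𝔪_A ^ 2 = 0`, `𝔪_𝒪 A = 0` and every `b : Fin (d + 1) → 𝔪_A` there is an
`𝒪`-algebra homomorphism `θ : R → A` with `θ (a i) = b i`. -/
theorem h42a_exists_hom
    (hres : Function.Surjective (IsLocalRing.residue R ∘ algebraMap 𝒪 R))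
    {d : ℕ} (hmin : ¬ h42a_Gen 𝒪 R d) (a : Fin (d + 1) → R)
    (ha : ∀ i, a i ∈ maximalIdeal R)
    (hgen : maximalIdeal R ≤ Ideal.span (Set.range a) ⊔
      (maximalIdeal 𝒪).map (algebraMap 𝒪 R) ⊔ maximalIdeal R ^ 2)
    (hsq : maximalIdeal A ^ 2 = ⊥)
    (hzero : ∀ c ∈ maximalIdeal 𝒪, algebraMap 𝒪 A c = 0)
    (b : Fin (d + 1) → A) (hb : ∀ i, b i ∈ maximalIdeal A) :
    ∃ θ : R →ₐ[𝒪] A, ∀ i, θ (a i) = b i := by
  set π := evalHom (𝒪 := 𝒪) (maximalIdeal R) a ha with hπ
  have hπs : Function.Surjective π := h42a_surj_of_gen hres a ha hgen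
  set θ' := evalHom (𝒪 := 𝒪) (maximalIdeal A) b hb with hθ'
  have hker : ∀ f ∈ RingHom.ker π, θ' f = 0 := by
    intro f hf
    obtain ⟨h0, h1⟩ := h42a_coeff_mem_of_ker hmin a ha hgen f hf
    exact h42a_tan_kills hsq hzero b hb f h0 h1
  refine ⟨(Ideal.Quotient.liftₐ (RingHom.ker π) θ' hker).comp
    (Ideal.quotientKerAlgEquivOfSurjective hπs).symm.toAlgHom, fun i => ?_⟩
  have h1 : (Ideal.quotientKerAlgEquivOfSurjective hπs).symm (a i) =
      Ideal.Quotient.mk (RingHom.ker π) (MvPowerSeries.X i) := by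
    rw [AlgEquiv.symm_apply_eq]
    change a i = π (MvPowerSeries.X i)
    rw [hπ, evalHom_X]
  rw [AlgHom.comp_apply]
  change (Ideal.Quotient.liftₐ (RingHom.ker π) θ' hker)
    ((Ideal.quotientKerAlgEquivOfSurjective hπs).symm (a i)) = b i
  rw [h1]
  change θ' (MvPowerSeries.X i) = b i
  rw [hθ', evalHom_X]

end Tangent

/-! ## The dual numbers `k[ε]` -/

section DualNumber

variable (k : Type) [Field k]

theorem h42a_mem_maximalIdeal_dualNumber_iff (x : DualNumber k) :
    x ∈ maximalIdeal (DualNumber k) ↔ TrivSqZeroExt.fst x = 0 := by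
  rw [mem_maximalIdeal, mem_nonunits_iff, TrivSqZeroExt.isUnit_iff_isUnit_fst, isUnit_iff_ne_zero,
    not_not]

theorem h42a_maximalIdeal_dualNumber_sq : maximalIdeal (DualNumber k) ^ 2 = ⊥ := by
  rw [eq_bot_iff, sq, Ideal.mul_le]
  intro x hx y hy
  rw [h42a_mem_maximalIdeal_dualNumber_iff] at hx hy
  rw [Ideal.mem_bot]
  ext
  · rw [TrivSqZeroExt.fst_mul, hx, zero_mul, TrivSqZeroExt.fst_zero]
  · rw [TrivSqZeroExt.snd_mul, hx, hy, TrivSqZeroExt.snd_zero]
    simp

theorem h42a_isArtinianRing_dualNumber : IsArtinianRing (DualNumber k) := by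
  haveI : Module.Finite k (DualNumber k) :=
    inferInstanceAs (Module.Finite k (k × k))
  exact IsArtinianRing.of_finite k (DualNumber k)

theorem h42a_finite_dualNumber [Finite k] : Finite (DualNumber k) :=
  inferInstanceAs (Finite (k × k))

end DualNumber

section CountHom

variable {𝒪 : Type} [CommRing 𝒪] [IsLocalRing 𝒪] [IsPrecomplete (maximalIdeal 𝒪) 𝒪]
  {R : Type} [CommRing R] [IsLocalRing R] [IsNoetherianRing R]
  [IsAdicComplete (maximalIdeal R) R] [Algebra 𝒪 R] [IsLocalHom (algebraMap 𝒪 R)]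
  [Algebra 𝒪 (DualNumber (ResidueField 𝒪))]

omit [IsPrecomplete (maximalIdeal 𝒪) 𝒪] [IsNoetherianRing R]
  [IsAdicComplete (maximalIdeal R) R] in
/-- Every `𝒪`-algebra homomorphism `R → k[ε]` is local. -/
theorem h42a_hom_mem_maximalIdeal
    (hinst : ∀ c : 𝒪, algebraMap 𝒪 (DualNumber (ResidueField 𝒪)) c =
      TrivSqZeroExt.inl (residue 𝒪 c))
    (θ : R →ₐ[𝒪] DualNumber (ResidueField 𝒪)) {x : R} (hx : x ∈ maximalIdeal R) :
    θ x ∈ maximalIdeal (DualNumber (ResidueField 𝒪)) := by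
  rw [h42a_mem_maximalIdeal_dualNumber_iff]
  by_contra hne
  obtain ⟨c, hc⟩ := IsLocalRing.residue_surjective (TrivSqZeroExt.fst (θ x))
  have hcu : IsUnit c := by
    by_contra hnu
    have : residue 𝒪 c = 0 := (IsLocalRing.residue_eq_zero_iff c).mpr hnu
    exact hne (hc ▸ this)
  have hyu : IsUnit (algebraMap 𝒪 R c - x) := by
    by_contra hnu
    have h1 : algebraMap 𝒪 R c - x ∈ maximalIdeal R := hnu
    have h2 : algebraMap 𝒪 R c ∈ maximalIdeal R := by
      have := Ideal.add_mem _ h1 hx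
      rwa [sub_add_cancel] at this
    exact h2 (hcu.map (algebraMap 𝒪 R))
  have h3 := hyu.map θ
  rw [map_sub, AlgHom.commutes, hinst, TrivSqZeroExt.isUnit_iff_isUnit_fst,
    TrivSqZeroExt.fst_sub, TrivSqZeroExt.fst_inl, hc, sub_self] at h3
  exact not_isUnit_zero h3

/-- **Finiteness of the tangent space**: there are only finitely many `𝒪`-algebra
homomorphisms `R → k[ε]` when `k` is finite. -/
theorem h42a_finite_tangent [Finite (ResidueField 𝒪)]
    (hinst : ∀ c : 𝒪, algebraMap 𝒪 (DualNumber (ResidueField 𝒪)) c =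
      TrivSqZeroExt.inl (residue 𝒪 c))
    (hres : Function.Surjective (IsLocalRing.residue R ∘ algebraMap 𝒪 R)) :
    Finite (R →ₐ[𝒪] DualNumber (ResidueField 𝒪)) := by
  haveI := h42a_isArtinianRing_dualNumber (ResidueField 𝒪)
  haveI := h42a_finite_dualNumber (ResidueField 𝒪)
  obtain ⟨s, a, ha, hgen⟩ := h42a_exists_gen (𝒪 := 𝒪) (R := R)
  have hπs : Function.Surjective (evalHom (𝒪 := 𝒪) (maximalIdeal R) a ha) :=
    h42a_surj_of_gen hres a ha hgen
  refine Finite.of_injective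
    (fun θ : R →ₐ[𝒪] DualNumber (ResidueField 𝒪) => fun i : Fin s => θ (a i)) ?_
  intro θ θ' h
  have h' : ∀ i, θ (a i) = θ' (a i) := fun i => congrFun h i
  have hcomp : θ.comp (evalHom (𝒪 := 𝒪) (maximalIdeal R) a ha) =
      θ'.comp (evalHom (𝒪 := 𝒪) (maximalIdeal R) a ha) := by
    refine algHom_ext_of_X (maximalIdeal (DualNumber (ResidueField 𝒪))) _ _ (fun i => ?_)
      (fun i => ?_)
    · rw [AlgHom.comp_apply, evalHom_X]
      exact h42a_hom_mem_maximalIdeal hinst θ (ha i)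
    · rw [AlgHom.comp_apply, AlgHom.comp_apply, evalHom_X]
      exact h' i
  exact (AlgHom.cancel_right hπs).mp hcomp

/-- **ALG (C), counting form.**  If there are at most `#k ^ r` homomorphisms of `𝒪`-algebras
`R → k[ε]`, then `R` is a quotient of the power series ring in `r` variables over `𝒪`.
The `𝒪`-algebra structure on `k[ε]` is any one with `c ↦ (c mod 𝔪_𝒪, 0)`. -/
theorem h42a_exists_surj_of_card_le' [Finite (ResidueField 𝒪)]
    (hinst : ∀ c : 𝒪, algebraMap 𝒪 (DualNumber (ResidueField 𝒪)) c =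
      TrivSqZeroExt.inl (residue 𝒪 c))
    (hres : Function.Surjective (IsLocalRing.residue R ∘ algebraMap 𝒪 R)) (r : ℕ)
    (hcard : Nat.card (R →ₐ[𝒪] DualNumber (ResidueField 𝒪)) ≤ Nat.card (ResidueField 𝒪) ^ r) :
    ∃ γ : MvPowerSeries (Fin r) 𝒪 →ₐ[𝒪] R, Function.Surjective γ := by
  classical
  haveI := h42a_isArtinianRing_dualNumber (ResidueField 𝒪)
  haveI := h42a_finite_tangent (R := R) hinst hres
  have hex : ∃ s, h42a_Gen 𝒪 R s := h42a_exists_gen
  have hle : Nat.find hex ≤ r := by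
    by_contra hlt
    push Not at hlt
    obtain ⟨d, hd⟩ : ∃ d, Nat.find hex = d + 1 := ⟨Nat.find hex - 1, by omega⟩
    have hmin : ¬ h42a_Gen 𝒪 R d := Nat.find_min hex (by omega)
    obtain ⟨a, ha, hgen⟩ : h42a_Gen 𝒪 R (d + 1) := hd ▸ Nat.find_spec hex
    have hzero : ∀ c ∈ maximalIdeal 𝒪,
        algebraMap 𝒪 (DualNumber (ResidueField 𝒪)) c = 0 := by
      intro c hc
      rw [hinst, (IsLocalRing.residue_eq_zero_iff c).mpr hc, TrivSqZeroExt.inl_zero]
    have hθ : ∀ c : Fin (d + 1) → ResidueField 𝒪,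
        ∃ θ : R →ₐ[𝒪] DualNumber (ResidueField 𝒪), ∀ i, θ (a i) = TrivSqZeroExt.inr (c i) :=
      fun c => h42a_exists_hom hres hmin a ha hgen
        (h42a_maximalIdeal_dualNumber_sq (ResidueField 𝒪)) hzero
        (fun i => TrivSqZeroExt.inr (c i)) (fun i => by
          rw [h42a_mem_maximalIdeal_dualNumber_iff, TrivSqZeroExt.fst_inr])
    choose Θ hΘ using hθ
    have hinj : Function.Injective Θ := by
      intro c c' h
      funext i
      have := hΘ c i
      rw [h, hΘ c' i] at this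
      exact (TrivSqZeroExt.inr_injective this).symm
    have h1 := Nat.card_le_card_of_injective Θ hinj
    rw [Nat.card_fun, Nat.card_eq_fintype_card (α := Fin (d + 1)), Fintype.card_fin] at h1
    have h2 := h1.trans hcard
    have h3 : d + 1 ≤ r := (Nat.pow_le_pow_iff_right Finite.one_lt_card).mp h2
    omega
  obtain ⟨a, ha, hgen⟩ := h42a_gen_mono hle (Nat.find_spec hex)
  exact ⟨evalHom (𝒪 := 𝒪) (maximalIdeal R) a ha, h42a_surj_of_gen hres a ha hgen⟩

end CountHom

section Final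

variable {𝒪 : Type} [CommRing 𝒪] [IsLocalRing 𝒪] [IsPrecomplete (maximalIdeal 𝒪) 𝒪]
  {R : Type} [CommRing R] [IsLocalRing R] [IsNoetherianRing R]
  [IsAdicComplete (maximalIdeal R) R] [Algebra 𝒪 R] [IsLocalHom (algebraMap 𝒪 R)]

/-- **ALG (C)** for the `𝒪`-algebra structure `S53.dualNumberAlgebra` on `k[ε]`
(the one of the prelude's `GaloisRep.TangentFinite`). -/
theorem h42a_exists_surj_of_card_le [Finite (ResidueField 𝒪)]
    (hres : Function.Surjective (IsLocalRing.residue R ∘ algebraMap 𝒪 R)) (r : ℕ)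
    (hcard : letI := dualNumberAlgebra 𝒪
      Nat.card (R →ₐ[𝒪] DualNumber (ResidueField 𝒪)) ≤ Nat.card (ResidueField 𝒪) ^ r) :
    ∃ γ : MvPowerSeries (Fin r) 𝒪 →ₐ[𝒪] R, Function.Surjective γ := by
  letI := dualNumberAlgebra 𝒪
  exact h42a_exists_surj_of_card_le' (fun _ => rfl) hres r hcard

/-- Finiteness of the tangent space for `S53.dualNumberAlgebra`. -/
theorem h42a_finite_tangent_dualNumberAlgebra [Finite (ResidueField 𝒪)]
    (hres : Function.Surjective (IsLocalRing.residue R ∘ algebraMap 𝒪 R)) :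
    letI := dualNumberAlgebra 𝒪
    Finite (R →ₐ[𝒪] DualNumber (ResidueField 𝒪)) := by
  letI := dualNumberAlgebra 𝒪
  exact h42a_finite_tangent (fun _ => rfl) hres

/-- **ALG for deformation rings** (the shape used by S56): a universal deformation ring with at
most `#k ^ r` tangent vectors `DQ.R →ₐ[𝒪] k[ε]` is a quotient of `𝒪⟦X_1, …, X_r⟧`. -/
theorem h42a_deformationRing_surj {𝒪 : Type} [CommRing 𝒪] [IsDomain 𝒪]
    [IsDiscreteValuationRing 𝒪] [IsAdicComplete (maximalIdeal 𝒪) 𝒪]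
    [Finite (ResidueField 𝒪)]
    {ρbar : ResidualGaloisRep (ResidueField 𝒪)}
    {𝒟 : ∀ ⦃A : Type⦄ [CommRing A] [IsLocalRing A] [Algebra 𝒪 A], GaloisRepAdic A → Prop}
    (DQ : GaloisRep.DeformationRingData 𝒪 ρbar 𝒟) (r : ℕ)
    (hcard : letI := dualNumberAlgebra 𝒪
      Nat.card (DQ.R →ₐ[𝒪] DualNumber (ResidueField 𝒪)) ≤ Nat.card (ResidueField 𝒪) ^ r) :
    ∃ γ : MvPowerSeries (Fin r) 𝒪 →ₐ[𝒪] DQ.R, Function.Surjective γ :=
  h42a_exists_surj_of_card_le DQ.residue_surjective r hcard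

end Final

end Fermat.Agent.S56
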