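import Mathlib

/-!
# S56, sub-pillar TW-GRP (helper42): the finite group theory behind Taylor–Wiles primes

Frozen interface; every declaration is a definition or an interface `Prop`, nothing is assumed.
Mathlib only.  Blueprint: finding #1111 (stmt S56, kind blueprint).

## Frame

`k` a finite field of odd characteristic `p`, `V` a `k`-space of dimension two, `Γ` ANY group
(e.g. `G_ℚ`), `ρ : Γ →* Module.End k V`, `χ : Γ →* (ZMod p)ˣ` (the mod `p` cyclotomic
character), with the hypotheses `H42TW` (those of S56).  `ad⁰(1)` is the space of trace zero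
endomorphisms with the action `σ • X = χ σ • (ρ σ * X * ρ σ⁻¹)`.

## The three outputs (inputs of TW-CHEB)

* `H42GrpSS`  : every normal subgroup with abelian quotient contains an element with distinct
  eigenvalues.
* `H42GrpIrr` : `ad⁰` is an irreducible `k[Γ]`-module.
* `H42GrpH1`  : a cocycle `Γ → ad⁰(1)` which vanishes on `ker ρ ∩ ker ε` (`ε` any homomorphism
  to a commutative group, e.g. the cyclotomic character modulo `p ^ n`) is a coboundary.
  (DDT Lemma 2.48; here WITHOUT Dickson's classification.)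

## The abstract orbit count (DICKSON-LITE)

* `H42DickLite` : a finite group acting on a set such that every non-identity element has
  exactly one ("parabolic") or two ("hyperbolic") fixed points, with the structure of the point
  stabilisers of a subgroup of `PGL₂(k)` all of whose elements have their eigenvalues in `k`:
  if the Sylow `p`-subgroups have order `q ≥ 5` and there are at least two of them, then
  `#G = (q + 1) q t` with `t = (q - 1) / 2` or `t = q - 1`.
-/

set_option autoImplicit false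

open Polynomial TensorProduct

noncomputable section

namespace Fermat.Agent.S56

section Frame

variable (p : ℕ) [Fact p.Prime] {k : Type} [Field k] [CharP k p]
  {V : Type} [AddCommGroup V] [Module k V] [Module.Finite k V] {Γ : Type} [Group Γ]

/-- The value of the character `χ` in `k`. -/
def h42g_chi (k : Type) [Field k] [CharP k p] (χ : Γ →* (ZMod p)ˣ) (σ : Γ) : k :=
  ZMod.castHom (dvd_refl p) k ((χ σ : (ZMod p)ˣ) : ZMod p)

/-- **The hypotheses of S56 on the residual representation**, for an abstract group. -/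
structure H42TW (ρ : Γ →* Module.End k V) (χ : Γ →* (ZMod p)ˣ) : Prop where
  /-- `p` is odd -/
  odd : p ≠ 2
  /-- `V` has dimension two -/
  rank : Module.finrank k V = 2
  /-- the eigenvalues of all `ρ σ` lie in `k` (`hsplit`) -/
  split : ∀ σ : Γ, ∃ α β : k, LinearMap.charpoly (ρ σ) = (X - C α) * (X - C β)
  /-- `det ρ = χ` (`hdet`) -/
  det : ∀ σ : Γ, LinearMap.det (ρ σ) = h42g_chi p k χ σ
  /-- the cyclotomic character is surjective -/
  surj : Function.Surjective χ
  /-- irreducibility over every field on every subgroup of index two (`hTW`) -/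
  tw : ∀ (K : Type) [Field K] [Algebra k K] (G : Subgroup Γ), G.index = 2 →
    ∀ W : Submodule K (K ⊗[k] V),
      (∀ σ ∈ G, ∀ x ∈ W, (ρ σ).baseChange K x ∈ W) → W = ⊥ ∨ W = ⊤

/-- The action of `Γ` on `ad⁰(1)`: `σ • X = χ σ • (ρ σ * X * ρ σ⁻¹)`. -/
def h42g_act (ρ : Γ →* Module.End k V) (χ : Γ →* (ZMod p)ˣ) (σ : Γ)
    (X : Module.End k V) : Module.End k V :=
  h42g_chi p k χ σ • (ρ σ * X * ρ σ⁻¹)

/-- `f` is a `1`-cocycle of `Γ` with values in `ad⁰(1)`. -/
structure H42Coc (ρ : Γ →* Module.End k V) (χ : Γ →* (ZMod p)ˣ)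
    (f : Γ → Module.End k V) : Prop where
  trace : ∀ σ : Γ, LinearMap.trace k V (f σ) = 0
  coc : ∀ σ τ : Γ, f (σ * τ) = f σ + h42g_act p ρ χ σ (f τ)

end Frame

/-- **TW-GRP (SS).**  Every normal subgroup with abelian quotient contains an element whose
image has two distinct eigenvalues. -/
def H42GrpSS : Prop :=
  ∀ (p : ℕ) [Fact p.Prime] (k : Type) [Field k] [Finite k] [CharP k p]
    (V : Type) [AddCommGroup V] [Module k V] [Module.Finite k V] (Γ : Type) [Group Γ]
    (ρ : Γ →* Module.End k V) (χ : Γ →* (ZMod p)ˣ), H42TW p ρ χ →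
    ∀ Γ' : Subgroup Γ, (∀ σ τ : Γ, σ * τ * σ⁻¹ * τ⁻¹ ∈ Γ') →
      ∃ σ ∈ Γ', ∃ α β : k, α ≠ β ∧ LinearMap.charpoly (ρ σ) = (X - C α) * (X - C β)

/-- **TW-GRP (IRR).**  `ad⁰` is irreducible: a nonzero subspace of trace zero endomorphisms
which is stable under conjugation by `ρ Γ` contains all trace zero endomorphisms. -/
def H42GrpIrr : Prop :=
  ∀ (p : ℕ) [Fact p.Prime] (k : Type) [Field k] [Finite k] [CharP k p]
    (V : Type) [AddCommGroup V] [Module k V] [Module.Finite k V] (Γ : Type) [Group Γ]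
    (ρ : Γ →* Module.End k V) (χ : Γ →* (ZMod p)ˣ), H42TW p ρ χ →
    ∀ W : Submodule k (Module.End k V), W ≠ ⊥ →
      (∀ X ∈ W, LinearMap.trace k V X = 0) →
      (∀ σ : Γ, ∀ X ∈ W, ρ σ * X * ρ σ⁻¹ ∈ W) →
      ∀ X : Module.End k V, LinearMap.trace k V X = 0 → X ∈ W

/-- **TW-GRP (H1).**  A cocycle with values in `ad⁰(1)` which vanishes on `ker ρ ∩ ker ε`
is a coboundary. -/
def H42GrpH1 : Prop :=
  ∀ (p : ℕ) [Fact p.Prime] (k : Type) [Field k] [Finite k] [CharP k p]
    (V : Type) [AddCommGroup V] [Module k V] [Module.Finite k V] (Γ : Type) [Group Γ]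
    (ρ : Γ →* Module.End k V) (χ : Γ →* (ZMod p)ˣ), H42TW p ρ χ →
    ∀ (E : Type) [CommGroup E] (ε : Γ →* E) (f : Γ → Module.End k V), H42Coc p ρ χ f →
      (∀ σ : Γ, ρ σ = 1 → ε σ = 1 → f σ = 0) →
      ∃ X : Module.End k V, LinearMap.trace k V X = 0 ∧
        ∀ σ : Γ, f σ = h42g_act p ρ χ σ X - X

/-- **TW-GRP (H1), easy cases.**  The statement of `H42GrpH1` when the image of `ρ` contains a
scalar `lam` with `lam ^ 2 ≠ 1`, or contains no element of order `p` (no `σ` with `ρ σ ≠ 1`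
and `(ρ σ - 1) ^ 2 = 0`). -/
def H42GrpH1Easy : Prop :=
  ∀ (p : ℕ) [Fact p.Prime] (k : Type) [Field k] [Finite k] [CharP k p]
    (V : Type) [AddCommGroup V] [Module k V] [Module.Finite k V] (Γ : Type) [Group Γ]
    (ρ : Γ →* Module.End k V) (χ : Γ →* (ZMod p)ˣ), H42TW p ρ χ →
    ((∃ (σ : Γ) (lam : k), ρ σ = lam • (1 : Module.End k V) ∧ lam ^ 2 ≠ 1) ∨
      (∀ σ : Γ, (ρ σ - 1) * (ρ σ - 1) = 0 → ρ σ = 1)) →
    ∀ (f : Γ → Module.End k V), H42Coc p ρ χ f → (∀ σ : Γ, ρ σ = 1 → f σ = 0) →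
      ∃ X : Module.End k V, LinearMap.trace k V X = 0 ∧
        ∀ σ : Γ, f σ = h42g_act p ρ χ σ X - X

/-- **TW-GRP (C3-EMPTY).**  For `p ≥ 5`: if the image of `ρ` contains an element of order `p`
then it contains a scalar `lam` with `lam ^ 2 ≠ 1`.  (DICKSON-LITE applied to the images of
`Γ` and of `ker χ` in `PGL₂(k)`: their orders are `(q + 1) q t`, `(q + 1) q t₁` with
`t, t₁ ∈ {(q - 1) / 2, q - 1}` and `t = (p - 1) t₁` if all scalars are `± 1`.) -/
def H42GrpC3Empty : Prop :=
  ∀ (p : ℕ) [Fact p.Prime] (k : Type) [Field k] [Finite k] [CharP k p]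
    (V : Type) [AddCommGroup V] [Module k V] [Module.Finite k V] (Γ : Type) [Group Γ]
    (ρ : Γ →* Module.End k V) (χ : Γ →* (ZMod p)ˣ), H42TW p ρ χ → 5 ≤ p →
    (∃ σ : Γ, ρ σ ≠ 1 ∧ (ρ σ - 1) * (ρ σ - 1) = 0) →
    ∃ (σ : Γ) (lam : k), ρ σ = lam • (1 : Module.End k V) ∧ lam ^ 2 ≠ 1

/-- **TW-GRP (C3-P3).**  The statement of `H42GrpH1` for `p = 3` when the image of `ρ` contains
an element of order `3` and all its scalars are `± 1`. -/
def H42GrpC3P3 : Prop :=
  ∀ (k : Type) [Field k] [Finite k] [CharP k 3]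
    (V : Type) [AddCommGroup V] [Module k V] [Module.Finite k V] (Γ : Type) [Group Γ]
    (ρ : Γ →* Module.End k V) (χ : Γ →* (ZMod 3)ˣ),
    haveI : Fact (Nat.Prime 3) := ⟨Nat.prime_three⟩
    H42TW 3 ρ χ →
    (∃ σ : Γ, ρ σ ≠ 1 ∧ (ρ σ - 1) * (ρ σ - 1) = 0) →
    (∀ (σ : Γ) (lam : k), ρ σ = lam • (1 : Module.End k V) → lam ^ 2 = 1) →
    ∀ (f : Γ → Module.End k V), H42Coc 3 ρ χ f → (∀ σ : Γ, ρ σ = 1 → f σ = 0) →
      ∃ X : Module.End k V, LinearMap.trace k V X = 0 ∧
        ∀ σ : Γ, f σ = h42g_act 3 ρ χ σ X - X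

/-- **TW-GRP assembly**: `(H1)` from `(IRR)`, the easy cases, `(C3-EMPTY)` and `(C3-P3)`. -/
def H42GrpH1Assembly : Prop :=
  H42GrpIrr → H42GrpH1Easy → H42GrpC3Empty → H42GrpC3P3 → H42GrpH1

/-! ## The abstract orbit count -/

/-- The hypotheses of DICKSON-LITE: a finite group `G` acting on `P`, with the subgroups
`U x` (identity and the parabolic elements fixing `x`). -/
structure H42DLHyp (p : ℕ) (G : Type) [Group G] (P : Type) [MulAction G P]
    (U : P → Subgroup G) : Prop where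
  /-- every non-identity element has one or two fixed points -/
  fix : ∀ g : G, g ≠ 1 → (MulAction.fixedBy P g).ncard = 1 ∨ (MulAction.fixedBy P g).ncard = 2
  /-- `U x` consists of the identity and the elements whose only fixed point is `x` -/
  mem_U : ∀ (x : P) (g : G), g ∈ U x ↔ g = 1 ∨ MulAction.fixedBy P g = {x}
  /-- `U x` is a `p`-group -/
  pgroup : ∀ x : P, IsPGroup p (U x)
  /-- `U x` is commutative -/
  comm : ∀ (x : P) (u v : G), u ∈ U x → v ∈ U x → u * v = v * u
  /-- elements with two fixed points have order prime to `p` -/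
  hyp_order : ∀ g : G, (MulAction.fixedBy P g).ncard = 2 → ¬ p ∣ orderOf g
  /-- an element fixing `x` outside `U x` commutes with no non-identity element of `U x` -/
  free : ∀ (x : P) (g u : G), g • x = x → g ∉ U x → u ∈ U x → u ≠ 1 → g * u ≠ u * g
  /-- there are at least two points with parabolic elements -/
  two : ∃ x y : P, x ≠ y ∧ U x ≠ ⊥ ∧ U y ≠ ⊥

/-- **DICKSON-LITE.**  Under `H42DLHyp`, if the groups `U x ≠ ⊥` have order `q ≥ 5` then
`#G = (q + 1) q t` with `t = (q - 1) / 2` or `t = q - 1`; moreover `#Stab x = q t` and the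
stabiliser of `x` acts transitively on the other points with parabolic elements when
`U x ≠ ⊥`. -/
def H42DickLite : Prop :=
  ∀ (p : ℕ) [Fact p.Prime] (G : Type) [Group G] [Finite G] (P : Type) [MulAction G P]
    (U : P → Subgroup G), H42DLHyp p G P U →
    ∀ x₀ : P, U x₀ ≠ ⊥ → 5 ≤ Nat.card (U x₀) →
      ∃ t : ℕ, (2 * t = Nat.card (U x₀) - 1 ∨ t = Nat.card (U x₀) - 1) ∧
        Nat.card G = (Nat.card (U x₀) + 1) * Nat.card (U x₀) * t ∧
        Nat.card (MulAction.stabilizer G x₀) = Nat.card (U x₀) * t ∧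
        ∀ y z : P, y ≠ x₀ → z ≠ x₀ → U y ≠ ⊥ → U z ≠ ⊥ → ∃ u ∈ U x₀, u • y = z

end Fermat.Agent.S56
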