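import Fermat.Agent.S56.Skeleton
import Fermat.Agent.S56.H42Alg

/-!
# S56, row TOP-NAK (helper42): `h42a_nak : H56Nak`

The frozen interface `H56Nak` of `S56/Skeleton.lean` (default `Algebra 𝒪 k[ε]` instance of
Mathlib) from the counting form `h42a_exists_surj_of_card_le'` of `S56/H42Alg.lean`.
-/

set_option autoImplicit false
set_option linter.style.haveILetI false

noncomputable section

namespace Fermat.Agent.S56

open IsLocalRing

/-- the structure map of the default algebra structure of `k[ε]` over `𝒪`. -/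
theorem h42a_algebraMap_dualNumber {𝒪 : Type} [CommRing 𝒪] [IsLocalRing 𝒪] (c : 𝒪) :
    algebraMap 𝒪 (DualNumber (ResidueField 𝒪)) c = TrivSqZeroExt.inl (residue 𝒪 c) :=
  rfl

/-- **TOP-NAK.** -/
theorem h42a_nak : H56Nak := by
  classical
  intro 𝒪 _ _ _ _ _ ρbar 𝒟 DQ r hT
  haveI : Finite (DQ.R →ₐ[𝒪] DualNumber (ResidueField 𝒪)) :=
    h42a_finite_tangent (R := DQ.R) h42a_algebraMap_dualNumber DQ.residue_surjective
  haveI : Fintype (DQ.R →ₐ[𝒪] DualNumber (ResidueField 𝒪)) := Fintype.ofFinite _
  refine h42a_exists_surj_of_card_le' h42a_algebraMap_dualNumber DQ.residue_surjective r ?_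
  rw [Nat.card_eq_fintype_card, ← Finset.card_univ]
  exact hT Finset.univ

end Fermat.Agent.S56
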