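import Fermat.Agent.S56.Skeleton

/-!
# S56, block DEF, leaves DEF-C1 … DEF-C4 (helper45): base change stability of the conditions

`ρ : GaloisRepAdic A`, `φ : A →+* B` a local homomorphism of local rings,
`ρ' = ρ.baseChangeAlong φ hφ`.  Then `ρ'` inherits from `ρ`:

* `h45b_detIsCyclotomic_baseChange`   (C1) `DetIsCyclotomic p`;
* `h45b_isUnramifiedAt_baseChange`    (C2) `IsUnramifiedAt q`;
* `h45b_isUnipotent_baseChange`       (C3) `IsUnipotentOnInertiaAt q`;
* `h45b_isStrictOrdinaryAt_baseChange` (C4) `IsStrictOrdinaryAt p`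
  (and `h45b_isOrdinaryAt_baseChange`);
* `h45b_condStr_baseChange` : the strict-ordinary deformation condition `h56t_condStr`;
* `h45b_condFl_baseChange_of` : the flat deformation condition `h56t_condFl`, given the
  flatness of the base change (leaf DEF-C5).

The `𝒪`-algebra structures on `A` and `B` play no role.
-/

set_option autoImplicit false

open scoped TensorProduct
open IsLocalRing

noncomputable section

namespace Fermat.Agent.S56

variable {A B : Type} [CommRing A] [IsLocalRing A] [CommRing B] [IsLocalRing B]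

/-- the action of the base change, unfolded. -/
theorem h45b_baseChange_rho (ρ : GaloisRepAdic A) (φ : A →+* B) (hφ : IsLocalHom φ)
    (σ : AlgebraicClosure ℚ ≃ₐ[ℚ] AlgebraicClosure ℚ) :
    letI : Algebra A B := φ.toAlgebra
    (ρ.baseChangeAlong φ hφ).ρ σ = (ρ.ρ σ).baseChange B := rfl

/-- a local homomorphism maps the maximal ideal into the maximal ideal. -/
theorem h45b_map_mem_maximalIdeal (φ : A →+* B) (hφ : IsLocalHom φ) {a : A}
    (ha : a ∈ maximalIdeal A) : φ a ∈ maximalIdeal B :=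
  haveI := hφ
  map_nonunit φ a ha

/-- **DEF-C2.**  Unramifiedness is stable under base change. -/
theorem h45b_isUnramifiedAt_baseChange (ρ : GaloisRepAdic A) (φ : A →+* B)
    (hφ : IsLocalHom φ) (q : ℕ) (h : ρ.IsUnramifiedAt q) :
    (ρ.baseChangeAlong φ hφ).IsUnramifiedAt q := by
  intro P hP σ hσ
  letI : Algebra A B := φ.toAlgebra
  have h1 : (ρ.ρ σ).baseChange B = 1 := by rw [h P hP σ hσ, LinearMap.baseChange_one]
  exact h1

/-- the determinant of the base change. -/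
theorem h45b_det_baseChange (ρ : GaloisRepAdic A) (φ : A →+* B) (hφ : IsLocalHom φ)
    (σ : AlgebraicClosure ℚ ≃ₐ[ℚ] AlgebraicClosure ℚ) :
    LinearMap.det ((ρ.baseChangeAlong φ hφ).ρ σ) = φ (LinearMap.det (ρ.ρ σ)) := by
  letI : Algebra A B := φ.toAlgebra
  have h1 : LinearMap.det ((ρ.ρ σ).baseChange B) = algebraMap A B (LinearMap.det (ρ.ρ σ)) :=
    LinearMap.det_baseChange (ρ.ρ σ)
  exact h1

/-- the characteristic polynomial of the base change. -/
theorem h45b_charpoly_baseChange (ρ : GaloisRepAdic A) (φ : A →+* B) (hφ : IsLocalHom φ)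
    (σ : AlgebraicClosure ℚ ≃ₐ[ℚ] AlgebraicClosure ℚ) :
    LinearMap.charpoly ((ρ.baseChangeAlong φ hφ).ρ σ) =
      (LinearMap.charpoly (ρ.ρ σ)).map φ := by
  letI : Algebra A B := φ.toAlgebra
  have h1 : LinearMap.charpoly ((ρ.ρ σ).baseChange B) =
      (LinearMap.charpoly (ρ.ρ σ)).map (algebraMap A B) :=
    LinearMap.charpoly_baseChange (ρ.ρ σ) B
  exact h1

omit [IsLocalRing A] [IsLocalRing B] in
/-- `φ` maps the ideal `(p ^ n)` into the ideal `(p ^ n)`. -/
theorem h45b_map_mem_span (φ : A →+* B) (m : ℕ) {a : A}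
    (ha : a ∈ Ideal.span {((m : ℕ) : A)}) : φ a ∈ Ideal.span {((m : ℕ) : B)} := by
  obtain ⟨c, rfl⟩ := Ideal.mem_span_singleton'.mp ha
  rw [map_mul, map_natCast]
  exact Ideal.mul_mem_left _ _ (Ideal.mem_span_singleton_self _)

/-- **DEF-C1.**  `DetIsCyclotomic` is stable under base change. -/
theorem h45b_detIsCyclotomic_baseChange (ρ : GaloisRepAdic A) (φ : A →+* B)
    (hφ : IsLocalHom φ) (p : ℕ) (h : ρ.DetIsCyclotomic p) :
    (ρ.baseChangeAlong φ hφ).DetIsCyclotomic p := by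
  refine ⟨?_, fun n σ a ha => ?_⟩
  · have h1 := h45b_map_mem_maximalIdeal φ hφ h.1
    rwa [map_natCast] at h1
  · have h1 := h45b_map_mem_span φ (p ^ n) (h.2 n σ a ha)
    rwa [map_sub, map_natCast, ← h45b_det_baseChange ρ φ hφ σ] at h1

/-- **DEF-C3.**  Unipotence on inertia is stable under base change. -/
theorem h45b_isUnipotent_baseChange (ρ : GaloisRepAdic A) (φ : A →+* B)
    (hφ : IsLocalHom φ) (q : ℕ) (h : ρ.IsUnipotentOnInertiaAt q) :
    (ρ.baseChangeAlong φ hφ).IsUnipotentOnInertiaAt q := by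
  intro P hP σ hσ
  rw [h45b_charpoly_baseChange, h P hP σ hσ]
  simp

/-! ## Lines -/

section Line

variable (ρ : GaloisRepAdic A) (φ : A →+* B) (hφ : IsLocalHom φ)

/-- the base change of a basis, as a basis of the representation space of the base change. -/
def h45b_basis (b : Module.Basis (Fin 2) A ρ.V) :
    Module.Basis (Fin 2) B (ρ.baseChangeAlong φ hφ).V :=
  letI : Algebra A B := φ.toAlgebra
  (b.baseChange B : Module.Basis (Fin 2) B (B ⊗[A] ρ.V))

section Tensor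

variable [Algebra A B]

omit [IsLocalRing B] in
/-- pure tensors with second factor in the line `A ∙ v₀` lie in the line `B ∙ (1 ⊗ v₀)`. -/
theorem h45b_tmul_mem (v₀ : ρ.V) (c : B) {w : ρ.V} (hw : w ∈ Submodule.span A {v₀}) :
    (c ⊗ₜ[A] w : B ⊗[A] ρ.V) ∈ Submodule.span B {((1 : B) ⊗ₜ[A] v₀ : B ⊗[A] ρ.V)} := by
  obtain ⟨a, rfl⟩ := Submodule.mem_span_singleton.mp hw
  have h1 : (c ⊗ₜ[A] (a • v₀) : B ⊗[A] ρ.V) =
      (c * algebraMap A B a) • ((1 : B) ⊗ₜ[A] v₀) := by
    rw [TensorProduct.smul_tmul', smul_eq_mul, mul_one, ← TensorProduct.smul_tmul,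
      Algebra.smul_def, mul_comm]
  rw [h1]
  exact Submodule.smul_mem _ _ (Submodule.mem_span_singleton_self _)

omit [IsLocalRing B] in
/-- if `f w - z • w ∈ A ∙ v₀` for all `w`, then `f_B x - z • x ∈ B ∙ (1 ⊗ v₀)` for all `x`. -/
theorem h45b_baseChange_sub_mem (v₀ : ρ.V) (f : Module.End A ρ.V) (z : A)
    (hf : ∀ w : ρ.V, f w - z • w ∈ Submodule.span A {v₀}) (x : B ⊗[A] ρ.V) :
    f.baseChange B x - algebraMap A B z • x ∈
      Submodule.span B {((1 : B) ⊗ₜ[A] v₀ : B ⊗[A] ρ.V)} := by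
  induction x using TensorProduct.induction_on with
  | zero => simp
  | tmul c w =>
    have h1 : f.baseChange B (c ⊗ₜ[A] w) - algebraMap A B z • (c ⊗ₜ[A] w) =
        c ⊗ₜ[A] (f w - z • w) := by
      rw [LinearMap.baseChange_tmul, TensorProduct.tmul_sub, TensorProduct.smul_tmul',
        ← TensorProduct.smul_tmul, smul_eq_mul, Algebra.smul_def]
    rw [h1]
    exact h45b_tmul_mem ρ v₀ c (hf w)
  | add x y hx hy =>
    have h1 : f.baseChange B (x + y) - algebraMap A B z • (x + y) =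
        (f.baseChange B x - algebraMap A B z • x) +
          (f.baseChange B y - algebraMap A B z • y) := by
      rw [map_add, smul_add]; abel
    rw [h1]
    exact Submodule.add_mem _ hx hy

omit [IsLocalRing B] in
/-- if `f w = x • w` on the line `A ∙ v₀`, then `f_B y = x • y` on the line
`B ∙ (1 ⊗ v₀)`. -/
theorem h45b_baseChange_eq_smul (v₀ : ρ.V) (f : Module.End A ρ.V) (x : A)
    (hf : ∀ w ∈ Submodule.span A {v₀}, f w = x • w)
    (y : B ⊗[A] ρ.V) (hy : y ∈ Submodule.span B {((1 : B) ⊗ₜ[A] v₀ : B ⊗[A] ρ.V)}) :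
    f.baseChange B y = algebraMap A B x • y := by
  obtain ⟨c, rfl⟩ := Submodule.mem_span_singleton.mp hy
  have h0 : f v₀ = x • v₀ := hf v₀ (Submodule.mem_span_singleton_self _)
  have h1 : f.baseChange B ((1 : B) ⊗ₜ[A] v₀) = algebraMap A B x • ((1 : B) ⊗ₜ[A] v₀) := by
    rw [LinearMap.baseChange_tmul, h0, ← TensorProduct.smul_tmul, TensorProduct.smul_tmul',
      Algebra.smul_def, smul_eq_mul]
  rw [map_smul, h1, smul_comm]

omit [IsLocalRing B] in
/-- if `f` preserves the line `A ∙ v₀`, then `f_B` preserves the line `B ∙ (1 ⊗ v₀)`. -/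
theorem h45b_baseChange_stable (v₀ : ρ.V) (f : Module.End A ρ.V)
    (hf : ∀ w ∈ Submodule.span A {v₀}, f w ∈ Submodule.span A {v₀})
    (y : B ⊗[A] ρ.V) (hy : y ∈ Submodule.span B {((1 : B) ⊗ₜ[A] v₀ : B ⊗[A] ρ.V)}) :
    f.baseChange B y ∈ Submodule.span B {((1 : B) ⊗ₜ[A] v₀ : B ⊗[A] ρ.V)} := by
  obtain ⟨c, rfl⟩ := Submodule.mem_span_singleton.mp hy
  rw [map_smul, LinearMap.baseChange_tmul]
  exact Submodule.smul_mem _ _
    (h45b_tmul_mem ρ v₀ 1 (hf v₀ (Submodule.mem_span_singleton_self _)))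

end Tensor

variable (b : Module.Basis (Fin 2) A ρ.V) (σ : AlgebraicClosure ℚ ≃ₐ[ℚ] AlgebraicClosure ℚ)

/-- stability of the line under the base change. -/
theorem h45b_line_stable
    (hf : ∀ w ∈ Submodule.span A {b 0}, ρ.ρ σ w ∈ Submodule.span A {b 0}) :
    ∀ v ∈ Submodule.span B {h45b_basis ρ φ hφ b 0},
      (ρ.baseChangeAlong φ hφ).ρ σ v ∈ Submodule.span B {h45b_basis ρ φ hφ b 0} := by
  letI : Algebra A B := φ.toAlgebra
  have key : ∀ y ∈ Submodule.span B {(b.baseChange B) 0},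
      (ρ.ρ σ).baseChange B y ∈ Submodule.span B {(b.baseChange B) 0} := by
    intro y hy
    rw [Module.Basis.baseChange_apply] at hy ⊢
    exact h45b_baseChange_stable ρ (b 0) (ρ.ρ σ) hf y hy
  exact key

/-- the base change acts by `φ z` modulo the line. -/
theorem h45b_line_sub_mem (z : A)
    (hf : ∀ w : ρ.V, ρ.ρ σ w - z • w ∈ Submodule.span A {b 0}) :
    ∀ v : (ρ.baseChangeAlong φ hφ).V,
      (ρ.baseChangeAlong φ hφ).ρ σ v - φ z • v ∈
        Submodule.span B {h45b_basis ρ φ hφ b 0} := by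
  letI : Algebra A B := φ.toAlgebra
  have key : ∀ y : B ⊗[A] ρ.V,
      (ρ.ρ σ).baseChange B y - algebraMap A B z • y ∈
        Submodule.span B {(b.baseChange B) 0} := by
    intro y
    rw [Module.Basis.baseChange_apply]
    exact h45b_baseChange_sub_mem ρ (b 0) (ρ.ρ σ) z hf y
  exact key

/-- the base change acts trivially modulo the line. -/
theorem h45b_line_sub_mem_one
    (hf : ∀ w : ρ.V, ρ.ρ σ w - w ∈ Submodule.span A {b 0}) :
    ∀ v : (ρ.baseChangeAlong φ hφ).V,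
      (ρ.baseChangeAlong φ hφ).ρ σ v - v ∈ Submodule.span B {h45b_basis ρ φ hφ b 0} := by
  intro v
  have h1 := h45b_line_sub_mem ρ φ hφ b σ 1 (fun w => by rw [one_smul]; exact hf w) v
  rwa [map_one, one_smul] at h1

/-- the base change acts by `φ x` on the line. -/
theorem h45b_line_eq_smul (x : A)
    (hf : ∀ w ∈ Submodule.span A {b 0}, ρ.ρ σ w = x • w) :
    ∀ v ∈ Submodule.span B {h45b_basis ρ φ hφ b 0},
      (ρ.baseChangeAlong φ hφ).ρ σ v = φ x • v := by
  letI : Algebra A B := φ.toAlgebra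
  have key : ∀ y ∈ Submodule.span B {(b.baseChange B) 0},
      (ρ.ρ σ).baseChange B y = algebraMap A B x • y := by
    intro y hy
    rw [Module.Basis.baseChange_apply] at hy
    exact h45b_baseChange_eq_smul ρ (b 0) (ρ.ρ σ) x hf y hy
  exact key

end Line

/-- **DEF-C4 (ordinary part).**  Ordinarity is stable under base change. -/
theorem h45b_isOrdinaryAt_baseChange (ρ : GaloisRepAdic A) (φ : A →+* B)
    (hφ : IsLocalHom φ) (p : ℕ) (h : ρ.IsOrdinaryAt p) :
    (ρ.baseChangeAlong φ hφ).IsOrdinaryAt p := by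
  intro P hP
  obtain ⟨L, ⟨b, rfl⟩, hD, hI⟩ := h P hP
  exact ⟨Submodule.span B {h45b_basis ρ φ hφ b 0}, ⟨h45b_basis ρ φ hφ b, rfl⟩,
    fun σ hσ => h45b_line_stable ρ φ hφ b σ (hD σ hσ),
    fun σ hσ => h45b_line_sub_mem_one ρ φ hφ b σ (hI σ hσ)⟩

/-- **DEF-C4.**  Strict ordinarity is stable under base change. -/
theorem h45b_isStrictOrdinaryAt_baseChange (ρ : GaloisRepAdic A) (φ : A →+* B)
    (hφ : IsLocalHom φ) (p : ℕ) (h : ρ.IsStrictOrdinaryAt p) :
    (ρ.baseChangeAlong φ hφ).IsStrictOrdinaryAt p := by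
  refine ⟨?_, fun P hP => ?_⟩
  · have h1 := h45b_map_mem_maximalIdeal φ hφ h.1
    rwa [map_natCast] at h1
  obtain ⟨L, ⟨b, rfl⟩, hD, hI, hS⟩ := h.2 P hP
  refine ⟨Submodule.span B {h45b_basis ρ φ hφ b 0}, ⟨h45b_basis ρ φ hφ b, rfl⟩,
    fun σ hσ => h45b_line_stable ρ φ hφ b σ (hD σ hσ),
    fun σ hσ => h45b_line_sub_mem_one ρ φ hφ b σ (hI σ hσ), fun σ hσ => ?_⟩
  obtain ⟨x, z, hx, hz, hxz⟩ := hS σ hσ
  refine ⟨φ x, φ z, h45b_line_eq_smul ρ φ hφ b σ x hx, h45b_line_sub_mem ρ φ hφ b σ z hz,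
    fun n a ha => ?_⟩
  have h1 := h45b_map_mem_span φ (p ^ n) (hxz n a ha)
  rwa [map_sub, map_mul, map_natCast] at h1

/-! ## The deformation conditions -/

section Cond

variable (𝒪 : Type) [CommRing 𝒪] [Algebra 𝒪 A] [Algebra 𝒪 B]

/-- the strict-ordinary condition `𝒟_Q` is stable under base change. -/
theorem h45b_condStr_baseChange (p : ℕ) (Smin Q : Finset ℕ) (ρ : GaloisRepAdic A)
    (φ : A →+* B) (hφ : IsLocalHom φ) (h : h56t_condStr 𝒪 p Smin Q ρ) :
    h56t_condStr 𝒪 p Smin Q (ρ.baseChangeAlong φ hφ) := by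
  obtain ⟨⟨hdet, hstr, hunr⟩, hunip⟩ := h
  exact ⟨⟨h45b_detIsCyclotomic_baseChange ρ φ hφ p hdet,
    h45b_isStrictOrdinaryAt_baseChange ρ φ hφ p hstr,
    fun q hq hqS => h45b_isUnramifiedAt_baseChange ρ φ hφ q (hunr q hq hqS)⟩,
    fun q hq hqp hne => h45b_isUnipotent_baseChange ρ φ hφ q (hunip q hq hqp hne)⟩

/-- the flat condition `𝒟_Q` is stable under base change, given the flatness of the base
change (leaf DEF-C5). -/
theorem h45b_condFl_baseChange_of (p : ℕ) (Smin Q : Finset ℕ) (ρ : GaloisRepAdic A)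
    (φ : A →+* B) (hφ : IsLocalHom φ) (h : h56t_condFl 𝒪 p Smin Q ρ)
    (hflat : (ρ.baseChangeAlong φ hφ).IsFlatAt p) :
    h56t_condFl 𝒪 p Smin Q (ρ.baseChangeAlong φ hφ) := by
  obtain ⟨⟨hdet, -, hunr⟩, hunip⟩ := h
  exact ⟨⟨h45b_detIsCyclotomic_baseChange ρ φ hφ p hdet, hflat,
    fun q hq hqS => h45b_isUnramifiedAt_baseChange ρ φ hφ q (hunr q hq hqS)⟩,
    fun q hq hqp hne => h45b_isUnipotent_baseChange ρ φ hφ q (hunip q hq hqp hne)⟩

end Cond

end Fermat.Agent.S56
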