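import Fermat.Agent.S56.ChebIface
import Fermat.Agent.S56G.H48Iface
import Fermat.Agent.S14.GlueCoc.Degree

/-!
# S56, CHEB-H1-ADAPT (helper48, prefix `h48a_`)

`h48a_h1Van_of : H48GVanish → H56H0Van → H56H1Van` : the Galois form of DDT Lemma 2.48
(`H¹(Gal(K_n/ℚ), ad⁰ ρbar (1)) = 0`) from the matrix form `H48GVanish`
(`H¹(G, ad⁰ ⊗ det) = 0` for the image `G ≤ GL₂(k)` of `ρbar`) and `H⁰(G_ℚ, ad⁰ ρbar (1)) = 0`.

* Step 0 (inflation–restriction): a cocycle `ψ` which vanishes on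
  `ker ρbar ∩ G_{ℚ(ζ_{p^(n+1)})}` vanishes on `ker ρbar`: for `τ ∈ ker ρbar` the commutator
  `g τ g⁻¹ τ⁻¹` lies in `ker ρbar ∩ G_{ℚ(μ)}` (the action on roots of unity is abelian), whence
  `g · ψ τ = ψ (g τ g⁻¹) = ψ τ`, so `ψ τ ∈ H⁰ = 0`.
* Step 1: in a basis of `ρbar.V`, `ψ` descends to a cocycle on the image of `ρbar`.
* Step 2: the hypotheses of `H48GVanish` (eigenvectors over `k`; irreducibility; a determinant
  which is a non-square of `𝔽_p`, by the surjectivity of the cyclotomic character).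
-/

set_option autoImplicit false

open Polynomial ExtCitation
open scoped TensorProduct

noncomputable section

namespace Fermat.Agent.S56

open Fermat.Agent.PT Fermat.Agent.S56L Fermat.Agent.S56G

variable {k : Type} [Field k]

/-! ## roots of unity -/
/-- two elements of `G_ℚ` commute on roots of unity. -/
theorem h48a_comm_mu (m : ℕ) (hm : 0 < m) (σ τ : GQ) (μ : AlgebraicClosure ℚ)
    (hμ : μ ^ m = 1) : σ (τ μ) = τ (σ μ) := by
  have : NeZero m := ⟨hm.ne'⟩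
  obtain ⟨a, ha⟩ := rootsOfUnity.integer_power_of_ringEquiv m
    (σ : AlgebraicClosure ℚ ≃+* AlgebraicClosure ℚ)
  obtain ⟨b, hb⟩ := rootsOfUnity.integer_power_of_ringEquiv m
    (τ : AlgebraicClosure ℚ ≃+* AlgebraicClosure ℚ)
  have hu : IsUnit μ := IsUnit.of_pow_eq_one hμ hm.ne'
  obtain ⟨u, rfl⟩ := hu
  have hmem : u ∈ rootsOfUnity m (AlgebraicClosure ℚ) := by
    rw [mem_rootsOfUnity]
    exact Units.ext (by simpa using hμ)
  have hmema : u ^ a ∈ rootsOfUnity m (AlgebraicClosure ℚ) := zpow_mem hmem a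
  have hmemb : u ^ b ∈ rootsOfUnity m (AlgebraicClosure ℚ) := zpow_mem hmem b
  have h1 : σ (u : AlgebraicClosure ℚ) = ((u ^ a : (AlgebraicClosure ℚ)ˣ) : AlgebraicClosure ℚ) :=
    ha ⟨u, hmem⟩
  have h2 : τ (u : AlgebraicClosure ℚ) = ((u ^ b : (AlgebraicClosure ℚ)ˣ) : AlgebraicClosure ℚ) :=
    hb ⟨u, hmem⟩
  have h3 : σ ((u ^ b : (AlgebraicClosure ℚ)ˣ) : AlgebraicClosure ℚ)
      = (((u ^ b) ^ a : (AlgebraicClosure ℚ)ˣ) : AlgebraicClosure ℚ) :=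
    ha ⟨u ^ b, hmemb⟩
  have h4 : τ ((u ^ a : (AlgebraicClosure ℚ)ˣ) : AlgebraicClosure ℚ)
      = (((u ^ a) ^ b : (AlgebraicClosure ℚ)ˣ) : AlgebraicClosure ℚ) :=
    hb ⟨u ^ a, hmema⟩
  rw [h1, h2, h3, h4, ← zpow_mul, ← zpow_mul, mul_comm]

/-- a commutator fixes the roots of unity. -/
theorem h48a_commutator_mu (m : ℕ) (hm : 0 < m) (σ τ : GQ) (μ : AlgebraicClosure ℚ)
    (hμ : μ ^ m = 1) : (σ * τ * σ⁻¹ * τ⁻¹) μ = μ := by
  have hν : ((σ⁻¹ * τ⁻¹ : GQ) μ) ^ m = 1 := by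
    rw [← map_pow, hμ, map_one]
  have h := h48a_comm_mu m hm σ τ _ hν
  have e1 : (σ * τ * σ⁻¹ * τ⁻¹) μ = σ (τ ((σ⁻¹ * τ⁻¹ : GQ) μ)) := by
    simp only [AlgEquiv.mul_apply]
  rw [e1, h]
  have e2 : τ (σ ((σ⁻¹ * τ⁻¹ : GQ) μ)) = (τ * σ * (σ⁻¹ * τ⁻¹)) μ := by
    simp only [AlgEquiv.mul_apply]
  have e3 : τ * σ * (σ⁻¹ * τ⁻¹) = 1 := by group
  rw [e2, e3, AlgEquiv.one_apply]

/-! ## cocycle identities -/

theorem h48a_coc {V : Type} [AddCommGroup V] [Module k V] (ρ : Representation k GQ V)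
    {ψ : GQ → V} (hψ : ψ ∈ Z1 levFin ρ) (g h : GQ) :
    ψ (g * h) = ψ g + ρ g (ψ h) := by
  have h1 := congrFun (LinearMap.mem_ker.mp hψ.1) (g, h)
  rw [d1_apply] at h1
  have h2 : ρ g (ψ h) - ψ (g * h) + ψ g = 0 := h1
  rw [sub_add_eq_add_sub, sub_eq_zero] at h2
  rw [← h2, add_comm]

theorem h48a_coc_one {V : Type} [AddCommGroup V] [Module k V] (ρ : Representation k GQ V)
    {ψ : GQ → V} (hψ : ψ ∈ Z1 levFin ρ) : ψ 1 = 0 := by
  have h := h48a_coc ρ hψ 1 1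
  rw [mul_one, map_one, Module.End.one_apply] at h
  exact left_eq_add.mp h

/-! ## Step 0: vanishing on `ker ρbar` -/

theorem h48a_rho_inv_eq_one (ρbar : ResidualGaloisRep k) {τ : GQ} (hτ : ρbar.ρ τ = 1) :
    ρbar.ρ τ⁻¹ = 1 := by
  have h := h14l_rho_inv_mul ρbar τ
  rwa [hτ, mul_one] at h

theorem h48a_cyc_eq_one (p : ℕ) [Fact p.Prime] [CharP k p] {ρbar : ResidualGaloisRep k}
    (hyp : h56c_Hyp p ρbar) {τ : GQ} (hτ : ρbar.ρ τ = 1) : h56c_cyc k p τ = 1 := by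
  rw [← hyp.hdet, hτ, map_one]

theorem h48a_tw_eq_self (p : ℕ) [Fact p.Prime] [CharP k p] {ρbar : ResidualGaloisRep k}
    (hyp : h56c_Hyp p ρbar) {τ : GQ} (hτ : ρbar.ρ τ = 1) (X : ↥(h14l_sl ρbar)) :
    h56c_Ad0tw p ρbar τ X = X := by
  apply Subtype.ext
  rw [h56c_Ad0tw_apply, h48a_cyc_eq_one p hyp hτ, one_smul, h14l_Ad0_coe, hτ,
    h48a_rho_inv_eq_one ρbar hτ, one_mul, mul_one]

theorem h48a_ker_vanish (H0 : H56H0Van) (p : ℕ) [Fact p.Prime] [Finite k] [CharP k p]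
    (ρbar : ResidualGaloisRep k) (hyp : h56c_Hyp p ρbar) (n : ℕ)
    (ψ : GQ → ↥(h14l_sl ρbar)) (hψ : ψ ∈ Z1 levFin (h56c_Ad0tw p ρbar))
    (hvan : ∀ τ : GQ, ρbar.ρ τ = 1 →
        (∀ μ : AlgebraicClosure ℚ, μ ^ p ^ (n + 1) = 1 → τ μ = μ) → ψ τ = 0)
    (τ : GQ) (hτ : ρbar.ρ τ = 1) : ψ τ = 0 := by
  have hp : p.Prime := Fact.out
  have hτi := h48a_rho_inv_eq_one ρbar hτ
  apply H0 p k ρbar hyp
  intro g
  have hcρ : ρbar.ρ (g * τ * g⁻¹ * τ⁻¹) = 1 := by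
    rw [map_mul, map_mul, map_mul, hτ, hτi, mul_one, mul_one, h14l_rho_mul_inv]
  have hc : ψ (g * τ * g⁻¹ * τ⁻¹) = 0 :=
    hvan _ hcρ (fun μ hμ => h48a_commutator_mu _ (pow_pos hp.pos _) g τ μ hμ)
  have e1 : ψ (g * τ * g⁻¹) = ψ τ := by
    have e : g * τ * g⁻¹ = (g * τ * g⁻¹ * τ⁻¹) * τ := by group
    rw [e, h48a_coc _ hψ, hc, zero_add, h48a_tw_eq_self p hyp hcρ]
  have e2 : ψ (g * τ * g⁻¹) = h56c_Ad0tw p ρbar g (ψ τ) := by
    have h1 : ψ (g * g⁻¹) = ψ g + h56c_Ad0tw p ρbar g (ψ g⁻¹) := h48a_coc _ hψ g g⁻¹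
    rw [mul_inv_cancel, h48a_coc_one _ hψ] at h1
    rw [mul_assoc, h48a_coc _ hψ g (τ * g⁻¹), h48a_coc _ hψ τ g⁻¹, h48a_tw_eq_self p hyp hτ,
      map_add, ← add_assoc, add_right_comm, ← h1, zero_add]
  rw [← e2, e1]

/-! ## Step 1: matrices -/

/-- `ρbar` in a basis, as a homomorphism to `GL₂(k)`. -/
def h48a_R (ρbar : ResidualGaloisRep k) (b : Module.Basis (Fin 2) k ρbar.V) :
    GQ →* GL (Fin 2) k where
  toFun σ := ⟨LinearMap.toMatrix b b (ρbar.ρ σ), LinearMap.toMatrix b b (ρbar.ρ σ⁻¹),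
    by rw [← LinearMap.toMatrix_mul, h14l_rho_mul_inv, LinearMap.toMatrix_one],
    by rw [← LinearMap.toMatrix_mul, h14l_rho_inv_mul, LinearMap.toMatrix_one]⟩
  map_one' := Units.ext (by simp [LinearMap.toMatrix_one])
  map_mul' σ τ := Units.ext (by simp [LinearMap.toMatrix_mul])

theorem h48a_R_coe (ρbar : ResidualGaloisRep k) (b : Module.Basis (Fin 2) k ρbar.V) (σ : GQ) :
    ((h48a_R ρbar b σ : GL (Fin 2) k) : Matrix (Fin 2) (Fin 2) k) =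
      LinearMap.toMatrix b b (ρbar.ρ σ) := rfl

theorem h48a_R_inv_coe (ρbar : ResidualGaloisRep k) (b : Module.Basis (Fin 2) k ρbar.V)
    (σ : GQ) :
    (((h48a_R ρbar b σ)⁻¹ : GL (Fin 2) k) : Matrix (Fin 2) (Fin 2) k) =
      LinearMap.toMatrix b b (ρbar.ρ σ⁻¹) := rfl

theorem h48a_R_det (p : ℕ) [Fact p.Prime] [CharP k p] {ρbar : ResidualGaloisRep k}
    (hyp : h56c_Hyp p ρbar) (b : Module.Basis (Fin 2) k ρbar.V) (σ : GQ) :
    ((h48a_R ρbar b σ : GL (Fin 2) k) : Matrix (Fin 2) (Fin 2) k).det = h56c_cyc k p σ := by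
  rw [h48a_R_coe, LinearMap.det_toMatrix, hyp.hdet]

theorem h48a_R_eq_iff (ρbar : ResidualGaloisRep k) (b : Module.Basis (Fin 2) k ρbar.V)
    (σ τ : GQ) : h48a_R ρbar b σ = h48a_R ρbar b τ ↔ ρbar.ρ σ = ρbar.ρ τ := by
  constructor
  · intro h
    have h1 := congrArg (fun g : GL (Fin 2) k => (g : Matrix (Fin 2) (Fin 2) k)) h
    exact (LinearMap.toMatrix b b).injective h1
  · intro h
    apply Units.ext
    rw [h48a_R_coe, h48a_R_coe, h]

/-- the twisted action in matrices. -/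
theorem h48a_act_eq (p : ℕ) [Fact p.Prime] [CharP k p] {ρbar : ResidualGaloisRep k}
    (hyp : h56c_Hyp p ρbar) (b : Module.Basis (Fin 2) k ρbar.V) (σ : GQ)
    (X : ↥(h14l_sl ρbar)) :
    LinearMap.toMatrix b b ((h56c_Ad0tw p ρbar σ X : ↥(h14l_sl ρbar)) : Module.End k ρbar.V) =
      h48g_act (h48a_R ρbar b σ) (LinearMap.toMatrix b b (X : Module.End k ρbar.V)) := by
  rw [h48g_act, h48a_R_det p hyp, h48a_R_coe, h48a_R_inv_coe, h56c_Ad0tw_apply,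
    Submodule.coe_smul, h14l_Ad0_coe, map_smul, LinearMap.toMatrix_mul, LinearMap.toMatrix_mul]

/-! ## Step 2: the hypotheses of `H48GVanish` -/

theorem h48a_split (p : ℕ) [Fact p.Prime] [CharP k p] {ρbar : ResidualGaloisRep k}
    (hyp : h56c_Hyp p ρbar) (b : Module.Basis (Fin 2) k ρbar.V) (σ : GQ) :
    ∃ v : Fin 2 → k, v ≠ 0 ∧ ∃ c : k,
      Matrix.mulVec ((h48a_R ρbar b σ : GL (Fin 2) k) : Matrix (Fin 2) (Fin 2) k) v = c • v := by
  obtain ⟨α, β, hαβ⟩ := hyp.hsplit σ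
  have hroot : (LinearMap.charpoly (ρbar.ρ σ)).IsRoot α := by
    rw [hαβ, Polynomial.IsRoot.def, eval_mul, eval_sub, eval_X, eval_C, sub_self, zero_mul]
  have hev : Module.End.HasEigenvalue (ρbar.ρ σ) α :=
    (Module.End.hasEigenvalue_iff_isRoot_charpoly _ _).mpr hroot
  obtain ⟨x, hx⟩ := hev.exists_hasEigenvector
  refine ⟨b.equivFun x, ?_, α, ?_⟩
  · intro h
    exact hx.2 (b.equivFun.map_eq_zero_iff.mp h)
  · rw [h48a_R_coe]
    have h1 := LinearMap.toMatrix_mulVec_repr b b (ρbar.ρ σ) x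
    rw [hx.apply_eq_smul] at h1
    simpa using h1

theorem h48a_no_eigen (ρbar : ResidualGaloisRep k) (habs : ρbar.IsAbsolutelyIrreducible)
    (x : ρbar.V) (hx : x ≠ 0) : ∃ σ : GQ, ∀ c : k, ρbar.ρ σ x ≠ c • x := by
  by_contra hcon
  push Not at hcon
  have hstab : ∀ σ : GQ, ∀ z ∈ Submodule.span (AlgebraicClosure k)
        {((1 : AlgebraicClosure k) ⊗ₜ[k] x : AlgebraicClosure k ⊗[k] ρbar.V)},
      (ρbar.baseChange (AlgebraicClosure k)).ρ σ z ∈ Submodule.span (AlgebraicClosure k)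
        {((1 : AlgebraicClosure k) ⊗ₜ[k] x : AlgebraicClosure k ⊗[k] ρbar.V)} := by
    intro σ z hz
    obtain ⟨a, rfl⟩ := Submodule.mem_span_singleton.mp hz
    obtain ⟨c, hc⟩ := hcon σ
    rw [map_smul]
    apply Submodule.smul_mem
    have h1 : (ρbar.baseChange (AlgebraicClosure k)).ρ σ ((1 : AlgebraicClosure k) ⊗ₜ[k] x)
        = algebraMap k (AlgebraicClosure k) c • ((1 : AlgebraicClosure k) ⊗ₜ[k] x) := by
      show (ρbar.ρ σ).baseChange (AlgebraicClosure k) ((1 : AlgebraicClosure k) ⊗ₜ[k] x) = _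
      rw [LinearMap.baseChange_tmul, hc, TensorProduct.tmul_smul, algebraMap_smul]
    rw [h1]
    exact Submodule.smul_mem _ _ (Submodule.mem_span_singleton_self _)
  rcases habs _ hstab with h | h
  · have hy : ((1 : AlgebraicClosure k) ⊗ₜ[k] x : AlgebraicClosure k ⊗[k] ρbar.V) = 0 := by
      have h1 := Submodule.mem_span_singleton_self (R := AlgebraicClosure k)
        ((1 : AlgebraicClosure k) ⊗ₜ[k] x : AlgebraicClosure k ⊗[k] ρbar.V)
      rw [h] at h1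
      exact (Submodule.mem_bot _).mp h1
    have hinj := Module.Flat.tensorProduct_mk_injective k ρbar.V (AlgebraicClosure k)
    have h0 : TensorProduct.mk k (AlgebraicClosure k) ρbar.V 1 x
        = TensorProduct.mk k (AlgebraicClosure k) ρbar.V 1 0 := by
      rw [map_zero]
      exact hy
    exact hx (hinj h0)
  · have h2 : Module.finrank (AlgebraicClosure k) (AlgebraicClosure k ⊗[k] ρbar.V) = 2 :=
      (ρbar.baseChange (AlgebraicClosure k)).finrank_eq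
    have h1 : Module.finrank (AlgebraicClosure k) (Submodule.span (AlgebraicClosure k)
        {((1 : AlgebraicClosure k) ⊗ₜ[k] x : AlgebraicClosure k ⊗[k] ρbar.V)}) ≤ 1 := by
      have := finrank_span_le_card (R := AlgebraicClosure k)
        ({((1 : AlgebraicClosure k) ⊗ₜ[k] x : AlgebraicClosure k ⊗[k] ρbar.V)} : Set _)
      simpa using this
    rw [h, finrank_top, h2] at h1
    omega

theorem h48a_irr {ρbar : ResidualGaloisRep k} (habs : ρbar.IsAbsolutelyIrreducible)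
    (b : Module.Basis (Fin 2) k ρbar.V) (v : Fin 2 → k) (hv : v ≠ 0) :
    ∃ σ : GQ, ∀ c : k,
      Matrix.mulVec ((h48a_R ρbar b σ : GL (Fin 2) k) : Matrix (Fin 2) (Fin 2) k) v ≠ c • v := by
  have hx : b.equivFun.symm v ≠ 0 := by
    intro h
    exact hv (b.equivFun.symm.map_eq_zero_iff.mp h)
  obtain ⟨σ, hσ⟩ := h48a_no_eigen ρbar habs _ hx
  refine ⟨σ, fun c hc => hσ c ?_⟩
  apply b.equivFun.injective
  have h1 := LinearMap.toMatrix_mulVec_repr b b (ρbar.ρ σ) (b.equivFun.symm v)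
  rw [h48a_R_coe] at hc
  have e : (⇑(b.repr (b.equivFun.symm v)) : Fin 2 → k) = v := by
    have := b.equivFun.apply_symm_apply v
    simpa using this
  rw [e, hc] at h1
  rw [map_smul, b.equivFun.apply_symm_apply]
  have e2 : b.equivFun (ρbar.ρ σ (b.equivFun.symm v)) = ⇑(b.repr (ρbar.ρ σ (b.equivFun.symm v))) := rfl
  rw [e2, ← h1]

theorem h48a_det (p : ℕ) [Fact p.Prime] [CharP k p] {ρbar : ResidualGaloisRep k}
    (hyp : h56c_Hyp p ρbar) (b : Module.Basis (Fin 2) k ρbar.V) :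
    ∃ σ : GQ, ∃ d : ℤ, (∀ x : ℤ, ¬ (p : ℤ) ∣ x ^ 2 - d) ∧
      ((h48a_R ρbar b σ : GL (Fin 2) k) : Matrix (Fin 2) (Fin 2) k).det = (d : k) := by
  have hchar : ringChar (ZMod p) ≠ 2 := by
    rw [ZMod.ringChar_zmod_n]
    exact hyp.hp2
  obtain ⟨a, ha⟩ := FiniteField.exists_nonsquare hchar
  have ha0 : a ≠ 0 := by
    rintro rfl
    exact ha ⟨0, by simp⟩
  obtain ⟨σ, hσ⟩ :=
    Fermat.Agent.S14.GlueCoc.GCOC_cycloChar_surjective (p := p) (Units.mk0 a ha0)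
  refine ⟨σ, (a.val : ℤ), ?_, ?_⟩
  · intro x hx
    apply ha
    refine ⟨(x : ZMod p), ?_⟩
    have h1 : ((x ^ 2 - (a.val : ℤ) : ℤ) : ZMod p) = 0 :=
      (ZMod.intCast_zmod_eq_zero_iff_dvd _ p).mpr hx
    push_cast at h1
    rw [ZMod.natCast_zmod_val, sub_eq_zero] at h1
    rw [← h1, sq]
  · rw [h48a_R_det p hyp, h56c_cyc_apply, hσ, Units.val_mk0]
    conv_lhs => rw [← ZMod.natCast_zmod_val a]
    rw [map_natCast, Int.cast_natCast]

/-! ## The adapter -/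

/-- **CHEB-H1-ADAPT.**  The Galois form of DDT Lemma 2.48 from the matrix form. -/
theorem h48a_h1Van_of (HG : H48GVanish) (H0 : H56H0Van) : H56H1Van := by
  intro p _ k _ _ _ ρbar hyp n ψ hψ hvan
  have hker := h48a_ker_vanish H0 p ρbar hyp n ψ hψ hvan
  set b : Module.Basis (Fin 2) k ρbar.V :=
    Module.finBasisOfFinrankEq k ρbar.V ρbar.finrank_eq with hb
  have hwd : ∀ σ τ : GQ, ρbar.ρ σ = ρbar.ρ τ → ψ σ = ψ τ := by
    intro σ τ h
    have h1 : ρbar.ρ (σ⁻¹ * τ) = 1 := by rw [map_mul, ← h, h14l_rho_inv_mul]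
    have h2 : τ = σ * (σ⁻¹ * τ) := by group
    rw [h2, h48a_coc _ hψ, hker _ h1, map_zero, add_zero]
  have hf : ∀ (σ : GQ) (hg : h48a_R ρbar b σ ∈ (h48a_R ρbar b).range),
      LinearMap.toMatrix b b ((ψ (Classical.choose hg) : ↥(h14l_sl ρbar)) : Module.End k ρbar.V)
        = LinearMap.toMatrix b b ((ψ σ : ↥(h14l_sl ρbar)) : Module.End k ρbar.V) := by
    intro σ hg
    rw [hwd _ _ ((h48a_R_eq_iff ρbar b _ _).mp (Classical.choose_spec hg))]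
  have hsplit : ∀ g ∈ (h48a_R ρbar b).range, ∃ v : Fin 2 → k, v ≠ 0 ∧ ∃ c : k,
      Matrix.mulVec (g : Matrix (Fin 2) (Fin 2) k) v = c • v := by
    rintro g ⟨σ, rfl⟩
    exact h48a_split p hyp b σ
  have hirr : ∀ v : Fin 2 → k, v ≠ 0 → ∃ g ∈ (h48a_R ρbar b).range, ∀ c : k,
      Matrix.mulVec (g : Matrix (Fin 2) (Fin 2) k) v ≠ c • v := by
    intro v hv
    obtain ⟨σ, hσ⟩ := h48a_irr hyp.habs b v hv
    exact ⟨_, ⟨σ, rfl⟩, hσ⟩
  have hdet : ∃ g ∈ (h48a_R ρbar b).range, ∃ d : ℤ, (∀ x : ℤ, ¬ (p : ℤ) ∣ x ^ 2 - d) ∧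
      (g : Matrix (Fin 2) (Fin 2) k).det = (d : k) := by
    obtain ⟨σ, d, hd, hdet⟩ := h48a_det p hyp b
    exact ⟨_, ⟨σ, rfl⟩, d, hd, hdet⟩
  have htr : ∀ g : (h48a_R ρbar b).range, (LinearMap.toMatrix b b
      ((ψ (Classical.choose g.2) : ↥(h14l_sl ρbar)) : Module.End k ρbar.V)).trace = 0 := by
    intro g
    rw [← LinearMap.trace_eq_matrix_trace k b]
    exact (h14l_mem_sl _ _).mp (ψ _).2
  have hcoc : ∀ g h : (h48a_R ρbar b).range,
      LinearMap.toMatrix b b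
        ((ψ (Classical.choose (g * h).2) : ↥(h14l_sl ρbar)) : Module.End k ρbar.V) =
      LinearMap.toMatrix b b
        ((ψ (Classical.choose g.2) : ↥(h14l_sl ρbar)) : Module.End k ρbar.V) +
      h48g_act (g : GL (Fin 2) k) (LinearMap.toMatrix b b
        ((ψ (Classical.choose h.2) : ↥(h14l_sl ρbar)) : Module.End k ρbar.V)) := by
    rintro ⟨_, ⟨σ, rfl⟩⟩ ⟨_, ⟨τ, rfl⟩⟩
    have hmul : ((⟨h48a_R ρbar b σ, ⟨σ, rfl⟩⟩ : (h48a_R ρbar b).range) *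
        ⟨h48a_R ρbar b τ, ⟨τ, rfl⟩⟩) = ⟨h48a_R ρbar b (σ * τ), ⟨σ * τ, rfl⟩⟩ :=
      Subtype.ext (map_mul _ _ _).symm
    rw [hmul, hf (σ * τ), hf σ, hf τ, h48a_coc _ hψ, Submodule.coe_add, map_add,
      h48a_act_eq p hyp b]
  obtain ⟨X, hXtr, hX⟩ := HG k p hyp.hp2 (h48a_R ρbar b).range hsplit hirr hdet
    (fun g => LinearMap.toMatrix b b
      ((ψ (Classical.choose g.2) : ↥(h14l_sl ρbar)) : Module.End k ρbar.V)) htr hcoc
  rw [mem_B1]
  have hX' : LinearMap.trace k ρbar.V (Matrix.toLin b b X) = 0 := by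
    rw [LinearMap.trace_eq_matrix_trace k b, LinearMap.toMatrix_toLin, hXtr]
  refine ⟨⟨Matrix.toLin b b X, (h14l_mem_sl _ _).mpr hX'⟩, ?_⟩
  funext σ
  rw [d0_apply]
  apply Subtype.ext
  apply (LinearMap.toMatrix b b).injective
  have h1 := hX ⟨h48a_R ρbar b σ, ⟨σ, rfl⟩⟩
  rw [hf σ ⟨σ, rfl⟩] at h1
  rw [h1, Submodule.coe_sub, map_sub, h48a_act_eq p hyp b, LinearMap.toMatrix_toLin]

end Fermat.Agent.S56
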