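import Fermat.Agent.S56.Skeleton2
import Fermat.Agent.S56.H15DefFlat

/-!
# S56, leaf FL-DICT (helper56): the cocycle of a flat lift is a flat cocycle

`h56f_flDict`: if `ρA` is a lift of `ρbar` to the dual numbers `k[ε]` (`k` finite) with
cocycle `c` (`h14l_IsCocycleOf ρbar ρA c`, `c` a cocycle of `ad⁰ ρbar`) and `ρA` is flat at
`p` (Prelude's `IsFlatAt`), then `c` is a flat cocycle in the sense of the pillar LOC-p-FL
(`Fermat.Agent.S56F.IsFlatCocycle`): the action `(v, w) ↦ (ρ v, ρ w + c (ρ v))` on `V × V` is
`Flat`.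
-/

set_option autoImplicit false
set_option linter.style.haveILetI false

open Polynomial IsLocalRing

noncomputable section

namespace Fermat.Agent.S56

open Fermat.Agent.PT Fermat.Agent.S56L

variable {k : Type} [Field k]

/-- coordinates `v + ε w ↦ (v, w)` of a free `k[ε]`-module of rank two with respect to a basis
`e` and a basis `eb` of the residual space. -/
def h56f_split {W V : Type} [AddCommGroup W] [Module (DualNumber k) W] [AddCommGroup V]
    [Module k V] (e : Module.Basis (Fin 2) (DualNumber k) W) (eb : Module.Basis (Fin 2) k V) :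
    W ≃+ V × V where
  toFun x := (eb.equivFun.symm (fun i => (e.repr x i).fst),
    eb.equivFun.symm (fun i => (e.repr x i).snd))
  invFun y := e.equivFun.symm
    (fun i => TrivSqZeroExt.inl (eb.repr y.1 i) + TrivSqZeroExt.inr (eb.repr y.2 i))
  left_inv x := by
    apply e.equivFun.injective
    rw [LinearEquiv.apply_symm_apply]
    funext i
    simp only [Module.Basis.equivFun_symm_apply, Module.Basis.equivFun_apply]
    have h1 : eb.repr (∑ j, (e.repr x j).fst • eb j) i = (e.repr x i).fst := by
      have := congrFun (eb.equivFun.apply_symm_apply (fun j => (e.repr x j).fst)) i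
      simpa [Module.Basis.equivFun_symm_apply, Module.Basis.equivFun_apply] using this
    have h2 : eb.repr (∑ j, (e.repr x j).snd • eb j) i = (e.repr x i).snd := by
      have := congrFun (eb.equivFun.apply_symm_apply (fun j => (e.repr x j).snd)) i
      simpa [Module.Basis.equivFun_symm_apply, Module.Basis.equivFun_apply] using this
    rw [h1, h2]
    exact TrivSqZeroExt.inl_fst_add_inr_snd_eq _
  right_inv y := by
    have h : ∀ i, e.repr (e.equivFun.symm (fun i =>
        (TrivSqZeroExt.inl (eb.repr y.1 i) + TrivSqZeroExt.inr (eb.repr y.2 i) :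
          DualNumber k))) i =
        TrivSqZeroExt.inl (eb.repr y.1 i) + TrivSqZeroExt.inr (eb.repr y.2 i) := fun i =>
      congrFun (e.equivFun.apply_symm_apply _) i
    refine Prod.ext ?_ ?_
    · apply eb.equivFun.injective
      show eb.equivFun (eb.equivFun.symm _) = _
      rw [LinearEquiv.apply_symm_apply]
      funext i
      rw [h i]
      simp
    · apply eb.equivFun.injective
      show eb.equivFun (eb.equivFun.symm _) = _
      rw [LinearEquiv.apply_symm_apply]
      funext i
      rw [h i]
      simp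
  map_add' x y := by
    refine Prod.ext ?_ ?_
    · show eb.equivFun.symm _ = eb.equivFun.symm _ + eb.equivFun.symm _
      rw [← map_add]
      congr 1
      funext i
      simp
    · show eb.equivFun.symm _ = eb.equivFun.symm _ + eb.equivFun.symm _
      rw [← map_add]
      congr 1
      funext i
      simp

theorem h56f_split_fst {W V : Type} [AddCommGroup W] [Module (DualNumber k) W]
    [AddCommGroup V] [Module k V] (e : Module.Basis (Fin 2) (DualNumber k) W)
    (eb : Module.Basis (Fin 2) k V) (x : W) (i : Fin 2) :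
    eb.repr (h56f_split e eb x).1 i = (e.repr x i).fst := by
  have := congrFun (eb.equivFun.apply_symm_apply (fun j => (e.repr x j).fst)) i
  exact this

theorem h56f_split_snd {W V : Type} [AddCommGroup W] [Module (DualNumber k) W]
    [AddCommGroup V] [Module k V] (e : Module.Basis (Fin 2) (DualNumber k) W)
    (eb : Module.Basis (Fin 2) k V) (x : W) (i : Fin 2) :
    eb.repr (h56f_split e eb x).2 i = (e.repr x i).snd := by
  have := congrFun (eb.equivFun.apply_symm_apply (fun j => (e.repr x j).snd)) i
  exact this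

/-- the action of `ρA = (1 + ε c) ρbar` in the coordinates `h56f_split`. -/
theorem h56f_split_act {W V : Type} [AddCommGroup W] [Module (DualNumber k) W]
    [AddCommGroup V] [Module k V] (e : Module.Basis (Fin 2) (DualNumber k) W)
    (eb : Module.Basis (Fin 2) k V) (F : Module.End (DualNumber k) W) (f g : Module.End k V)
    (h : ∀ i j, LinearMap.toMatrix e e F i j =
      TrivSqZeroExt.inl (LinearMap.toMatrix eb eb f i j) +
        TrivSqZeroExt.inr (LinearMap.toMatrix eb eb (g * f) i j)) (x : W) :
    h56f_split e eb (F x) =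
      (f (h56f_split e eb x).1, f (h56f_split e eb x).2 + g (f (h56f_split e eb x).1)) := by
  have hF : ∀ i, e.repr (F x) i = ∑ j, LinearMap.toMatrix e e F i j * e.repr x j := by
    intro i
    have := congrFun (LinearMap.toMatrix_mulVec_repr e e F x) i
    rw [← this]
    rfl
  have hf : ∀ (u : Module.End k V) (v : V) (i : Fin 2),
      eb.repr (u v) i = ∑ j, LinearMap.toMatrix eb eb u i j * eb.repr v j := by
    intro u v i
    have := congrFun (LinearMap.toMatrix_mulVec_repr eb eb u v) i
    rw [← this]
    rfl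
  refine Prod.ext ?_ ?_
  · apply eb.repr.injective
    ext i
    rw [h56f_split_fst, hF, hf]
    rw [TrivSqZeroExt.fst_sum]
    refine Finset.sum_congr rfl fun j _ => ?_
    rw [h i j, h56f_split_fst]
    simp
  · apply eb.repr.injective
    ext i
    show eb.repr (h56f_split e eb (F x)).2 i = _
    rw [h56f_split_snd, hF, map_add, Finsupp.add_apply, hf f, ← Module.End.mul_apply g f, hf (g * f)]
    rw [TrivSqZeroExt.snd_sum, ← Finset.sum_add_distrib]
    refine Finset.sum_congr rfl fun j _ => ?_
    rw [h i j, h56f_split_fst, h56f_split_snd]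
    simp [TrivSqZeroExt.snd_mul]

/-- **FL-DICT.**  The cocycle of a flat lift to the dual numbers is a flat cocycle. -/
theorem h56f_flDict [Finite k] (p : ℕ) [Fact p.Prime] (ρbar : ResidualGaloisRep k)
    (ρA : GaloisRepAdic (DualNumber k)) (c : GQ → ↥(h14l_sl ρbar))
    (hc : c ∈ Z1 levFin (h14l_Ad0 ρbar)) (hcoc : h14l_IsCocycleOf ρbar ρA c)
    (hfl : ρA.IsFlatAt p) :
    Fermat.Agent.S56F.IsFlatCocycle p ρbar.ρ (fun s => (c s : Module.End k ρbar.V)) := by
  obtain ⟨e, eb, hmat⟩ := hcoc
  refine ⟨?_, ?_, ?_⟩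
  · intro σ τ
    have h := congrFun ((mem_Z1 _ _ _).1 hc).1 (σ, τ)
    simp only [d1_apply, Pi.zero_apply] at h
    have h2 : c (σ * τ) = c σ + h14l_Ad0 ρbar σ (c τ) := by
      have h3 := sub_eq_zero.mp (show (h14l_Ad0 ρbar σ (c τ) + c σ) - c (σ * τ) = 0 by
        rw [← h]; abel)
      rw [← h3, add_comm]
    show ((c (σ * τ) : ↥(h14l_sl ρbar)) : Module.End k ρbar.V) = _
    rw [h2, Submodule.coe_add, h14l_Ad0_coe]
  · intro σ
    exact LinearMap.mem_ker.mp (c σ).2
  · haveI : Finite (DualNumber k) := h15c_finite_dualNumber k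
    have hfin : Finite (DualNumber k ⧸ (⊥ : Ideal (DualNumber k))) :=
      Finite.of_surjective (Ideal.Quotient.mk ⊥) Ideal.Quotient.mk_surjective
    have h0 : Fermat.Agent.S56F.Flat p
        (ρA.V ⧸ ((⊥ : Ideal (DualNumber k)) • (⊤ : Submodule (DualNumber k) ρA.V)))
        (fun σ => ρA.levelAction ⊥ σ) := hfl.2 ⊥ hfin
    have hbot : ((⊥ : Ideal (DualNumber k)) • (⊤ : Submodule (DualNumber k) ρA.V)) = ⊥ :=
      Submodule.bot_smul _
    let q0 : (ρA.V ⧸ ((⊥ : Ideal (DualNumber k)) • (⊤ : Submodule (DualNumber k) ρA.V)))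
        ≃ₗ[DualNumber k] ρA.V := Submodule.quotEquivOfEqBot _ hbot
    refine h15c_flat_of_addEquiv (q0.toAddEquiv.trans (h56f_split e eb)) ?_ h0
    intro σ x
    obtain ⟨y, rfl⟩ := Submodule.Quotient.mk_surjective _ x
    have hq : ∀ z : ρA.V, q0 (Submodule.Quotient.mk z) = z := fun z => by
      apply q0.symm.injective
      rw [LinearEquiv.symm_apply_apply]
      rfl
    show h56f_split e eb (q0 (ρA.levelAction ⊥ σ (Submodule.Quotient.mk y))) =
      (ρbar.ρ σ (h56f_split e eb (q0 (Submodule.Quotient.mk y))).1,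
        ρbar.ρ σ (h56f_split e eb (q0 (Submodule.Quotient.mk y))).2 +
          (c σ : Module.End k ρbar.V) (ρbar.ρ σ (h56f_split e eb (q0 (Submodule.Quotient.mk y))).1))
    have hl : ρA.levelAction ⊥ σ (Submodule.Quotient.mk y) = Submodule.Quotient.mk (ρA.ρ σ y) :=
      rfl
    rw [hl, hq, hq]
    exact h56f_split_act e eb (ρA.ρ σ) (ρbar.ρ σ) (c σ : Module.End k ρbar.V) (hmat σ) y

end Fermat.Agent.S56
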