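import Mathlib
import Fermat.Prelude.Def_GaloisRep_LocalConditions
import Fermat.Prelude.Def_GaloisRep_StrictOrdinary
import Fermat.Prelude.Def_GaloisRep_Flat

/-!
# S56, block DEF, leaf DEF-C (C1 - C4): base change stability of the deformation conditions
(helper5, prefix `h5d_`)

For a local homomorphism `φ : A → B` of local rings and `ρ : GaloisRepAdic A`:

* `h5d_det`     (C1) : `DetIsCyclotomic p` passes to `ρ.baseChangeAlong φ hφ`;
* `h5d_unram`   (C2) : `IsUnramifiedAt q` passes to the base change;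
* `h5d_unip`    (C3) : `IsUnipotentOnInertiaAt q` passes to the base change;
* `h5d_strict`  (C4) : `IsStrictOrdinaryAt p` passes to the base change;
* `h5d_ordinary`     : `IsOrdinaryAt p` passes to the base change;
* `h5d_strictOrdinaryCondition`, `h5d_condStr`, `h5d_condFl_of` : the packaged conditions of
  S56 (the flat one GIVEN the flatness of the base change, leaf C5).
-/

set_option autoImplicit false
set_option linter.style.haveILetI false
set_option linter.unusedSectionVars false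

open scoped TensorProduct

noncomputable section

namespace Fermat.Agent.S56

variable {A B : Type} [CommRing A] [IsLocalRing A] [CommRing B] [IsLocalRing B]

/-- the action of the base change, unfolded. -/
theorem h5d_rho_apply (φ : A →+* B) (hφ : IsLocalHom φ) (ρ : GaloisRepAdic A)
    (σ : AlgebraicClosure ℚ ≃ₐ[ℚ] AlgebraicClosure ℚ) :
    (ρ.baseChangeAlong φ hφ).ρ σ =
      letI : Algebra A B := φ.toAlgebra
      (ρ.ρ σ).baseChange B := rfl

/-- a local homomorphism maps the maximal ideal into the maximal ideal. -/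
theorem h5d_map_mem_maximalIdeal (φ : A →+* B) (hφ : IsLocalHom φ) {a : A}
    (ha : a ∈ IsLocalRing.maximalIdeal A) : φ a ∈ IsLocalRing.maximalIdeal B := by
  haveI := hφ
  exact map_nonunit φ a ha

/-- a ring homomorphism maps `(p ^ n)` into `(p ^ n)`. -/
theorem h5d_map_mem_span (φ : A →+* B) (m : ℕ) {a : A}
    (ha : a ∈ Ideal.span {((m : ℕ) : A)}) : φ a ∈ Ideal.span {((m : ℕ) : B)} := by
  obtain ⟨c, rfl⟩ := Ideal.mem_span_singleton'.mp ha
  rw [map_mul, map_natCast]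
  exact Ideal.mem_span_singleton'.mpr ⟨φ c, rfl⟩

/-- **C2.** -/
theorem h5d_unram (φ : A →+* B) (hφ : IsLocalHom φ) (ρ : GaloisRepAdic A) {q : ℕ}
    (h : ρ.IsUnramifiedAt q) : (ρ.baseChangeAlong φ hφ).IsUnramifiedAt q := by
  intro P hP σ hσ
  rw [h5d_rho_apply, h P hP σ hσ]
  letI : Algebra A B := φ.toAlgebra
  exact LinearMap.baseChange_one (R := A) (A := B) (M := ρ.V)

/-- **C3.** -/
theorem h5d_unip (φ : A →+* B) (hφ : IsLocalHom φ) (ρ : GaloisRepAdic A) {q : ℕ}
    (h : ρ.IsUnipotentOnInertiaAt q) : (ρ.baseChangeAlong φ hφ).IsUnipotentOnInertiaAt q := by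
  intro P hP σ hσ
  letI : Algebra A B := φ.toAlgebra
  have h1 : LinearMap.charpoly ((ρ.ρ σ).baseChange B) =
      (LinearMap.charpoly (ρ.ρ σ)).map (algebraMap A B) :=
    LinearMap.charpoly_baseChange (ρ.ρ σ) B
  have h2 : LinearMap.charpoly ((ρ.baseChangeAlong φ hφ).ρ σ) =
      LinearMap.charpoly ((ρ.ρ σ).baseChange B) := rfl
  rw [h2, h1, h P hP σ hσ]
  simp

/-- **C1.** -/
theorem h5d_det (φ : A →+* B) (hφ : IsLocalHom φ) (ρ : GaloisRepAdic A) {p : ℕ}
    (h : ρ.DetIsCyclotomic p) : (ρ.baseChangeAlong φ hφ).DetIsCyclotomic p := by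
  refine ⟨?_, ?_⟩
  · have := h5d_map_mem_maximalIdeal φ hφ h.1
    rwa [map_natCast] at this
  · intro n σ a ha
    letI : Algebra A B := φ.toAlgebra
    have h1 : LinearMap.det ((ρ.ρ σ).baseChange B) = algebraMap A B (LinearMap.det (ρ.ρ σ)) :=
      LinearMap.det_baseChange (ρ.ρ σ)
    have h2 : LinearMap.det ((ρ.baseChangeAlong φ hφ).ρ σ) =
        LinearMap.det ((ρ.ρ σ).baseChange B) := rfl
    have h3 := h5d_map_mem_span φ (p ^ n) (h.2 n σ a ha)
    rw [map_sub, map_natCast] at h3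
    rw [h2, h1]
    exact h3

/-! ## The line `B ∙ (1 ⊗ b₀)` -/

section Line

variable (φ : A →+* B) {V : Type} [AddCommGroup V] [Module A V]

/-- `c ⊗ (a • b₀) ∈ B ∙ (1 ⊗ b₀)`. -/
theorem h5d_tmul_mem (b₀ : V) {v : V} (hv : v ∈ Submodule.span A {b₀}) (c : B) :
    letI : Algebra A B := φ.toAlgebra
    (c ⊗ₜ[A] v : B ⊗[A] V) ∈ Submodule.span B {((1 : B) ⊗ₜ[A] b₀ : B ⊗[A] V)} := by
  letI : Algebra A B := φ.toAlgebra
  obtain ⟨a, rfl⟩ := Submodule.mem_span_singleton.mp hv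
  rw [Submodule.mem_span_singleton]
  refine ⟨c * algebraMap A B a, ?_⟩
  rw [TensorProduct.smul_tmul', smul_eq_mul, mul_one, TensorProduct.tmul_smul,
    TensorProduct.smul_tmul', Algebra.smul_def, mul_comm]

/-- if `f` maps `V` into `A ∙ b₀` then its base change maps into `B ∙ (1 ⊗ b₀)`. -/
theorem h5d_baseChange_mem (b₀ : V) (f : V →ₗ[A] V)
    (hf : ∀ v, f v ∈ Submodule.span A {b₀}) :
    letI : Algebra A B := φ.toAlgebra
    ∀ w : B ⊗[A] V, f.baseChange B w ∈
      Submodule.span B {((1 : B) ⊗ₜ[A] b₀ : B ⊗[A] V)} := by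
  letI : Algebra A B := φ.toAlgebra
  intro w
  induction w using TensorProduct.induction_on with
  | zero => rw [map_zero]; exact Submodule.zero_mem _
  | tmul c v =>
    rw [LinearMap.baseChange_tmul]
    exact h5d_tmul_mem φ b₀ (hf v) c
  | add x y hx hy =>
    rw [map_add]
    exact Submodule.add_mem _ hx hy

end Line

/-- the data of a line in the base change. -/
theorem h5d_line (φ : A →+* B) (hφ : IsLocalHom φ) (ρ : GaloisRepAdic A)
    (b : Module.Basis (Fin 2) A ρ.V) :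
    letI : Algebra A B := φ.toAlgebra
    ∃ b' : Module.Basis (Fin 2) B (ρ.baseChangeAlong φ hφ).V,
      b' 0 = ((1 : B) ⊗ₜ[A] b 0 : B ⊗[A] ρ.V) := by
  letI : Algebra A B := φ.toAlgebra
  exact ⟨b.baseChange B, Module.Basis.baseChange_apply B b 0⟩

/-- **C4.** -/
theorem h5d_strict (φ : A →+* B) (hφ : IsLocalHom φ) (ρ : GaloisRepAdic A) {p : ℕ}
    (h : ρ.IsStrictOrdinaryAt p) : (ρ.baseChangeAlong φ hφ).IsStrictOrdinaryAt p := by
  letI : Algebra A B := φ.toAlgebra
  refine ⟨?_, ?_⟩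
  · have := h5d_map_mem_maximalIdeal φ hφ h.1
    rwa [map_natCast] at this
  · intro P hP
    obtain ⟨L, ⟨b, rfl⟩, hD, hI, hxz⟩ := h.2 P hP
    obtain ⟨b', hb'⟩ := h5d_line φ hφ ρ b
    have hb0 : b 0 ∈ Submodule.span A {b 0} := Submodule.mem_span_singleton_self _
    -- the action on the generator
    have hgen : ∀ σ : AlgebraicClosure ℚ ≃ₐ[ℚ] AlgebraicClosure ℚ,
        (ρ.baseChangeAlong φ hφ).ρ σ ((1 : B) ⊗ₜ[A] b 0) = (1 : B) ⊗ₜ[A] (ρ.ρ σ (b 0)) := by
      intro σ
      rw [h5d_rho_apply]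
      exact LinearMap.baseChange_tmul _ _ _
    refine ⟨Submodule.span B {b' 0}, ⟨b', rfl⟩, ?_, ?_, ?_⟩
    · intro σ hσ v hv
      rw [hb'] at hv ⊢
      obtain ⟨c, rfl⟩ := Submodule.mem_span_singleton.mp hv
      rw [map_smul, hgen]
      exact Submodule.smul_mem _ _ (h5d_tmul_mem φ (b 0) (hD σ hσ _ hb0) 1)
    · intro σ hσ v
      rw [hb']
      have h1 := h5d_baseChange_mem φ (b 0) (ρ.ρ σ - 1) (fun v => by
        simpa using hI σ hσ v) v
      have h2 : (ρ.ρ σ - 1).baseChange B = (ρ.ρ σ).baseChange B - 1 := by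
        rw [LinearMap.baseChange_sub]
        congr 1
        exact LinearMap.baseChange_one (R := A) (A := B) (M := ρ.V)
      rw [h2] at h1
      exact h1
    · intro σ hσ
      obtain ⟨x, z, hx, hz, hcyc⟩ := hxz σ hσ
      refine ⟨φ x, φ z, ?_, ?_, ?_⟩
      · intro w hw
        rw [hb'] at hw
        obtain ⟨c, rfl⟩ := Submodule.mem_span_singleton.mp hw
        have hx' : ((1 : B) ⊗ₜ[A] (x • b 0) : B ⊗[A] ρ.V) = φ x • ((1 : B) ⊗ₜ[A] b 0) := by
          rw [TensorProduct.tmul_smul, TensorProduct.smul_tmul', TensorProduct.smul_tmul',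
            Algebra.smul_def, smul_eq_mul, mul_one, mul_one]
          rfl
        rw [map_smul, hgen, hx _ hb0, hx']
        change (c • (φ x • ((1 : B) ⊗ₜ[A] b 0)) : B ⊗[A] ρ.V) = φ x • (c • ((1 : B) ⊗ₜ[A] b 0))
        exact smul_comm _ _ _
      · intro v
        rw [hb']
        have h1 := h5d_baseChange_mem φ (b 0) (ρ.ρ σ - z • 1) (fun v => by
          simpa using hz v) v
        have h2 : (ρ.ρ σ - z • (1 : Module.End A ρ.V)).baseChange B =
            (ρ.ρ σ).baseChange B - φ z • 1 := by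
          rw [LinearMap.baseChange_sub, LinearMap.baseChange_smul]
          congr 1
          ext w
          simp only [TensorProduct.AlgebraTensorModule.curry_apply,
            TensorProduct.curry_apply]
          change z • ((1 : Module.End A ρ.V).baseChange B ((1 : B) ⊗ₜ[A] w)) =
            φ z • ((1 : B) ⊗ₜ[A] w)
          rw [LinearMap.baseChange_tmul, Module.End.one_apply, TensorProduct.smul_tmul',
            TensorProduct.smul_tmul', Algebra.smul_def, smul_eq_mul, mul_one, mul_one]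
          rfl
        rw [h2] at h1
        exact h1
      · intro n a ha
        have h3 := h5d_map_mem_span φ (p ^ n) (hcyc n a ha)
        rwa [map_sub, map_mul, map_natCast] at h3

/-- `IsOrdinaryAt` passes to the base change. -/
theorem h5d_ordinary (φ : A →+* B) (hφ : IsLocalHom φ) (ρ : GaloisRepAdic A) {p : ℕ}
    (h : ρ.IsOrdinaryAt p) : (ρ.baseChangeAlong φ hφ).IsOrdinaryAt p := by
  let _ : Algebra A B := φ.toAlgebra
  intro P hP
  obtain ⟨L, ⟨b, rfl⟩, hD, hI⟩ := h P hP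
  obtain ⟨b', hb'⟩ := h5d_line φ hφ ρ b
  have hb0 : b 0 ∈ Submodule.span A {b 0} := Submodule.mem_span_singleton_self _
  have hgen : ∀ σ : AlgebraicClosure ℚ ≃ₐ[ℚ] AlgebraicClosure ℚ,
      (ρ.baseChangeAlong φ hφ).ρ σ ((1 : B) ⊗ₜ[A] b 0) = (1 : B) ⊗ₜ[A] (ρ.ρ σ (b 0)) := by
    intro σ
    rw [h5d_rho_apply]
    exact LinearMap.baseChange_tmul _ _ _
  refine ⟨Submodule.span B {b' 0}, ⟨b', rfl⟩, ?_, ?_⟩
  · intro σ hσ v hv
    rw [hb'] at hv ⊢
    obtain ⟨c, rfl⟩ := Submodule.mem_span_singleton.mp hv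
    rw [map_smul, hgen]
    exact Submodule.smul_mem _ _ (h5d_tmul_mem φ (b 0) (hD σ hσ _ hb0) 1)
  · intro σ hσ v
    rw [hb']
    have h1 := h5d_baseChange_mem φ (b 0) (ρ.ρ σ - 1) (fun v => by
      simpa using hI σ hσ v) v
    have h2 : (ρ.ρ σ - 1).baseChange B = (ρ.ρ σ).baseChange B - 1 := by
      rw [LinearMap.baseChange_sub]
      congr 1
      exact LinearMap.baseChange_one (R := A) (A := B) (M := ρ.V)
    rw [h2] at h1
    exact h1

/-! ## The packaged conditions -/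

section Packaged

variable (𝒪 : Type) [CommRing 𝒪] [Algebra 𝒪 A] [Algebra 𝒪 B]

/-- `strictOrdinaryCondition` passes to the base change. -/
theorem h5d_strictOrdinaryCondition (φ : A →+* B) (hφ : IsLocalHom φ) (ρ : GaloisRepAdic A)
    {p : ℕ} {S : Finset ℕ} (h : GaloisRep.strictOrdinaryCondition 𝒪 p S ρ) :
    GaloisRep.strictOrdinaryCondition 𝒪 p S (ρ.baseChangeAlong φ hφ) :=
  ⟨h5d_det φ hφ ρ h.1, h5d_strict φ hφ ρ h.2.1, fun q hq hqS => h5d_unram φ hφ ρ (h.2.2 q hq hqS)⟩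

/-- `ordinaryCondition` passes to the base change. -/
theorem h5d_ordinaryCondition (φ : A →+* B) (hφ : IsLocalHom φ) (ρ : GaloisRepAdic A)
    {p : ℕ} {S : Finset ℕ} (h : GaloisRep.ordinaryCondition 𝒪 p S ρ) :
    GaloisRep.ordinaryCondition 𝒪 p S (ρ.baseChangeAlong φ hφ) :=
  ⟨h5d_det φ hφ ρ h.1, h5d_ordinary φ hφ ρ h.2.1, fun q hq hqS => h5d_unram φ hφ ρ (h.2.2 q hq hqS)⟩

/-- the first deformation condition of S56 (strict ordinary at `p`, unipotent inertia at the
primes of `Smin ∖ {p}`) passes to the base change. -/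
theorem h5d_condStr (φ : A →+* B) (hφ : IsLocalHom φ) (ρ : GaloisRepAdic A)
    {p : ℕ} {S Smin : Finset ℕ}
    (h : GaloisRep.strictOrdinaryCondition 𝒪 p S ρ ∧
      ∀ q ∈ Smin, q.Prime → q ≠ p → ρ.IsUnipotentOnInertiaAt q) :
    GaloisRep.strictOrdinaryCondition 𝒪 p S (ρ.baseChangeAlong φ hφ) ∧
      ∀ q ∈ Smin, q.Prime → q ≠ p → (ρ.baseChangeAlong φ hφ).IsUnipotentOnInertiaAt q :=
  ⟨h5d_strictOrdinaryCondition 𝒪 φ hφ ρ h.1, fun q hq hqp hne => h5d_unip φ hφ ρ (h.2 q hq hqp hne)⟩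

/-- the second deformation condition of S56 (flat at `p`, unipotent inertia at the primes of
`Smin ∖ {p}`) passes to the base change, GIVEN the flatness of the base change (leaf C5). -/
theorem h5d_condFl_of (φ : A →+* B) (hφ : IsLocalHom φ) (ρ : GaloisRepAdic A)
    {p : ℕ} {S Smin : Finset ℕ}
    (hflat : ρ.IsFlatAt p → (ρ.baseChangeAlong φ hφ).IsFlatAt p)
    (h : GaloisRep.flatCondition 𝒪 p S ρ ∧
      ∀ q ∈ Smin, q.Prime → q ≠ p → ρ.IsUnipotentOnInertiaAt q) :
    GaloisRep.flatCondition 𝒪 p S (ρ.baseChangeAlong φ hφ) ∧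
      ∀ q ∈ Smin, q.Prime → q ≠ p → (ρ.baseChangeAlong φ hφ).IsUnipotentOnInertiaAt q :=
  ⟨⟨h5d_det φ hφ ρ h.1.1, hflat h.1.2.1,
      fun q hq hqS => h5d_unram φ hφ ρ (h.1.2.2 q hq hqS)⟩,
    fun q hq hqp hne => h5d_unip φ hφ ρ (h.2 q hq hqp hne)⟩

end Packaged

end Fermat.Agent.S56
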