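import Fermat.Agent.S56.SelIface
import Fermat.Agent.PT.Bridge.Levels
import Fermat.Agent.PT.Bridge.DQGood

/-!
# S56, block SEL-GW, step (1) "LEVELS" (helper5, prefix `h5l_`)

For a representation `ρ` of `G_ℚ` which factors through a finite level and is unramified
outside `S`:

`c ∈ Z1 (levQ S) ρ  ↔  c ∈ Z1 levFin ρ ∧ c vanishes on every inertia group outside S`.

(`⇐`: `N = {s | ρ s = 1 ∧ c s = 0}` is a normal subgroup containing an open subgroup and all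
inertia groups outside `S`; landed `pt79_level_of_normal`.)

* `h5l_isLC1_levQ_iff` : the statement for level-constancy of a cocycle;
* `h5l_mem_Z1_levQ_iff` : the statement for `Z1`;
* `h5l_Z1_levQ_eq` : `Z1 (levQ Sg) (h14l_Ad0 ρbar) = Z1 levFin (h14l_Ad0 ρbar) ⊓ h56s_unr ρbar Sg`
  and the same for the twist `h56c_Ad0tw p ρbar`.
-/

set_option autoImplicit false
set_option linter.unusedSectionVars false
set_option linter.style.haveILetI false

open ExtCitation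

noncomputable section

namespace Fermat.Agent.S56

open Fermat.Agent.PT Fermat.Agent.S56L

section Gen

variable {k : Type} [CommRing k] {V : Type} [AddCommGroup V] [Module k V]
  (ρ : Representation k GQ V)

/-- the subgroup `{s | ρ s = 1 ∧ c s = 0}` of a cocycle `c`. -/
def h5l_ker {c : GQ → V} (hc : d1 ρ c = 0) : Subgroup GQ where
  carrier := {s | ρ s = 1 ∧ c s = 0}
  one_mem' := by
    refine ⟨map_one ρ, ?_⟩
    have h2 := congrFun hc (1, 1)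
    rw [d1_apply, Pi.zero_apply, mul_one, map_one, Module.End.one_apply, sub_self, zero_add]
      at h2
    exact h2
  mul_mem' := by
    rintro s t ⟨hs1, hs2⟩ ⟨ht1, ht2⟩
    refine ⟨by rw [map_mul, hs1, ht1, mul_one], ?_⟩
    have h2 := congrFun hc (s, t)
    rw [d1_apply, Pi.zero_apply, ht2, hs2, map_zero, zero_sub, add_zero, neg_eq_zero] at h2
    exact h2
  inv_mem' := by
    rintro s ⟨hs1, hs2⟩
    have h1 : ρ s⁻¹ = 1 := by
      have : ρ s⁻¹ * ρ s = 1 := by rw [← map_mul, inv_mul_cancel, map_one]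
      rwa [hs1, mul_one] at this
    refine ⟨h1, ?_⟩
    have h2 := congrFun hc (s, s⁻¹)
    have h3 := congrFun hc (1, 1)
    rw [d1_apply, Pi.zero_apply, mul_one, map_one, Module.End.one_apply, sub_self, zero_add]
      at h3
    rw [d1_apply, Pi.zero_apply, mul_inv_cancel, h3, hs1, Module.End.one_apply, hs2, sub_zero,
      add_zero] at h2
    exact h2

theorem h5l_mem_ker {c : GQ → V} (hc : d1 ρ c = 0) (s : GQ) :
    s ∈ h5l_ker ρ hc ↔ ρ s = 1 ∧ c s = 0 := Iff.rfl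

theorem h5l_coc_mul {c : GQ → V} (hc : d1 ρ c = 0) (g h : GQ) :
    c (g * h) = c g + ρ g (c h) := by
  have h2 := congrFun hc (g, h)
  rw [d1_apply, Pi.zero_apply] at h2
  have h3 : c (g * h) = ρ g (c h) + c g := by
    rw [sub_add_eq_add_sub, sub_eq_zero] at h2
    exact h2.symm
  rw [h3, add_comm]

instance h5l_ker_normal {c : GQ → V} (hc : d1 ρ c = 0) : (h5l_ker ρ hc).Normal := by
  constructor
  rintro s ⟨hs1, hs2⟩ g
  have hg : ρ g * ρ g⁻¹ = 1 := by rw [← map_mul, mul_inv_cancel, map_one]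
  refine ⟨by rw [map_mul, map_mul, hs1, mul_one, hg], ?_⟩
  have e1 : c (g * s * g⁻¹) = c (g * s) + ρ (g * s) (c g⁻¹) := h5l_coc_mul ρ hc _ _
  have e2 : c (g * s) = c g + ρ g (c s) := h5l_coc_mul ρ hc _ _
  have e3 : c (g * g⁻¹) = c g + ρ g (c g⁻¹) := h5l_coc_mul ρ hc _ _
  have e4 : c (1 : GQ) = 0 := ((h5l_mem_ker ρ hc 1).mp (one_mem _)).2
  rw [mul_inv_cancel, e4] at e3
  rw [e1, e2, hs2, map_zero, add_zero, map_mul, hs1, mul_one]
  exact e3.symm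

/-- **LEVELS.**  A cocycle of a representation which factors through a finite level and is
unramified outside `S` is level-constant for `levQ S` iff it is level-constant for `levFin`
and vanishes on every inertia group outside `S`. -/
theorem h5l_isLC1_levQ_iff (S : Finset Nat.Primes)
    (hfin : ∃ F : IntermediateField ℚ (AlgebraicClosure ℚ), FiniteDimensional ℚ F ∧
      ∀ s ∈ F.fixingSubgroup, ρ s = 1)
    (hun : ∀ q : Nat.Primes, q ∉ S → ∀ A : ValuationSubring (AlgebraicClosure ℚ),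
      A.LiesOverPrime (q : ℕ) → ∀ s ∈ A.inertiaSubgroupIn ℚ, ρ s = 1)
    {c : GQ → V} (hc : d1 ρ c = 0) :
    IsLC1 (levQ S) c ↔ IsLC1 levFin c ∧
      ∀ q : Nat.Primes, q ∉ S → ∀ A : ValuationSubring (AlgebraicClosure ℚ),
        A.LiesOverPrime (q : ℕ) → ∀ s ∈ A.inertiaSubgroupIn ℚ, c s = 0 := by
  have hc1 : c (1 : GQ) = 0 := ((h5l_mem_ker ρ hc 1).mp (one_mem _)).2
  constructor
  · rintro ⟨N, ⟨F, hF, hn, rfl⟩, h⟩
    refine ⟨⟨F.fixingSubgroup, ⟨F, hF.1, hn, rfl⟩, h⟩, fun q hq A hA s hs => ?_⟩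
    have h1 := h 1 s (hF.2 q hq A hA hs)
    rwa [one_mul, hc1] at h1
  · rintro ⟨⟨N, ⟨F₀, hF₀, -, rfl⟩, h⟩, hur⟩
    obtain ⟨F₁, hF₁, hρ⟩ := hfin
    have hopen : ∃ F : IntermediateField ℚ (AlgebraicClosure ℚ), FiniteDimensional ℚ F ∧
        F.fixingSubgroup ≤ h5l_ker ρ hc := by
      refine ⟨F₀ ⊔ F₁, @IntermediateField.finiteDimensional_sup ℚ _ _ _ _ F₀ F₁ hF₀ hF₁,
        fun s hs => ?_⟩
      rw [IntermediateField.fixingSubgroup_sup] at hs
      refine ⟨hρ s hs.2, ?_⟩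
      have h1 := h 1 s hs.1
      rwa [one_mul, hc1] at h1
    have hur' : ∀ q : Nat.Primes, q ∉ S → ∀ A : ValuationSubring (AlgebraicClosure ℚ),
        A.LiesOverPrime (q : ℕ) → A.inertiaSubgroupIn ℚ ≤ h5l_ker ρ hc :=
      fun q hq A hA s hs => ⟨hun q hq A hA s hs, hur q hq A hA s hs⟩
    obtain ⟨F, hF, hgal, hfix⟩ := pt79_level_of_normal S (h5l_ker ρ hc) hopen hur'
    haveI := hgal
    refine ⟨F.fixingSubgroup, ⟨F, hF, IsGalois.to_normal, rfl⟩, fun g s hs => ?_⟩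
    rw [hfix] at hs
    rw [h5l_coc_mul ρ hc, hs.2, map_zero, add_zero]

/-- **LEVELS**, for `Z1`. -/
theorem h5l_mem_Z1_levQ_iff (S : Finset Nat.Primes)
    (hfin : ∃ F : IntermediateField ℚ (AlgebraicClosure ℚ), FiniteDimensional ℚ F ∧
      ∀ s ∈ F.fixingSubgroup, ρ s = 1)
    (hun : ∀ q : Nat.Primes, q ∉ S → ∀ A : ValuationSubring (AlgebraicClosure ℚ),
      A.LiesOverPrime (q : ℕ) → ∀ s ∈ A.inertiaSubgroupIn ℚ, ρ s = 1)
    (c : GQ → V) :
    c ∈ Z1 (levQ S) ρ ↔ c ∈ Z1 levFin ρ ∧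
      ∀ q : Nat.Primes, q ∉ S → ∀ A : ValuationSubring (AlgebraicClosure ℚ),
        A.LiesOverPrime (q : ℕ) → ∀ s ∈ A.inertiaSubgroupIn ℚ, c s = 0 := by
  rw [mem_Z1, mem_Z1]
  constructor
  · rintro ⟨h1, h2⟩
    obtain ⟨h3, h4⟩ := (h5l_isLC1_levQ_iff ρ S hfin hun h1).mp h2
    exact ⟨⟨h1, h3⟩, h4⟩
  · rintro ⟨⟨h1, h3⟩, h4⟩
    exact ⟨h1, (h5l_isLC1_levQ_iff ρ S hfin hun h1).mpr ⟨h3, h4⟩⟩

end Gen

/-! ## The adjoint representation and its twist -/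

section Ad

variable {p : ℕ} [Fact p.Prime] {k : Type} [Field k] [CharP k p]
variable (ρbar : ResidualGaloisRep k)

theorem h5l_Ad0_eq_one {s : GQ} (h : ρbar.ρ s = 1) : h14l_Ad0 ρbar s = 1 := by
  have h3 : ρbar.ρ s⁻¹ = 1 := by
    have := h14l_rho_inv_mul ρbar s
    rwa [h, mul_one] at this
  ext X : 1
  apply Subtype.ext
  rw [h14l_Ad0_coe, h, h3, one_mul, mul_one]
  rfl

theorem h5l_Ad0tw_eq_one {s : GQ} (h : ρbar.ρ s = 1) (h2 : cycloChar p s = 1) :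
    h56c_Ad0tw p ρbar s = 1 := by
  have h4 : h56c_cyc k p s = 1 := by
    rw [h56c_cyc_apply, h2]
    simp
  ext X : 1
  rw [h56c_Ad0tw_apply, h4, one_smul, h5l_Ad0_eq_one ρbar h]

/-- `Z1 (levQ Sg) (ad⁰) = Z1 levFin (ad⁰) ⊓ (unramified outside Sg)`. -/
theorem h5l_Z1_levQ_Ad0 (Sg : Finset Nat.Primes)
    (hunr : ∀ q : Nat.Primes, q ∉ Sg → ρbar.IsUnramifiedAt (q : ℕ)) :
    Z1 (levQ Sg) (h14l_Ad0 ρbar) = Z1 levFin (h14l_Ad0 ρbar) ⊓ h56s_unr ρbar Sg := by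
  ext c
  rw [Submodule.mem_inf]
  refine h5l_mem_Z1_levQ_iff (h14l_Ad0 ρbar) Sg ?_ ?_ c
  · obtain ⟨L, hL, h1⟩ := ρbar.factorsThroughFiniteLevel
    refine ⟨L, hL, fun s hs => h5l_Ad0_eq_one ρbar (h1 s fun x hx => ?_)⟩
    exact hs ⟨x, hx⟩
  · exact fun q hq A hA s hs => h5l_Ad0_eq_one ρbar (hunr q hq A hA s hs)

/-- `Z1 (levQ Sg) (ad⁰(1)) = Z1 levFin (ad⁰(1)) ⊓ (unramified outside Sg)`, `p ∈ Sg`. -/
theorem h5l_Z1_levQ_Ad0tw (Sg : Finset Nat.Primes) (hpSg : pPrime p ∈ Sg)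
    (hunr : ∀ q : Nat.Primes, q ∉ Sg → ρbar.IsUnramifiedAt (q : ℕ)) :
    Z1 (levQ Sg) (h56c_Ad0tw p ρbar) =
      Z1 levFin (h56c_Ad0tw p ρbar) ⊓ h56s_unr ρbar Sg := by
  ext c
  rw [Submodule.mem_inf]
  refine h5l_mem_Z1_levQ_iff (h56c_Ad0tw p ρbar) Sg ?_ ?_ c
  · obtain ⟨L, hL, h1⟩ := ρbar.factorsThroughFiniteLevel
    obtain ⟨F, hF, h2⟩ := pt79_cycloChar_open p
    refine ⟨L ⊔ F, @IntermediateField.finiteDimensional_sup ℚ _ _ _ _ L F hL hF,
      fun s hs => ?_⟩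
    rw [IntermediateField.fixingSubgroup_sup] at hs
    exact h5l_Ad0tw_eq_one ρbar (h1 s fun x hx => hs.1 ⟨x, hx⟩) (MonoidHom.mem_ker.mp (h2 hs.2))
  · intro q hq A hA s hs
    exact h5l_Ad0tw_eq_one ρbar (hunr q hq A hA s hs)
      (pt79_cycloChar_inertia p q (fun h => hq (h ▸ hpSg)) A hA s hs)

end Ad

end Fermat.Agent.S56
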