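import Fermat.Agent.S56.H77DefDict
import Fermat.Agent.S56.H45DefBC
import Fermat.Agent.S56.H15DefFlat

/-!
# S56, block DEF, leaf DEF-E (helper77): conditional assembly

`h77d_def_of` : `H56Def cond` from the dictionary (`h77d_dict`, DEF-A), `H77CohEquiv` (DEF-B),
`H77ResBc` (DEF-D) and the base change stability of `cond` (DEF-C).

`h77d_defStr_of`, `h77d_defFl_of` : the two conjuncts `H56DefStr`, `H56DefFl` from
`H77CohEquiv` and `H77ResBc`.
-/

set_option autoImplicit false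

open IsLocalRing

noncomputable section

namespace Fermat.Agent.S56

open Fermat.Agent.PT Fermat.Agent.S56L Fermat.Agent.S53

section DualNumberInst

variable (𝒪 : Type) [CommRing 𝒪] [IsLocalRing 𝒪]

/-- the structure map of `k[ε]` (default instance). -/
theorem h77d_algebraMap_dualNumber (c : 𝒪) :
    algebraMap 𝒪 (DualNumber (ResidueField 𝒪)) c = TrivSqZeroExt.inl (residue 𝒪 c) := rfl

/-- `𝒪 → k[ε]` is local. -/
theorem h77d_isLocalHom_dualNumber :
    IsLocalHom (algebraMap 𝒪 (DualNumber (ResidueField 𝒪))) := by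
  refine ⟨fun c hc => ?_⟩
  rw [h77d_algebraMap_dualNumber, TrivSqZeroExt.isUnit_iff_isUnit_fst,
    TrivSqZeroExt.fst_inl] at hc
  by_contra hnu
  have : residue 𝒪 c = 0 := (IsLocalRing.residue_eq_zero_iff c).mpr hnu
  rw [this] at hc
  exact not_isUnit_zero hc

/-- `𝒪 → k[ε] → ResidueField k[ε]` is surjective. -/
theorem h77d_residue_surjective_dualNumber :
    Function.Surjective (IsLocalRing.residue (DualNumber (ResidueField 𝒪)) ∘
      algebraMap 𝒪 (DualNumber (ResidueField 𝒪))) := by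
  intro x
  obtain ⟨y, rfl⟩ := IsLocalRing.residue_surjective x
  obtain ⟨c, hc⟩ := IsLocalRing.residue_surjective y.fst
  refine ⟨c, ?_⟩
  simp only [Function.comp_apply]
  rw [eq_comm, ← sub_eq_zero, ← map_sub, IsLocalRing.residue_eq_zero_iff,
    h42a_mem_maximalIdeal_dualNumber_iff, TrivSqZeroExt.fst_sub, h77d_algebraMap_dualNumber,
    TrivSqZeroExt.fst_inl, hc, sub_self]

/-- every `𝒪`-algebra homomorphism `R → k[ε]` is local. -/
theorem h77d_isLocalHom_hom {R : Type} [CommRing R] [IsLocalRing R] [Algebra 𝒪 R]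
    [IsLocalHom (algebraMap 𝒪 R)] (φ : R →ₐ[𝒪] DualNumber (ResidueField 𝒪)) :
    IsLocalHom (φ : R →+* DualNumber (ResidueField 𝒪)) := by
  refine ⟨fun x hx => ?_⟩
  by_contra hnu
  have h1 : x ∈ maximalIdeal R := hnu
  have h2 := h42a_hom_mem_maximalIdeal (h77d_algebraMap_dualNumber 𝒪) φ h1
  exact h2 hx

/-- `k[ε]` is complete for its maximal ideal. -/
theorem h77d_isAdicComplete_dualNumber (k : Type) [Field k] :
    IsAdicComplete (maximalIdeal (DualNumber k)) (DualNumber k) where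
  haus' x hx := by
    have := hx 2
    rw [h42a_maximalIdeal_dualNumber_sq, Submodule.bot_smul, SModEq.bot] at this
    exact this
  prec' f hf := by
    refine ⟨f 2, fun m => ?_⟩
    rcases le_total m 2 with hmn | hnm
    · exact hf hmn
    · have := hf hnm
      rw [h42a_maximalIdeal_dualNumber_sq, Submodule.bot_smul, SModEq.bot] at this
      rw [this]
      exact SModEq.rfl

end DualNumberInst

/-- **DEF, conditional assembly.** -/
theorem h77d_def_of
    (cond : ∀ (𝒪 : Type) [CommRing 𝒪] (_p : ℕ) (_Smin _Q : Finset ℕ)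
      ⦃A : Type⦄ [CommRing A] [IsLocalRing A] [Algebra 𝒪 A], GaloisRepAdic A → Prop)
    (hcond_det : ∀ (𝒪 : Type) [CommRing 𝒪] (p : ℕ) (Smin Q : Finset ℕ) (A : Type)
      [CommRing A] [IsLocalRing A] [Algebra 𝒪 A] (ρ : GaloisRepAdic A),
      cond 𝒪 p Smin Q ρ → ρ.DetIsCyclotomic p)
    (hcond_bc : ∀ (𝒪 : Type) [CommRing 𝒪] [IsLocalRing 𝒪] [Finite (ResidueField 𝒪)]
      (p : ℕ) (Smin Q : Finset ℕ) (R : Type) [CommRing R] [IsLocalRing R] [Algebra 𝒪 R]
      (φ : R →ₐ[𝒪] DualNumber (ResidueField 𝒪))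
      (hφ : IsLocalHom (φ : R →+* DualNumber (ResidueField 𝒪))) (ρ : GaloisRepAdic R),
      cond 𝒪 p Smin Q ρ →
        cond 𝒪 p Smin Q (ρ.baseChangeAlong (φ : R →+* DualNumber (ResidueField 𝒪)) hφ))
    (hB : H77CohEquiv) (hD : H77ResBc) : H56Def cond := by
  intro 𝒪 _ _ _ _ _ p _ _ hp𝒪 ρbar Smin Q DQ
  -- the residue field has characteristic `p`
  have hchar : CharP (ResidueField 𝒪) p := by
    refine (CharP.charP_iff_prime_eq_zero (Fact.out : p.Prime)).mpr ?_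
    have h1 : ((p : ℕ) : ResidueField 𝒪) = residue 𝒪 ((p : ℕ) : 𝒪) := (map_natCast _ p).symm
    rw [h1]
    exact (IsLocalRing.residue_eq_zero_iff _).mpr hp𝒪
  -- the instances on the dual numbers
  have hcomp : IsAdicComplete (maximalIdeal (DualNumber (ResidueField 𝒪)))
      (DualNumber (ResidueField 𝒪)) := h77d_isAdicComplete_dualNumber _
  have hloc : IsLocalHom (algebraMap 𝒪 (DualNumber (ResidueField 𝒪))) :=
    h77d_isLocalHom_dualNumber 𝒪
  have hsurj := h77d_residue_surjective_dualNumber 𝒪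
  have hψ : ∀ a : ResidueField 𝒪,
      ResidueField.map (algebraMap 𝒪 (DualNumber (ResidueField 𝒪))) a =
        residue (DualNumber (ResidueField 𝒪)) (TrivSqZeroExt.inl a) := by
    intro a
    obtain ⟨c, rfl⟩ := IsLocalRing.residue_surjective a
    rw [ResidueField.map_residue, h77d_algebraMap_dualNumber]
  -- the lifts attached to the tangent vectors
  have hφ : ∀ φ : DQ.R →ₐ[𝒪] DualNumber (ResidueField 𝒪),
      IsLocalHom (φ : DQ.R →+* DualNumber (ResidueField 𝒪)) :=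
    fun φ => h77d_isLocalHom_hom 𝒪 φ
  have hty : ∀ φ : DQ.R →ₐ[𝒪] DualNumber (ResidueField 𝒪),
      cond 𝒪 p Smin Q (DQ.ρ.baseChangeAlong (φ : DQ.R →+* DualNumber (ResidueField 𝒪)) (hφ φ)) :=
    fun φ => hcond_bc 𝒪 p Smin Q DQ.R φ (hφ φ) DQ.ρ DQ.isOfType
  have hres : ∀ φ : DQ.R →ₐ[𝒪] DualNumber (ResidueField 𝒪),
      (DQ.ρ.baseChangeAlong (φ : DQ.R →+* DualNumber (ResidueField 𝒪)) (hφ φ)).residual.IsEquiv
        (ρbar.baseChangeAlong
          (ResidueField.map (algebraMap 𝒪 (DualNumber (ResidueField 𝒪))))) :=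
    fun φ => hD φ (hφ φ) ρbar DQ.ρ DQ.residual_isEquiv
  have hdict : ∀ φ : DQ.R →ₐ[𝒪] DualNumber (ResidueField 𝒪),
      ∃ c : GQ → ↥(h14l_sl ρbar), c ∈ Z1 levFin (h14l_Ad0 ρbar) ∧
        h14l_IsCocycleOf ρbar
          (DQ.ρ.baseChangeAlong (φ : DQ.R →+* DualNumber (ResidueField 𝒪)) (hφ φ)) c :=
    fun φ => h77d_dict p ρbar _ hψ _ (hres φ) (hcond_det 𝒪 p Smin Q _ _ (hty φ))
  choose Φ hΦ1 hΦ2 using hdict
  refine ⟨Φ, fun φ => ⟨hΦ1 φ, _, hΦ2 φ, hty φ⟩, fun φ φ' hcoh => ?_⟩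
  have hequiv := hB ρbar _ _ (Φ φ) (Φ φ') (hΦ2 φ) (hΦ2 φ') hcoh
  obtain ⟨φ0, -, huniq⟩ := DQ.universal (DualNumber (ResidueField 𝒪)) hsurj _ (hty φ') (hres φ')
  rw [huniq φ ⟨hφ φ, hequiv⟩, huniq φ' ⟨hφ φ', IsEquiv.refl _⟩]

/-- **DEF, strict-ordinary conjunct**, from DEF-B and DEF-D. -/
theorem h77d_defStr_of (hB : H77CohEquiv) (hD : H77ResBc) : H56DefStr :=
  h77d_def_of _ (fun _ _ _ _ _ _ _ _ _ _ h => h.1.1)
    (fun 𝒪 _ _ _ p Smin Q _ _ _ _ _ hφ ρ h => h45b_condStr_baseChange 𝒪 p Smin Q ρ _ hφ h)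
    hB hD

/-- **DEF, flat conjunct**, from DEF-B and DEF-D. -/
theorem h77d_defFl_of (hB : H77CohEquiv) (hD : H77ResBc) : H56DefFl :=
  h77d_def_of _ (fun _ _ _ _ _ _ _ _ _ _ h => h.1.1)
    (fun 𝒪 _ _ _ p Smin Q _ _ _ _ φ hφ ρ h => h45b_condFl_baseChange_of 𝒪 p Smin Q ρ _ hφ h
      (h15c_isFlatAt_baseChange_algHom φ hφ ρ p h.1.2.1))
    hB hD

end Fermat.Agent.S56
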