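import Fermat.Agent.S56.H77DefIface2
import Fermat.Agent.S53.MatGlue
import Fermat.Agent.S56.H42Alg

/-!
# S56, block DEF, leaf DEF-A (helper77): the dictionary lift ↔ cocycle

`h77d_dict : H77Dict` : a lift `ρA` of `ρbar` to the dual numbers `k[ε]` (char `k = p`) with
cyclotomic determinant is `(1 + ε c) ρbar` for a continuous trace zero cocycle `c`.
-/

set_option autoImplicit false

open IsLocalRing

noncomputable section

namespace Fermat.Agent.S56

open Fermat.Agent.PT Fermat.Agent.S56L Fermat.Agent.S53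

/-! ## 1. A basis realising a matrix form -/

/-- If `ρ` is equivalent to the matrix representation `r`, then `r` is the matrix of `ρ` in a
suitable basis. -/
theorem h77d_exists_basis {A : Type} [CommRing A] [IsLocalRing A] (ρ : GaloisRepAdic A)
    (r : Gal →* M2 A) (hr : MatCont r) (h : ρ.IsEquiv (ofMat r hr)) :
    ∃ e : Module.Basis (Fin 2) A ρ.V, ∀ σ, LinearMap.toMatrix e e (ρ.ρ σ) = r σ := by
  obtain ⟨E⟩ := h
  let T : ρ.V ≃ₗ[A] (Fin 2 → A) := E.toLinearEquiv
  have hT : ∀ σ x, T (ρ.ρ σ x) = (r σ).mulVec (T x) := fun σ x => E.map_apply σ x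
  refine ⟨(Pi.basisFun A (Fin 2)).map T.symm, fun σ => ?_⟩
  ext i j
  rw [LinearMap.toMatrix_apply, Module.Basis.map_repr, Module.Basis.map_apply,
    LinearEquiv.trans_apply, LinearEquiv.symm_symm, hT, LinearEquiv.apply_symm_apply]
  simp [Pi.basisFun_apply]

/-! ## 2. The matrix core -/

section Core

variable {k : Type} [Field k]

/-- `snd` of a `2 × 2` matrix product over the dual numbers. -/
theorem h77d_snd_mul (X Y : M2 (DualNumber k)) (i j : Fin 2) :
    TrivSqZeroExt.snd ((X * Y) i j) =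
      ∑ l, (TrivSqZeroExt.fst (X i l) * TrivSqZeroExt.snd (Y l j) +
        TrivSqZeroExt.snd (X i l) * TrivSqZeroExt.fst (Y l j)) := by
  rw [Matrix.mul_apply, TrivSqZeroExt.snd_sum]
  refine Finset.sum_congr rfl fun l _ => ?_
  rw [TrivSqZeroExt.snd_mul]
  simp [mul_comm]

/-- `fst` of a `2 × 2` matrix product over the dual numbers. -/
theorem h77d_fst_mul (X Y : M2 (DualNumber k)) (i j : Fin 2) :
    TrivSqZeroExt.fst ((X * Y) i j) =
      ∑ l, TrivSqZeroExt.fst (X i l) * TrivSqZeroExt.fst (Y l j) := by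
  rw [Matrix.mul_apply, TrivSqZeroExt.fst_sum]
  refine Finset.sum_congr rfl fun l _ => ?_
  rw [TrivSqZeroExt.fst_mul]

/-- The key trace identity: for `2 × 2` matrices `A, A', B` over `k` with `A' * A = 1`,
`det A * tr (B A') = A₀₀ B₁₁ + B₀₀ A₁₁ - A₀₁ B₁₀ - B₀₁ A₁₀`. -/
theorem h77d_trace_identity (A A' B : M2 k) (h : A' * A = 1) :
    A.det * Matrix.trace (B * A') =
      A 0 0 * B 1 1 + B 0 0 * A 1 1 - A 0 1 * B 1 0 - B 0 1 * A 1 0 := by
  have hadj : A.adjugate = A.det • A' := by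
    have h2 : A * A' = 1 := mul_eq_one_comm.mp h
    calc A.adjugate = A.adjugate * (A * A') := by rw [h2, mul_one]
      _ = A.det • A' := by rw [← mul_assoc, Matrix.adjugate_mul, Matrix.smul_mul, one_mul]
  have e00 := congrFun (congrFun hadj 0) 0
  have e01 := congrFun (congrFun hadj 0) 1
  have e10 := congrFun (congrFun hadj 1) 0
  have e11 := congrFun (congrFun hadj 1) 1
  simp only [Matrix.adjugate_fin_two, Matrix.of_apply, Matrix.cons_val', Matrix.cons_val_zero,
    Matrix.cons_val_one, Matrix.smul_apply, smul_eq_mul, Matrix.empty_val',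
    Matrix.cons_val_fin_one] at e00 e01 e10 e11
  rw [Matrix.trace_fin_two, Matrix.mul_apply, Matrix.mul_apply, Fin.sum_univ_two,
    Fin.sum_univ_two]
  linear_combination (-B 0 0) * e00 - B 0 1 * e10 - B 1 0 * e01 - B 1 1 * e11

/-- `snd` of the determinant of a `2 × 2` matrix over the dual numbers. -/
theorem h77d_snd_det (X : M2 (DualNumber k)) :
    TrivSqZeroExt.snd X.det =
      TrivSqZeroExt.fst (X 0 0) * TrivSqZeroExt.snd (X 1 1) +
        TrivSqZeroExt.snd (X 0 0) * TrivSqZeroExt.fst (X 1 1) -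
        TrivSqZeroExt.fst (X 0 1) * TrivSqZeroExt.snd (X 1 0) -
        TrivSqZeroExt.snd (X 0 1) * TrivSqZeroExt.fst (X 1 0) := by
  rw [Matrix.det_fin_two, TrivSqZeroExt.snd_sub, TrivSqZeroExt.snd_mul, TrivSqZeroExt.snd_mul]
  simp only [smul_eq_mul, MulOpposite.smul_eq_mul_unop, MulOpposite.unop_op]
  ring

/-- **The matrix core of the dictionary.**  A matrix representation `r` over `k[ε]` lifting
the matrix of `ρbar` in the basis `eb`, with determinant in `k` and trivial on a level, is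
`(1 + ε c) ρbar` for a continuous trace zero cocycle `c`. -/
theorem h77d_core (ρbar : ResidualGaloisRep k) (eb : Module.Basis (Fin 2) k ρbar.V)
    (r : Gal →* M2 (DualNumber k))
    (hfst : ∀ σ i j, TrivSqZeroExt.fst (r σ i j) = LinearMap.toMatrix eb eb (ρbar.ρ σ) i j)
    (hdet : ∀ σ, TrivSqZeroExt.snd (Matrix.det (r σ)) = 0)
    (hlev : ∃ N ∈ (levFin).sets, ∀ s ∈ N, r s = 1) :
    ∃ c : GQ → ↥(h14l_sl ρbar), c ∈ Z1 levFin (h14l_Ad0 ρbar) ∧
      ∀ σ i j, r σ i j = TrivSqZeroExt.inl (LinearMap.toMatrix eb eb (ρbar.ρ σ) i j) +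
        TrivSqZeroExt.inr
          (LinearMap.toMatrix eb eb ((c σ : Module.End k ρbar.V) * ρbar.ρ σ) i j) := by
  classical
  -- the two components of `r`
  set Mb : Gal → M2 k := fun σ => LinearMap.toMatrix eb eb (ρbar.ρ σ) with hMb
  set Nm : Gal → M2 k := fun σ => Matrix.of fun i j => TrivSqZeroExt.snd (r σ i j) with hNm
  have hMb_mul : ∀ σ τ, Mb (σ * τ) = Mb σ * Mb τ := fun σ τ => by
    simp only [hMb, map_mul]
    exact LinearMap.toMatrix_mul eb _ _
  have hNm_mul : ∀ σ τ, Nm (σ * τ) = Mb σ * Nm τ + Nm σ * Mb τ := fun σ τ => by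
    ext i j
    have h1 := h77d_snd_mul (r σ) (r τ) i j
    rw [← map_mul] at h1
    simp only [hNm, hMb, Matrix.of_apply, Matrix.add_apply, Matrix.mul_apply]
    rw [h1, Finset.sum_add_distrib]
    simp only [hfst]
  have htoLinMb : ∀ σ, Matrix.toLin eb eb (Mb σ) = ρbar.ρ σ := fun σ =>
    Matrix.toLin_toMatrix eb eb _
  -- the cocycle, as endomorphisms
  set cE : Gal → Module.End k ρbar.V := fun σ => Matrix.toLin eb eb (Nm σ) * ρbar.ρ σ⁻¹ with hcE
  have hcE_mul : ∀ σ, cE σ * ρbar.ρ σ = Matrix.toLin eb eb (Nm σ) := fun σ => by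
    simp only [hcE]
    rw [mul_assoc, h14l_rho_inv_mul, mul_one]
  have htrace : ∀ σ, LinearMap.trace k ρbar.V (cE σ) = 0 := fun σ => by
    have h1 : LinearMap.trace k ρbar.V (cE σ) = Matrix.trace (Nm σ * Mb σ⁻¹) := by
      rw [LinearMap.trace_eq_matrix_trace k eb]
      simp only [hcE, hMb]
      rw [LinearMap.toMatrix_mul, LinearMap.toMatrix_toLin]
    have h2 : Mb σ⁻¹ * Mb σ = 1 := by
      rw [← hMb_mul, inv_mul_cancel]
      simp only [hMb, map_one]
      exact LinearMap.toMatrix_one eb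
    have h3 := h77d_trace_identity (Mb σ) (Mb σ⁻¹) (Nm σ) h2
    have h4 := hdet σ
    rw [h77d_snd_det] at h4
    simp only [hfst] at h4
    have h5 : (Mb σ).det * Matrix.trace (Nm σ * Mb σ⁻¹) = 0 := by
      rw [h3]
      simp only [hNm, hMb, Matrix.of_apply]
      linear_combination h4
    have h6 : (Mb σ).det ≠ 0 := by
      intro h0
      have := congrArg Matrix.det h2
      rw [Matrix.det_mul, h0, mul_zero, Matrix.det_one] at this
      exact zero_ne_one this
    rw [h1]
    exact (mul_eq_zero.mp h5).resolve_left h6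
  refine ⟨fun σ => ⟨cE σ, (h14l_mem_sl ρbar _).mpr (htrace σ)⟩,
    ⟨LinearMap.mem_ker.mpr ?_, ?_⟩, fun σ i j => ?_⟩
  · -- the cocycle identity
    funext ⟨g, h⟩
    rw [d1_apply]
    apply Subtype.ext
    simp only [Pi.zero_apply, Submodule.coe_add, Submodule.coe_sub, h14l_Ad0_coe,
      Submodule.coe_zero]
    have e1 : cE (g * h) = ρbar.ρ g * cE h * ρbar.ρ g⁻¹ + cE g := by
      simp only [hcE]
      rw [hNm_mul, map_add, Matrix.toLin_mul eb eb eb, Matrix.toLin_mul eb eb eb, htoLinMb,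
        htoLinMb, mul_inv_rev, map_mul, add_mul]
      rw [← Module.End.mul_eq_comp, ← Module.End.mul_eq_comp]
      have a1 : ρbar.ρ g * Matrix.toLin eb eb (Nm h) * (ρbar.ρ h⁻¹ * ρbar.ρ g⁻¹) =
          ρbar.ρ g * (Matrix.toLin eb eb (Nm h) * ρbar.ρ h⁻¹) * ρbar.ρ g⁻¹ := by
        simp only [mul_assoc]
      have a2 : Matrix.toLin eb eb (Nm g) * ρbar.ρ h * (ρbar.ρ h⁻¹ * ρbar.ρ g⁻¹) =
          Matrix.toLin eb eb (Nm g) * ρbar.ρ g⁻¹ := by
        rw [mul_assoc, ← mul_assoc (ρbar.ρ h), h14l_rho_mul_inv, one_mul]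
      rw [a1, a2]
    rw [e1]
    abel
  · -- level-constant
    obtain ⟨N, hN, hr1⟩ := hlev
    refine ⟨N, hN, fun g s hs => ?_⟩
    apply Subtype.ext
    have hrs : r (g * s) = r g := by rw [map_mul, hr1 s hs, mul_one]
    have hMs : ρbar.ρ s = 1 := by
      apply (LinearMap.toMatrix eb eb).injective
      ext i j
      rw [← hfst, hr1 s hs, LinearMap.toMatrix_one]
      by_cases hij : i = j
      · subst hij; simp
      · simp [Matrix.one_apply_ne hij]
    have hMs' : ρbar.ρ s⁻¹ = 1 := by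
      have := h14l_rho_inv_mul ρbar s
      rwa [hMs, mul_one] at this
    show cE (g * s) = cE g
    simp only [hcE, hNm]
    rw [hrs, mul_inv_rev, map_mul, hMs', one_mul]
  · -- the formula
    show r σ i j = _ + TrivSqZeroExt.inr (LinearMap.toMatrix eb eb (cE σ * ρbar.ρ σ) i j)
    rw [hcE_mul, LinearMap.toMatrix_toLin, ← hfst]
    simp only [hNm, Matrix.of_apply]
    exact (TrivSqZeroExt.inl_fst_add_inr_snd_eq (r σ i j)).symm

end Core

/-! ## 3. Arithmetic inputs -/

/-- Every `σ` acts on the `p`-th roots of unity by a power. -/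
theorem h77d_exists_exp (p : ℕ) [Fact p.Prime] (σ : Gal) :
    ∃ a : ℕ, ∀ μ : AlgebraicClosure ℚ, μ ^ p ^ 1 = 1 → σ μ = μ ^ a := by
  have : NeZero p := ⟨(Fact.out : p.Prime).ne_zero⟩
  refine ⟨(modularCyclotomicCharacter.toFun p
    (σ : AlgebraicClosure ℚ ≃+* AlgebraicClosure ℚ)).val, fun μ hμ => ?_⟩
  rw [pow_one] at hμ
  have hμ0 : μ ≠ 0 := by
    rintro rfl
    rw [zero_pow (Fact.out : p.Prime).ne_zero] at hμ
    exact zero_ne_one hμ
  have hmem : Units.mk0 μ hμ0 ∈ rootsOfUnity p (AlgebraicClosure ℚ) := by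
    rw [mem_rootsOfUnity]
    ext
    simpa using hμ
  have := modularCyclotomicCharacter.toFun_spec'
    (σ : AlgebraicClosure ℚ ≃+* AlgebraicClosure ℚ) hmem
  simpa using this

/-- A level of `G_ℚ` inside the fixing subgroup of a finite extension. -/
theorem h77d_exists_level (L : IntermediateField ℚ (AlgebraicClosure ℚ))
    [FiniteDimensional ℚ L] :
    ∃ N ∈ (levFin).sets, ∀ s ∈ N, ∀ x ∈ L, (s : Gal) x = x := by
  have : Algebra.IsAlgebraic ℚ (AlgebraicClosure ℚ) := AlgebraicClosure.isAlgebraic ℚ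
  have : IsAlgClosure ℚ (AlgebraicClosure ℚ) := ⟨inferInstance, inferInstance⟩
  have : Normal ℚ (AlgebraicClosure ℚ) := IsAlgClosure.normal ℚ (AlgebraicClosure ℚ)
  let F : IntermediateField ℚ (AlgebraicClosure ℚ) :=
    IntermediateField.normalClosure ℚ L (AlgebraicClosure ℚ)
  have hFfin : FiniteDimensional ℚ F := normalClosure.is_finiteDimensional ℚ L _
  have hFnormal : Normal ℚ F := normalClosure.normal ℚ L _
  have hLF : L ≤ F := IntermediateField.le_normalClosure L
  refine ⟨F.fixingSubgroup, ⟨F, hFfin, hFnormal, rfl⟩, fun s hs x hx => ?_⟩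
  exact (IntermediateField.mem_fixingSubgroup_iff F s).mp hs x (hLF hx)

/-! ## 4. The dictionary -/

/-- **DEF-A.** -/
theorem h77d_dict : H77Dict := by
  intro p _ k _ _ ρbar ψ hψ ρA hres hdetcyc
  set eb := someBasisRes ρbar with heb
  obtain ⟨r, hr, he, hmap⟩ := exists_ofMat_isEquiv_of_residual ψ ρbar eb ρA hres
  obtain ⟨e, hre⟩ := h77d_exists_basis ρA r hr he
  -- the `fst` component
  have hfst : ∀ σ i j, TrivSqZeroExt.fst (r σ i j) = LinearMap.toMatrix eb eb (ρbar.ρ σ) i j := by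
    intro σ i j
    have h1 := congrFun (congrFun (hmap σ) i) j
    rw [Matrix.map_apply, Matrix.map_apply, toMatRes_apply, hψ, ← sub_eq_zero, ← map_sub,
      IsLocalRing.residue_eq_zero_iff, h42a_mem_maximalIdeal_dualNumber_iff,
      TrivSqZeroExt.fst_sub, TrivSqZeroExt.fst_inl, sub_eq_zero] at h1
    exact h1
  -- the determinant
  have hp0 : ((p ^ 1 : ℕ) : DualNumber k) = 0 := by
    rw [pow_one]
    have h1 : ((p : ℕ) : DualNumber k) = algebraMap k (DualNumber k) ((p : ℕ) : k) :=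
      (map_natCast (algebraMap k (DualNumber k)) p).symm
    rw [h1, CharP.cast_eq_zero, map_zero]
  have hdet : ∀ σ, TrivSqZeroExt.snd (Matrix.det (r σ)) = 0 := by
    intro σ
    obtain ⟨a, ha⟩ := h77d_exists_exp p σ
    have h1 := hdetcyc.2 1 σ a ha
    rw [hp0, Ideal.span_singleton_zero, Ideal.mem_bot, sub_eq_zero] at h1
    rw [← hre, LinearMap.det_toMatrix, h1]
    exact TrivSqZeroExt.snd_natCast a
  -- the level
  have hlev : ∃ N ∈ (levFin).sets, ∀ s ∈ N, r s = 1 := by
    obtain ⟨L, hL, h1⟩ := hr 2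
    obtain ⟨N, hN, h2⟩ := h77d_exists_level L
    refine ⟨N, hN, fun s hs => ?_⟩
    have h3 := h1 s (h2 s hs)
    rw [h42a_maximalIdeal_dualNumber_sq] at h3
    refine Matrix.ext fun i j => ?_
    have h4 := h3 i j
    rw [Ideal.mem_bot, Matrix.sub_apply, sub_eq_zero] at h4
    exact h4
  obtain ⟨c, hc, hform⟩ := h77d_core ρbar eb r hfst hdet hlev
  exact ⟨c, hc, e, eb, fun σ i j => by rw [hre]; exact hform σ i j⟩

end Fermat.Agent.S56
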