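import Fermat.Agent.S56.Skeleton2
import Fermat.Agent.S56F.Defs

/-!
# S56, block DEF (owner helper77): frozen leaf interfaces

`H56Def cond` (`S56/Skeleton2.lean`) needs, besides the dictionary lift ↔ cocycle (done in
`S56/H77Def*.lean`), the stability of the frozen local conditions under base change along an
`𝒪`-algebra homomorphism `φ : R → k[ε]`.  Every declaration of this file is a frozen `Prop`;
nothing is assumed.

* `H77BcDet`   (DEF-C1) : `DetIsCyclotomic` is stable under base change along a local hom;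
* `H77BcUnr`   (DEF-C2) : `IsUnramifiedAt` is stable under base change;
* `H77BcUnip`  (DEF-C3) : `IsUnipotentOnInertiaAt` is stable under base change;
* `H77BcStr`   (DEF-C4) : `IsStrictOrdinaryAt` is stable under base change;
* `H77FlatProd` (DEF-C5P): the product of two `Flat` modules is `Flat` (tensor product of the
  Hopf algebras);
* `H77FlatZero` (DEF-C5Z): the zero module is `Flat` (the Hopf algebra `ℤ_(p)`);
* `H77BcFlat`  (DEF-C5) : `IsFlatAt` is stable under base change along an `𝒪`-algebra
  homomorphism `R → k[ε]` (`k` the finite residue field of `𝒪`).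
-/

set_option autoImplicit false

open IsLocalRing

noncomputable section

namespace Fermat.Agent.S56

/-- **DEF-C1.**  `DetIsCyclotomic` is stable under base change along a local homomorphism. -/
def H77BcDet : Prop :=
  ∀ {A B : Type} [CommRing A] [IsLocalRing A] [CommRing B] [IsLocalRing B]
    (φ : A →+* B) (hφ : IsLocalHom φ) (ρ : GaloisRepAdic A) (p : ℕ),
    ρ.DetIsCyclotomic p → (ρ.baseChangeAlong φ hφ).DetIsCyclotomic p

/-- **DEF-C2.**  `IsUnramifiedAt` is stable under base change along a local homomorphism. -/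
def H77BcUnr : Prop :=
  ∀ {A B : Type} [CommRing A] [IsLocalRing A] [CommRing B] [IsLocalRing B]
    (φ : A →+* B) (hφ : IsLocalHom φ) (ρ : GaloisRepAdic A) (q : ℕ),
    ρ.IsUnramifiedAt q → (ρ.baseChangeAlong φ hφ).IsUnramifiedAt q

/-- **DEF-C3.**  `IsUnipotentOnInertiaAt` is stable under base change along a local
homomorphism. -/
def H77BcUnip : Prop :=
  ∀ {A B : Type} [CommRing A] [IsLocalRing A] [CommRing B] [IsLocalRing B]
    (φ : A →+* B) (hφ : IsLocalHom φ) (ρ : GaloisRepAdic A) (q : ℕ),
    ρ.IsUnipotentOnInertiaAt q → (ρ.baseChangeAlong φ hφ).IsUnipotentOnInertiaAt q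

/-- **DEF-C4.**  `IsStrictOrdinaryAt` is stable under base change along a local
homomorphism. -/
def H77BcStr : Prop :=
  ∀ {A B : Type} [CommRing A] [IsLocalRing A] [CommRing B] [IsLocalRing B]
    (φ : A →+* B) (hφ : IsLocalHom φ) (ρ : GaloisRepAdic A) (p : ℕ),
    ρ.IsStrictOrdinaryAt p → (ρ.baseChangeAlong φ hφ).IsStrictOrdinaryAt p

/-- **DEF-C5P.**  The product of two `Flat` modules (with the product action) is `Flat`. -/
def H77FlatProd : Prop :=
  ∀ (p : ℕ) (M N : Type) [AddCommGroup M] [AddCommGroup N]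
    (actM : S56F.GQ → M → M) (actN : S56F.GQ → N → N),
    S56F.Flat p M actM → S56F.Flat p N actN →
    S56F.Flat p (M × N) (fun σ x => (actM σ x.1, actN σ x.2))

/-- **DEF-C5Z.**  The zero module is `Flat`. -/
def H77FlatZero : Prop :=
  ∀ (p : ℕ) (M : Type) [AddCommGroup M] [Subsingleton M] (act : S56F.GQ → M → M),
    S56F.Flat p M act

/-- **DEF-C5.**  `IsFlatAt` is stable under base change along an `𝒪`-algebra homomorphism
`φ : R → k[ε]`, `k` the (finite) residue field of `𝒪`. -/
def H77BcFlat : Prop :=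
  ∀ {𝒪 : Type} [CommRing 𝒪] [IsLocalRing 𝒪] [Finite (ResidueField 𝒪)]
    {R : Type} [CommRing R] [IsLocalRing R] [Algebra 𝒪 R]
    (φ : R →ₐ[𝒪] DualNumber (ResidueField 𝒪))
    (hφ : IsLocalHom (φ : R →+* DualNumber (ResidueField 𝒪)))
    (ρ : GaloisRepAdic R) (p : ℕ),
    ρ.IsFlatAt p →
      (ρ.baseChangeAlong (φ : R →+* DualNumber (ResidueField 𝒪)) hφ).IsFlatAt p

end Fermat.Agent.S56
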