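import Fermat.Agent.S56.Skeleton2

/-!
# S56, block DEF (owner helper77): frozen leaf interfaces, part 2 (dictionary)

Every declaration of this file is a frozen `Prop`; nothing is assumed.

* `H77Dict`     (DEF-A): a lift `ρA` of `ρbar` to `k[ε]` with cyclotomic determinant is
  `(1 + ε c) ρbar` for a continuous trace zero cocycle `c`;
* `H77CohEquiv` (DEF-B): lifts with cohomologous cocycles are equivalent;
* `H77ResBc`    (DEF-D): the residual representation of a base change of a deformation of `ρbar`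
  is again `ρbar`.
-/

set_option autoImplicit false

open IsLocalRing

noncomputable section

namespace Fermat.Agent.S56

open Fermat.Agent.PT Fermat.Agent.S56L

/-- **DEF-A.**  `k` a field of characteristic `p`, `ψ : k → ResidueField k[ε]` the canonical
map.  A lift `ρA` of `ρbar` to the dual numbers with cyclotomic determinant is `(1 + ε c) ρbar`
for a continuous trace zero cocycle `c`. -/
def H77Dict : Prop :=
  ∀ (p : ℕ) [Fact p.Prime] {k : Type} [Field k] [CharP k p] (ρbar : ResidualGaloisRep k)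
    (ψ : k →+* ResidueField (DualNumber k)),
    (∀ a : k, ψ a = residue (DualNumber k) (TrivSqZeroExt.inl a)) →
    ∀ ρA : GaloisRepAdic (DualNumber k),
      ρA.residual.IsEquiv (ρbar.baseChangeAlong ψ) → ρA.DetIsCyclotomic p →
      ∃ c : GQ → ↥(h14l_sl ρbar), c ∈ Z1 levFin (h14l_Ad0 ρbar) ∧ h14l_IsCocycleOf ρbar ρA c

/-- **DEF-B.**  Two lifts whose cocycles differ by a coboundary are equivalent. -/
def H77CohEquiv : Prop :=
  ∀ {k : Type} [Field k] (ρbar : ResidualGaloisRep k)
    (ρA ρA' : GaloisRepAdic (DualNumber k)) (c c' : GQ → ↥(h14l_sl ρbar)),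
    h14l_IsCocycleOf ρbar ρA c → h14l_IsCocycleOf ρbar ρA' c' →
    c - c' ∈ B1 (h14l_Ad0 ρbar) → ρA.IsEquiv ρA'

/-- **DEF-D.**  If the residual representation of `ρ` (over the local `𝒪`-algebra `R`) is
`ρbar`, then so is the residual representation of every base change of `ρ` along a local
`𝒪`-algebra homomorphism. -/
def H77ResBc : Prop :=
  ∀ {𝒪 : Type} [CommRing 𝒪] [IsLocalRing 𝒪]
    {R : Type} [CommRing R] [IsLocalRing R] [Algebra 𝒪 R] [IsLocalHom (algebraMap 𝒪 R)]
    {B : Type} [CommRing B] [IsLocalRing B] [Algebra 𝒪 B] [IsLocalHom (algebraMap 𝒪 B)]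
    (φ : R →ₐ[𝒪] B) (hφ : IsLocalHom (φ : R →+* B))
    (ρbar : ResidualGaloisRep (ResidueField 𝒪)) (ρ : GaloisRepAdic R),
    ρ.residual.IsEquiv (ρbar.baseChangeAlong (ResidueField.map (algebraMap 𝒪 R))) →
    (ρ.baseChangeAlong (φ : R →+* B) hφ).residual.IsEquiv
      (ρbar.baseChangeAlong (ResidueField.map (algebraMap 𝒪 B)))

end Fermat.Agent.S56
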