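import Fermat.Agent.S56.SelGWIface
import Fermat.Agent.S56L.H30StrAbs
import Fermat.Agent.PT.Bridge.Open
import Fermat.Agent.PT.Loc.H48LocBase
import Fermat.Agent.PT.Loc.H69Triv

/-!
# S56, row SEL-GW-5 (helper77): local finiteness, `h77f_locFin : H38LocFin`

The continuous cocycles `Z¹(G_v, ad⁰ ρbar)` form a finite set (hence a finite dimensional
`k`-space), for every prime `v` (including `v = p`) and every prime `p` (including `p = 2`).

* `h77f_cocycle`     : the cocycle relation `c (g h) = g c(h) + c(g)`;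
* `h77f_finite_Z1`   : abstract form: `U ≤ G` of finite index acting trivially on the finite
  module `V`, the additive maps `V → 𝔽_p` separate the points, and `U` has finitely many
  continuous characters `U → 𝔽_p`; then `Z¹(G, V)` is finite (a cocycle is determined by its
  values on representatives of `G / U` and by the characters `φ ∘ c|_U`);
* `h77f_sep`         : additive maps to `𝔽_p` separate the points of a `k`-space (`char k = p`);
* `h77f_finite_loc`  : the local case: `U = G_E`, `E / ℚ_v` finite containing `μ_p` with `ρbar`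
  trivial on `G_E`; the characters are counted by `h48_h1DimRel` (local Kummer theory, S55);
* `h77f_locFin`      : the frozen statement.
-/

set_option autoImplicit false
set_option linter.style.haveILetI false

open ExtCitation

noncomputable section

namespace Fermat.Agent.S56

open Fermat.Agent.PT Fermat.Agent.PT.Bridge Fermat.Agent.PT.Loc Fermat.Agent.S56L

/-- the cocycle relation. -/
theorem h77f_cocycle {k : Type} [Field k] {G : Type} [Group G] (L : Lev G)
    {V : Type} [AddCommGroup V] [Module k V] (ρ : Representation k G V)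
    {c : G → V} (hc : c ∈ Z1 L ρ) (g h : G) : c (g * h) = ρ g (c h) + c g := by
  have h1 : d1 ρ c (g, h) = 0 := by
    rw [((mem_Z1 L ρ c).1 hc).1]
    rfl
  rw [d1_apply] at h1
  have h2 : c (g * h) = ρ g (c h) - (ρ g (c h) - c (g * h) + c g) + c g := by abel
  rw [h2, h1, sub_zero]

/-- **Abstract local finiteness.**  `U` a subgroup of finite index acting trivially on the finite
module `V`, whose additive maps to `ZMod p` separate the points; if the continuous characters
`U → ZMod p` are finite in number, the continuous cocycles `G → V` are finite in number. -/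
theorem h77f_finite_Z1 {k : Type} [Field k] {G : Type} [Group G] (L : Lev G)
    {V : Type} [AddCommGroup V] [Module k V] [Finite V] (ρ : Representation k G V)
    (p : ℕ) [Fact p.Prime] (U : Subgroup G) [U.FiniteIndex] (hU : ∀ u ∈ U, ρ u = 1)
    (hsep : ∀ v : V, v ≠ 0 → ∃ φ : V →+ ZMod p, φ v ≠ 0)
    (hX : {χ : ↥U → ZMod p | (∀ g h : ↥U, χ (g * h) = χ g + χ h) ∧
        ∃ N ∈ L.sets, ∀ g s : ↥U, (s : G) ∈ N → χ (g * s) = χ g}.Finite) :
    Finite ↥(Z1 L ρ) := by
  classical
  haveI : NeZero p := ⟨(Fact.out : p.Prime).ne_zero⟩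
  haveI hXf : Finite ↥{χ : ↥U → ZMod p | (∀ g h : ↥U, χ (g * h) = χ g + χ h) ∧
        ∃ N ∈ L.sets, ∀ g s : ↥U, (s : G) ∈ N → χ (g * s) = χ g} := hX.to_subtype
  haveI : Finite (V →+ ZMod p) :=
    Finite.of_injective (fun f : V →+ ZMod p => (f : V → ZMod p)) DFunLike.coe_injective
  haveI : Finite (G ⧸ U) := Subgroup.finite_quotient_of_finiteIndex
  -- the restriction of a cocycle to `U`, composed with an additive map
  have hmem : ∀ (c : ↥(Z1 L ρ)) (φ : V →+ ZMod p),
      (fun u : ↥U => φ (c.1 (u : G))) ∈ {χ : ↥U → ZMod p |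
        (∀ g h : ↥U, χ (g * h) = χ g + χ h) ∧
        ∃ N ∈ L.sets, ∀ g s : ↥U, (s : G) ∈ N → χ (g * s) = χ g} := by
    intro c φ
    refine ⟨fun g h => ?_, ?_⟩
    · show φ (c.1 ((g : G) * (h : G))) = φ (c.1 g) + φ (c.1 h)
      rw [h77f_cocycle L ρ c.2, hU _ g.2, Module.End.one_apply, map_add, add_comm]
    · obtain ⟨N, hN, h⟩ := ((mem_Z1 L ρ c.1).1 c.2).2
      refine ⟨N, hN, fun g s hs => ?_⟩
      show φ (c.1 ((g : G) * (s : G))) = φ (c.1 g)
      rw [h _ _ hs]
  let Φ : ↥(Z1 L ρ) → ((V →+ ZMod p) → ↥{χ : ↥U → ZMod p |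
        (∀ g h : ↥U, χ (g * h) = χ g + χ h) ∧
        ∃ N ∈ L.sets, ∀ g s : ↥U, (s : G) ∈ N → χ (g * s) = χ g}) × (G ⧸ U → V) :=
    fun c => (fun φ => ⟨_, hmem c φ⟩, fun x => c.1 x.out)
  have hinj : Function.Injective Φ := by
    intro c c' h
    have h1 := congrArg Prod.fst h
    have h2 := congrArg Prod.snd h
    -- equality on `U`
    have hUeq : ∀ u : G, u ∈ U → c.1 u = c'.1 u := by
      intro u hu
      by_contra hne
      obtain ⟨φ, hφ⟩ := hsep (c.1 u - c'.1 u) (sub_ne_zero.2 hne)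
      have h3 := congrArg (fun F => ((F φ : ↥{χ : ↥U → ZMod p |
        (∀ g h : ↥U, χ (g * h) = χ g + χ h) ∧
        ∃ N ∈ L.sets, ∀ g s : ↥U, (s : G) ∈ N → χ (g * s) = χ g}) : ↥U → ZMod p) ⟨u, hu⟩) h1
      have h4 : φ (c.1 u) = φ (c'.1 u) := h3
      apply hφ
      rw [map_sub, h4, sub_self]
    apply Subtype.ext
    funext g
    have hg : ((g : G ⧸ U).out)⁻¹ * g ∈ U := by
      rw [← QuotientGroup.eq]
      exact QuotientGroup.out_eq' _
    have hrep : g = (g : G ⧸ U).out * (((g : G ⧸ U).out)⁻¹ * g) := by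
      rw [mul_inv_cancel_left]
    have h5 : c.1 ((g : G ⧸ U).out) = c'.1 ((g : G ⧸ U).out) := congrFun h2 (g : G ⧸ U)
    rw [hrep, h77f_cocycle L ρ c.2, h77f_cocycle L ρ c'.2, hUeq _ hg, h5]
  exact Finite.of_injective Φ hinj

/-- additive maps to `𝔽_p` separate the points of a vector space over a field of
characteristic `p`. -/
theorem h77f_sep (p : ℕ) [Fact p.Prime] (k : Type) [Field k] [CharP k p] {V : Type}
    [AddCommGroup V] [Module k V] (v : V) (hv : v ≠ 0) : ∃ φ : V →+ ZMod p, φ v ≠ 0 := by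
  letI : Algebra (ZMod p) k := ZMod.algebra k p
  letI : Module (ZMod p) V := Module.compHom V (algebraMap (ZMod p) k)
  by_contra h
  have h' : ∀ φ : V →+ ZMod p, φ v = 0 := fun φ => by
    by_contra hφ
    exact h ⟨φ, hφ⟩
  exact hv ((Module.forall_dual_apply_eq_zero_iff (ZMod p) v).1
    (fun φ => h' φ.toAddMonoidHom))

/-- the local case, in the vocabulary of PT-LOC: a representation of `Gal(ℚ̄_q/ℚ_q)` on a finite
`k`-space, trivial on the pull back of a finite level of `G_ℚ`. -/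
theorem h77f_finite_loc_aux (p : ℕ) [Fact p.Prime] (q : ℕ) [Fact q.Prime] {k : Type} [Field k]
    [CharP k p] {V : Type} [AddCommGroup V] [Module k V] [Finite V]
    (ρ : Representation k (Gq q) V) (N₀ : Subgroup GQ) (hN₀ : N₀ ∈ levFin.sets)
    (htriv : ∀ s : Gq q, localGaloisToGlobal q s ∈ N₀ → ρ s = 1) :
    Finite ↥(Z1 (levLoc q) ρ) := by
  have hopen : (levFin.comap (localGaloisToGlobal q)).IsOpen
      (N₀.comap (localGaloisToGlobal q)) := ⟨_, ⟨N₀, hN₀, rfl⟩, le_rfl⟩
  obtain ⟨E₀, hE₀, hE₀eq⟩ := (h23b_isOpen_levLoc_iff q _).1 hopen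
  haveI := hE₀
  have hζ : IsPrimitiveRoot (zetaL p q) p := h69t_zetaL_primitive p q
  have hint : IsIntegral ℚ_[q] (zetaL p q) :=
    (hζ.isIntegral (Fact.out : p.Prime).pos).tower_top
  haveI : FiniteDimensional ℚ_[q] (IntermediateField.adjoin ℚ_[q] {zetaL p q}) :=
    IntermediateField.adjoin.finiteDimensional hint
  haveI : FiniteDimensional ℚ_[q]
      ↥(E₀ ⊔ IntermediateField.adjoin ℚ_[q] {zetaL p q} : LF q) :=
    IntermediateField.finiteDimensional_sup _ _
  have hζE : zetaL p q ∈ (E₀ ⊔ IntermediateField.adjoin ℚ_[q] {zetaL p q} : LF q) :=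
    (le_sup_right : IntermediateField.adjoin ℚ_[q] {zetaL p q} ≤ _)
      (IntermediateField.mem_adjoin_simple_self _ _)
  have hEU : GK (E₀ ⊔ IntermediateField.adjoin ℚ_[q] {zetaL p q} : LF q) ≤
      N₀.comap (localGaloisToGlobal q) := by
    rw [hE₀eq]
    exact IntermediateField.fixingSubgroup_antitone le_sup_left
  haveI : (GK (E₀ ⊔ IntermediateField.adjoin ℚ_[q] {zetaL p q} : LF q)).FiniteIndex := by
    refine ⟨?_⟩
    rw [h23b_index_fixingSubgroup_loc]
    exact Module.finrank_pos.ne'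
  obtain ⟨T, -, hT⟩ := h48_h1DimRel q p
    (E₀ ⊔ IntermediateField.adjoin ℚ_[q] {zetaL p q} : LF q) (zetaL p q) hζE hζ
  refine h77f_finite_Z1 (levLoc q) ρ p
    (GK (E₀ ⊔ IntermediateField.adjoin ℚ_[q] {zetaL p q} : LF q))
    (fun u hu => htriv u (hEU hu)) (fun v hv => h77f_sep p k v hv) ?_
  refine T.finite_toSet.subset ?_
  rintro χ ⟨hadd, N, hN, hχ⟩
  obtain ⟨F₀, hF₀, hF₀eq⟩ := (h23b_isOpen_levLoc_iff q N).1 ⟨N, hN, le_rfl⟩
  haveI := hF₀
  refine (hT χ).2 ⟨hadd, F₀ ⊔ (E₀ ⊔ IntermediateField.adjoin ℚ_[q] {zetaL p q} : LF q),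
    IntermediateField.finiteDimensional_sup _ _, le_sup_right, fun g s hs => hχ g s ?_⟩
  rw [hF₀eq]
  exact IntermediateField.fixingSubgroup_antitone le_sup_left hs

/-- the continuous local cocycles of `ad⁰ ρbar` at `v` are finite in number. -/
theorem h77f_finite_loc (p : ℕ) [Fact p.Prime] {k : Type} [Field k] [Finite k] [CharP k p]
    (ρbar : ResidualGaloisRep k) (v : Nat.Primes) :
    Finite ↥(Z1 (h14l_lev v) (h14l_locAd0 ρbar v)) := by
  haveI : Fact ((v : ℕ)).Prime := ⟨v.2⟩
  haveI : Finite ρbar.V := Module.finite_of_finite k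
  haveI : Finite (Module.End k ρbar.V) := Module.finite_of_finite k
  haveI : Finite ↥(h14l_sl ρbar) := inferInstance
  obtain ⟨N₀, hN₀, htriv⟩ := h30s_exists_level ρbar
  refine h77f_finite_loc_aux p (v : ℕ) (h14l_locAd0 ρbar v) N₀ hN₀ (fun s hs => ?_)
  have h1 : ρbar.ρ (primeLocalToGlobal v s) = 1 := htriv _ hs
  have h2 : ρbar.ρ (primeLocalToGlobal v s)⁻¹ = 1 := by
    have := h14l_rho_inv_mul ρbar (primeLocalToGlobal v s)
    rwa [h1, mul_one] at this
  ext m : 2
  show ((h14l_Ad0 ρbar (primeLocalToGlobal v s) m : ↥(h14l_sl ρbar)) : Module.End k ρbar.V) = m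
  rw [h14l_Ad0_coe, h1, h2, one_mul, mul_one]

/-- **SEL-GW-5.**  The continuous local cocycles of `ad⁰ ρbar` at a prime `v` form a finite
dimensional space. -/
theorem h77f_locFin : H38LocFin := by
  intro p _ k _ _ _ ρbar v
  haveI : Finite ↥(Z1 (h14l_lev v) (h14l_locAd0 ρbar v)) := h77f_finite_loc p ρbar v
  exact Module.Finite.of_finite

end Fermat.Agent.S56
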