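import Fermat.Agent.S56.SelAsm
import Fermat.Agent.S56.SelGWIface

/-!
# S56, block SEL: the final assembly from `H38GWSelFin` (helper56)

Variant of `h56a_selOf` (S56/SelAsm.lean) consuming the Greenberg–Wiles inequality only for
FINITE DIMENSIONAL local conditions (`H38GWSelFin`, S56/SelGWIface.lean, helper38): the local
conditions used by the assembly are finite dimensional (`H56LocBase`, `H56LocTW`).
-/

set_option autoImplicit false
set_option linter.style.haveILetI false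

open Polynomial IsLocalRing ExtCitation

noncomputable section

namespace Fermat.Agent.S56

open Fermat.Agent.PT Fermat.Agent.S56L

/-- **SEL, the assembly**, from the Greenberg–Wiles inequality for finite dimensional local
conditions (`H38GWSelFin`). -/
theorem h56a_selOfFin
    (cond : ∀ (𝒪 : Type) [CommRing 𝒪] (_p : ℕ) (_Smin _Q : Finset ℕ)
      ⦃A : Type⦄ [CommRing A] [IsLocalRing A] [Algebra 𝒪 A], GaloisRepAdic A → Prop) :
    H38GWSelFin → H56Kill → H56LocBase cond → H56LocTW → H56UnrOfLift → h14l_DetCyc →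
    (∀ {𝒪 : Type} [CommRing 𝒪] (p : ℕ) (Smin Q : Finset ℕ)
      {A : Type} [CommRing A] [IsLocalRing A] [Algebra 𝒪 A] (ρ : GaloisRepAdic A),
      cond 𝒪 p Smin Q ρ → ∀ q : ℕ, q.Prime → q ∉ Smin ∪ Q → ρ.IsUnramifiedAt q) →
    H56Sel cond := by
  intro hGW hKill hLoc hTW hUnr hDet hcondUnr 𝒪 _ _ _ _ _ p _ ρbar S Smin hyp
  haveI hCP : CharP (ResidueField 𝒪) p := h56a_charP p hyp.hp𝒪
  have hc : h56c_Hyp p ρbar :=
    ⟨hyp.hp2, hyp.habs, fun σ => hDet p (ResidueField 𝒪) ρbar hyp.hdet σ, hyp.hsplit, hyp.hTW⟩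
  by_cases hnd : ∃ (Q : Finset ℕ) (c : GQ → ↥(h14l_sl ρbar)),
      h56t_IsLiftCoc 𝒪 ρbar (cond 𝒪 p Smin Q) c
  swap
  · -- no lift at all: `r = 0`
    refine ⟨0, fun n => ⟨fun i => i.elim0, ⟨fun i => i.elim0, fun i => i.elim0,
      fun i => i.elim0⟩, fun T hT1 _ => ?_⟩⟩
    have hTe : T = ∅ := by
      rw [Finset.eq_empty_iff_forall_notMem]
      intro c hcT
      exact hnd ⟨_, c, hT1 c hcT⟩
    rw [hTe]
    simp
  -- the main case
  obtain ⟨Ls, hLs1, hLs4, hLs3, hLsmem⟩ := hLoc p ρbar S Smin hyp hnd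
  obtain ⟨T₀, ann, hAnnTop, hGWin⟩ := hGW p (ResidueField 𝒪) ρbar hc
  -- the base set of primes
  set Sm : Finset Nat.Primes := Finset.subtype Nat.Prime Smin with hSmdef
  set Sg0 : Finset Nat.Primes := T₀ ∪ {pPrime p} ∪ Sm with hSg0def
  have hT₀ : T₀ ⊆ Sg0 := fun v hv => Finset.mem_union_left _ (Finset.mem_union_left _ hv)
  have hp0 : pPrime p ∈ Sg0 :=
    Finset.mem_union_left _ (Finset.mem_union_right _ (Finset.mem_singleton_self _))
  have hSm : ∀ v : Nat.Primes, (v : ℕ) ∈ Smin → v ∈ Sg0 := fun v hv =>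
    Finset.mem_union_right _ (Finset.mem_subtype.mpr hv)
  have hnep : ∀ v : Nat.Primes, v ∉ Sg0 → (v : ℕ) ≠ p := by
    intro v hv h
    apply hv
    have : v = pPrime p := Subtype.ext h
    rw [this]
    exact hp0
  have hunr0 : ∀ q : Nat.Primes, q ∉ Sg0 → ρbar.IsUnramifiedAt (q : ℕ) := by
    intro q hq
    by_contra hram
    exact hq (hSm q ((hyp.hmin q q.2 (hnep q hq)).mpr hram))
  have hLsB : ∀ v ∈ Sg0, B1 (h14l_locAd0 ρbar v) ≤ Ls v ∧
      Ls v ≤ Z1 (h14l_lev v) (h14l_locAd0 ρbar v) := fun v _ => ⟨(hLs1 v).1, (hLs1 v).2.1⟩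
  obtain ⟨-, hfin0, -⟩ := hGWin Sg0 hT₀ hp0 hunr0 Ls hLsB (fun v _ => (hLs1 v).2.2)
  -- killing the dual Selmer group
  obtain ⟨r, hr⟩ := hKill p (ResidueField 𝒪) ρbar hc Sg0 (fun v => ann v (Ls v))
    (S ∪ Sg0.image (fun v : Nat.Primes => (v : ℕ))) hp0 hunr0 hfin0
  refine ⟨r, fun n => ?_⟩
  obtain ⟨qv, hTWq, hqv, hkill⟩ := hr n
  refine ⟨fun i => (qv i : ℕ),
    h56a_isTW_mono ρbar p Finset.subset_union_left n r _ hTWq, fun T hT1 hT2 => ?_⟩
  have hqvinj : Function.Injective qv := fun a b h => hTWq.1 (congrArg Subtype.val h)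
  set Q : Finset Nat.Primes := Finset.univ.image qv with hQdef
  have hQcard : Q.card = r := by
    rw [hQdef, Finset.card_image_of_injective _ hqvinj, Finset.card_univ, Fintype.card_fin]
  have hdisj : Disjoint Sg0 Q := by
    rw [Finset.disjoint_left]
    intro v hv hvQ
    obtain ⟨i, -, rfl⟩ := Finset.mem_image.mp hvQ
    exact hqv i hv
  have hQn : ∀ v : Nat.Primes, (v : ℕ) ∈ Finset.univ.image (fun i => (qv i : ℕ)) → v ∈ Q := by
    intro v hv
    obtain ⟨i, -, hi⟩ := Finset.mem_image.mp hv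
    exact Finset.mem_image.mpr ⟨i, Finset.mem_univ _, Subtype.ext hi⟩
  -- the local conditions for `Sg0 ∪ Q`
  set LsQ : h56s_Loc ρbar :=
    fun v => if v ∈ Sg0 then Ls v else Z1 (h14l_lev v) (h14l_locAd0 ρbar v) with hLsQdef
  have hLsQ0 : ∀ v, v ∈ Sg0 → LsQ v = Ls v := fun v hv => by
    simp only [hLsQdef, if_pos hv]
  have hLsQ1 : ∀ v, v ∉ Sg0 → LsQ v = Z1 (h14l_lev v) (h14l_locAd0 ρbar v) := fun v hv => by
    simp only [hLsQdef, if_neg hv]
  have hLsQB : ∀ v ∈ Sg0 ∪ Q, B1 (h14l_locAd0 ρbar v) ≤ LsQ v ∧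
      LsQ v ≤ Z1 (h14l_lev v) (h14l_locAd0 ρbar v) := by
    intro v _
    by_cases hv : v ∈ Sg0
    · rw [hLsQ0 v hv]
      exact ⟨(hLs1 v).1, (hLs1 v).2.1⟩
    · rw [hLsQ1 v hv]
      exact ⟨(hLs1 v).1.trans (hLs1 v).2.1, le_rfl⟩
  have hunr : ∀ q : Nat.Primes, q ∉ Sg0 ∪ Q → ρbar.IsUnramifiedAt (q : ℕ) := fun q hq =>
    hunr0 q (fun h => hq (Finset.mem_union_left _ h))
  have hLsQF : ∀ v ∈ Sg0 ∪ Q, Module.Finite (ResidueField 𝒪) ↥(LsQ v) := by
    intro v hv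
    by_cases hv0 : v ∈ Sg0
    · rw [hLsQ0 v hv0]
      exact (hLs1 v).2.2
    · rw [hLsQ1 v hv0]
      rcases Finset.mem_union.mp hv with h | h
      · exact absurd h hv0
      · obtain ⟨i, -, rfl⟩ := Finset.mem_image.mp h
        exact (hTW p hyp.hp2 (ResidueField 𝒪) ρbar (qv i) (hnep _ (hqv i))
          (dvd_trans (dvd_pow_self p (Nat.succ_ne_zero n)) (hTWq.2.1 i).2.2)
          (hunr0 _ (hqv i)) (fun P hP φ hφ => hTWq.2.2 i P hP φ hφ)).1
  obtain ⟨hfinSel, hfinDual, hineq⟩ := hGWin (Sg0 ∪ Q) (hT₀.trans Finset.subset_union_left)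
    (Finset.mem_union_left _ hp0) hunr LsQ hLsQB hLsQF
  -- the dual Selmer group vanishes
  have hD : h56s_Dual p ρbar (Sg0 ∪ Q) (fun v => ann v (LsQ v)) ≤ B1 (h56c_Ad0tw p ρbar) := by
    refine le_trans ?_ hkill
    intro ψ hψ
    rw [h56s_mem_Dual] at hψ ⊢
    refine ⟨hψ.1, hψ.2.1, fun v hv => ?_⟩
    have h1 := hψ.2.2 v hv
    by_cases hv0 : v ∈ Sg0
    · rw [if_pos hv0]
      rw [hLsQ0 v hv0] at h1
      exact h1
    · rw [if_neg hv0]
      rw [hLsQ1 v hv0] at h1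
      exact hAnnTop v h1
  have hDeq : h56s_Dual p ρbar (Sg0 ∪ Q) (fun v => ann v (LsQ v)) ⊓ B1 (h56c_Ad0tw p ρbar) =
      h56s_Dual p ρbar (Sg0 ∪ Q) (fun v => ann v (LsQ v)) := inf_eq_left.mpr hD
  rw [hDeq] at hineq
  -- the local dimensions
  have hsum0 : ∑ v ∈ Sg0, Module.finrank (ResidueField 𝒪) ↥(LsQ v) ≤ 3 * Sg0.card + 1 := by
    have h1 : ∀ v ∈ Sg0, Module.finrank (ResidueField 𝒪) ↥(LsQ v) ≤
        3 + (if v = pPrime p then 1 else 0) := by
      intro v hv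
      rw [hLsQ0 v hv]
      by_cases hvp : v = pPrime p
      · rw [if_pos hvp]
        exact hLs4 v (by rw [hvp]; rfl)
      · rw [if_neg hvp]
        exact hLs3 v (fun h => hvp (Subtype.ext h))
    refine (Finset.sum_le_sum h1).trans ?_
    rw [Finset.sum_add_distrib, Finset.sum_const, smul_eq_mul, Finset.sum_ite_eq' Sg0 (pPrime p),
      if_pos hp0, mul_comm]
  have hsumQ : ∑ v ∈ Q, Module.finrank (ResidueField 𝒪) ↥(LsQ v) ≤ 4 * r := by
    have h1 : ∀ v ∈ Q, Module.finrank (ResidueField 𝒪) ↥(LsQ v) ≤ 4 := by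
      intro v hv
      obtain ⟨i, -, rfl⟩ := Finset.mem_image.mp hv
      rw [hLsQ1 _ (hqv i)]
      refine (hTW p hyp.hp2 (ResidueField 𝒪) ρbar (qv i) (hnep _ (hqv i)) ?_
        (hunr0 _ (hqv i)) (fun P hP φ hφ => hTWq.2.2 i P hP φ hφ)).2
      exact dvd_trans (dvd_pow_self p (Nat.succ_ne_zero n)) (hTWq.2.1 i).2.2
    refine (Finset.sum_le_sum h1).trans ?_
    rw [Finset.sum_const, smul_eq_mul, hQcard, mul_comm]
  have hcardS : (Sg0 ∪ Q).card = Sg0.card + r := by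
    rw [Finset.card_union_of_disjoint hdisj, hQcard]
  rw [Finset.sum_union hdisj, hcardS] at hineq
  have hle : Module.finrank (ResidueField 𝒪) ↥(h56s_Sel ρbar (Sg0 ∪ Q) LsQ) ≤
      Module.finrank (ResidueField 𝒪)
        ↥(h56s_Sel ρbar (Sg0 ∪ Q) LsQ ⊓ B1 (h14l_Ad0 ρbar)) + r := by
    omega
  -- the cocycles of `T` are Selmer cocycles
  have hTSel : ∀ c ∈ T, c ∈ h56s_Sel ρbar (Sg0 ∪ Q) LsQ := by
    intro c hcT
    obtain ⟨hcZ, ρA, hcoc, hcond⟩ := hT1 c hcT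
    rw [h56s_mem_Sel]
    refine ⟨hcZ, ?_, fun v hv => ?_⟩
    · intro q hq P hP s hs
      refine hUnr (ResidueField 𝒪) ρbar ρA c (q : ℕ) hcoc
        (hcondUnr p Smin _ ρA hcond (q : ℕ) q.2 ?_) P hP s hs
      intro hmem
      rcases Finset.mem_union.mp hmem with h | h
      · exact hq (Finset.mem_union_left _ (hSm q h))
      · exact hq (Finset.mem_union_right _ (hQn q h))
    · by_cases hv0 : v ∈ Sg0
      · rw [hLsQ0 v hv0]
        refine hLsmem _ c ⟨hcZ, ρA, hcoc, hcond⟩ v ?_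
        intro hmem
        exact Finset.disjoint_left.mp hdisj hv0 (hQn v hmem)
      · rw [hLsQ1 v hv0]
        exact h52l_loc_mem_Z1 ρbar v hcZ
  haveI := hfinSel
  exact h56a_count (h56s_Sel ρbar (Sg0 ∪ Q) LsQ) (B1 (h14l_Ad0 ρbar)) r hle T hTSel hT2

/-- **SEL, strict-ordinary conjunct** (from `H38GWSelFin`). -/
theorem h56a_selStrFin (hGW : H38GWSelFin) (hKill : H56Kill) (hLoc : H56LocBaseStr)
    (hTW : H56LocTW) (hUnr : H56UnrOfLift) (hDet : h14l_DetCyc) : H56SelStr :=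
  h56a_selOfFin _ hGW hKill hLoc hTW hUnr hDet (by
    intro 𝒪 _ p Smin Q A _ _ _ ρ h q hq hqS
    exact h.1.2.2 q hq hqS)

/-- **SEL, flat conjunct** (from `H38GWSelFin`). -/
theorem h56a_selFlFin (hGW : H38GWSelFin) (hKill : H56Kill) (hLoc : H56LocBaseFl)
    (hTW : H56LocTW) (hUnr : H56UnrOfLift) (hDet : h14l_DetCyc) : H56SelFl :=
  h56a_selOfFin _ hGW hKill hLoc hTW hUnr hDet (by
    intro 𝒪 _ p Smin Q A _ _ _ ρ h q hq hqS
    exact h.1.2.2 q hq hqS)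

end Fermat.Agent.S56
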