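import Fermat.Agent.S56.SelIface
import Fermat.Agent.S56G.Iface

/-!
# S56, row SEL-GW (sub-architect helper38): definitions of the adapter `H47GW ⟹ H56GWSel`

`k` a finite field of characteristic `p`, `sl = h14l_sl ρbar`.

* `h38g_M p ρbar`   : `sl` as a module over `𝔽_p` (type synonym; `h38g_of`, `h38g_to` are the
                      identity maps);
* `h38g_rho p ρbar` : `ad⁰ ρbar` as an `𝔽_p`-representation of `G_ℚ`;
* `h38g_t p k`      : a nonzero additive map `k → 𝔽_p`;
* `h38g_tau p ρbar` : the trace form `X ↦ (Y ↦ t (tr (X Y)))`, `M → Hom_{𝔽_p}(M, 𝔽_p)`;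
* `h38g_rs p ρbar W`: a `k`-subspace of cochains, as an `𝔽_p`-subspace of `M`-valued cochains;
* `h38g_pair`, `h38g_annReal`, `h38g_ann` : the local Tate pairing of cochains in the
                      `k`-vocabulary and the annihilator of a local condition;
* `h38g_d p k`      : the degree `[k : 𝔽_p]`.

Nothing is assumed in this file.
-/

set_option autoImplicit false
set_option linter.unusedSectionVars false

open Polynomial IsLocalRing ExtCitation

noncomputable section

namespace Fermat.Agent.S56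

open Fermat.Agent.PT Fermat.Agent.S56L Fermat.Agent.S56G

/-- `sl = ad⁰ ρbar`, to be considered as a module over `𝔽_p` (type synonym). -/
def h38g_M (_p : ℕ) {k : Type} [Field k] (ρbar : ResidualGaloisRep k) : Type :=
  ↥(h14l_sl ρbar)

section Defs

variable (p : ℕ) [Fact p.Prime] {k : Type} [Field k] [CharP k p] (ρbar : ResidualGaloisRep k)

instance h38g_instAddCommGroup : AddCommGroup (h38g_M p ρbar) :=
  inferInstanceAs (AddCommGroup ↥(h14l_sl ρbar))

instance h38g_instModule : Module (ZMod p) (h38g_M p ρbar) :=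
  Module.compHom ↥(h14l_sl ρbar) (ZMod.castHom (dvd_refl p) k)

/-- the identity `sl → M`. -/
def h38g_of : ↥(h14l_sl ρbar) →+ h38g_M p ρbar := AddMonoidHom.id _

/-- the identity `M → sl`. -/
def h38g_to : h38g_M p ρbar →+ ↥(h14l_sl ρbar) := AddMonoidHom.id _

@[simp] lemma h38g_to_of (X : ↥(h14l_sl ρbar)) : h38g_to p ρbar (h38g_of p ρbar X) = X := rfl

@[simp] lemma h38g_of_to (X : h38g_M p ρbar) : h38g_of p ρbar (h38g_to p ρbar X) = X := rfl

lemma h38g_to_smul (a : ZMod p) (X : h38g_M p ρbar) :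
    h38g_to p ρbar (a • X) = (ZMod.castHom (dvd_refl p) k a) • h38g_to p ρbar X := rfl

lemma h38g_of_smul (a : ZMod p) (X : ↥(h14l_sl ρbar)) :
    h38g_of p ρbar ((ZMod.castHom (dvd_refl p) k a) • X) = a • h38g_of p ρbar X := rfl

/-- `ad⁰ ρbar` as a representation of `G_ℚ` over `𝔽_p`. -/
def h38g_rho : Representation (ZMod p) GQ (h38g_M p ρbar) where
  toFun σ :=
    { toFun := fun X => h38g_of p ρbar (h14l_Ad0 ρbar σ (h38g_to p ρbar X))
      map_add' := fun X Y => by
        rw [map_add, map_add, map_add]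
      map_smul' := fun a X => by
        rw [h38g_to_smul, map_smul, h38g_of_smul]
        rfl }
  map_one' := by
    ext X
    simp
  map_mul' σ τ := by
    ext X
    simp

@[simp] lemma h38g_rho_apply (σ : GQ) (X : h38g_M p ρbar) :
    h38g_rho p ρbar σ X = h38g_of p ρbar (h14l_Ad0 ρbar σ (h38g_to p ρbar X)) := rfl

/-- a nonzero additive map `k → 𝔽_p` (it exists: `h38g_t_ne_zero`, row SEL-GW-1). -/
def h38g_t (p : ℕ) (k : Type) [Field k] : k →+ ZMod p :=
  Classical.epsilon (fun t : k →+ ZMod p => t ≠ 0)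

/-- the pairing `(X, Y) ↦ t (tr (X Y))` on `sl`. -/
def h38g_form (X Y : ↥(h14l_sl ρbar)) : ZMod p :=
  h38g_t p k (LinearMap.trace k ρbar.V ((X : Module.End k ρbar.V) * (Y : Module.End k ρbar.V)))

lemma h38g_form_add_left (X X' Y : ↥(h14l_sl ρbar)) :
    h38g_form p ρbar (X + X') Y = h38g_form p ρbar X Y + h38g_form p ρbar X' Y := by
  simp only [h38g_form, Submodule.coe_add, add_mul, map_add]

lemma h38g_form_add_right (X Y Y' : ↥(h14l_sl ρbar)) :
    h38g_form p ρbar X (Y + Y') = h38g_form p ρbar X Y + h38g_form p ρbar X Y' := by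
  simp only [h38g_form, Submodule.coe_add, mul_add, map_add]

lemma h38g_form_smul_comm (a : k) (X Y : ↥(h14l_sl ρbar)) :
    h38g_form p ρbar (a • X) Y = h38g_form p ρbar X (a • Y) := by
  simp only [h38g_form, Submodule.coe_smul, smul_mul_assoc, mul_smul_comm]

/-- an additive map to `𝔽_p` commutes with the scalars of `𝔽_p`. -/
lemma h38g_t_cast_mul (a : ZMod p) (z : k) :
    h38g_t p k (ZMod.castHom (dvd_refl p) k a * z) = a * h38g_t p k z := by
  obtain ⟨n, rfl⟩ := ZMod.natCast_zmod_surjective a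
  rw [map_natCast, ← nsmul_eq_mul, map_nsmul, nsmul_eq_mul]

lemma h38g_form_cast_left (a : ZMod p) (X Y : ↥(h14l_sl ρbar)) :
    h38g_form p ρbar ((ZMod.castHom (dvd_refl p) k a) • X) Y = a * h38g_form p ρbar X Y := by
  simp only [h38g_form, Submodule.coe_smul, smul_mul_assoc, map_smul, smul_eq_mul]
  exact h38g_t_cast_mul p a _

lemma h38g_form_cast_right (a : ZMod p) (X Y : ↥(h14l_sl ρbar)) :
    h38g_form p ρbar X ((ZMod.castHom (dvd_refl p) k a) • Y) = a * h38g_form p ρbar X Y := by
  rw [← h38g_form_smul_comm, h38g_form_cast_left]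

/-- the trace form `M → Hom_{𝔽_p}(M, 𝔽_p)`, `X ↦ (Y ↦ t (tr (X Y)))`. -/
def h38g_tau : h38g_M p ρbar →ₗ[ZMod p] Module.Dual (ZMod p) (h38g_M p ρbar) where
  toFun X :=
    { toFun := fun Y => h38g_form p ρbar (h38g_to p ρbar X) (h38g_to p ρbar Y)
      map_add' := fun Y Y' => by rw [map_add, h38g_form_add_right]
      map_smul' := fun a Y => by
        rw [h38g_to_smul, h38g_form_cast_right]
        rfl }
  map_add' X X' := by
    ext Y
    simp only [LinearMap.coe_mk, AddHom.coe_mk, LinearMap.add_apply, map_add]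
    exact h38g_form_add_left p ρbar _ _ _
  map_smul' a X := by
    ext Y
    simp only [LinearMap.coe_mk, AddHom.coe_mk, LinearMap.smul_apply, RingHom.id_apply,
      smul_eq_mul]
    rw [h38g_to_smul, h38g_form_cast_left]

@[simp] lemma h38g_tau_apply (X Y : h38g_M p ρbar) :
    h38g_tau p ρbar X Y = h38g_form p ρbar (h38g_to p ρbar X) (h38g_to p ρbar Y) := rfl

/-- a `k`-subspace of `sl`-valued cochains, as an `𝔽_p`-subspace of `M`-valued cochains (same
underlying set). -/
def h38g_rs {X : Type} (W : Submodule k (X → ↥(h14l_sl ρbar))) :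
    Submodule (ZMod p) (X → h38g_M p ρbar) where
  carrier := {f | (fun x => h38g_to p ρbar (f x)) ∈ W}
  add_mem' := by
    intro f f' hf hf'
    exact W.add_mem hf hf'
  zero_mem' := W.zero_mem
  smul_mem' := by
    intro a f hf
    exact W.smul_mem (ZMod.castHom (dvd_refl p) k a) hf

lemma h38g_mem_rs {X : Type} (W : Submodule k (X → ↥(h14l_sl ρbar)))
    (f : X → h38g_M p ρbar) :
    f ∈ h38g_rs p ρbar W ↔ (fun x => h38g_to p ρbar (f x)) ∈ W := Iff.rfl

/-- the local Tate pairing of cochains at `v`, in the `k`-vocabulary: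
`(b ∪ y)(g, h) = t (tr ((g · y(h)) b(g)))`, `g ·` the action of `ad⁰(1)`. -/
def h38g_pair (v : Nat.Primes) (b y : primeLocalGaloisGroup v → ↥(h14l_sl ρbar)) :
    primeLocalGaloisGroup v × primeLocalGaloisGroup v → ZMod p :=
  fun x => h38g_form p ρbar (h56s_locAd0tw p ρbar v x.1 (y x.2)) (b x.1)

/-- the annihilator of a local condition `L` at `v` for the local Tate pairing: the continuous
cocycles `y` of `ad⁰(1)` such that `b ∪ y` is a continuous coboundary for every `b ∈ L`. -/
def h38g_annReal (v : Nat.Primes)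
    (L : Submodule k (primeLocalGaloisGroup v → ↥(h14l_sl ρbar))) :
    Submodule k (primeLocalGaloisGroup v → ↥(h14l_sl ρbar)) where
  carrier := {y | y ∈ Z1 (h14l_lev v) (h56s_locAd0tw p ρbar v) ∧
    ∀ b ∈ L, h38g_pair p ρbar v b y ∈
      B2 (h14l_lev v) (chiRep ((cycloChar p).comp (primeLocalToGlobal v)))}
  add_mem' := by
    rintro y y' ⟨hy, h⟩ ⟨hy', h'⟩
    refine ⟨add_mem hy hy', fun b hb => ?_⟩
    have : h38g_pair p ρbar v b (y + y') = h38g_pair p ρbar v b y + h38g_pair p ρbar v b y' := by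
      funext x
      simp only [h38g_pair, Pi.add_apply, map_add, h38g_form_add_left]
    rw [this]
    exact add_mem (h b hb) (h' b hb)
  zero_mem' := by
    refine ⟨zero_mem _, fun b _ => ?_⟩
    have : h38g_pair p ρbar v b 0 = 0 := by
      funext x
      simp only [h38g_pair, Pi.zero_apply, map_zero, h38g_form, ZeroMemClass.coe_zero, zero_mul]
    rw [this]
    exact zero_mem _
  smul_mem' := by
    rintro a y ⟨hy, h⟩
    refine ⟨Submodule.smul_mem _ a hy, fun b hb => ?_⟩
    have : h38g_pair p ρbar v b (a • y) = h38g_pair p ρbar v (a • b) y := by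
      funext x
      simp only [h38g_pair, Pi.smul_apply, map_smul, h38g_form_smul_comm]
    rw [this]
    exact h (a • b) (Submodule.smul_mem _ a hb)

open Classical in
/-- the annihilator operation of `H56GWSel`: the real annihilator when `ρbar` is ramified at
finitely many primes only (always the case), `⊥` otherwise. -/
def h38g_ann (v : Nat.Primes)
    (L : Submodule k (primeLocalGaloisGroup v → ↥(h14l_sl ρbar))) :
    Submodule k (primeLocalGaloisGroup v → ↥(h14l_sl ρbar)) :=
  if ∃ Sg : Finset Nat.Primes, ∀ q : Nat.Primes, q ∉ Sg → ρbar.IsUnramifiedAt (q : ℕ) then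
    h38g_annReal p ρbar v L
  else ⊥

/-- the degree `[k : 𝔽_p]`. -/
def h38g_d (p : ℕ) (k : Type) : ℕ := Nat.log p (Nat.card k)

end Defs

end Fermat.Agent.S56
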