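import Fermat.Agent.S56.ChebIface
import Fermat.Agent.S56L.Iface

/-!
# S56, block SEL (middle assembly, architect helper56): frozen interface

Vocabulary: `k`-linear, cocycles with values in `sl = h14l_sl ρbar`; global cocycles are
functions on `G_ℚ` (`Z1 levFin`), local cocycles at a prime `v : Nat.Primes` are functions on
`primeLocalGaloisGroup v` (`Z1 (h14l_lev v)`), restriction is `res1 … (primeLocalToGlobal v)`.

* `h56s_unr ρbar Sg`      : the cochains vanishing on every inertia group outside `Sg`;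
* `h56s_Sel ρbar Sg Ls`   : Selmer cocycles of `ad⁰` (continuous, unramified outside `Sg`, local
                            condition `Ls v` at `v ∈ Sg`);
* `h56s_Dual p ρbar Sg As`: the same for `ad⁰(1)`.
No quotient type occurs in the interface: the dimension of a Selmer group is
`finrank Sel - finrank (Sel ⊓ B¹)`.

Frozen `Prop`s (nothing is assumed in this file):

* `H56GWSel`   (block GW, adapter): the Greenberg–Wiles inequality in this vocabulary, for SOME
  annihilator operation `ann` with `ann (Z¹_v) ≤ B¹_v` (local duality in degree one);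
* `H56Kill`    (block TW-CHEB): Taylor–Wiles primes kill the dual Selmer group;
* `H56LocBase cond`, `H56LocTW` (block LOC): the local conditions and their dimensions;
* `H56SelOf cond` : the assembly `H56Sel cond` from these inputs.
-/

set_option autoImplicit false

open Polynomial IsLocalRing ExtCitation

noncomputable section

namespace Fermat.Agent.S56

open Fermat.Agent.PT Fermat.Agent.S56L

/-! ## Definitions -/

/-- `ad⁰ ρbar (1)` restricted to the local group at `v`. -/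
def h56s_locAd0tw (p : ℕ) [Fact p.Prime] {k : Type} [Field k] [CharP k p]
    (ρbar : ResidualGaloisRep k) (v : Nat.Primes) :
    Representation k (primeLocalGaloisGroup v) ↥(h14l_sl ρbar) :=
  (h56c_Ad0tw p ρbar).comp (primeLocalToGlobal v)

/-- a family of local conditions: for every prime `v` a subspace of local cochains. -/
abbrev h56s_Loc {k : Type} [Field k] (ρbar : ResidualGaloisRep k) : Type :=
  ∀ v : Nat.Primes, Submodule k (primeLocalGaloisGroup v → ↥(h14l_sl ρbar))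

/-- the cochains which vanish on every inertia group at the primes outside `Sg`. -/
def h56s_unr {k : Type} [Field k] (ρbar : ResidualGaloisRep k) (Sg : Finset Nat.Primes) :
    Submodule k (GQ → ↥(h14l_sl ρbar)) where
  carrier := {c | ∀ q : Nat.Primes, q ∉ Sg →
    ∀ P : ValuationSubring (AlgebraicClosure ℚ), P.LiesOverPrime (q : ℕ) →
      ∀ s ∈ P.inertiaSubgroupIn ℚ, c s = 0}
  add_mem' := by
    intro c c' h h' q hq P hP s hs
    simp only [Pi.add_apply, h q hq P hP s hs, h' q hq P hP s hs, add_zero]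
  zero_mem' := fun _ _ _ _ _ _ => rfl
  smul_mem' := by
    intro a c h q hq P hP s hs
    simp only [Pi.smul_apply, h q hq P hP s hs, smul_zero]

/-- the local conditions at the primes of `Sg`, as a condition on global cochains. -/
def h56s_locCond {k : Type} [Field k] (ρbar : ResidualGaloisRep k) (Sg : Finset Nat.Primes)
    (Ls : h56s_Loc ρbar) : Submodule k (GQ → ↥(h14l_sl ρbar)) :=
  ⨅ v ∈ Sg, (Ls v).comap (res1 k ↥(h14l_sl ρbar) (primeLocalToGlobal v))

/-- **Selmer cocycles of `ad⁰ ρbar`**: continuous cocycles, unramified outside `Sg`, with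
restriction at `v ∈ Sg` in `Ls v`. -/
def h56s_Sel {k : Type} [Field k] (ρbar : ResidualGaloisRep k) (Sg : Finset Nat.Primes)
    (Ls : h56s_Loc ρbar) : Submodule k (GQ → ↥(h14l_sl ρbar)) :=
  Z1 levFin (h14l_Ad0 ρbar) ⊓ h56s_unr ρbar Sg ⊓ h56s_locCond ρbar Sg Ls

/-- **Selmer cocycles of `ad⁰ ρbar (1)`**. -/
def h56s_Dual (p : ℕ) [Fact p.Prime] {k : Type} [Field k] [CharP k p]
    (ρbar : ResidualGaloisRep k) (Sg : Finset Nat.Primes) (As : h56s_Loc ρbar) :
    Submodule k (GQ → ↥(h14l_sl ρbar)) :=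
  Z1 levFin (h56c_Ad0tw p ρbar) ⊓ h56s_unr ρbar Sg ⊓ h56s_locCond ρbar Sg As

lemma h56s_mem_Sel {k : Type} [Field k] (ρbar : ResidualGaloisRep k) (Sg : Finset Nat.Primes)
    (Ls : h56s_Loc ρbar) (c : GQ → ↥(h14l_sl ρbar)) :
    c ∈ h56s_Sel ρbar Sg Ls ↔ c ∈ Z1 levFin (h14l_Ad0 ρbar) ∧ c ∈ h56s_unr ρbar Sg ∧
      ∀ v ∈ Sg, (fun s => c (primeLocalToGlobal v s)) ∈ Ls v := by
  simp only [h56s_Sel, h56s_locCond, Submodule.mem_inf, Submodule.mem_iInf, Submodule.mem_comap,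
    and_assoc]
  rfl

lemma h56s_mem_Dual (p : ℕ) [Fact p.Prime] {k : Type} [Field k] [CharP k p]
    (ρbar : ResidualGaloisRep k) (Sg : Finset Nat.Primes) (As : h56s_Loc ρbar)
    (c : GQ → ↥(h14l_sl ρbar)) :
    c ∈ h56s_Dual p ρbar Sg As ↔ c ∈ Z1 levFin (h56c_Ad0tw p ρbar) ∧ c ∈ h56s_unr ρbar Sg ∧
      ∀ v ∈ Sg, (fun s => c (primeLocalToGlobal v s)) ∈ As v := by
  simp only [h56s_Dual, h56s_locCond, Submodule.mem_inf, Submodule.mem_iInf, Submodule.mem_comap,
    and_assoc]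
  rfl

/-! ## The frozen inputs -/

/-- **SEL-GW (Greenberg–Wiles in the `k`-linear vocabulary).**  There are a finite set `T₀` of
primes and an operation `ann` ("annihilator for the local Tate pairing") on local conditions
such that `ann (Z¹_v) ≤ B¹_v` for all `v`, and for every finite `Sg ⊇ T₀ ∪ {p}` outside which
`ρbar` is unramified and every family `B¹_v ≤ Ls v ≤ Z¹_v` (`v ∈ Sg`): the Selmer spaces are
finite dimensional and

`h¹_L(ad⁰) + 1 + 3 #Sg ≤ h¹_{L^⊥}(ad⁰(1)) + ∑_{v ∈ Sg} dim Ls v`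

where `h¹_L = dim Sel - dim (Sel ⊓ B¹)`, `h¹_{L^⊥} = dim Dual - dim (Dual ⊓ B¹)`
(`dim Ls v` = dimension of the space of cocycles; `h⁰(ad⁰) = h⁰(ad⁰(1)) = 0`,
`h⁰(G_ℝ, ad⁰) = 1`).  From `H47GW`, `H47AnnTop` by restriction of scalars to `𝔽_p` and the trace
form `sl ≃ Hom_{𝔽_p}(sl, 𝔽_p)`, `X ↦ Tr_{k/𝔽_p} tr (X ·)`. -/
def H56GWSel : Prop :=
  ∀ (p : ℕ) [Fact p.Prime] (k : Type) [Field k] [Finite k] [CharP k p]
    (ρbar : ResidualGaloisRep k), h56c_Hyp p ρbar →
    ∃ (T₀ : Finset Nat.Primes) (ann : ∀ v : Nat.Primes,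
        Submodule k (primeLocalGaloisGroup v → ↥(h14l_sl ρbar)) →
        Submodule k (primeLocalGaloisGroup v → ↥(h14l_sl ρbar))),
      (∀ v : Nat.Primes, ann v (Z1 (h14l_lev v) (h14l_locAd0 ρbar v)) ≤
        B1 (h56s_locAd0tw p ρbar v)) ∧
      ∀ Sg : Finset Nat.Primes, T₀ ⊆ Sg → pPrime p ∈ Sg →
        (∀ q : Nat.Primes, q ∉ Sg → ρbar.IsUnramifiedAt (q : ℕ)) →
        ∀ Ls : h56s_Loc ρbar,
          (∀ v ∈ Sg, B1 (h14l_locAd0 ρbar v) ≤ Ls v ∧
            Ls v ≤ Z1 (h14l_lev v) (h14l_locAd0 ρbar v)) →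
          Module.Finite k ↥(h56s_Sel ρbar Sg Ls) ∧
          Module.Finite k ↥(h56s_Dual p ρbar Sg (fun v => ann v (Ls v))) ∧
          Module.finrank k ↥(h56s_Sel ρbar Sg Ls) +
              Module.finrank k ↥(h56s_Dual p ρbar Sg (fun v => ann v (Ls v)) ⊓
                B1 (h56c_Ad0tw p ρbar)) + 1 + 3 * Sg.card ≤
            Module.finrank k ↥(h56s_Dual p ρbar Sg (fun v => ann v (Ls v))) +
              Module.finrank k ↥(h56s_Sel ρbar Sg Ls ⊓ B1 (h14l_Ad0 ρbar)) +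
              ∑ v ∈ Sg, Module.finrank k ↥(Ls v)

/-- **SEL-KILL (Taylor–Wiles primes kill the dual Selmer group).**  For a finite dimensional
space `h56s_Dual p ρbar Sg As` of Selmer cocycles of `ad⁰(1)` (`Sg ∋ p`, `ρbar` unramified
outside `Sg`, ANY local conditions `As`) there is `r` such that for every `n` there are `r`
distinct Taylor–Wiles primes `q ∉ Sg`, `q ∉ S'` of level `n` such that every cocycle of
`h56s_Dual` for `Sg ∪ Q` with the same conditions at `Sg` and locally a coboundary at the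
primes of `Q` is a coboundary.  (`r = dim` of the dual Selmer group for `Q = ∅`; induction with
CHEB-ONE; CHEB-ZERO when nothing is left to kill.) -/
def H56Kill : Prop :=
  ∀ (p : ℕ) [Fact p.Prime] (k : Type) [Field k] [Finite k] [CharP k p]
    (ρbar : ResidualGaloisRep k), h56c_Hyp p ρbar →
    ∀ (Sg : Finset Nat.Primes) (As : h56s_Loc ρbar) (S' : Finset ℕ),
      pPrime p ∈ Sg → (∀ q : Nat.Primes, q ∉ Sg → ρbar.IsUnramifiedAt (q : ℕ)) →
      Module.Finite k ↥(h56s_Dual p ρbar Sg As) →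
      ∃ r : ℕ, ∀ n : ℕ, ∃ qv : Fin r → Nat.Primes,
        h56t_IsTW ρbar p S' n r (fun i => (qv i : ℕ)) ∧
        (∀ i, qv i ∉ Sg) ∧
        h56s_Dual p ρbar (Sg ∪ Finset.univ.image qv)
            (fun v => if v ∈ Sg then As v else B1 (h56s_locAd0tw p ρbar v)) ≤
          B1 (h56c_Ad0tw p ρbar)

/-- **SEL-LOCBASE (the local conditions away from the Taylor–Wiles primes).**  If some lift of
type `cond 𝒪 p Smin Q` exists (for some `Q`), there is a family `Ls` of local conditions,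
`B¹_v ≤ Ls v ≤ Z¹_v`, `dim Ls p ≤ 4`, `dim Ls v ≤ 3` for `v ≠ p`, such that the cocycle of every
lift of type `cond 𝒪 p Smin Q` (any `Q`) restricts into `Ls v` at every prime `v ∉ Q`.
(`v = p`: `h14l_ZStr L` resp. the flat space of `LocPFL`; `v ∈ Smin`, `v ≠ p`: `h14l_ZUnip`;
all other `v`: `h14l_ZUnr`.) -/
def H56LocBase
    (cond : ∀ (𝒪 : Type) [CommRing 𝒪] (_p : ℕ) (_Smin _Q : Finset ℕ)
      ⦃A : Type⦄ [CommRing A] [IsLocalRing A] [Algebra 𝒪 A], GaloisRepAdic A → Prop) : Prop :=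
  ∀ {𝒪 : Type} [CommRing 𝒪] [IsDomain 𝒪] [IsDiscreteValuationRing 𝒪]
    [IsAdicComplete (maximalIdeal 𝒪) 𝒪] [Finite (ResidueField 𝒪)]
    (p : ℕ) [Fact p.Prime] (ρbar : ResidualGaloisRep (ResidueField 𝒪)) (S Smin : Finset ℕ),
    h56t_Hyp 𝒪 p ρbar S Smin →
    (∃ (Q : Finset ℕ) (c : GQ → ↥(h14l_sl ρbar)),
      h56t_IsLiftCoc 𝒪 ρbar (cond 𝒪 p Smin Q) c) →
    ∃ Ls : h56s_Loc ρbar,
      (∀ v : Nat.Primes, B1 (h14l_locAd0 ρbar v) ≤ Ls v ∧
        Ls v ≤ Z1 (h14l_lev v) (h14l_locAd0 ρbar v) ∧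
        Module.Finite (ResidueField 𝒪) ↥(Ls v)) ∧
      (∀ v : Nat.Primes, (v : ℕ) = p → Module.finrank (ResidueField 𝒪) ↥(Ls v) ≤ 4) ∧
      (∀ v : Nat.Primes, (v : ℕ) ≠ p → Module.finrank (ResidueField 𝒪) ↥(Ls v) ≤ 3) ∧
      ∀ (Q : Finset ℕ) (c : GQ → ↥(h14l_sl ρbar)),
        h56t_IsLiftCoc 𝒪 ρbar (cond 𝒪 p Smin Q) c →
        ∀ v : Nat.Primes, (v : ℕ) ∉ Q → (fun s => c (primeLocalToGlobal v s)) ∈ Ls v

/-- **SEL-LOCBASE, strict-ordinary conjunct.** -/
def H56LocBaseStr : Prop := H56LocBase (fun 𝒪 _ p Smin Q => h56t_condStr 𝒪 p Smin Q)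

/-- **SEL-LOCBASE, flat conjunct.** -/
def H56LocBaseFl : Prop := H56LocBase (fun 𝒪 _ p Smin Q => h56t_condFl 𝒪 p Smin Q)

/-- **SEL-LOCTW (Taylor–Wiles primes, local count).**  At a prime `q ≡ 1 mod p` where `ρbar`
is unramified with distinct Frobenius eigenvalues, the continuous local cocycles of `ad⁰` form
a space of dimension `≤ 4`. -/
def H56LocTW : Prop :=
  ∀ (p : ℕ) [Fact p.Prime], p ≠ 2 → ∀ (k : Type) [Field k] [Finite k] [CharP k p]
    (ρbar : ResidualGaloisRep k) (q : Nat.Primes), (q : ℕ) ≠ p → p ∣ (q : ℕ) - 1 →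
    ρbar.IsUnramifiedAt (q : ℕ) →
    (∀ P : ValuationSubring (AlgebraicClosure ℚ), P.LiesOverPrime (q : ℕ) →
      ∀ φ : GQ, P.IsFrobeniusAt φ (q : ℕ) → h56c_Reg ρbar φ) →
    Module.Finite k ↥(Z1 (h14l_lev q) (h14l_locAd0 ρbar q)) ∧
      Module.finrank k ↥(Z1 (h14l_lev q) (h14l_locAd0 ρbar q)) ≤ 4

/-- **SEL-UNR (dictionary).**  The cocycle of a lift which is unramified at `q` vanishes on the
inertia groups at `q`. -/
def H56UnrOfLift : Prop :=
  ∀ (k : Type) [Field k] (ρbar : ResidualGaloisRep k) (ρA : GaloisRepAdic (DualNumber k))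
    (c : GQ → ↥(h14l_sl ρbar)) (q : ℕ),
    h14l_IsCocycleOf ρbar ρA c → ρA.IsUnramifiedAt q →
    ∀ P : ValuationSubring (AlgebraicClosure ℚ), P.LiesOverPrime q →
      ∀ s ∈ P.inertiaSubgroupIn ℚ, c s = 0

/-! ## The frozen assembly statements -/

/-- **SEL-KILL from CHEB.** -/
def H56KillOf : Prop := H56ChebOne → H56ChebZero → H56Kill

/-- **SEL (assembly)**: the Selmer bound from GW, LOC and the killing of the dual Selmer
group. -/
def H56SelOf
    (cond : ∀ (𝒪 : Type) [CommRing 𝒪] (_p : ℕ) (_Smin _Q : Finset ℕ)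
      ⦃A : Type⦄ [CommRing A] [IsLocalRing A] [Algebra 𝒪 A], GaloisRepAdic A → Prop) : Prop :=
  H56GWSel → H56Kill → H56LocBase cond → H56LocTW → H56UnrOfLift → h14l_DetCyc →
    (∀ {𝒪 : Type} [CommRing 𝒪] (p : ℕ) (Smin Q : Finset ℕ)
      {A : Type} [CommRing A] [IsLocalRing A] [Algebra 𝒪 A] (ρ : GaloisRepAdic A),
      cond 𝒪 p Smin Q ρ → ∀ q : ℕ, q.Prime → q ∉ Smin ∪ Q → ρ.IsUnramifiedAt q) →
    H56Sel cond

end Fermat.Agent.S56
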