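import Fermat.Agent.S56.Skeleton
import Fermat.Agent.S56L.Defs

/-!
# S56: frozen skeleton, level 2 (helper56): `TAN ⟸ DEF ∧ SEL`

Vocabulary = the shared cocycle vocabulary of `S56L/Defs.lean` (helper14) on the PT frame:
`GQ`, `levFin`, `Z1`, `B1` (`Fermat.Agent.PT`), `h14l_sl ρbar` (trace zero endomorphisms),
`h14l_Ad0 ρbar` (adjoint representation), `h14l_IsCocycleOf ρbar ρA c`
(`ρA = (1 + ε c) ρbar` in compatible bases).

* `h56t_IsLiftCoc 𝒪 ρbar 𝒟 c` : `c` is a continuous trace zero cocycle and the cocycle of some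
  lift `ρA` over `k[ε]` of type `𝒟`.
* `H56Def cond` (block DEF): for every deformation ring `DQ` of type `cond 𝒪 p Smin Q` there is
  a map `Φ` from `Hom_𝒪(DQ.R, k[ε])` to cocycles of lifts of type `cond`, injective modulo
  coboundaries.  (No arithmetic hypothesis; uses only `DQ.universal`, `DQ.residual_isEquiv`,
  `DQ.isOfType`, base change stability of the conditions, `p ∈ 𝔪_𝒪`.)
* `H56Sel cond` (blocks GW + LOC + TW-CHEB): the Selmer bound.  There is `r` such that for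
  every `n` there is a Taylor–Wiles tuple `qv` of level `n`, length `r`, such that every finite
  set of pairwise non-cohomologous cocycles of lifts of type `cond 𝒪 p Smin (image qv)` has at
  most `#k ^ r` elements.
-/

set_option autoImplicit false

open Polynomial IsLocalRing

noncomputable section

namespace Fermat.Agent.S56

open Fermat.Agent.PT Fermat.Agent.S56L

/-- `c` is a continuous trace zero cocycle of `ad⁰ ρbar` which is the cocycle of a lift of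
`ρbar` to the dual numbers of type `𝒟`. -/
def h56t_IsLiftCoc (𝒪 : Type) [CommRing 𝒪] [IsLocalRing 𝒪]
    (ρbar : ResidualGaloisRep (ResidueField 𝒪))
    (𝒟 : ∀ ⦃A : Type⦄ [CommRing A] [IsLocalRing A] [Algebra 𝒪 A], GaloisRepAdic A → Prop)
    (c : GQ → ↥(h14l_sl ρbar)) : Prop :=
  c ∈ Z1 levFin (h14l_Ad0 ρbar) ∧
    ∃ ρA : GaloisRepAdic (DualNumber (ResidueField 𝒪)), h14l_IsCocycleOf ρbar ρA c ∧ 𝒟 ρA

/-- **DEF.**  The tangent space of a deformation ring of type `cond` injects into the classes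
of cocycles of lifts of type `cond`. -/
def H56Def
    (cond : ∀ (𝒪 : Type) [CommRing 𝒪] (_p : ℕ) (_Smin _Q : Finset ℕ)
      ⦃A : Type⦄ [CommRing A] [IsLocalRing A] [Algebra 𝒪 A], GaloisRepAdic A → Prop) : Prop :=
  ∀ {𝒪 : Type} [CommRing 𝒪] [IsDomain 𝒪] [IsDiscreteValuationRing 𝒪]
    [IsAdicComplete (maximalIdeal 𝒪) 𝒪] [Finite (ResidueField 𝒪)]
    (p : ℕ) [Fact p.Prime], p ≠ 2 → (p : 𝒪) ∈ maximalIdeal 𝒪 →
    ∀ (ρbar : ResidualGaloisRep (ResidueField 𝒪)) (Smin Q : Finset ℕ)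
      (DQ : GaloisRep.DeformationRingData 𝒪 ρbar (cond 𝒪 p Smin Q)),
    ∃ Φ : (DQ.R →ₐ[𝒪] DualNumber (ResidueField 𝒪)) → (GQ → ↥(h14l_sl ρbar)),
      (∀ φ, h56t_IsLiftCoc 𝒪 ρbar (cond 𝒪 p Smin Q) (Φ φ)) ∧
      (∀ φ φ', Φ φ - Φ φ' ∈ B1 (h14l_Ad0 ρbar) → φ = φ')

/-- **DEF, strict-ordinary conjunct.** -/
def H56DefStr : Prop := H56Def (fun 𝒪 _ p Smin Q => h56t_condStr 𝒪 p Smin Q)

/-- **DEF, flat conjunct.** -/
def H56DefFl : Prop := H56Def (fun 𝒪 _ p Smin Q => h56t_condFl 𝒪 p Smin Q)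

/-- **SEL (the Selmer bound).** -/
def H56Sel
    (cond : ∀ (𝒪 : Type) [CommRing 𝒪] (_p : ℕ) (_Smin _Q : Finset ℕ)
      ⦃A : Type⦄ [CommRing A] [IsLocalRing A] [Algebra 𝒪 A], GaloisRepAdic A → Prop) : Prop :=
  ∀ {𝒪 : Type} [CommRing 𝒪] [IsDomain 𝒪] [IsDiscreteValuationRing 𝒪]
    [IsAdicComplete (maximalIdeal 𝒪) 𝒪] [Finite (ResidueField 𝒪)]
    (p : ℕ) [Fact p.Prime] (ρbar : ResidualGaloisRep (ResidueField 𝒪)) (S Smin : Finset ℕ),
    h56t_Hyp 𝒪 p ρbar S Smin →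
    ∃ r : ℕ, ∀ n : ℕ, ∃ qv : Fin r → ℕ, h56t_IsTW ρbar p S n r qv ∧
      ∀ T : Finset (GQ → ↥(h14l_sl ρbar)),
        (∀ c ∈ T, h56t_IsLiftCoc 𝒪 ρbar (cond 𝒪 p Smin (Finset.univ.image qv)) c) →
        (∀ c ∈ T, ∀ c' ∈ T, c - c' ∈ B1 (h14l_Ad0 ρbar) → c = c') →
        T.card ≤ Nat.card (ResidueField 𝒪) ^ r

/-- **SEL, strict-ordinary conjunct.** -/
def H56SelStr : Prop := H56Sel (fun 𝒪 _ p Smin Q => h56t_condStr 𝒪 p Smin Q)

/-- **SEL, flat conjunct.** -/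
def H56SelFl : Prop := H56Sel (fun 𝒪 _ p Smin Q => h56t_condFl 𝒪 p Smin Q)

/-- **`TAN ⟸ DEF ∧ SEL`.** -/
theorem h56t_tan_of
    (cond : ∀ (𝒪 : Type) [CommRing 𝒪] (_p : ℕ) (_Smin _Q : Finset ℕ)
      ⦃A : Type⦄ [CommRing A] [IsLocalRing A] [Algebra 𝒪 A], GaloisRepAdic A → Prop)
    (hDef : H56Def cond) (hSel : H56Sel cond) : H56Tan cond := by
  classical
  intro 𝒪 _ _ _ _ _ p _ ρbar S Smin hyp
  obtain ⟨r, hr⟩ := hSel p ρbar S Smin hyp
  refine ⟨r, fun n => ?_⟩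
  obtain ⟨qv, hTW, hT⟩ := hr n
  refine ⟨qv, hTW, fun DQ T => ?_⟩
  obtain ⟨Φ, hΦ1, hΦ2⟩ := hDef p hyp.hp2 hyp.hp𝒪 ρbar Smin (Finset.univ.image qv) DQ
  have hinj : Function.Injective Φ := by
    intro φ φ' h
    apply hΦ2
    rw [h, sub_self]
    exact zero_mem _
  rw [← Finset.card_image_of_injective T hinj]
  apply hT
  · intro c hc
    obtain ⟨φ, -, rfl⟩ := Finset.mem_image.mp hc
    exact hΦ1 φ
  · intro c hc c' hc' hcc
    obtain ⟨φ, -, rfl⟩ := Finset.mem_image.mp hc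
    obtain ⟨φ', -, rfl⟩ := Finset.mem_image.mp hc'
    rw [hΦ2 φ φ' hcc]

theorem h56t_tanStr_of (hDef : H56DefStr) (hSel : H56SelStr) : H56TanStr :=
  h56t_tan_of _ hDef hSel

theorem h56t_tanFl_of (hDef : H56DefFl) (hSel : H56SelFl) : H56TanFl :=
  h56t_tan_of _ hDef hSel

end Fermat.Agent.S56
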